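import Fermat.Agent.BAD.Toric.SplitDef

/-!
# Automorphisms of `ℂ` attached to Frobenius elements

A Frobenius element at the place extends to an automorphism of `ℚ̄_q` inducing the `q`-th power on
the residue field.
-/

set_option autoImplicit false

noncomputable section

namespace FermatAgent.BAD.Toric

open FermatAgent.ES (GQ embC CPlace)

variable {q : ℕ} [Fact q.Prime]

/-- A Frobenius element extends to an isometry inducing the Frobenius on the residue field. -/
theorem exists_frobLift (Φ : ℂ ≃+* PadicAlgCl q) {g : GQ}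
    (hg : (CPlace.ofEquiv Φ).algVal.IsFrobeniusAt g q) :
    ∃ s : PadicAlgCl q ≃ₐ[ℚ_[q]] PadicAlgCl q,
      (∀ x, s (Φ (embC x)) = Φ (embC (g x))) ∧ IsFrobLift s := by
  obtain ⟨ι, hd, s, hv, hs, hc⟩ := exists_galLift Φ hg.mem_decompositionSubgroup
  rw [← hv] at hg
  refine ⟨s, hs, fun y hy => ?_⟩
  rw [← PadicComplex.norm_extends, UniformSpace.Completion.coe_sub, hc]
  rw [show ((y ^ q : PadicAlgCl q) : ℂ_[q]) = (y : ℂ_[q]) ^ q from
    map_pow (algebraMap (PadicAlgCl q) ℂ_[q]) y q]
  exact Mazur.norm_galExt_sub_pow_lt ⟨g, hd⟩ hg (by rwa [PadicComplex.norm_extends])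

end FermatAgent.BAD.Toric
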