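import Fermat.Agent.BAD.Toric.Class

/-!
# Expansions of normalised transfers

The expansion of the normalised transfer at `ℓ` is an integral multiplicative function of the
expansion of the form, so its reduction depends only on the reduction.
-/

set_option autoImplicit false

open UpperHalfPlane CongruenceSubgroup
open scoped MatrixGroups ModularForm

noncomputable section

namespace FermatAgent.BAD.Toric

open FermatAgent.ES (HasExp CPlace IsTwist parGroup zetaC transferFun charOp heckeChar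
  heckeChar_mem_parGroup goodLevel_Gamma0 transferConst hasExp_transferT)

section Series

variable {R : Type*} [CommRing R] (ℓ : ℕ) [NeZero ℓ]

/-- The expansion of the transfer at width `ℓ`, from a root of unity. -/
def shiftSer (z : R) (d : PowerSeries R) : PowerSeries R :=
  PowerSeries.expand ℓ (NeZero.ne ℓ) (PowerSeries.expand ℓ (NeZero.ne ℓ) d) *
    ∏ j : ZMod ℓ, PowerSeries.rescale (z ^ j.val) d

/-- The shifted product is multiplicative. -/
theorem shiftSer_mul (z : R) (d e : PowerSeries R) :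
    shiftSer ℓ z (d * e) = shiftSer ℓ z d * shiftSer ℓ z e := by
  simp only [shiftSer, map_mul, Finset.prod_mul_distrib]
  ring

theorem shiftSer_one (z : R) : shiftSer ℓ z (1 : PowerSeries R) = 1 := by simp [shiftSer]

/-- The shifted product of a power. -/
theorem shiftSer_pow (z : R) (d : PowerSeries R) (k : ℕ) :
    shiftSer ℓ z (d ^ k) = shiftSer ℓ z d ^ k := by
  induction k with
  | zero => rw [pow_zero, pow_zero, shiftSer_one]
  | succ k ih => rw [pow_succ, pow_succ, shiftSer_mul, ih]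

/-- The shifted product commutes with homomorphisms. -/
theorem map_shiftSer {S : Type*} [CommRing S] (f : R →+* S) (z : R) (d : PowerSeries R) :
    (shiftSer ℓ z d).map f = shiftSer ℓ (f z) (d.map f) := by
  simp only [shiftSer, map_mul, map_prod, PowerSeries.map_expand]
  congr 1
  refine Finset.prod_congr rfl fun j _ => ?_
  ext e
  simp [PowerSeries.coeff_rescale]

/-- The shifted product of a non-zero series is not zero. -/
theorem shiftSer_ne_zero {k : Type*} [Field k] {z : k} (hz : z ≠ 0) {d : PowerSeries k}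
    (hd : d ≠ 0) : shiftSer ℓ z d ≠ 0 := by
  obtain ⟨e, he⟩ : ∃ e, PowerSeries.coeff e d ≠ 0 := by
    by_contra h
    push Not at h
    exact hd (PowerSeries.ext fun e => by rw [h e, map_zero])
  refine mul_ne_zero (fun h => he ?_) (Finset.prod_ne_zero_iff.mpr fun j _ h => he ?_)
  · have h1 := congrArg (PowerSeries.coeff (ℓ * (ℓ * e))) h
    rwa [PowerSeries.coeff_expand_mul, PowerSeries.coeff_expand_mul, map_zero] at h1
  · have h1 := congrArg (PowerSeries.coeff e) h
    rw [PowerSeries.coeff_rescale, map_zero, mul_eq_zero] at h1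
    exact h1.resolve_left (pow_ne_zero _ (pow_ne_zero _ hz))

theorem expand_inj {f g : PowerSeries R}
    (h : PowerSeries.expand ℓ (NeZero.ne ℓ) f = PowerSeries.expand ℓ (NeZero.ne ℓ) g) : f = g :=
  PowerSeries.ext fun e => by
    have h1 := congrArg (PowerSeries.coeff (ℓ * e)) h
    rwa [PowerSeries.coeff_expand_mul, PowerSeries.coeff_expand_mul] at h1

end Series

/-- Over `ℂ` the shifted product is that of the transfer. -/
theorem shiftSer_eq (ℓ : ℕ) [NeZero ℓ] (c : PowerSeries ℂ) :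
    shiftSer ℓ (zetaC ℓ) c =
      PowerSeries.expand ℓ (NeZero.ne ℓ) (PowerSeries.expand ℓ (NeZero.ne ℓ) c) *
        ES.prodShift ℓ c := rfl

/-- The normalised transfer of a form. -/
def transForm {N : ℕ} {ℓ : ℕ} [Fact ℓ.Prime] [NeZero ℓ] (hℓN : ¬ ℓ ∣ N) (i : ℕ) (v : ℍ → ℂ) :
    ℍ → ℂ :=
  transferConst ℓ i • transferFun (Period.transferDataT hℓN) ((2 * i : ℕ) : ℤ) v

variable {ℓ : ℕ} [hℓ : Fact ℓ.Prime] [NeZero ℓ] {N : ℕ} [NeZero N] (hℓN : ¬ ℓ ∣ N) {i : ℕ}
  {φ : Gamma0 N →* ℂˣ} {v : ℍ → ℂ}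

omit [NeZero N] in
/-- The normalised transfer is a form with the transferred character. -/
theorem isTwist_transForm (hv : IsTwist (Gamma0 N) ((2 * i : ℕ) : ℤ) φ v) :
    IsTwist (Gamma0 N) ((2 * (i * (ℓ + 1)) : ℕ) : ℤ) (heckeChar N hℓ.out φ)
      (transForm hℓN i v) := by
  have h := (hv.transfer (Period.transferDataT hℓN) (ES.transferDataT_int hℓN)).smul
    (transferConst ℓ i)
  rw [ES.heckeChar_of_not_dvd hℓN]
  have e : Fintype.card (OnePoint (ZMod ℓ)) = ℓ + 1 := by
    have h1 : Nat.card (OnePoint (ZMod ℓ)) = Nat.card (Option (ZMod ℓ)) :=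
      Nat.card_congr (Equiv.refl _)
    rwa [Nat.card_eq_fintype_card, Nat.card_eq_fintype_card, Fintype.card_option, ZMod.card] at h1
  rw [e] at h
  convert h using 1
  · push_cast; ring
  · rfl

/-- The root of unity in the ring of a place. -/
def zetaP {q : ℕ} (P : CPlace q) (ℓ : ℕ) [NeZero ℓ] : P.ring :=
  ⟨zetaC ℓ, (P.abv_eq_one_of_pow_eq_one (NeZero.ne ℓ)
    (ES.zetaC_isPrimitiveRoot ℓ).pow_eq_one).le⟩

/-- The root of unity is not zero in the residue field. -/
theorem res_zetaP_ne_zero {q : ℕ} (P : CPlace q) (ℓ : ℕ) [NeZero ℓ] :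
    P.res (zetaP P ℓ) ≠ 0 := fun h => by
  have h1 : P.abv ((zetaP P ℓ : P.ring) : ℂ) < 1 := P.res_eq_zero_iff.mp h
  rw [zetaP, P.abv_eq_one_of_pow_eq_one (NeZero.ne ℓ)
    (ES.zetaC_isPrimitiveRoot ℓ).pow_eq_one] at h1
  exact lt_irrefl _ h1

omit [NeZero N] in
/-- **The expansion of the normalised transfer.** -/
theorem exists_transForm_ser {q : ℕ} (P : CPlace q) (hφ : ES.IsParChar (Gamma0 N) φ)
    (hv : IsTwist (Gamma0 N) ((2 * i : ℕ) : ℤ) φ v) {c : PowerSeries P.ring}
    (hc : HasExp 1 v (c.map P.ring.subtype)) :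
    ∃ U : PowerSeries P.ring, HasExp 1 (transForm hℓN i v) (U.map P.ring.subtype) ∧
      PowerSeries.expand ℓ (NeZero.ne ℓ) U = shiftSer ℓ (zetaP P ℓ) c := by
  have hT := isTwist_transForm hℓN hv
  obtain ⟨d, hd⟩ : ∃ d, HasExp 1 (transForm hℓN i v) d :=
    ⟨_, ES.hasExp_one_twist (goodLevel_Gamma0 N).T_mem
      (by rw [ES.heckeChar_of_not_dvd hℓN]; exact ES.isParChar_charOp _ hφ) hT⟩
  have hser : PowerSeries.expand ℓ (NeZero.ne ℓ) d =
      (shiftSer ℓ (zetaP P ℓ) c).map P.ring.subtype := by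
    rw [map_shiftSer, show P.ring.subtype (zetaP P ℓ) = zetaC ℓ from rfl, shiftSer_eq]
    exact (hasExp_widen (NeZero.ne ℓ) hd).series_unique (hasExp_transferT hℓN i hc)
  set U : PowerSeries P.ring :=
    PowerSeries.mk fun e => PowerSeries.coeff (ℓ * e) (shiftSer ℓ (zetaP P ℓ) c)
  have hU : U.map P.ring.subtype = d := by
    ext e
    have h := congrArg (PowerSeries.coeff (ℓ * e)) hser
    rw [PowerSeries.coeff_expand_mul, PowerSeries.coeff_map] at h
    rw [PowerSeries.coeff_map, PowerSeries.coeff_mk, h]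
  exact ⟨U, hU ▸ hd, PowerSeries.map_injective P.ring.subtype Subtype.val_injective
    (by rw [PowerSeries.map_expand, hU, hser])⟩

variable {q : ℕ} [hq : Fact q.Prime] {L : ℕ} [NeZero L] {n : ℕ} [NeZero n] {P : CPlace q}
  {e0 a : ℕ} {ψ : parGroup (Gamma0 L) n} {cr : PowerSeries (IsLocalRing.ResidueField P.ring)}

omit hq [NeZero n] [NeZero L] in
/-- **Classes commute with the transfer.** -/
theorem IsLevelClassE.transfer (hℓL : ¬ ℓ ∣ L) (h : IsLevelClassE P e0 a ψ cr)
    {cr' : PowerSeries (IsLocalRing.ResidueField P.ring)}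
    (hcr : PowerSeries.expand ℓ (NeZero.ne ℓ) cr' = shiftSer ℓ (P.res (zetaP P ℓ)) cr) :
    IsLevelClassE P e0 (a * (ℓ + 1))
      (⟨heckeChar L hℓ.out ψ.1, heckeChar_mem_parGroup hℓ.out ψ.2⟩ : parGroup (Gamma0 L) n)
        cr' := by
  obtain ⟨i, j, v1, D, cv1, cD, hij, hv1, hD, hcv1, hcD, hD0, hrel⟩ := h
  obtain ⟨U1, hU1, hU1s⟩ := exists_transForm_ser hℓL P ψ.2.2 hv1 hcv1
  obtain ⟨U2, hU2, hU2s⟩ := exists_transForm_ser hℓL P
    (1 : parGroup (Gamma0 L) n).2.2 hD hcD
  have h1 : PowerSeries.expand ℓ (NeZero.ne ℓ) (U1.map P.res) =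
      shiftSer ℓ (P.res (zetaP P ℓ)) (cv1.map P.res) := by
    rw [← PowerSeries.map_expand, hU1s, map_shiftSer]
  have h2 : PowerSeries.expand ℓ (NeZero.ne ℓ) (U2.map P.res) =
      shiftSer ℓ (P.res (zetaP P ℓ)) (cD.map P.res) := by
    rw [← PowerSeries.map_expand, hU2s, map_shiftSer]
  refine ⟨i * (ℓ + 1), j * (ℓ + 1), transForm hℓL i v1, transForm hℓL j D, U1, U2,
    by rw [hij]; ring, isTwist_transForm hℓL hv1, ?_, hU1, hU2, fun h0 => ?_, ?_⟩
  · have h := isTwist_transForm hℓL hD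
    rwa [ES.heckeChar_of_not_dvd hℓL, ES.charOp_one] at h
  · rw [h0, map_zero] at h2
    exact shiftSer_ne_zero ℓ (res_zetaP_ne_zero P ℓ) hD0 h2.symm
  · refine expand_inj ℓ ?_
    rw [map_pow, h1, map_pow, map_mul, map_pow, hcr, h2, ← shiftSer_pow, hrel, ← shiftSer_pow,
      ← shiftSer_mul, ← shiftSer_pow]

omit hq [NeZero L] [NeZero n] in
/-- **Classes of powers.** -/
theorem IsLevelClassE.pow (h : IsLevelClassE P e0 a ψ cr) (k : ℕ) :
    IsLevelClassE P e0 (a * k) (ψ ^ k) (cr ^ k) := by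
  obtain ⟨i, j, v1, D, cv1, cD, hij, hv1, hD, hcv1, hcD, hD0, hrel⟩ := h
  refine ⟨i * k, j * k, v1 ^ k, D ^ k, cv1 ^ k, cD ^ k, by rw [hij]; ring, ?_, ?_, ?_, ?_, ?_, ?_⟩
  · have h1 := hv1.pow k
    convert h1 using 1
    · push_cast; ring
    · rfl
  · have h1 := hD.pow k
    convert h1 using 1
    · push_cast; ring
    · exact MonoidHom.ext fun _ => by simp
  · rw [map_pow]; exact hcv1.pow k
  · rw [map_pow]; exact hcD.pow k
  · rw [map_pow]; exact pow_ne_zero k hD0
  · rw [map_pow, map_pow, ← pow_mul, mul_comm k n, pow_mul, hrel, ← pow_mul, mul_comm n k, pow_mul,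
      mul_pow _ _ k, ← pow_mul, ← pow_mul, mul_comm k e0]

end FermatAgent.BAD.Toric

end
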