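import Fermat.Agent.BAD.Toric.InertFix
import Fermat.Agent.BAD.Sq.Elem.Content
import Fermat.Agent.BAD.Lift.Basic
import Fermat.Agent.BAD.Lift.Residue

/-!
# Balanced forms

A form for a power of a character whose expansion at `∞` is integral with a unit coefficient and
whose transform has content `q ^ (- i)`, `2 i` the weight, with coefficients fixed by inertia.
It is obtained from a normalised form by multiplying with powers of `Δ` and `Δ(q τ)`.
-/

set_option autoImplicit false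

open UpperHalfPlane CongruenceSubgroup
open scoped MatrixGroups ModularForm Manifold

noncomputable section

namespace FermatAgent.BAD.Toric

open FermatAgent.ES (CPlace HasExp HasLExp IsTwist parGroup goodLevel_Gamma0 galChar AuxLevel)
open FermatAgent.PSEMI (wForm wForm_ne_zero)

local notation "Δ" => ModularForm.discriminant

section Cont

variable {q : ℕ} [Fact q.Prime] (P : CPlace q)

/-- Coefficients fixed by inertia, with maximal absolute value that of `q ^ k`. -/
def Cont (k : ℤ) (c : PowerSeries ℂ) : Prop :=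
  (∀ e, InertFixed P (PowerSeries.coeff e c)) ∧
    Normed P (HahnSeries.C ((q : ℂ) ^ (-k)) * HahnSeries.ofPowerSeries ℤ ℂ c)

variable {P} {k l : ℤ} {c d : PowerSeries ℂ}

/-- `q` is not zero in `ℂ`. -/
theorem q_cast_ne_zero : (q : ℂ) ≠ 0 := Nat.cast_ne_zero.mpr (Fact.out : q.Prime).ne_zero

/-- Contents multiply. -/
theorem Cont.mul (hc : Cont P k c) (hd : Cont P l d) : Cont P (k + l) (c * d) := by
  refine ⟨fun e => ?_, ?_⟩
  · rw [PowerSeries.coeff_mul]
    exact InertFixed.sum fun i _ => (hc.1 _).mul (hd.1 _)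
  · rw [map_mul, neg_add, zpow_add₀ q_cast_ne_zero, map_mul, mul_mul_mul_comm]
    exact hc.2.mul hd.2

omit [Fact (Nat.Prime q)] in
/-- The content of `1`. -/
theorem cont_one : Cont P 0 (1 : PowerSeries ℂ) := by
  refine ⟨fun e => ?_, ?_⟩
  · rw [PowerSeries.coeff_one]
    split_ifs
    exacts [InertFixed.one, InertFixed.zero]
  · rw [neg_zero, zpow_zero, map_one, map_one, one_mul]
    exact ⟨fun i => by
      rcases eq_or_ne i 0 with rfl | hi
      · simp
      · simp [HahnSeries.coeff_one, hi], ⟨0, by simp⟩⟩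

/-- The content of a power. -/
theorem Cont.pow (hc : Cont P k c) (j : ℕ) : Cont P (j * k) (c ^ j) := by
  induction j with
  | zero => simpa using cont_one
  | succ j ih =>
    rw [pow_succ, Nat.cast_succ, add_mul, one_mul]
    exact ih.mul hc

/-- The content of a multiple by a fixed constant. -/
theorem Cont.C_mul (hc : Cont P k c) {x : ℂ} (hx : InertFixed P x) {j : ℤ}
    (hj : P.abv x = P.abv q ^ j) : Cont P (j + k) (PowerSeries.C x * c) := by
  refine ⟨fun e => ?_, ?_⟩
  · rw [PowerSeries.coeff_C_mul]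
    exact hx.mul (hc.1 e)
  · rw [map_mul, HahnSeries.ofPowerSeries_C, neg_add, zpow_add₀ q_cast_ne_zero, map_mul,
      mul_mul_mul_comm, ← map_mul]
    refine hc.2.C_mul ?_
    rw [map_mul, map_zpow₀, hj, ← zpow_add₀ (P.abv.pos q_cast_ne_zero).ne', neg_add_cancel,
      zpow_zero]

section

omit [Fact (Nat.Prime q)]

/-- A series of content one is integral. -/
theorem Cont.mem (hc : Cont P 0 c) (e : ℕ) : PowerSeries.coeff e c ∈ P.ring := by
  have h := hc.2.1 e
  rwa [neg_zero, zpow_zero, map_one, one_mul, HahnSeries.ofPowerSeries_apply_coeff] at h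

/-- A series of content one has a unit coefficient. -/
theorem Cont.exists_unit (hc : Cont P 0 c) : ∃ e, P.abv (PowerSeries.coeff e c) = 1 := by
  obtain ⟨i, hi⟩ := hc.2.2
  rw [neg_zero, zpow_zero, map_one, one_mul] at hi
  rcases lt_or_ge i 0 with h | h
  · rw [HahnSeries.ofPowerSeries_apply, HahnSeries.embDomain_of_notMem_range, map_zero] at hi
    · exact absurd hi zero_ne_one
    · rintro ⟨j, hj⟩
      simp at hj
      omega
  · lift i to ℕ using h
    exact ⟨i, by rwa [HahnSeries.ofPowerSeries_apply_coeff] at hi⟩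

/-- The reduction of a series of content one is not zero. -/
theorem Cont.res_ne_zero (hc : Cont P 0 c) {cv : PowerSeries P.ring}
    (hcv : cv.map P.ring.subtype = c) : cv.map P.res ≠ 0 := fun h0 => by
  obtain ⟨e, he⟩ := hc.exists_unit
  have h1 := congrArg (PowerSeries.coeff e) h0
  rw [PowerSeries.coeff_map, map_zero, P.res_eq_zero_iff] at h1
  rw [← hcv, PowerSeries.coeff_map] at he
  exact h1.ne he

/-- A change of width of a series of content one is normed. -/
theorem normed_of_cont_expand {r : ℕ} (hr : r ≠ 0) (hc : Cont P 0 c) :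
    Normed P (HahnSeries.ofPowerSeries ℤ ℂ (PowerSeries.expand r hr c)) := by
  refine ⟨fun i => ?_, ?_⟩
  · rcases lt_or_ge i 0 with h | h
    · rw [HahnSeries.ofPowerSeries_apply, HahnSeries.embDomain_of_notMem_range]
      · exact P.ring.zero_mem
      · rintro ⟨j, hj⟩
        simp at hj
        omega
    · lift i to ℕ using h
      rw [HahnSeries.ofPowerSeries_apply_coeff]
      by_cases hd : r ∣ i
      · obtain ⟨j, rfl⟩ := hd
        rw [PowerSeries.coeff_expand_mul]
        exact hc.mem j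
      · rw [PowerSeries.coeff_expand_of_not_dvd r hr _ hd]
        exact P.ring.zero_mem
  · obtain ⟨e, he⟩ := hc.exists_unit
    exact ⟨(r * e : ℕ), by rwa [HahnSeries.ofPowerSeries_apply_coeff, PowerSeries.coeff_expand_mul]⟩

/-- A change of width keeps the content. -/
theorem Cont.expand {r : ℕ} (hr : r ≠ 0) (hc : Cont P 0 c) :
    Cont P 0 (PowerSeries.expand r hr c) := by
  refine ⟨fun i => ?_, ?_⟩
  · by_cases hd : r ∣ i
    · obtain ⟨j, rfl⟩ := hd
      rw [PowerSeries.coeff_expand_mul]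
      exact hc.1 j
    · rw [PowerSeries.coeff_expand_of_not_dvd r hr _ hd]
      exact InertFixed.zero
  · rw [neg_zero, zpow_zero, map_one, one_mul]
    exact normed_of_cont_expand hr hc

/-- The series of the discriminant. -/
theorem cont_delta : Cont P 0 (Lift.deltaPS ℂ) := by
  refine ⟨fun e => ?_, ?_⟩
  · rw [← Lift.map_deltaPS (Int.castRingHom ℂ), PowerSeries.coeff_map]
    exact inertFixed_intCast _
  · rw [neg_zero, zpow_zero, map_one, one_mul, ← Lift.deltaSer_one_eq]
    exact .of_leadUnit (Lift.leadUnit_deltaSer 1 P.ring)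

end

/-- A series with fixed coefficients and a content has a content `q ^ k`. -/
theorem exists_cont {Φ : ℂ ≃+* PadicAlgCl q}
    (hc : ∀ e, InertFixed (CPlace.ofEquiv Φ) (PowerSeries.coeff e c)) {r : ℕ} (hr : r ≠ 0)
    (h : HasContent (CPlace.ofEquiv Φ)
      (HahnSeries.ofPowerSeries ℤ ℂ (PowerSeries.expand r hr c))) :
    ∃ k, Cont (CPlace.ofEquiv Φ) k c := by
  set P := CPlace.ofEquiv Φ
  obtain ⟨a, -, ha, i, hi⟩ := h
  have hcoef : ∀ e : ℕ, (HahnSeries.C a *
      HahnSeries.ofPowerSeries ℤ ℂ (PowerSeries.expand r hr c)).coeff ((r * e : ℕ) : ℤ) =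
      a * PowerSeries.coeff e c := fun e => by
    rw [coeff_C_mul', HahnSeries.ofPowerSeries_apply_coeff, PowerSeries.coeff_expand_mul]
  obtain ⟨e0, rfl⟩ : ∃ e0 : ℕ, i = ((r * e0 : ℕ) : ℤ) := by
    rcases lt_or_ge i 0 with h0 | h0
    · rw [coeff_C_mul', HahnSeries.ofPowerSeries_apply, HahnSeries.embDomain_of_notMem_range,
        mul_zero, map_zero] at hi
      · exact absurd hi zero_ne_one
      · rintro ⟨j, hj⟩
        simp at hj
        omega
    · lift i to ℕ using h0
      by_cases hd : r ∣ i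
      · obtain ⟨e0, rfl⟩ := hd
        exact ⟨e0, rfl⟩
      · rw [coeff_C_mul', HahnSeries.ofPowerSeries_apply_coeff,
          PowerSeries.coeff_expand_of_not_dvd r hr _ hd, mul_zero, map_zero] at hi
        exact absurd hi zero_ne_one
  rw [hcoef, map_mul] at hi
  have hne : PowerSeries.coeff e0 c ≠ 0 := fun h0 => by
    rw [h0, map_zero, mul_zero] at hi
    exact zero_ne_one hi
  obtain ⟨k, hk⟩ := (hc e0).exists_zpow hne
  have hk' : P.abv a = P.abv ((q : ℂ) ^ (-k)) := by
    rw [map_zpow₀, zpow_neg, ← hk]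
    exact eq_inv_of_mul_eq_one_left hi
  refine ⟨k, hc, fun j => ?_, e0, ?_⟩
  · rcases lt_or_ge j 0 with h0 | h0
    · rw [coeff_C_mul', HahnSeries.ofPowerSeries_apply, HahnSeries.embDomain_of_notMem_range,
        mul_zero]
      · exact P.ring.zero_mem
      · rintro ⟨l, hl⟩
        simp at hl
        omega
    · lift j to ℕ using h0
      rw [coeff_C_mul', HahnSeries.ofPowerSeries_apply_coeff, P.mem_ring, map_mul, ← hk',
        ← map_mul, ← hcoef]
      exact ha _
  · rw [coeff_C_mul', HahnSeries.ofPowerSeries_apply_coeff, map_mul, ← hk']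
    exact hi

end Cont

section Forms

variable {q : ℕ} [hq : Fact q.Prime] {L M : ℕ} [NeZero M] (hM : M.Coprime q) (hLM : L ∣ M)

/-- A form with multiplier with its expansion and that of its transform. -/
def FormPair (k : ℤ) (χ : Gamma0 (L * q) →* ℂˣ) (v : ℍ → ℂ) (c c0 : PowerSeries ℂ) : Prop :=
  IsTwist (Gamma0 (L * q)) k χ v ∧ HasExp 1 v c ∧ HasExp 1 (wForm hM k v) c0

variable {hM}

/-- Pairs of a form and its transform multiply. -/
theorem FormPair.mul {k l : ℤ} {χ ψ : Gamma0 (L * q) →* ℂˣ} {v u : ℍ → ℂ}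
    {c c0 d d0 : PowerSeries ℂ} (h : FormPair hM k χ v c c0) (h' : FormPair hM l ψ u d d0) :
    FormPair hM (k + l) (χ * ψ) (v * u) (c * d) (c0 * d0) :=
  ⟨h.1.mul h'.1, h.2.1.mul h'.2.1, by rw [PSEMI.wForm_mul]; exact h.2.2.mul h'.2.2⟩

/-- Powers of pairs of a form and its transform. -/
theorem FormPair.pow {k : ℤ} {χ : Gamma0 (L * q) →* ℂˣ} {v : ℍ → ℂ} {c c0 : PowerSeries ℂ}
    (h : FormPair hM k χ v c c0) (j : ℕ) :
    FormPair hM (((j + 1 : ℕ) : ℤ) * k) (χ ^ (j + 1)) (v ^ (j + 1)) (c ^ (j + 1))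
      (c0 ^ (j + 1)) :=
  ⟨h.1.pow _, h.2.1.pow _, by rw [wForm_pow]; exact h.2.2.pow _⟩

/-- Constant multiples of pairs of a form and its transform. -/
theorem FormPair.smul {k : ℤ} {χ : Gamma0 (L * q) →* ℂˣ} {v : ℍ → ℂ} {c c0 : PowerSeries ℂ}
    (h : FormPair hM k χ v c c0) (x : ℂ) :
    FormPair hM k χ (x • v) (PowerSeries.C x * c) (PowerSeries.C x * c0) :=
  ⟨h.1.smul x, h.2.1.smul x, by rw [wForm_smul']; exact h.2.2.smul x⟩

/-- The expansion of `Δ`. -/
theorem hasExp_delta : HasExp 1 (Δ : ℍ → ℂ) (Lift.deltaPS ℂ) := by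
  have h := Lift.hasLExp_disc 1
  rw [Lift.deltaSer_one_eq] at h
  exact ES.hasExp_of_hasLExp_ps h

theorem hasExp_dil_delta :
    HasExp 1 (dilFun q (Δ : ℍ → ℂ)) (PowerSeries.expand q (NeZero.ne q) (Lift.deltaPS ℂ)) := by
  have h := hasLExp_dilFun q (HasLExp.of_exp hasExp_delta)
  rw [expandL_ofPowerSeries] at h
  exact ES.hasExp_of_hasLExp_ps h

theorem wForm_disc : wForm hM (12 : ℤ) (Δ : ℍ → ℂ) = dilFun q (Δ : ℍ → ℂ) := by
  rw [wForm, Curve.slash_discriminant]

/-- `Δ` with its transform `Δ(q τ)`. -/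
theorem formPair_disc :
    FormPair hM (12 : ℤ) (1 : Gamma0 (L * q) →* ℂˣ) (Δ : ℍ → ℂ) (Lift.deltaPS ℂ)
      (PowerSeries.expand q (NeZero.ne q) (Lift.deltaPS ℂ)) :=
  ⟨Lift.isTwist_disc _, hasExp_delta, by rw [wForm_disc]; exact hasExp_dil_delta⟩

include hLM in
/-- `Δ(q τ)` with its transform. -/
theorem formPair_dil_disc :
    FormPair hM (12 : ℤ) (1 : Gamma0 (L * q) →* ℂˣ) (dilFun q (Δ : ℍ → ℂ))
      (PowerSeries.expand q (NeZero.ne q) (Lift.deltaPS ℂ))
      (PowerSeries.C ((q : ℂ) ^ (12 : ℤ))⁻¹ * Lift.deltaPS ℂ) := by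
  have h : IsTwist (Gamma0 (L * q)) (12 : ℤ) 1 (Δ : ℍ → ℂ) := Lift.isTwist_disc _
  refine ⟨?_, hasExp_dil_delta, ?_⟩
  · have h1 := (isLevel_gamma0 hM hLM).isTwist_wForm hM h
    rw [wForm_disc] at h1
    exact h1
  · rw [← wForm_disc (hM := hM), wForm_wForm hM hLM h, MonoidHom.one_apply, Units.val_one, mul_one]
    exact hasExp_delta.smul _

end Forms

variable {q : ℕ} [hq : Fact q.Prime] {L M : ℕ} [NeZero M] [NeZero L] (hM : M.Coprime q)
  (hLM : L ∣ M) {n : ℕ} [NeZero n]

/-- A balanced form of weight `24 a`. -/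
structure BalForm (P : CPlace q) (χ : parGroup (Gamma0 (L * q)) n) (a : ℕ) (v : ℍ → ℂ)
    (c c0 : PowerSeries ℂ) : Prop where
  twist : IsTwist (Gamma0 (L * q)) ((2 * (2 * (6 * a)) : ℕ) : ℤ)
    (χ : Gamma0 (L * q) →* ℂˣ) v
  ne_zero : v ≠ 0
  exp : HasExp 1 v c
  expW : HasExp 1 ((q : ℂ) ^ (2 * (6 * a)) • wForm hM ((2 * (2 * (6 * a)) : ℕ) : ℤ) v) c0
  cont : Cont P 0 c
  cont0 : Cont P 0 c0

omit [NeZero L] in
include hLM in
/-- **The transform of a balanced form is balanced.** -/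
theorem BalForm.symm {P : CPlace q} (hn : n.Coprime q) {χ : parGroup (Gamma0 (L * q)) n} {a : ℕ}
    {v : ℍ → ℂ} {c c0 : PowerSeries ℂ} (h : BalForm hM P χ a v c c0) :
    BalForm hM P (wAut hM hLM n χ) a
      ((q : ℂ) ^ (2 * (6 * a)) • wForm hM ((2 * (2 * (6 * a)) : ℕ) : ℤ) v) c0
      (PowerSeries.C ((χ : Gamma0 (L * q) →* ℂˣ) (sqAtk hM hLM) : ℂ) * c) where
  twist := (isTwist_wAut hM hLM h.twist).smul _
  ne_zero := smul_ne_zero (pow_ne_zero _ q_cast_ne_zero) (wForm_ne_zero hM h.ne_zero)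
  exp := h.expW
  expW := by
    rw [wForm_smul', wForm_wForm hM hLM h.twist, smul_smul, smul_smul]
    convert h.exp.smul _ using 2
    have e : (q : ℂ) ^ ((2 * (2 * (6 * a)) : ℕ) : ℤ) =
        (q : ℂ) ^ (2 * (6 * a)) * (q : ℂ) ^ (2 * (6 * a)) := by
      rw [zpow_natCast, ← pow_add, two_mul]
    rw [e, mul_inv, mul_comm ((_ : ℂ)⁻¹) ((_ : ℂ)⁻¹)]
    have h0 : (q : ℂ) ^ (2 * (6 * a)) ≠ 0 := pow_ne_zero _ q_cast_ne_zero
    field_simp
    rfl
  cont := h.cont0
  cont0 := by
    have hz : ((χ : Gamma0 (L * q) →* ℂˣ) (sqAtk hM hLM) : ℂ) ^ n = 1 := by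
      rw [← Units.val_pow_eq_pow_val, ← MonoidHom.pow_apply, χ.2.1]
      rfl
    have hx := inertFixed_of_pow_eq_one (P := P) (NeZero.ne n) (fun hd => hq.out.one_lt.ne'
      (Nat.dvd_one.mp (hn ▸ Nat.dvd_gcd hd dvd_rfl))) hz
    simpa using h.cont.C_mul hx (j := 0) (by
      rw [zpow_zero]; exact P.abv_eq_one_of_pow_eq_one (NeZero.ne n) hz)

end FermatAgent.BAD.Toric

end
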