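import Fermat.Agent.BAD.Toric.Content
import Fermat.Agent.PSEMI.Class.Twist

/-!
# The Atkin operator on quotients of forms by the standard form

It sends `hasseFun` to `q ^ 2 / hasseFun`, so a balanced quotient to the balanced quotient of the
Atkin–Lehner transform.
-/

set_option autoImplicit false

open UpperHalfPlane CongruenceSubgroup
open scoped MatrixGroups ModularForm

noncomputable section

namespace FermatAgent.BAD.Toric

open FermatAgent.ES (act AuxLevel auxW dif vmul)
open FermatAgent.PSEMI (wForm)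

variable {q M m : ℕ} [Fact q.Prime] [NeZero M] (haux : AuxLevel M m) (hM : M.Coprime q)
  (hqm : q ≠ m)

include hqm in
/-- The point `q γ₀ q τ` as the image of `τ` under an element fixing the standard form. -/
theorem exists_atkin_move (τ : ℍ) : ∃ γ' : SL(2, ℤ),
    dilPt q (atkinMat hM • dilPt q τ) = γ' • τ ∧
    UpperHalfPlane.denom (atkinMat hM : GL (Fin 2) ℝ) (dilPt q τ) =
      q * UpperHalfPlane.denom (γ' : GL (Fin 2) ℝ) τ ∧
    auxW haux (γ' • τ) = UpperHalfPlane.denom (γ' : GL (Fin 2) ℝ) τ ^ 2 * auxW haux τ := by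
  obtain ⟨h00, h11⟩ := atkinMat_dvd hM
  obtain ⟨γ', e00, e01, e10, e11, h⟩ := exists_ctr_conj q (atkinMat hM) 0 (by simpa using h11)
  have hpt : ctrPt q 0 (dilPt q τ) = τ := UpperHalfPlane.ext (by
    rw [coe_ctrPt, coe_dilPt, Nat.cast_zero, add_zero,
      mul_div_cancel_left₀ _ (Nat.cast_ne_zero.mpr (NeZero.ne q))])
  refine ⟨γ', by rw [h, hpt], ?_, ?_⟩
  · rw [← denom_ctr_conj e10 e11 (dilPt q τ), hpt]
  -- the element is `± 1` modulo `m`
  obtain ⟨a, b, c, d⟩ := Gamma_mem.mp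
    (ES.gamma_le_of_dvd haux.dvd (atkinMat_mem hM) : atkinMat hM ∈ Gamma m)
  obtain ⟨e, he, he'⟩ : ∃ e : ZMod m, (q : ZMod m) = e ∧ (e = 1 ∨ e = -1) :=
    ⟨_, rfl, natCast_eq_one_or haux hqm⟩
  have hee : e * e = 1 := by rcases he' with rfl | rfl <;> simp
  have f00 : ((γ' 0 0 : ℤ) : ZMod m) = e := by rw [e00]; push_cast; rw [a, he, mul_one]
  have f01 : ((γ' 0 1 : ℤ) : ZMod m) = 0 := by rw [e01]; push_cast; rw [b, zero_mul, sub_zero]
  have f10 : ((γ' 1 0 : ℤ) : ZMod m) = 0 := by rw [e10, c]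
  have f11 : ((γ' 1 1 : ℤ) : ZMod m) = e := by
    have h1 := congrArg (Int.cast : ℤ → ZMod m) e11
    push_cast at h1
    rw [d, zero_mul, sub_zero, he] at h1
    linear_combination e * h1 - ((γ' 1 1 : ℤ) : ZMod m) * hee
  have hv : ∀ u : Fin 2 → ZMod m, vmul m u γ' = e • u := fun u => by
    funext i
    fin_cases i <;>
      simp [ES.vmul, ES.modMat, Matrix.vecMul, dotProduct, Fin.sum_univ_two, f00, f01, f10, f11,
        mul_comm]
  rw [auxW, ES.dif_smul, ES.refA, ES.refB, ← ES.embVec_vmul, ← ES.embVec_vmul, hv, hv]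
  rcases he' with rfl | rfl
  · simp
  · have e : ∀ u : Fin 2 → ZMod m, (-1 : ZMod m) • u = -u := fun u => by
      funext i; simp
    rw [e, e, ES.embVec_neg, ES.embVec_neg, ES.dif_neg_left, ES.dif_neg_right]

include hqm in
/-- **The Atkin operator inverts `hasseFun` up to `q ^ 2`.** -/
theorem atkin_hasse : atkin hM (hasseFun haux q) = fun τ => (q : ℂ) ^ 2 / hasseFun haux q τ := by
  funext τ
  obtain ⟨γ', hpt, hden, hW⟩ := exists_atkin_move haux hM hqm τ
  have hd := UpperHalfPlane.denom_ne_zero (γ' : GL (Fin 2) ℝ) τ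
  rw [atkin_apply_pt, hasseFun, hasseFun, hpt, hW,
    ES.auxW_smul_of_mem haux (ES.gamma_le_of_dvd haux.dvd (atkinMat_mem hM)), hden]
  have h1 := ES.auxW_ne_zero haux τ
  have h2 := ES.auxW_ne_zero haux (dilPt q τ)
  field_simp

/-- The quotient of a form by the standard form goes to that of the transform. -/
theorem atkin_form_div (i : ℕ) (v : ℍ → ℂ) :
    atkin hM (fun τ => v τ / auxW haux τ ^ i) =
      fun τ => wForm hM ((2 * i : ℕ) : ℤ) v τ / auxW haux (dilPt q τ) ^ i := by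
  funext τ
  have hd := UpperHalfPlane.denom_ne_zero (atkinMat hM : GL (Fin 2) ℝ) (dilPt q τ)
  rw [atkin_apply_pt, ES.auxW_smul_of_mem haux (ES.gamma_le_of_dvd haux.dvd (atkinMat_mem hM)),
    wForm, dilFun_apply, ModularForm.SL_slash_apply, mul_pow, ← pow_mul, zpow_neg, zpow_natCast]
  field_simp

include hqm in
/-- **The Atkin operator on balanced quotients.** -/
theorem atkin_balanced (j : ℕ) (v : ℍ → ℂ) :
    atkin hM (hasseFun haux q ^ j * fun τ => v τ / auxW haux τ ^ (2 * j)) =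
      hasseFun haux q ^ j * fun τ =>
        ((q : ℂ) ^ (2 * j) • wForm hM ((2 * (2 * j) : ℕ) : ℤ) v) τ / auxW haux τ ^ (2 * j) := by
  rw [map_mul, map_pow, atkin_hasse haux hM hqm, atkin_form_div]
  funext τ
  have h1 := ES.auxW_ne_zero haux τ
  have h2 := ES.auxW_ne_zero haux (dilPt q τ)
  simp only [Pi.mul_apply, Pi.pow_apply, Pi.smul_apply, smul_eq_mul, hasseFun, div_pow, pow_mul]
  field_simp
  ring

end FermatAgent.BAD.Toric

end
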