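import Fermat.Agent.BAD.Toric.EForm
import Fermat.Agent.BAD.Toric.AtkinForm
import Fermat.Agent.BAD.TwoP.InfSer

/-!
# The trace of a form of level `L q` to level `L`

For a form `f` of level `L q` the sum of its slashes over `Γ(M)` modulo `lam q M` is a form of
level `L`; divided by the standard form it is the trace of the quotient.
-/

set_option autoImplicit false

open UpperHalfPlane CongruenceSubgroup
open scoped MatrixGroups ModularForm Manifold

noncomputable section

namespace FermatAgent.BAD.Toric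

open FermatAgent.ES (IsTwist act AuxLevel auxW HasExp HasLExp lexp zetaC)
open FermatAgent.PSEMI (wForm)

variable {q : ℕ} [hq : Fact q.Prime] {L M : ℕ} [NeZero M] [NeZero L] (hM : M.Coprime q)
  (hLM : L ∣ M) {k : ℤ} {f : ℍ → ℂ}

/-- The sum of the slashes at the representatives of `lam q M` in `Γ(M)`. -/
def traceForm (q M : ℕ) [Fact q.Prime] [NeZero M] (k : ℤ) (f : ℍ → ℂ) : ℍ → ℂ :=
  ∑ x : CosetL q M, f ∣[k] (cosetRep q M x)⁻¹

omit hq [NeZero M] in
theorem slash_rep_inv (hf : ∀ h ∈ lam q M, f ∣[k] h = f) (g : Gamma M) :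
    f ∣[k] (cosetRep q M (g : CosetL q M))⁻¹ = f ∣[k] (g : SL(2, ℤ))⁻¹ := by
  conv_rhs => rw [show (g : SL(2, ℤ))⁻¹ = ((cosetRep q M (g : CosetL q M))⁻¹ * g)⁻¹ *
    (cosetRep q M (g : CosetL q M))⁻¹ by group, SlashAction.slash_mul,
    hf _ (inv_mem cosetRep_inv_mul)]

theorem traceForm_slash_gamma (hf : ∀ h ∈ lam q M, f ∣[k] h = f) {γ : SL(2, ℤ)}
    (hγ : γ ∈ Gamma M) : traceForm q M k f ∣[k] γ = traceForm q M k f := by
  rw [traceForm, SlashAction.sum_slash]
  refine Fintype.sum_equiv (MulAction.toPerm ((⟨γ, hγ⟩ : Gamma M)⁻¹)) _ _ fun x => ?_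
  rw [← SlashAction.slash_mul, MulAction.toPerm_apply]
  conv_rhs => rw [← Quotient.out_eq x]
  change _ = f ∣[k] (cosetRep q M ((⟨γ, hγ⟩⁻¹ * x.out : Gamma M) : CosetL q M))⁻¹
  rw [slash_rep_inv hf]
  simp [cosetRep]

omit [NeZero L] in
include hM hLM in
/-- Modulo `Γ₀(L)` every element lies in `Γ₀(q)`. -/
theorem exists_gamma0_mul_inv_mem (γ : SL(2, ℤ)) : ∃ l ∈ Gamma0 q, l * γ⁻¹ ∈ Gamma0 L := by
  obtain ⟨l, hl, hmod⟩ := TwoP.exists_gamma0_modMat (q := q) hM γ
  exact ⟨l, hl, (isLevel_gamma0 hM hLM).gamma_le (ES.mem_Gamma_of_modMat (by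
    rw [ES.modMat_mul, hmod, ← ES.modMat_mul, mul_inv_cancel, ES.modMat_one]))⟩

omit hq [NeZero M] [NeZero L] in
/-- A slash fixed translation fixes the function. -/
theorem act_T_pow_of_slash {w : ℕ} (h : f ∣[k] (ModularGroup.T ^ w) = f) :
    act (ModularGroup.T ^ w) f = f := by
  conv_rhs => rw [← h]
  funext τ
  rw [ES.act_apply]
  conv_rhs => rw [ModularForm.SL_slash_apply, ModularGroup.denom_apply]
  rw [← zpow_natCast ModularGroup.T w, ModularGroup.coe_T_zpow]
  simp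

omit [NeZero L] in
include hM hLM in
theorem traceForm_slash (hf : ∀ h ∈ Gamma0 (L * q), f ∣[k] h = f) {γ : SL(2, ℤ)}
    (hγ : γ ∈ Gamma0 L) : traceForm q M k f ∣[k] γ = traceForm q M k f := by
  have Lv := isLevel_gamma0 (q := q) hM hLM
  have hlam : ∀ h ∈ lam q M, f ∣[k] h = f := fun h hh => hf h (Lv.lam_le hh)
  obtain ⟨l, hlq, hmod⟩ := TwoP.exists_gamma0_modMat (q := q) hM γ
  have hlδ : γ * l⁻¹ ∈ Gamma M := ES.mem_Gamma_of_modMat (by
    rw [ES.modMat_mul, ← hmod, ← ES.modMat_mul, mul_inv_cancel, ES.modMat_one])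
  have hlL : l ∈ Gamma0 L := by
    have h1 : γ * l⁻¹ ∈ Gamma0 L := Lv.gamma_le hlδ
    simpa using mul_mem (inv_mem h1) hγ
  have hl : l ∈ Gamma0 (L * q) := (mem_gamma0_mul_iff (coprime_of_aux hM hLM)).mpr ⟨hlL, hlq⟩
  have e : traceForm q M k f ∣[k] γ = traceForm q M k f ∣[k] l := by
    conv_lhs => rw [show γ = γ * l⁻¹ * l by group, SlashAction.slash_mul,
      traceForm_slash_gamma hlam hlδ]
  rw [e, traceForm, SlashAction.sum_slash]
  conv_rhs => rw [← sum_coset_conj hlq (fun g => f ∣[k] g⁻¹) (slash_rep_inv hlam)]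
  refine Finset.sum_congr rfl fun x _ => ?_
  rw [← SlashAction.slash_mul,
    show (l⁻¹ * cosetRep q M x * l)⁻¹ = l⁻¹ * ((cosetRep q M x)⁻¹ * l) by group]
  conv_rhs => rw [SlashAction.slash_mul, hf _ (inv_mem hl)]

omit [NeZero L] in
include hM hLM in
/-- **The trace is a form of level `L`.** -/
theorem isTwist_traceForm (hf : IsTwist (Gamma0 (L * q)) k 1 f) :
    IsTwist (Gamma0 L) k 1 (traceForm q M k f) where
  mdiff := by
    rw [traceForm]
    exact Finset.sum_induction _ (fun g : ℍ → ℂ => MDiff g) (fun _ _ h h' => h.add h')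
      mdifferentiable_const fun x _ => hf.mdiff.slash _ _
  slash γ := by
    rw [traceForm_slash hM hLM (fun h hh => ?_) γ.2]
    · funext τ; simp
    · rw [hf.slash ⟨h, hh⟩]; funext τ; simp
  bdd γ := by
    rw [traceForm, SlashAction.sum_slash]
    refine Finset.sum_induction _ IsBoundedAtImInfty (fun _ _ h h' => h.add h')
      (Filter.const_boundedAtFilter _ (0 : ℂ)) fun x _ => ?_
    rw [← SlashAction.slash_mul]
    exact hf.bdd _

variable {m : ℕ} (haux : AuxLevel M m)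

/-- Division by the standard form gives the trace of the quotient. -/
theorem traceForm_eq {i : ℕ} (f : ℍ → ℂ) :
    traceForm q M ((2 * i : ℕ) : ℤ) f =
      (trL q M fun τ => f τ / auxW haux τ ^ i) * fun τ => auxW haux τ ^ i := by
  funext τ
  rw [traceForm, trL, Pi.mul_apply, Finset.sum_apply, Finset.sum_apply, Finset.sum_mul]
  refine Finset.sum_congr rfl fun x _ => ?_
  set g := (cosetRep q M x)⁻¹
  have hg : g ∈ Gamma m := ES.gamma_le_of_dvd haux.dvd (inv_mem (cosetRep_mem x))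
  have hd := UpperHalfPlane.denom_ne_zero (g : GL (Fin 2) ℝ) τ
  have hW := ES.auxW_ne_zero haux τ
  rw [ModularForm.SL_slash_apply, ES.act_apply, ES.auxW_smul_of_mem haux hg, mul_pow, ← pow_mul,
    zpow_neg, zpow_natCast]
  field_simp

omit [NeZero L] in
/-- The expansion of a slashed product with a power of the standard form. -/
theorem ofPowerSeries_eq_mul_wSer {A : Subring ℂ} (G : ES.BRing M A) (K : ℕ) {γ : SL(2, ℤ)}
    {c : PowerSeries ℂ}
    (hc : HasExp M (((G : ℍ → ℂ) * fun τ => auxW haux τ ^ K) ∣[((2 * K : ℕ) : ℤ)] γ) c) :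
    HahnSeries.ofPowerSeries ℤ ℂ c = lexp M γ (G : ℍ → ℂ) * wSer haux γ ^ K := by
  refine (HasLExp.of_exp hc).series_unique
    (((ES.hasLExp_lexp G.2.1 γ).mul ((hasLExp_auxW_conj haux γ).pow K)).congr_fun fun τ => ?_)
  rw [ModularForm.SL_slash_apply]
  have hden := UpperHalfPlane.denom_ne_zero (γ : GL (Fin 2) ℝ) τ
  simp only [Pi.mul_apply, Pi.pow_apply, ES.act_apply]
  rw [auxW, ES.dif_smul, mul_pow, ← pow_mul, zpow_neg, zpow_natCast]
  field_simp

end FermatAgent.BAD.Toric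

end
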