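import Fermat.Agent.BAD.Toric.BalElt
import Fermat.Agent.BAD.Toric.TraceForm
import Fermat.Agent.ES.Cong.Congruence

/-!
# The form of level `L` congruent to a balanced element

For a balanced form `v` the trace of `v ^ n (Δ(τ) ^ q / Δ(q τ)) ^ (n a)` is a form of level `L`
whose quotient by the standard form is congruent to the balanced element on the component at `∞`.
-/

set_option autoImplicit false

open UpperHalfPlane CongruenceSubgroup
open scoped MatrixGroups ModularForm Manifold

noncomputable section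

namespace FermatAgent.BAD.Toric

open FermatAgent.ES (BSub BRing SerIn HasExp HasLExp lexp lexp_eq hasLExp_lexp act AuxLevel CPlace
  auxW IsTwist parGroup zetaC twistSer LeadUnit)
open FermatAgent.PSEMI (wForm)
open FermatAgent.Flat.Kummer (deltaSer)

local notation "Δ" => ModularForm.discriminant

variable {q : ℕ} [hq : Fact q.Prime] {L M m : ℕ} [NeZero M] [NeZero L] (haux : AuxLevel M m)
  (hM : M.Coprime q) (hLM : L ∣ M) (hqm : q ≠ m) {n : ℕ} [NeZero n] {P : CPlace q}

/-- `(Δ / W⁶) (τ) ^ q / (Δ / W⁶) (q τ)`. -/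
def unitL (P : CPlace q) : LRing q M P.ring :=
  raiseL M ⟨_, Lift.unitU_mem haux (P.goodRoot hM)⟩ ^ q *
    dilL hM goodRoot_zeta ⟨_, Lift.unitU_inv_mem haux (P.goodRoot hM)⟩

/-- The unit as a function. -/
theorem coe_unitL (τ : ℍ) :
    (unitL haux hM P : ℍ → ℂ) τ =
      (Δ τ / auxW haux τ ^ 6) ^ q * (Δ (dilPt q τ) / auxW haux (dilPt q τ) ^ 6)⁻¹ := rfl

/-- The form to be traced. -/
def balF (q n a : ℕ) [NeZero q] (v : ℍ → ℂ) : ℍ → ℂ := v ^ n * eForm q ^ (n * a)

/-- The form of level `L`. -/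
def balForm1 (q M n a : ℕ) [Fact q.Prime] [NeZero M] (v : ℍ → ℂ) : ℍ → ℂ :=
  traceForm q M ((2 * (6 * n * (a * (q + 1))) : ℕ) : ℤ) (balF q n a v)

variable {χ : parGroup (Gamma0 (L * q)) n} {a : ℕ} {v : ℍ → ℂ} {c c0 : PowerSeries ℂ}

omit [NeZero n] in
/-- The weights match. -/
theorem balWeight :
    (n : ℤ) * ((2 * (2 * (6 * a)) : ℕ) : ℤ) + ((n * a : ℕ) : ℤ) * ((12 * (q - 1) : ℕ) : ℤ) =
      ((2 * (6 * n * (a * (q + 1))) : ℕ) : ℤ) := by
  obtain ⟨r, hr⟩ : ∃ r, q = r + 1 := ⟨q - 1, by have := hq.out.one_le; omega⟩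
  simp only [hr, Nat.add_sub_cancel]
  push_cast
  ring

omit [NeZero L] [NeZero n] in
include hM hLM in
theorem isTwist_balF (h : BalForm hM P χ a v c c0) :
    IsTwist (Gamma0 (L * q)) ((2 * (6 * n * (a * (q + 1))) : ℕ) : ℤ) 1 (balF q n a v) := by
  have h1 := (h.twist.pow n).mul ((isTwist_eForm (L := L) hM hLM).pow (n * a))
  rw [χ.2.1, balWeight] at h1
  convert h1 using 1
  · exact MonoidHom.ext fun γ => by simp [MonoidHom.pow_apply]
  · rfl

variable (hP : P.HasCDVRs) (hn : n.Coprime q) (h : BalForm hM P χ a v c c0)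
include haux hM hLM hqm hP hn h

/-- The element of level `q M` attached to the form. -/
def balX : LRing q M P.ring := balY haux hM hLM hqm hP hn h * unitL haux hM P ^ (n * a)

theorem coe_balX :
    (balX haux hM hLM hqm hP hn h : ℍ → ℂ) =
      fun τ => balF q n a v τ / auxW haux τ ^ (6 * n * (a * (q + 1))) := by
  funext τ
  have h1 := ES.auxW_ne_zero haux τ
  have h2 := ES.auxW_ne_zero haux (dilPt q τ)
  have h3 := ModularForm.discriminant_ne_zero (dilPt q τ)
  show balH q haux a v τ ^ n * (unitL haux hM P : ℍ → ℂ) τ ^ (n * a) = _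
  rw [coe_unitL]
  simp only [balH, balF, eForm, hasseFun, Pi.mul_apply, Pi.pow_apply, div_pow, mul_pow,
    inv_div, ← pow_mul]
  field_simp
  ring

/-- The function of level `M`. -/
def balG : BRing M P.ring := trB (balX haux hM hLM hqm hP hn h)

omit haux hqm hP hn [NeZero L] [NeZero n] in
/-- The traced form has level `L`. -/
theorem isTwist_balForm1 :
    IsTwist (Gamma0 L) ((2 * (6 * n * (a * (q + 1))) : ℕ) : ℤ) 1
      (balForm1 q M n a v) :=
  isTwist_traceForm hM hLM (isTwist_balF hM hLM h)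

/-- The traced form is the function of level `M` times a power of the standard form. -/
theorem balForm1_eq : balForm1 q M n a v =
    (balG haux hM hLM hqm hP hn h : ℍ → ℂ) *
      fun τ => auxW haux τ ^ (6 * n * (a * (q + 1))) := by
  rw [balForm1, traceForm_eq haux, balG,
    show ((trB (balX haux hM hLM hqm hP hn h) : BRing M P.ring) : ℍ → ℂ) =
      trL q M (balX haux hM hLM hqm hP hn h : ℍ → ℂ) from rfl, coe_balX]

omit hLM hP hn h in
theorem unitL_sub_one_mem : unitL haux hM P - 1 ∈ (pInf le_rfl : Ideal (LRing q M P.ring)) := by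
  have hz : zetaC (q * M) ∈ P.ring := goodRoot_zeta
  have hA := P.goodRoot hM
  set U := unitL haux hM P
  set H := hasseL haux hM hA hz
  set W := expandL q (wSer haux (1 : SL(2, ℤ))) ^ (q - 1)
  set D := expandL q (deltaSer M)
  set D' := expandL q (expandL q (deltaSer M))
  set ser := fun x : LRing q M P.ring => serAt M P.ring q 1 x
  have hH : P.SerLT (ser H * W - 1) := by
    have h1 := hasse_ser haux hM hA hz le_rfl hqm (γ := 1) (one_mem _)
    rwa [map_pow] at h1
  -- the identity `U D' (H W) ^ 6 = D ^ q`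
  have key : ser U * D' * (ser H * W) ^ 6 = D ^ q := by
    have hw := hasLExp_raise q (hasLExp_auxW_conj haux (1 : SL(2, ℤ)))
    have hl := ((hasLExp_lexp U.2.2.1 1).mul
      (hasLExp_raise q (hasLExp_dilFun q (Lift.hasLExp_disc M)))).mul
      (((hasLExp_lexp H.2.2.1 1).mul (hw.pow (q - 1))).pow 6)
    refine hl.series_unique (((hasLExp_raise q (Lift.hasLExp_disc M)).pow q).congr_fun fun τ => ?_)
    have h1 := ES.auxW_ne_zero haux τ
    have h2 := ES.auxW_ne_zero haux (dilPt q τ)
    have h3 := ModularForm.discriminant_ne_zero (dilPt q τ)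
    have hWe : ES.dif M (ES.vmul M (ES.refB haux.dvd) 1) (ES.vmul M (ES.refA haux.dvd) 1) =
        auxW haux := by rw [ES.vmul_one, ES.vmul_one]; rfl
    simp only [Pi.mul_apply, Pi.pow_apply, ES.act_one, hWe, dilFun_apply]
    rw [show (U : ℍ → ℂ) τ = _ from coe_unitL haux hM τ,
      show (H : ℍ → ℂ) τ = hasseFun haux q τ from rfl, hasseFun]
    obtain ⟨r, hr⟩ : ∃ r, q = r + 1 := ⟨q - 1, by have := hq.out.one_le; omega⟩
    have e : auxW haux τ ^ (6 * q) =
        (auxW haux τ * auxW haux τ ^ (q - 1)) ^ 6 := by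
      rw [← pow_succ', Nat.sub_add_cancel hq.out.one_le, ← pow_mul, mul_comm]
    rw [div_mul_eq_mul_div, div_pow _ (auxW haux (dilPt q τ)), ← e, div_pow, inv_div, ← pow_mul]
    field_simp
  -- the congruence of the discriminant
  have hD : P.SerLT (D ^ q - D') := by
    rw [← map_pow, ← map_sub]
    have hd : ∀ i, P.abv ((deltaSer M ^ q - expandL q (deltaSer M)).coeff i) < 1 := by
      obtain ⟨d, e⟩ : ∃ d : PowerSeries ℤ,
          deltaSer M = HahnSeries.ofPowerSeries ℤ ℂ (d.map (Int.castRingHom ℂ)) := by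
        refine ⟨PowerSeries.expand M (NeZero.ne M) (Lift.deltaPS ℤ), ?_⟩
        rw [PowerSeries.map_expand, Lift.map_deltaPS]
        refine (Lift.hasLExp_disc M).series_unique (HasLExp.of_exp ?_)
        exact hasExp_widen (NeZero.ne M) hasExp_delta
      intro i
      rw [e, expandL_ofPowerSeries, ← map_pow, ← map_sub, ← map_pow, ← PowerSeries.map_expand,
        ← map_sub]
      rcases lt_or_ge i 0 with hi | hi
      · rw [HahnSeries.ofPowerSeries_apply, HahnSeries.embDomain_of_notMem_range, map_zero]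
        · exact one_pos
        · rintro ⟨j, hj⟩
          simp at hj
          omega
      lift i to ℕ using hi
      rw [HahnSeries.ofPowerSeries_apply_coeff, PowerSeries.coeff_map]
      obtain ⟨z, hz⟩ :
          (q : ℤ) ∣ PowerSeries.coeff i (d ^ q - PowerSeries.expand q (NeZero.ne q) d) := by
        have : ExpChar (ZMod q) q := ExpChar.prime hq.out
        rw [← ZMod.intCast_zmod_eq_zero_iff_dvd]
        have h0 : (d ^ q - PowerSeries.expand q (NeZero.ne q) d).map (Int.castRingHom (ZMod q)) =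
            0 := by
          rw [map_sub, map_pow, ES.pow_char_series hq.out.ne_zero, PowerSeries.map_expand,
            ZMod.frobenius_zmod, PowerSeries.map_id, id_eq, PowerSeries.map_expand, sub_self]
        have h1 := congrArg (PowerSeries.coeff i) h0
        rwa [PowerSeries.coeff_map, map_zero] at h1
      rw [hz, map_mul, map_mul, map_natCast]
      exact mul_lt_one_of_nonneg_of_lt_one_left (P.abv.nonneg _) (by simpa using P.lt_one)
        (intCast_mem P.ring z)
    intro i
    by_cases hi : (q : ℤ) ∣ i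
    · obtain ⟨j, rfl⟩ := hi
      rw [expandL_coeff_mul]; exact hd j
    · rw [expandL_coeff_of_not_dvd q _ hi, map_zero]; exact one_pos
  have hD' : LeadUnit P.ring D' _ :=
    PSEMI.LevelMp.leadUnit_expandL
      (PSEMI.LevelMp.leadUnit_expandL (Lift.leadUnit_deltaSer M P.ring))
  have hsU : SerIn P.ring (ser U) := serIn_serAt 1 U
  have hsH : SerIn P.ring (ser H * W) :=
    (serIn_serAt 1 H).mul ((normed_expandL (normed_wSer haux hM 1)).1.pow _)
  obtain ⟨z, hz'⟩ := sub_dvd_pow_sub_pow (ser H * W) 1 6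
  have hu1 : P.SerLT (ser U - 1) := by
    refine serLT_mul (t := ser U - 1) (s := D') hD'.serIn (hsU.sub SerIn.one)
      (LeadUnit.unitCoeff hD') ?_
    have e : D' * (ser U - 1) = (D ^ q - D') - ser U * D' * ((ser H * W) ^ 6 - 1) := by
      linear_combination key
    rw [e]
    refine hD.sub ?_
    have h6 : P.SerLT ((ser H * W) ^ 6 - 1) := by
      have hgs := geom_sum_mul (ser H * W) 6
      rw [← hgs, mul_comm]
      refine hH.mul_serIn (Finset.sum_induction _ (SerIn P.ring) (fun _ _ => SerIn.add)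
        SerIn.zero fun i _ => hsH.pow i)
    rw [mul_comm]
    exact h6.mul_serIn (hsU.mul hD'.serIn)
  intro γ hγ
  refine P.serLT_of_not_unitCoeff (fun i => serIn_serAt γ (U - 1) i) fun hu => ?_
  have h2 := unitInf_of_unitCoeff haux hA le_rfl hM hz hqm hγ hu 1 (one_mem _)
  rw [map_sub, map_one] at h2
  exact hu1.not_unitCoeff h2

omit hLM hP hn h in
/-- The trace of a multiple by a power of the unit is congruent to the function. -/
theorem trB_mul_unitL_sub_mem (Y : LRing q M P.ring) (k : ℕ) :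
    raiseL M (trB (Y * unitL haux hM P ^ k)) - Y ∈ (pInf le_rfl : Ideal (LRing q M P.ring)) := by
  obtain ⟨z, hz⟩ := sub_dvd_pow_sub_pow (unitL haux hM P) 1 k
  rw [one_pow] at hz
  have e : raiseL M (trB (Y * unitL haux hM P ^ k)) - Y = Y * ((unitL haux hM P - 1) * z) -
      (Y * unitL haux hM P ^ k - raiseL M (trB (Y * unitL haux hM P ^ k))) := by
    rw [← hz]; ring
  rw [e]
  exact sub_mem (Ideal.mul_mem_left _ _ (Ideal.mul_mem_right _ _
    (unitL_sub_one_mem haux hM hqm))) (TwoP.sub_trB_mem_pInf hM le_rfl _)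

/-- **The congruence on the component at `∞`.** -/
theorem balG_sub_mem :
    raiseL M (balG haux hM hLM hqm hP hn h) - balY haux hM hLM hqm hP hn h ∈
      (pInf le_rfl : Ideal (LRing q M P.ring)) :=
  trB_mul_unitL_sub_mem haux hM hqm _ _

/-- **The residual identity at the cusps of type `∞`.** -/
theorem balG_ser_congr {γ : SL(2, ℤ)} (hγ : γ ∈ Gamma0 q) :
    P.SerLT (serAt M P.ring q γ (raiseL M (balG haux hM hLM hqm hP hn h)) *
        expandL q (wSer haux γ) ^ (6 * n * (a * (q + 1))) -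
      HahnSeries.ofPowerSeries ℤ ℂ
        (qExpansion ((q * M : ℕ) : ℝ) (v ∣[((2 * (2 * (6 * a)) : ℕ) : ℤ)] γ)) ^ n) := by
  have hz : zetaC (q * M) ∈ P.ring := goodRoot_zeta
  have hA := P.goodRoot hM
  set W := expandL q (wSer haux γ) with hWdef
  set V := HahnSeries.ofPowerSeries ℤ ℂ
    (qExpansion ((q * M : ℕ) : ℝ) (v ∣[((2 * (2 * (6 * a)) : ℕ) : ℤ)] γ))
  set H := hasseL haux hM hA hz
  set sY := serAt M P.ring q γ (balY haux hM hLM hqm hP hn h)
  have hW : Normed P W := normed_expandL (normed_wSer haux hM γ)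
  have hlam : lam q M ≤ Gamma0 (L * q) := (isLevel_gamma0 hM hLM).lam_le
  have hY : sY = (serAt M P.ring q γ H ^ (6 * a) * (V * (W ^ (2 * (6 * a)))⁻¹)) ^ n := by
    refine lexp_eq ((((hasLExp_lexp H.2.2.1 γ).pow (6 * a)).mul (hasLExp_form_div_level haux
      (ES.hasExp_slash_twist (M := q * M) (gamma_qM_le.trans hlam) χ.2.2 h.twist γ))).pow n
      |>.congr_fun fun τ => ?_)
    show balH q haux a v (γ • τ) ^ n = _
    rfl
  have hmul : sY * W ^ (6 * n * (a * (q + 1))) =
      V ^ n * (serAt M P.ring q γ H * W ^ (q - 1)) ^ (6 * a * n) := by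
    rw [hY]
    obtain ⟨r, hr⟩ : ∃ r, q = r + 1 := ⟨q - 1, by have := hq.out.one_le; omega⟩
    have e : 6 * n * (a * (q + 1)) = (q - 1) * (6 * a * n) + 2 * (6 * a) * n := by
      simp only [hr, Nat.add_sub_cancel]
      ring
    rw [e, pow_add, mul_pow _ (W ^ (q - 1)), ← pow_mul W (q - 1), mul_pow,
      ← pow_mul (serAt _ _ _ _ H), mul_pow, inv_pow, ← pow_mul]
    have hW0 : W ^ (2 * (6 * a) * n) ≠ 0 := pow_ne_zero _ hW.ne_zero
    field_simp
  have h1 : P.SerLT (serAt M P.ring q γ (raiseL M (balG haux hM hLM hqm hP hn h)) - sY) := by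
    have := balG_sub_mem haux hM hLM hqm hP hn h γ hγ
    rwa [map_sub] at this
  have hH : P.SerLT (serAt M P.ring q γ H * W ^ (q - 1) - 1) := by
    have h2 := hasse_ser haux hM hA hz le_rfl hqm (γ := γ) hγ
    rwa [map_pow] at h2
  have hV : SerIn P.ring (V ^ n) := by
    have e : V ^ n = sY * W ^ (6 * n * (a * (q + 1))) *
        ((serAt M P.ring q γ H * W ^ (q - 1)) ^ (6 * a * n))⁻¹ := by
      rw [hmul, mul_inv_cancel_right₀]
      refine pow_ne_zero _ (mul_ne_zero ?_ (pow_ne_zero _ hW.ne_zero))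
      exact Normed.ne_zero (P := P) (s := serAt M P.ring q γ H)
        ⟨fun k => serIn_serAt γ H k, hasseL_unitInf haux hM hA hz le_rfl hqm γ hγ⟩
    obtain ⟨γ', hr, hl⟩ := hasLExp_hasse_inf haux hγ
    have hser : serAt M P.ring q γ H = expandL q (wSer haux γ * (expandL q (wSer haux γ'))⁻¹) :=
      lexp_eq hl
    rw [e]
    have hsY : SerIn P.ring sY := serIn_serAt γ (balY haux hM hLM hqm hP hn h)
    refine (hsY.mul (hW.1.pow _)).mul ?_
    rw [hser, hWdef, ← map_pow, ← map_mul, ← map_pow, ← map_inv₀]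
    refine expandL_serIn ?_
    rw [← inv_pow, mul_inv, mul_inv, inv_inv, ← inv_pow]
    exact ((((wSer_inv_serIn haux hA γ).2).mul
      (expandL_serIn (wSer_inv_serIn haux hA γ').1)).mul
        (((wSer_inv_serIn haux hA γ).2).pow _)).pow _
  have h2 : P.SerLT ((serAt M P.ring q γ H * W ^ (q - 1)) ^ (6 * a * n) - 1) := by
    rw [← geom_sum_mul, mul_comm]
    exact hH.mul_serIn (Finset.sum_induction _ (SerIn P.ring) (fun _ _ => SerIn.add)
      SerIn.zero fun i _ => (((serIn_serAt γ H : SerIn P.ring _)).mul (hW.1.pow _)).pow i)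
  convert (h1.mul_serIn (hW.1.pow (6 * n * (a * (q + 1))))).add (h2.mul_serIn hV) using 1
  rw [sub_mul, hmul]
  ring

end FermatAgent.BAD.Toric

end
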