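import Fermat.Agent.BAD.Toric.Bal
import Fermat.Agent.ES.Ring.Cusps

/-!
# The form `Δ(τ) ^ q / Δ(q τ)`

A form of weight `12 (q - 1)` on `Γ₀(q)`; at every cusp its expansion is a unit times a constant
and has algebraic coefficients.
-/

set_option autoImplicit false

open UpperHalfPlane CongruenceSubgroup
open scoped MatrixGroups ModularForm Manifold

noncomputable section

namespace FermatAgent.BAD.Toric

open FermatAgent.ES (HasExp HasLExp IsTwist LeadUnit zetaC twistSer SerIn NonnegSer)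
open FermatAgent.Flat.Kummer (deltaSer)

local notation "Δ" => ModularForm.discriminant

/-- The algebraic numbers. -/
def algSub : Subring ℂ := (algebraicClosure ℚ ℂ).toSubring

/-- Membership in the algebraic numbers. -/
theorem mem_algSub {x : ℂ} : x ∈ algSub ↔ IsAlgebraic ℚ x :=
  mem_algebraicClosure_iff

/-- Roots of unity are algebraic. -/
theorem zetaC_mem_algSub (N : ℕ) [NeZero N] : zetaC N ∈ algSub :=
  mem_algSub.mpr ((ES.zetaC_isPrimitiveRoot N).isIntegral (NeZero.pos N)).tower_top.isAlgebraic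

theorem nonnegSer_of_leadUnit {A : Subring ℂ} {s : LaurentSeries ℂ} {k : ℤ} (h : LeadUnit A s k)
    (hk : 0 ≤ k) : NonnegSer s := fun i hi => by
  obtain ⟨u, -, rfl⟩ := h
  rw [ES.coeff_single_mul_ofPowerSeries, if_neg (by omega)]

theorem leadUnit_twistSer {N : ℕ} [NeZero N] {A : Subring ℂ} (hz : zetaC N ∈ A)
    {s : LaurentSeries ℂ} {k : ℤ} (h : LeadUnit A s k) (j : ℕ) :
    LeadUnit A (twistSer (zetaC N ^ j) s) k := by
  refine LeadUnit.of_coeff (serIn_twist h.serIn hz j) (fun i hi => ?_) ?_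
  · obtain ⟨u, -, rfl⟩ := h
    rw [ES.coeff_twistSer, ES.coeff_single_mul_ofPowerSeries, if_neg (by omega), zero_mul]
  · obtain ⟨h0, h1, h2⟩ := h.unitIn_coeff
    have hN : zetaC N ^ N = 1 := (ES.zetaC_isPrimitiveRoot N).pow_eq_one
    have hzi : (zetaC N)⁻¹ ∈ A := by
      rw [inv_eq_of_mul_eq_one_right (show zetaC N * zetaC N ^ (N - 1) = 1 by
        rw [← pow_succ', Nat.sub_add_cancel (NeZero.one_le (n := N)), hN])]
      exact A.pow_mem hz _
    have hz0 := (ES.zetaC_isPrimitiveRoot N).ne_zero (NeZero.ne N)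
    have hzz : ∀ i : ℤ, zetaC N ^ i ∈ A := fun i => by
      cases i with
      | ofNat i => simpa using A.pow_mem hz i
      | negSucc i =>
        rw [zpow_negSucc, ← inv_pow]
        exact A.pow_mem hzi _
    rw [ES.coeff_twistSer]
    refine ⟨mul_ne_zero h0 (zpow_ne_zero _ (pow_ne_zero _ hz0)), A.mul_mem h1 ?_, ?_⟩
    · rw [← zpow_natCast, ← zpow_mul]; exact hzz _
    · rw [mul_inv, ← zpow_natCast, ← zpow_mul, ← zpow_neg]
      exact A.mul_mem h2 (hzz _)

variable {q : ℕ} [hq : Fact q.Prime] {L M : ℕ} [NeZero M] [NeZero L] (hM : M.Coprime q)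
  (hLM : L ∣ M)

/-- `Δ(τ) ^ q / Δ(q τ)`. -/
def eForm (q : ℕ) [NeZero q] : ℍ → ℂ := fun τ => Δ τ ^ q / Δ (dilPt q τ)

theorem eForm_slash_apply (γ : SL(2, ℤ)) (τ : ℍ) :
    (eForm q ∣[((12 * (q - 1) : ℕ) : ℤ)] γ) τ =
      Δ τ ^ q * UpperHalfPlane.denom (γ : GL (Fin 2) ℝ) τ ^ 12 / Δ (dilPt q (γ • τ)) := by
  have hd := UpperHalfPlane.denom_ne_zero (γ : GL (Fin 2) ℝ) τ
  rw [ModularForm.SL_slash_apply, eForm, Curve.discriminant_smul, mul_pow, ← pow_mul, zpow_neg,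
    zpow_natCast]
  obtain ⟨r, hr⟩ : ∃ r, q = r + 1 := ⟨q - 1, by have := hq.out.one_le; omega⟩
  simp only [hr, Nat.add_sub_cancel]
  rw [show 12 * (r + 1) = 12 * r + 12 by ring, pow_add]
  field_simp

theorem eForm_slash_inf {γ : SL(2, ℤ)} (hγ : γ ∈ Gamma0 q) :
    eForm q ∣[((12 * (q - 1) : ℕ) : ℤ)] γ = eForm q := by
  obtain ⟨γ', h00, h01, h10, h11, h⟩ := exists_dil_conj q γ (mem_Gamma0_dvd.mp hγ)
  funext τ
  have hd := UpperHalfPlane.denom_ne_zero (γ : GL (Fin 2) ℝ) τ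
  have h0 := ModularForm.discriminant_ne_zero (dilPt q τ)
  rw [eForm_slash_apply, h, Curve.discriminant_smul, denom_dil_conj h10 h11, eForm]
  field_simp

omit [NeZero M] in
include hM in
theorem eForm_slash_zero {γ : SL(2, ℤ)} (hγ : γ ∉ Gamma0 q) :
    ∃ j : ℕ, eForm q ∣[((12 * (q - 1) : ℕ) : ℤ)] γ =
      fun τ => (q : ℂ) ^ 12 * (Δ τ ^ q / Δ (ctrPt q j τ)) := by
  obtain ⟨j, -, hjd⟩ := exists_ctr_index q hq.out hM γ fun hd => hγ (mem_Gamma0_dvd.mpr hd)
  obtain ⟨γ', h00, h01, h10, h11, h⟩ := exists_ctr_conj q γ j hjd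
  refine ⟨j, funext fun τ => ?_⟩
  have hd := UpperHalfPlane.denom_ne_zero (γ' : GL (Fin 2) ℝ) (ctrPt q j τ)
  have h0 := ModularForm.discriminant_ne_zero (ctrPt q j τ)
  rw [eForm_slash_apply, h, Curve.discriminant_smul, ← denom_ctr_conj h10 h11 τ]
  field_simp

include hM in
/-- **The expansions.** -/
theorem exists_eForm_ser {A : Subring ℂ} (hz : zetaC (q * M) ∈ A) (γ : SL(2, ℤ)) :
    ∃ (c : ℂ) (s : LaurentSeries ℂ) (k : ℤ), 0 ≤ k ∧ (c = 1 ∨ c = (q : ℂ) ^ 12) ∧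
      LeadUnit A s k ∧
      HasLExp (q * M) (eForm q ∣[((12 * (q - 1) : ℕ) : ℤ)] γ) (HahnSeries.C c * s) := by
  have hD := PSEMI.LevelMp.leadUnit_expandL (p := q) (A := A) (Lift.leadUnit_deltaSer M A)
  have hDM := hasLExp_raise q (Lift.hasLExp_disc M)
  have hne : ∀ τ, (Δ : ℍ → ℂ) τ ≠ 0 := ModularForm.discriminant_ne_zero
  by_cases hγ : γ ∈ Gamma0 q
  · have h2 := hasLExp_raise q (hasLExp_dilFun q (Lift.hasLExp_disc M))
    have hs := PSEMI.LevelMp.leadUnit_expandL (p := q)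
      (PSEMI.LevelMp.leadUnit_expandL (p := q) (A := A) (Lift.leadUnit_deltaSer M A))
    refine ⟨1, _, _, ?_, Or.inl rfl, (hD.pow q).mul hs.inv, ?_⟩
    · nlinarith
    · rw [map_one, one_mul, eForm_slash_inf hγ]
      exact ((hDM.pow q).mul (h2.inv (fun τ => hne _) hs.ne_zero)).congr_fun fun τ => by
        simp [eForm, div_eq_mul_inv, dilFun_apply]
  · obtain ⟨j, hj⟩ := eForm_slash_zero hM hγ
    have h2 := hasLExp_ctrPt q (Lift.hasLExp_disc M) j
    have hs := leadUnit_twistSer hz (Lift.leadUnit_deltaSer M A) j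
    refine ⟨(q : ℂ) ^ 12, _, _, ?_, Or.inr rfl, (hD.pow q).mul hs.inv, ?_⟩
    · have h4 : (1 : ℤ) ≤ q := by exact_mod_cast hq.out.one_le
      have h5 : (0 : ℤ) ≤ M := Nat.cast_nonneg M
      nlinarith [mul_le_mul_of_nonneg_right (one_le_mul_of_one_le_of_one_le h4 h4) h5]
    · rw [hj]
      exact ((HasLExp.const ((q : ℂ) ^ 12)).mul ((hDM.pow q).mul
        (h2.inv (fun τ => hne _) hs.ne_zero))).congr_fun fun τ => by
          simp [div_eq_mul_inv]

omit [NeZero L] in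
include hM hLM in
/-- **It is a form on `Γ₀(L q)`.** -/
theorem isTwist_eForm :
    IsTwist (Gamma0 (L * q)) ((12 * (q - 1) : ℕ) : ℤ) 1 (eForm q) where
  mdiff := by
    refine MDifferentiable.div (Curve.mdiff_discriminant.pow q) ?_ fun τ =>
      ModularForm.discriminant_ne_zero _
    exact (hasLExp_dilFun q (Lift.hasLExp_disc M)).mdifferentiable
  slash γ := by
    rw [eForm_slash_inf ((mem_gamma0_mul_iff (coprime_of_aux hM hLM)).mp γ.2).2]
    funext τ
    simp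
  bdd γ := by
    obtain ⟨c, s, k, hk, -, hs, h⟩ := exists_eForm_ser (q := q) hM
      (A := ⊤) trivial γ
    refine ES.isBounded_of_nonneg h fun i hi => ?_
    rw [coeff_C_mul', nonnegSer_of_leadUnit hs hk i hi, mul_zero]

end FermatAgent.BAD.Toric

end
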