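import Fermat.Agent.BAD.Toric.SerFactor
import Fermat.Agent.BAD.Normal
import Fermat.Agent.BAD.DivisibleWitness

/-!
# Contents at the cusps of level `q M`

A function with contents which is normed at `∞` is normed at every cusp of type `∞`.
-/

set_option autoImplicit false

open UpperHalfPlane CongruenceSubgroup IsLocalRing
open scoped MatrixGroups ModularForm Manifold

noncomputable section

namespace FermatAgent.BAD.Toric

open FermatAgent.ES (BSub BRing SerIn HasLExp HasExp lexp lexp_eq hasLExp_lexp act zetaC AuxLevel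
  CPlace GoodRoot IsTwist IsParChar auxW vanishOrd)

variable {q M m : ℕ} [Fact q.Prime] [NeZero M] {P : CPlace q}

/-- A change of width of a normed series is normed. -/
theorem normed_expandL {s : LaurentSeries ℂ} (hs : Normed P s) : Normed P (expandL q s) := by
  refine ⟨expandL_serIn hs.1, ?_⟩
  obtain ⟨i, hi⟩ := hs.2
  exact ⟨q * i, by rwa [expandL_coeff_mul]⟩

omit [Fact (Nat.Prime q)] in
/-- A series with a leading unit is normed. -/
theorem Normed.of_leadUnit {s : LaurentSeries ℂ} {k : ℤ} (h : ES.LeadUnit P.ring s k) :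
    Normed P s := ⟨h.serIn, ES.LeadUnit.unitCoeff h⟩

omit [Fact (Nat.Prime q)] in
theorem Normed.inv_of_leadUnit {s : LaurentSeries ℂ} {k : ℤ} (h : ES.LeadUnit P.ring s k) :
    Normed P s⁻¹ := Normed.of_leadUnit h.inv

variable (haux : AuxLevel M m) (hM : M.Coprime q)

omit [Fact (Nat.Prime q)] in
include hM in
/-- The series of the standard form are normed. -/
theorem normed_wSer (γ : SL(2, ℤ)) : Normed P (wSer haux γ) :=
  .of_leadUnit (leadUnit_auxW_conj haux (P.goodRoot hM) γ).choose_spec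

omit [Fact (Nat.Prime q)] in
include hM in
/-- The inverse series of the standard form are normed. -/
theorem normed_inv_wSer (γ : SL(2, ℤ)) : Normed P (wSer haux γ)⁻¹ :=
  .inv_of_leadUnit (leadUnit_auxW_conj haux (P.goodRoot hM) γ).choose_spec

/-- The expansion in the parameter of level `q M` of the function attached to a form. -/
theorem hasLExp_form_div_level {i : ℕ} {f : ℍ → ℂ} {γ : SL(2, ℤ)} {c : PowerSeries ℂ}
    (hc : HasExp (q * M) (f ∣[((2 * i : ℕ) : ℤ)] γ) c) :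
    HasLExp (q * M) (act γ fun τ => f τ / auxW haux τ ^ i)
      (HahnSeries.ofPowerSeries ℤ ℂ c * (expandL q (wSer haux γ) ^ i)⁻¹) := by
  have hadm := (ES.adm_ref haux).mul γ
  refine ((HasLExp.of_exp hc).mul (((hasLExp_raise q (hasLExp_auxW_conj haux γ)).pow i).inv
    (fun τ => pow_ne_zero _ (hadm.dif_ne_zero τ)) (pow_ne_zero _
      ((map_ne_zero_iff _ (expandL_injective q)).mpr (wSer_ne_zero haux γ))))).congr_fun fun τ => ?_
  simp only [ES.act_apply, Pi.mul_apply, Pi.inv_apply, Pi.pow_apply, ModularForm.SL_slash_apply,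
    auxW, ES.dif_smul, mul_pow, ← pow_mul, zpow_neg, zpow_natCast]
  field_simp

variable {Γ : Subgroup SL(2, ℤ)} {i : ℕ} {χ : Γ →* ℂˣ} {v : ℍ → ℂ}

/-- The power of a normalised form with multiplier is a function of level `q M`. -/
theorem pow_div_auxW_mem_LSub {n : ℕ} [NeZero n] (hΓ : lam q M ≤ Γ) (hχ : χ ^ n = 1)
    (hv : IsTwist Γ ((2 * i : ℕ) : ℤ) χ v) :
    (fun τ => v τ / auxW haux τ ^ i) ^ n ∈ LSub q M := by
  refine ⟨?_, fun δ hδ => ?_⟩
  · have h := ES.pow_form_mem (auxLevel_level (q := q) haux) (n := n)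
      (gamma_qM_le.trans hΓ) hχ hv
    rwa [auxW_level haux] at h
  · exact act_div_auxW_pow haux hχ hv (hΓ hδ) (Gamma_M_le haux hδ)

include hM in
/-- There is a coefficient ring containing a given finite set. -/
theorem exists_coeffRing (hP : P.HasCDVRs) {S : Set ℂ} (hS : S.Finite) (hSP : S ⊆ P.ring) :
    ∃ O : Subring ℂ, P.IsCDVR O ∧ GoodRoot M O (zetaC M) ∧ zetaC (q * M) ∈ O ∧ S ⊆ O := by
  obtain ⟨R, -, hRS⟩ := hP
  set T : Set ℂ := insert (zetaC (q * M)) S
  obtain ⟨hO', hsub⟩ := hRS T (hS.insert _)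
    (Set.insert_subset (goodRoot_zeta (P := P)) hSP)
  have hζ : zetaC (q * M) ∈ R T := hsub (Set.mem_insert _ _)
  have hzM : zetaC M ∈ R T := by
    rw [← zetaC_level_pow (q := q)]
    exact (R T).pow_mem hζ q
  exact ⟨R T, hO', ⟨(P.goodRoot hM).1, hzM, fun e he => hO'.unitIn
    ((R T).sub_mem (R T).one_mem ((R T).pow_mem hzM e))
      (P.abv_eq_one_of_unitIn ((P.goodRoot hM).3 e he))⟩, hζ,
    fun x hx => hsub (Set.mem_insert_of_mem _ hx)⟩

/-- A bounded multiplier of a function, without zeros. -/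
theorem exists_const_sepN_mem (haux : AuxLevel M m) (hM : M.Coprime q) {f : ℍ → ℂ}
    (hf : f ∈ LSub q M) :
    ∃ N : LRing q M P.ring, (∀ τ, (N : ℍ → ℂ) τ ≠ 0) ∧
      (N : ℍ → ℂ) * f ∈ LRing q M P.ring := by
  obtain ⟨c, hc0, hcP, hc⟩ := exists_const_mul_sepN (P := P) haux hM hf.1
  have hN : (fun _ : ℍ => c) * sepN q haux ∈ LRing q M P.ring :=
    mul_mem (const_mem_LRing hcP) (mem_LRing_of_BRing
      (sepN_mem_BRing haux (P.goodRoot hM) (goodRoot_zeta (P := P))))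
  exact ⟨⟨_, hN⟩, fun τ => mul_ne_zero hc0 (sepN_ne_zero haux τ), hc, mul_mem hN.2 hf⟩

include haux hM in
/-- **Normed at `∞` implies normed at all cusps of type `∞`.** -/
theorem normed_inf_of_one (hP : P.HasCDVRs) (hqm : q ≠ m) {f : ℍ → ℂ} (hf : f ∈ LSub q M)
    (hc : ∀ γ, HasContent P (lexp (q * M) γ f)) (h1 : Normed P (lexp (q * M) 1 f))
    {γ : SL(2, ℤ)} (hγ : γ ∈ Gamma0 q) : Normed P (lexp (q * M) γ f) := by
  classical
  obtain ⟨N, hN0, hNf⟩ := exists_const_sepN_mem (P := P) haux hM hf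
  obtain ⟨S1, hS1, hS1O⟩ := exists_finset_mem_LRing haux hM N.2
  obtain ⟨S2, hS2, hS2O⟩ := exists_finset_mem_LRing haux hM hNf
  obtain ⟨O, hO', hA, hζ, hsub⟩ := exists_coeffRing (M := M) hM hP
    (S := ↑(S1 ∪ S2)) (S1 ∪ S2).finite_toSet (by
      simp only [Finset.coe_union]; exact Set.union_subset hS1 hS2)
  simp only [Finset.coe_union, Set.union_subset_iff] at hsub
  have := hO'.dvr
  obtain ⟨ϖ, hϖ⟩ := IsDiscreteValuationRing.exists_irreducible O
  set N' : LRing q M O := ⟨_, hS1O O hO' hA hζ hsub.1⟩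
  set g : LRing q M O := ⟨_, hS2O O hO' hA hζ hsub.2⟩
  have e : ∀ δ, serAt M O q δ g = serAt M O q δ N' * lexp (q * M) δ f := fun δ =>
    lexp_eq ((hasLExp_lexp N'.2.2.1 δ).mul (hasLExp_lexp hf.1 δ))
  have hN'0 : N' ≠ 0 := fun h => hN0 UpperHalfPlane.I (congrFun (congrArg Subtype.val h) _)
  have hg0 : g ≠ 0 := fun h => by
    have h3 := e 1
    rw [h, map_zero, eq_comm, mul_eq_zero] at h3
    exact h3.elim (fun h4 => hN'0 (serAt_injective 1 (h4.trans (map_zero _).symm))) h1.ne_zero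
  obtain ⟨j1, A, hA1, heA⟩ := exists_normal_inf haux hA hO'.le hM hζ hqm hO' hϖ hN'0
  obtain ⟨j2, B, hB1, heB⟩ := exists_normal_inf haux hA hO'.le hM hζ hqm hO' hϖ hg0
  set H := hasseL haux hM hA hζ
  obtain ⟨i1, A, hA1, heA⟩ : ∃ (i1 : ℕ) (A : LRing q M O), UnitInf P A ∧
      H ^ j1 * N' = constL (ϖ ^ i1) * A := ⟨j1, A, hA1, heA⟩
  obtain ⟨i2, B, hB1, heB⟩ : ∃ (i2 : ℕ) (B : LRing q M O), UnitInf P B ∧
      H ^ j2 * g = constL (ϖ ^ i2) * B := ⟨j2, B, hB1, heB⟩
  have hn : ∀ (x : LRing q M O), UnitInf P x → ∀ δ ∈ Gamma0 q, Normed P (serAt M O q δ x) :=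
    fun x hx δ hδ => ⟨fun k => hO'.le (serIn_serAt δ x k), hx δ hδ⟩
  have hH := hn H (hasseL_unitInf haux hM hA hζ hO'.le hqm)
  have key : ∀ δ, HahnSeries.C ((ϖ : ℂ) ^ i2) * (serAt M O q δ B * serAt M O q δ H ^ j1) =
      HahnSeries.C ((ϖ : ℂ) ^ i1) *
        (serAt M O q δ A * serAt M O q δ H ^ j2 * lexp (q * M) δ f) := fun δ => by
    have hA' := congrArg (serAt M O q δ) heA
    have hB' := congrArg (serAt M O q δ) heB
    rw [map_mul, map_mul, map_pow, serAt_constL, SubmonoidClass.coe_pow] at hA' hB'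
    rw [e δ] at hB'
    linear_combination (-(serAt M O q δ H ^ j1)) * hB' +
      (serAt M O q δ H ^ j2 * lexp (q * M) δ f) * hA'
  have hϖ0 : (ϖ : ℂ) ^ i2 ≠ 0 := pow_ne_zero _ fun h => hϖ.ne_zero (Subtype.ext h)
  have hr : ∀ δ, serAt M O q δ B * serAt M O q δ H ^ j1 =
      HahnSeries.C (((ϖ : ℂ) ^ i2)⁻¹ * (ϖ : ℂ) ^ i1) *
        (serAt M O q δ A * serAt M O q δ H ^ j2 * lexp (q * M) δ f) := fun δ => by
    rw [map_mul, mul_assoc, ← key δ, ← mul_assoc, ← map_mul, inv_mul_cancel₀ hϖ0, map_one, one_mul]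
  set a := ((ϖ : ℂ) ^ i2)⁻¹ * (ϖ : ℂ) ^ i1
  have ha : P.abv a = 1 := by
    refine ((((hn A hA1 1 (one_mem _)).mul ((hH 1 (one_mem _)).pow j2)).mul h1)).abv_eq_one ?_
    rw [← hr]
    exact (hn B hB1 1 (one_mem _)).mul ((hH 1 (one_mem _)).pow j1)
  refine (hc γ).normed_of_mul ((hn A hA1 γ hγ).mul ((hH γ hγ).pow j2)) ?_
  have h2 := ((hn B hB1 γ hγ).mul ((hH γ hγ).pow j1)).C_mul (a := a⁻¹)
    (by rw [map_inv₀, ha, inv_one])
  rwa [hr, ← mul_assoc, ← map_mul, inv_mul_cancel₀ (fun h => by simp [h] at ha), map_one,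
    one_mul] at h2

end FermatAgent.BAD.Toric
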