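import Fermat.Agent.BAD.Toric.BalTrace
import Fermat.Agent.BAD.SerPS

/-!
# The expansion of the form of level `L`

It has algebraic coefficients and its reduction is the `n`-th power of that of the balanced form.
-/

set_option autoImplicit false

open UpperHalfPlane CongruenceSubgroup
open scoped MatrixGroups ModularForm Manifold

noncomputable section

namespace FermatAgent.BAD.Toric

open FermatAgent.ES (HasExp HasLExp lexp act AuxLevel CPlace auxW IsTwist parGroup zetaC twistSer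
  SerIn BRing)
open FermatAgent.PSEMI (wForm)

variable {q : ℕ} [hq : Fact q.Prime] {L M m : ℕ} [NeZero M] [NeZero L]

/-- A power series with algebraic coefficients is a series over the algebraic numbers. -/
theorem serIn_algSub_of_coeff {c : PowerSeries ℂ}
    (hc : ∀ e, IsAlgebraic ℚ (PowerSeries.coeff e c)) :
    SerIn algSub (HahnSeries.ofPowerSeries ℤ ℂ c) :=
  serIn_ofPowerSeries_of_coeff fun e => mem_algSub.mpr (hc e)

theorem isAlgebraic_coeff_expand {r : ℕ} (hr : r ≠ 0) {c : PowerSeries ℂ}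
    (hc : ∀ e, IsAlgebraic ℚ (PowerSeries.coeff e c)) (e : ℕ) :
    IsAlgebraic ℚ (PowerSeries.coeff e (PowerSeries.expand r hr c)) := by
  by_cases hd : r ∣ e
  · obtain ⟨j, rfl⟩ := hd
    rw [PowerSeries.coeff_expand_mul]
    exact hc j
  · rw [PowerSeries.coeff_expand_of_not_dvd r hr _ hd]
    exact isAlgebraic_zero

variable (hM : M.Coprime q)

/-- The expansion at `γ₀` from that of the transform at `∞`. -/
theorem hasLExp_slash_atkin {k : ℤ} {v : ℍ → ℂ} {d : PowerSeries ℂ} {s : LaurentSeries ℂ}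
    (hs : HasLExp (q * M) (v ∣[k] atkinMat hM) s) (hd : HasExp 1 (wForm hM k v) d) :
    s = HahnSeries.ofPowerSeries ℤ ℂ (PowerSeries.expand M (NeZero.ne M) d) := by
  refine expandL_injective q ?_
  have h1 : HasLExp (q * M) (wForm hM k v) (expandL q s) := hasLExp_dilFun q hs
  rw [h1.series_unique (HasLExp.of_exp
      (hasExp_widen (mul_ne_zero hq.out.ne_zero (NeZero.ne M)) hd)),
    expandL_ofPowerSeries, PowerSeries.expand_mul]

variable (hLM : L ∣ M) {n : ℕ} [NeZero n]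

omit [NeZero L] in
include hM hLM in
/-- The expansions at the cusps of `Γ(M)` have algebraic coefficients. -/
theorem serIn_algSub_slash {k : ℤ} {χ : parGroup (Gamma0 (L * q)) n} {v : ℍ → ℂ}
    (hv : IsTwist (Gamma0 (L * q)) k (χ : Gamma0 (L * q) →* ℂˣ) v) {c c0 : PowerSeries ℂ}
    (hc : HasExp 1 v c) (hc0 : HasExp 1 (wForm hM k v) c0)
    (halg : ∀ e, IsAlgebraic ℚ (PowerSeries.coeff e c))
    (halg0 : ∀ e, IsAlgebraic ℚ (PowerSeries.coeff e c0)) {g : SL(2, ℤ)} (hg : g ∈ Gamma M) :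
    ∃ s, HasLExp (q * M) (v ∣[k] g) s ∧ SerIn algSub s := by
  have hlam : lam q M ≤ Gamma0 (L * q) := (isLevel_gamma0 hM hLM).lam_le
  have hqM : q * M ≠ 0 := mul_ne_zero hq.out.ne_zero (NeZero.ne M)
  have hχ : ∀ δ : Gamma0 (L * q), ((χ : Gamma0 (L * q) →* ℂˣ) δ : ℂ) ∈ algSub := fun δ =>
    mem_algSub.mpr (IsAlgebraic.of_pow (NeZero.pos n) (by
      rw [← Units.val_pow_eq_pow_val, ← MonoidHom.pow_apply, χ.2.1]
      exact isAlgebraic_one))
  have key : ∀ (δ : SL(2, ℤ)) (hδ : δ ∈ Gamma0 (L * q)) (u : SL(2, ℤ)) (s : LaurentSeries ℂ),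
      g = δ * u → HasLExp (q * M) (v ∣[k] u) s → SerIn algSub s →
      ∃ s, HasLExp (q * M) (v ∣[k] g) s ∧ SerIn algSub s := by
    intro δ hδ u s hgu hs hsA
    refine ⟨HahnSeries.C ((χ : Gamma0 (L * q) →* ℂˣ) ⟨δ, hδ⟩ : ℂ) * s,
      ((HasLExp.const ((χ : Gamma0 (L * q) →* ℂˣ) ⟨δ, hδ⟩ : ℂ)).mul hs).congr_fun fun τ => ?_,
      (SerIn.C (hχ _)).mul hsA⟩
    rw [hgu, SlashAction.slash_mul, hv.slash ⟨δ, hδ⟩]
    rw [show (fun τ => ((χ : Gamma0 (L * q) →* ℂˣ) ⟨δ, hδ⟩ : ℂ) * v τ) =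
      ((χ : Gamma0 (L * q) →* ℂˣ) ⟨δ, hδ⟩ : ℂ) • v from rfl, ModularForm.SL_smul_slash]
    rfl
  by_cases hgq : g ∈ Gamma0 q
  · refine key g (hlam ⟨hgq, hg⟩) 1 _ (mul_one g).symm ?_
      (serIn_algSub_of_coeff (isAlgebraic_coeff_expand hqM halg))
    rw [SlashAction.slash_one]
    exact HasLExp.of_exp (hasExp_widen hqM hc)
  · obtain ⟨j, δ, -, hδ, hgδ⟩ := exists_mem_lam_mul_T_pow hM
      (fun h => atkinMat_not_dvd hM (mem_Gamma0_dvd.mp h)) hgq
      (show ES.modMat M g = ES.modMat M (atkinMat hM) by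
        rw [ES.modMat_eq_one_of_mem hg, ES.modMat_eq_one_of_mem (atkinMat_mem hM)])
    obtain ⟨s, hs⟩ : ∃ s, HasLExp (q * M) (v ∣[k] atkinMat hM) s :=
      ⟨_, HasLExp.of_exp (ES.hasExp_slash_twist (M := q * M) (gamma_qM_le.trans hlam) χ.2.2 hv _)⟩
    refine key δ (hlam hδ) _ (twistSer (zetaC (q * M) ^ j) s) hgδ ?_ ?_
    · refine (ES.hasLExp_act_T_pow hs j).congr_fun fun τ => ?_
      rw [SlashAction.slash_mul, ES.act_apply, ModularForm.SL_slash_apply]
      rw [ModularGroup.denom_apply, ES.T_pow_coe]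
      simp
    · rw [hasLExp_slash_atkin hM hs hc0]
      exact serIn_twist (serIn_algSub_of_coeff (isAlgebraic_coeff_expand _ halg0))
        (zetaC_mem_algSub _) j

variable (haux : AuxLevel M m) (hqm : q ≠ m) {P : CPlace q} (hP : P.HasCDVRs) (hn : n.Coprime q)
  {χ : parGroup (Gamma0 (L * q)) n} {a : ℕ} {v : ℍ → ℂ} {c c0 : PowerSeries ℂ}
  (h : BalForm hM P χ a v c c0)

include haux hM hLM hqm hP hn h in
/-- **The expansion of the form of level `L`.** -/
theorem exists_balForm1_ser :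
    ∃ cF cv : PowerSeries P.ring, HasExp 1 (balForm1 q M n a v) (cF.map P.ring.subtype) ∧
      cv.map P.ring.subtype = c ∧
      (∀ e, IsAlgebraic ℚ ((PowerSeries.coeff e cF : P.ring) : ℂ)) ∧
      cv.map P.res ≠ 0 ∧ cF.map P.res = cv.map P.res ^ n := by
  have hqM : q * M ≠ 0 := mul_ne_zero hq.out.ne_zero (NeZero.ne M)
  set k : ℤ := ((2 * (6 * n * (a * (q + 1))) : ℕ) : ℤ) with hk
  set F := balForm1 q M n a v
  have hF := isTwist_balForm1 hM hLM h
  have hcF : HasExp 1 F (qExpansion ((1 : ℕ) : ℝ) F) :=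
    ES.hasExp_one_twist (ES.goodLevel_Gamma0 L).T_mem (1 : parGroup (Gamma0 L) 1).2.2 hF
  set cF0 := qExpansion ((1 : ℕ) : ℝ) F
  -- algebraicity
  obtain ⟨cW, hcW, hcWalg⟩ : ∃ cW, HasExp 1 (wForm hM ((2 * (2 * (6 * a)) : ℕ) : ℤ) v) cW ∧
      ∀ e, IsAlgebraic ℚ (PowerSeries.coeff e cW) := by
    refine ⟨PowerSeries.C ((q : ℂ) ^ (2 * (6 * a)))⁻¹ * c0,
      (h.expW.smul ((q : ℂ) ^ (2 * (6 * a)))⁻¹).congr_fun fun τ => ?_, fun e => ?_⟩
    · rw [Pi.smul_apply, smul_eq_mul,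
        inv_mul_cancel_left₀ (pow_ne_zero _ q_cast_ne_zero)]
    · rw [PowerSeries.coeff_C_mul]
      exact ((isAlgebraic_natCast q).pow _).inv.mul (h.cont0.1 e).1
  have hterm : ∀ x : CosetL q M, ∃ s, HasLExp (q * M) (balF q n a v ∣[k] (cosetRep q M x)⁻¹) s ∧
      SerIn algSub s := by
    intro x
    set g := (cosetRep q M x)⁻¹
    obtain ⟨s, hs, hsA⟩ := serIn_algSub_slash hM hLM h.twist h.exp hcW (fun e => (h.cont.1 e).1)
      hcWalg (inv_mem (cosetRep_mem x))
    obtain ⟨b, t, l, -, hb, ht, hte⟩ := exists_eForm_ser (q := q) hM (A := algSub)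
      (zetaC_mem_algSub _) g
    refine ⟨s ^ n * (HahnSeries.C b * t) ^ (n * a), ((hs.pow n).mul (hte.pow (n * a))).congr_fun
      fun τ => ?_, (hsA.pow n).mul (((SerIn.C ?_).mul ht.serIn).pow _)⟩
    · rw [hk, balF, ← balWeight, ModularForm.mul_slash_SL2, ES.slash_pow, ES.slash_pow]
    · rcases hb with rfl | rfl
      · exact algSub.one_mem
      · exact algSub.pow_mem (natCast_mem algSub q) 12
  choose S hS hSA using hterm
  have hsum : HasLExp (q * M) F (∑ x : CosetL q M, S x) := by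
    rw [show F = ∑ x : CosetL q M, balF q n a v ∣[k] (cosetRep q M x)⁻¹ from rfl]
    exact HasLExp.sum _ fun x _ => hS x
  have hser := hsum.series_unique (HasLExp.of_exp (hasExp_widen hqM hcF))
  have halgF : ∀ e, IsAlgebraic ℚ (PowerSeries.coeff e cF0) := fun e => by
    have h1 : (∑ x : CosetL q M, S x).coeff ((q * M * e : ℕ) : ℤ) ∈ algSub := by
      rw [HahnSeries.coeff_sum]
      exact Subring.sum_mem _ fun x _ => hSA x _
    rw [hser, HahnSeries.ofPowerSeries_apply_coeff, PowerSeries.coeff_expand_mul] at h1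
    exact mem_algSub.mp h1
  -- the residual identity
  set G := balG haux hM hLM hqm hP hn h
  set W := expandL q (wSer haux (1 : SL(2, ℤ)))
  set sG := serAt M P.ring q 1 (raiseL M G)
  have hcongr := balG_ser_congr haux hM hLM hqm hP hn h (γ := 1) (one_mem _)
  have hGF : sG * W ^ (6 * n * (a * (q + 1))) =
      HahnSeries.ofPowerSeries ℤ ℂ (PowerSeries.expand (q * M) hqM cF0) := by
    refine (((ES.hasLExp_lexp (raiseL (q := q) M G).2.2.1 1).mul
      ((hasLExp_raise q (hasLExp_auxW_conj haux (1 : SL(2, ℤ)))).pow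
        (6 * n * (a * (q + 1))))).series_unique
      ((HasLExp.of_exp (hasExp_widen hqM hcF)).congr_fun fun τ => ?_))
    rw [show F = _ from balForm1_eq haux hM hLM hqm hP hn h]
    simp only [Pi.mul_apply, Pi.pow_apply, ES.act_one, ES.vmul_one, coe_raiseL]
    rfl
  have hV : qExpansion ((q * M : ℕ) : ℝ) (v ∣[((2 * (2 * (6 * a)) : ℕ) : ℤ)] (1 : SL(2, ℤ))) =
      PowerSeries.expand (q * M) hqM c := by
    have h2 := ES.hasExp_slash_twist (M := q * M)
      (gamma_qM_le.trans (isLevel_gamma0 hM hLM).lam_le) χ.2.2 h.twist 1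
    rw [SlashAction.slash_one] at h2 ⊢
    exact h2.series_unique (hasExp_widen hqM h.exp)
  rw [hGF, hV, ← map_pow, ← map_pow, ← map_sub, ← map_sub] at hcongr
  have hdiff : ∀ e, P.abv (PowerSeries.coeff e cF0 - PowerSeries.coeff e (c ^ n)) < 1 := fun e => by
    have h1 := hcongr ((q * M * e : ℕ) : ℤ)
    rwa [HahnSeries.ofPowerSeries_apply_coeff, PowerSeries.coeff_expand_mul, map_sub] at h1
  set cv : PowerSeries P.ring := PowerSeries.mk fun e => ⟨_, h.cont.mem e⟩
  have hcv : cv.map P.ring.subtype = c := by ext e; simp [cv]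
  have hcn : ∀ e, PowerSeries.coeff e (c ^ n) = ((PowerSeries.coeff e (cv ^ n) : P.ring) : ℂ) :=
    fun e => by rw [← hcv, ← map_pow, PowerSeries.coeff_map]; rfl
  have hint : ∀ e, PowerSeries.coeff e cF0 ∈ P.ring := fun e => by
    have h1 : PowerSeries.coeff e cF0 - PowerSeries.coeff e (c ^ n) ∈ P.ring := (hdiff e).le
    rw [hcn] at h1
    simpa using P.ring.add_mem h1 (PowerSeries.coeff e (cv ^ n)).2
  set cF : PowerSeries P.ring := PowerSeries.mk fun e => ⟨_, hint e⟩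
  have hcF' : cF.map P.ring.subtype = cF0 := by ext e; simp [cF]
  refine ⟨cF, cv, by rw [hcF']; exact hcF, hcv, fun e => by simpa [cF] using halgF e, ?_, ?_⟩
  · exact h.cont.res_ne_zero hcv
  · rw [← map_pow]
    ext e
    rw [PowerSeries.coeff_map, PowerSeries.coeff_map, P.res_eq_iff]
    rw [← hcn]
    simpa [cF] using hdiff e

end FermatAgent.BAD.Toric

end
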