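import Fermat.Agent.BAD.Toric.BalSer

/-!
# Orders at the cusps of traces of balanced forms

Where the expansion at a cusp of width `w` of a form with parabolic multiplier is `w`-periodic,
the residual order of its trace is divisible by `n M / w`.
-/

set_option autoImplicit false

open UpperHalfPlane CongruenceSubgroup
open scoped MatrixGroups ModularForm Manifold

noncomputable section

namespace FermatAgent.BAD.Toric

open FermatAgent.ES (BSub BRing SerIn HasExp HasLExp lexp lexp_eq hasLExp_lexp act AuxLevel CPlace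
  auxW IsTwist parGroup zetaC twistSer)

/-- A series invariant under a translation by `w` lives on multiples of `N / w`. -/
theorem dvd_mul_of_periodic {N w : ℕ} [NeZero N] {f : ℍ → ℂ} {c : PowerSeries ℂ}
    (hc : HasExp N f c) (hf : act (ModularGroup.T ^ w) f = f) {e : ℕ}
    (he : PowerSeries.coeff e c ≠ 0) : N ∣ w * e := by
  have h1 := ES.hasLExp_act_T_pow (HasLExp.of_exp hc) w
  rw [hf] at h1
  have h2 := congrArg (fun s : LaurentSeries ℂ => s.coeff (e : ℤ))
    (h1.series_unique (HasLExp.of_exp hc))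
  simp only [ES.coeff_twistSer, HahnSeries.ofPowerSeries_apply_coeff, zpow_natCast] at h2
  rw [← pow_mul] at h2
  exact (ES.zetaC_isPrimitiveRoot N).dvd_of_pow_eq_one (w * e)
    (mul_left_cancel₀ he (h2.trans (mul_one _).symm))

/-- The order of an expanded series. -/
theorem order_expand_eq {R : Type*} [CommRing R] {r : ℕ} (hr : r ≠ 0) {f : PowerSeries R} {i : ℕ}
    (h : f.order = i) : (PowerSeries.expand r hr f).order = (r * i : ℕ) := by
  rw [PowerSeries.order_eq_nat] at h ⊢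
  refine ⟨by rw [PowerSeries.coeff_expand_mul]; exact h.1, fun j hj => ?_⟩
  by_cases hd : r ∣ j
  · obtain ⟨k, rfl⟩ := hd
    rw [PowerSeries.coeff_expand_mul]
    exact h.2 k (lt_of_mul_lt_mul_left hj (Nat.zero_le r))
  · exact PowerSeries.coeff_expand_of_not_dvd r hr f hd

variable {q : ℕ} [hq : Fact q.Prime] {L M m : ℕ} [NeZero M] [NeZero L] (haux : AuxLevel M m)
  (hM : M.Coprime q) (hLM : L ∣ M) (hqm : q ≠ m) {n : ℕ} [NeZero n] {P : CPlace q}
  {χ : parGroup (Gamma0 (L * q)) n} {a : ℕ} {v : ℍ → ℂ} {c c0 : PowerSeries ℂ}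

variable (hP : P.HasCDVRs) (hn : n.Coprime q) (h : BalForm hM P χ a v c c0)
include haux hM hLM hqm hP hn h

/-- The expansions of a balanced form at the cusps of type `∞` are normed. -/
theorem normed_balForm_slash {γ : SL(2, ℤ)} (hγ : γ ∈ Gamma0 q) :
    Normed P (HahnSeries.ofPowerSeries ℤ ℂ
      (qExpansion ((q * M : ℕ) : ℝ) (v ∣[((2 * (2 * (6 * a)) : ℕ) : ℤ)] γ))) := by
  have hA := P.goodRoot hM
  have hz : zetaC (q * M) ∈ P.ring := goodRoot_zeta
  have hlam : lam q M ≤ Gamma0 (L * q) := (isLevel_gamma0 hM hLM).lam_le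
  set W := expandL q (wSer haux γ)
  set H := serAt M P.ring q γ (hasseL haux hM hA hz)
  set V := HahnSeries.ofPowerSeries ℤ ℂ
    (qExpansion ((q * M : ℕ) : ℝ) (v ∣[((2 * (2 * (6 * a)) : ℕ) : ℤ)] γ)) with hVdef
  have hc : HasContent P V := Sq.hasContent_form haux hM hP hn hlam χ.2.1 χ.2.2 h.twist h.ne_zero γ
  have ht : Normed P ((H ^ (6 * a) * (W ^ (2 * (6 * a)))⁻¹) ^ n) := by
    refine (Normed.mul (Normed.pow ?_ _) ?_).pow n
    · exact ⟨fun k => serIn_serAt γ _ k, hasseL_unitInf haux hM hA hz le_rfl hqm γ hγ⟩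
    · rw [← inv_pow, ← map_inv₀]
      exact (normed_expandL (normed_inv_wSer haux hM γ)).pow _
  have hy : lexp (q * M) γ (balH q haux a v ^ n) =
      (H ^ (6 * a) * (W ^ (2 * (6 * a)))⁻¹) ^ n * V ^ n := by
    rw [← mul_pow, mul_assoc (H ^ (6 * a)), mul_comm (W ^ (2 * (6 * a)))⁻¹ V]
    refine lexp_eq ((((hasLExp_lexp (hasse_mem_LSub haux hM).1 γ).pow (6 * a)).mul
      (hasLExp_form_div_level haux (ES.hasExp_slash_twist (M := q * M) (gamma_qM_le.trans hlam)
        χ.2.2 h.twist γ))).pow n |>.congr_fun fun τ => by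
          simp only [balH, ES.act_apply, Pi.pow_apply, Pi.mul_apply])
  have hVn : Normed P (V ^ n) := (hc.pow n).normed_of_mul ht
    (hy ▸ normed_balH haux hM hLM hqm hP hn h hγ)
  obtain ⟨b, hb, hbV⟩ := hc
  have h1 : P.abv b = 1 := by
    have h2 := hVn.abv_eq_one (a := b ^ n) (by rw [map_pow, ← mul_pow]; exact hbV.pow n)
    rw [map_pow] at h2
    exact (pow_eq_one_iff_of_nonneg (P.abv.nonneg b) (NeZero.ne n)).mp h2
  have h3 := hbV.C_mul (a := b⁻¹) (by rw [map_inv₀, h1, inv_one])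
  rwa [← mul_assoc, ← map_mul, inv_mul_cancel₀ hb, map_one, one_mul] at h3

/-- **Orders at the cusps.** -/
theorem dvd_cusp_order {γ : SL(2, ℤ)} {w : ℕ}
    (hw : γ * ModularGroup.T ^ w * γ⁻¹ ∈ Gamma0 L) {d : PowerSeries P.ring}
    (hd : HasExp M (balForm1 q M n a v ∣[((2 * (6 * n * (a * (q + 1))) : ℕ) : ℤ)] γ)
      (d.map P.ring.subtype)) {i : ℕ} (hi : (d.map P.res).order = i) : n * M ∣ w * i := by
  obtain ⟨l, hl, hδ⟩ := exists_gamma0_mul_inv_mem hM hLM γ
  -- the form at `l`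
  set F := balForm1 q M n a v
  set k : ℤ := ((2 * (6 * n * (a * (q + 1))) : ℕ) : ℤ) with hk
  have hF := isTwist_balForm1 hM hLM h
  have hFl : F ∣[k] γ = F ∣[k] l := by
    conv_rhs => rw [show l = (l * γ⁻¹) * γ by group, SlashAction.slash_mul,
      show F ∣[k] (l * γ⁻¹) = F from (hF.slash ⟨_, hδ⟩).trans (funext fun τ => by simp; rfl)]
  set G := balG haux hM hLM hqm hP hn h
  set K := 6 * n * (a * (q + 1))
  have hd' : HahnSeries.ofPowerSeries ℤ ℂ (d.map P.ring.subtype) =
      lexp M l (G : ℍ → ℂ) * wSer haux l ^ K := by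
    refine ofPowerSeries_eq_mul_wSer haux G K ?_
    rwa [hFl, show F = _ from balForm1_eq haux hM hLM hqm hP hn h] at hd
  -- the multiplier is trivial at the cusp
  have hql : l * ModularGroup.T ^ w * l⁻¹ ∈ Gamma0 (L * q) := by
    refine (mem_gamma0_mul_iff (coprime_of_aux hM hLM)).mpr ⟨?_, ?_⟩
    · have e : l * ModularGroup.T ^ w * l⁻¹ =
          (l * γ⁻¹) * (γ * ModularGroup.T ^ w * γ⁻¹) * (l * γ⁻¹)⁻¹ := by group
      rw [e]
      exact mul_mem (mul_mem hδ hw) (inv_mem hδ)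
    · refine mul_mem (mul_mem hl ?_) (inv_mem hl)
      exact pow_mem ((ES.goodLevel_Gamma0 q).T_mem) w
  set kv : ℤ := ((2 * (2 * (6 * a)) : ℕ) : ℤ) with hkv
  have hper : act (ModularGroup.T ^ w) (v ∣[kv] l) = v ∣[kv] l := by
    have h1 : (χ : Gamma0 (L * q) →* ℂˣ) ⟨_, hql⟩ = 1 := χ.2.2 ⟨_, hql⟩ (by
      show ((l * ModularGroup.T ^ w * l⁻¹ : SL(2, ℤ)) : Matrix (Fin 2) (Fin 2) ℤ).trace ^ 2 = 4
      rw [Matrix.SpecialLinearGroup.coe_mul, Matrix.trace_mul_comm,
        ← Matrix.SpecialLinearGroup.coe_mul, inv_mul_cancel_left]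
      rw [← zpow_natCast, ModularGroup.coe_T_zpow]
      norm_num [Matrix.trace_fin_two])
    have h2 := h.twist.slash ⟨_, hql⟩
    rw [h1] at h2
    simp only [Units.val_one, one_mul] at h2
    have h3 : (v ∣[kv] l) ∣[kv] (ModularGroup.T ^ w) = v ∣[kv] l := by
      rw [← SlashAction.slash_mul, show l * ModularGroup.T ^ w =
        (l * ModularGroup.T ^ w * l⁻¹) * l by group, SlashAction.slash_mul]
      exact congrArg (· ∣[kv] l) h2
    exact act_T_pow_of_slash h3
  -- the residual identity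
  obtain ⟨hVin, -⟩ := normed_balForm_slash haux hM hLM hqm hP hn h hl
  have hV : HasExp (q * M) (v ∣[kv] l)
      (qExpansion ((q * M : ℕ) : ℝ) (v ∣[kv] l)) :=
    ES.hasExp_slash_twist (M := q * M) (gamma_qM_le.trans (isLevel_gamma0 hM hLM).lam_le) χ.2.2
      h.twist l
  set cV := qExpansion ((q * M : ℕ) : ℝ) (v ∣[kv] l)
  have hmem : ∀ e, PowerSeries.coeff e cV ∈ P.ring := fun e => by
    have := hVin (e : ℤ)
    rwa [HahnSeries.ofPowerSeries_apply_coeff] at this
  set cv : PowerSeries P.ring := PowerSeries.mk fun e => ⟨_, hmem e⟩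
  have hcv : cv.map P.ring.subtype = cV := by ext e; simp [cv]
  have hcongr := balG_ser_congr haux hM hLM hqm hP hn h hl
  rw [serAt_raiseL, ← map_pow, ← map_mul, ← hd', expandL_ofPowerSeries,
    ← PowerSeries.map_expand, show qExpansion ((q * M : ℕ) : ℝ) (v ∣[kv] l) = cV from rfl,
    ← hcv, ← map_pow, ← map_pow] at hcongr
  have hres : PowerSeries.expand q hq.out.ne_zero (d.map P.res) = cv.map P.res ^ n := by
    rw [← PowerSeries.map_expand, ← map_pow, CPlace.map_res_eq_iff]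
    intro e
    have := hcongr (e : ℤ)
    rw [← map_sub, HahnSeries.ofPowerSeries_apply_coeff, map_sub, PowerSeries.coeff_map,
      PowerSeries.coeff_map] at this
    exact this
  have ho := congrArg PowerSeries.order hres
  rw [order_expand_eq hq.out.ne_zero hi, PowerSeries.order_pow] at ho
  obtain ⟨o, hov⟩ : ∃ o : ℕ, (cv.map P.res).order = o := by
    refine (ENat.ne_top_iff_exists.mp fun htop => ?_).imp fun _ => Eq.symm
    rw [htop, nsmul_eq_mul, ENat.mul_top (by exact_mod_cast NeZero.ne n)] at ho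
    exact ENat.natCast_ne_top _ ho
  rw [hov, nsmul_eq_mul] at ho
  have hqi : q * i = n * o := by exact_mod_cast ho
  have hne : PowerSeries.coeff o cV ≠ 0 := fun h0 => (PowerSeries.order_eq_nat.mp hov).1 (by
    rw [PowerSeries.coeff_map, P.res_eq_zero_iff]
    rw [show ((PowerSeries.coeff o cv : P.ring) : ℂ) = 0 by simpa [cv] using h0, map_zero]
    exact one_pos)
  obtain ⟨t, ht⟩ := dvd_mul_of_periodic hV hper hne
  refine ⟨t, Nat.eq_of_mul_eq_mul_left hq.out.pos ?_⟩
  calc q * (w * i) = w * (q * i) := by ring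
    _ = n * (w * o) := by rw [hqi]; ring
    _ = q * (n * M * t) := by rw [ht]; ring

end FermatAgent.BAD.Toric

end
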