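import Fermat.Agent.ES.Hecke.Commute
import Fermat.Agent.HM.H1.DegeneracyOps

/-!
# Frobenius at a prime exactly dividing the level on characters fixed by inertia

The operators in the relation proved in `toricSq` on parabolic characters of `Γ₀(L q)` fixed by
inertia at `q`: the image under `T_ℓ - ℓ - 1` (`eisDefect`) and the two transfers to `Γ₀(L)`.
-/

set_option autoImplicit false

noncomputable section

open scoped MatrixGroups Pointwise
open CongruenceSubgroup

namespace FermatAgent.BAD.Toric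

open FermatAgent.ES (parGroup galChar heckeChar heckeChar_mem_parGroup goodLevel_Gamma0)

variable {N : ℕ} [NeZero N] {n : ℕ}

/-- The image under `T_ℓ - ℓ - 1` on parabolic characters. -/
def eisDefect {ℓ : ℕ} (hℓ : ℓ.Prime) (φ : parGroup (Gamma0 N) n) : parGroup (Gamma0 N) n :=
  ⟨heckeChar N hℓ φ.1, heckeChar_mem_parGroup hℓ φ.2⟩ * (φ ^ (ℓ + 1))⁻¹

variable (D : HM.ALData)

/-- The transfer to level `L`. -/
def trCor (φ : Gamma0 D.N →* ℂˣ) (γ : Gamma0 D.L) : ℂˣ :=
  ∏ x, φ ((D.corCorr (L := 1) (one_dvd D.L)).fac γ x)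

/-- The transfer to level `L` after the involution. -/
def trCorW (φ : Gamma0 D.N →* ℂˣ) (γ : Gamma0 D.L) : ℂˣ :=
  ∏ x, φ ((D.wCorr (L := 1) (one_dvd D.L) (Nat.coprime_one_right D.q)).fac
    ((D.corCorr (L := 1) (one_dvd D.L)).fac γ x) ())

end FermatAgent.BAD.Toric
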