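import Fermat.Agent.BAD.AL.Kappa
import Fermat.Agent.BAD.Toric.Def

/-!
# Normalised forms fixed by the stabiliser of a character

A normalised form for a character is fixed by every automorphism fixing the character; so is its
Atkin–Lehner transform when in addition `κ = 1`, as it is on the image of `T_ℓ - ℓ - 1`.
-/

set_option autoImplicit false

open UpperHalfPlane CongruenceSubgroup
open scoped MatrixGroups ModularForm Manifold

noncomputable section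

namespace FermatAgent.BAD.Toric

open FermatAgent.ES (HasExp IsTwist IsParChar parGroup conjChar conjAut GoodLevel twistSpace
  heckeChar heckeChar_mem_parGroup goodLevel_Gamma0)
open FermatAgent.PSEMI (wForm wForm_ne_zero)

section Form

variable {N : ℕ} [NeZero N] {n : ℕ} [NeZero n]

/-- **The normalised form.** -/
theorem exists_fixed_form (ψ : parGroup (Gamma0 N) n) :
    ∃ (v : ℍ → ℂ) (c : PowerSeries ℂ),
      IsTwist (Gamma0 N) ((2 * 2 : ℕ) : ℤ) (ψ : Gamma0 N →* ℂˣ) v ∧ v ≠ 0 ∧ HasExp 1 v c ∧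
      (∀ e, IsAlgebraic ℚ (PowerSeries.coeff e c)) ∧
      ∀ σ : ℂ ≃+* ℂ, conjChar (goodLevel_Gamma0 N) σ ψ = ψ → c.map (σ : ℂ →+* ℂ) = c := by
  set hG := goodLevel_Gamma0 N
  obtain ⟨v, c', hv, hv0, hc', halg, hfix⟩ := ES.exists_algebraic_form_fixed hG ψ
  have hv4 : IsTwist (Gamma0 N) ((2 * 2 : ℕ) : ℤ) (ψ : Gamma0 N →* ℂˣ) v := by exact_mod_cast hv
  have h1 := ES.hasExp_one_twist hG.T_mem ψ.2.2 hv4
  set c := qExpansion ((1 : ℕ) : ℝ) v
  have he : ∀ e, PowerSeries.coeff e c = PowerSeries.coeff (12 * N * e) c' := fun e => by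
    rw [← (hasExp_widen (NeZero.ne (12 * N)) h1).series_unique hc', PowerSeries.coeff_expand_mul]
  refine ⟨v, c, hv4, hv0, h1, fun e => he e ▸ halg _, fun σ hσ => PowerSeries.ext fun e => ?_⟩
  have h := congrArg (PowerSeries.coeff (12 * N * e)) (hfix σ hσ)
  rwa [PowerSeries.coeff_map, ← he, ← PowerSeries.coeff_map] at h

end Form

section Transform

variable {q : ℕ} [hq : Fact q.Prime] {L M : ℕ} [NeZero M] [NeZero L] (hM : M.Coprime q)
  (hLM : L ∣ M) (hM12 : M ∣ 12 * L) {n : ℕ} [NeZero n]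
include hLM hM12

/-- **The transform of the normalised form.** -/
theorem exists_fixed_pair (ψ : parGroup (Gamma0 (L * q)) n) :
    ∃ (v : ℍ → ℂ) (c c0 : PowerSeries ℂ),
      IsTwist (Gamma0 (L * q)) ((2 * 2 : ℕ) : ℤ) (ψ : Gamma0 (L * q) →* ℂˣ) v ∧ v ≠ 0 ∧
      HasExp 1 v c ∧ HasExp 1 (wForm hM ((2 * 2 : ℕ) : ℤ) v) c0 ∧
      (∀ e, IsAlgebraic ℚ (PowerSeries.coeff e c)) ∧
      (∀ e, IsAlgebraic ℚ (PowerSeries.coeff e c0)) ∧
      ∀ σ : ℂ ≃+* ℂ, conjChar (goodLevel_Gamma0 (L * q)) σ ψ = ψ →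
        kappa hM hLM hM12 σ ψ = 1 →
        c.map (σ : ℂ →+* ℂ) = c ∧ c0.map (σ : ℂ →+* ℂ) = c0 := by
  have : NeZero (L * q) := ⟨mul_ne_zero (NeZero.ne L) hq.out.ne_zero⟩
  obtain ⟨v, c, hv, hv0, hc, halg, hfix⟩ := exists_fixed_form ψ
  set hG := goodLevel_Gamma0 (L * q)
  have hc0 := ES.hasExp_one_twist hG.T_mem (wAut hM hLM n ψ).2.2 (isTwist_wAut hM hLM hv)
  set c0 := qExpansion ((1 : ℕ) : ℝ) (wForm hM ((2 * 2 : ℕ) : ℤ) v)
  have key : ∀ σ : ℂ ≃+* ℂ, conjChar hG σ ψ = ψ →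
      c0.map (σ : ℂ →+* ℂ) = PowerSeries.C (kappa hM hLM hM12 σ ψ) * c0 := by
    intro σ hσ
    have hp : IsPair σ ψ 2 v v :=
      ⟨hv, hv0, by rw [hσ]; exact hv, c, hc, by rw [hfix σ hσ]; exact hc⟩
    obtain ⟨d, hd, hd'⟩ := kappa_spec hM hLM hM12 hp
    obtain rfl := hc0.series_unique hd
    exact (hd'.series_unique (hc0.smul _)).symm ▸ rfl
  refine ⟨v, c, c0, hv, hv0, hc, hc0, halg, fun e => ?_, fun σ hσ hκ =>
    ⟨hfix σ hσ, by rw [key σ hσ, hκ, map_one, one_mul]⟩⟩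
  have := ES.finiteIndex_ker_conjAut hG n
  refine IsAlgebraic.of_pow (NeZero.pos n) (ES.isAlgebraic_of_finiteIndex (conjAut hG n).ker
    fun σ hσ => ?_)
  have hσψ : conjChar hG σ ψ = ψ := by
    rw [← ES.conjAut_apply, (MonoidHom.mem_ker).mp hσ]; rfl
  have h2 := congrArg (PowerSeries.coeff e) (key σ hσψ)
  rw [PowerSeries.coeff_map, PowerSeries.coeff_C_mul] at h2
  rw [map_pow, show σ (PowerSeries.coeff e c0) = _ from h2, mul_pow, kappa_pow, one_mul]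

/-- On the image of `T_ℓ - ℓ - 1` the constant `κ` is trivial. -/
theorem kappa_eisDefect {ℓ : ℕ} (hℓ : ℓ.Prime) (hℓN : ¬ ℓ ∣ L * q) (σ : ℂ ≃+* ℂ)
    (hσ : ∀ z : ℂ, z ^ n = 1 → σ z = z) (φ : parGroup (Gamma0 (L * q)) n)
    (hφ : conjChar (goodLevel_Gamma0 (L * q)) σ φ = φ) :
    conjChar (goodLevel_Gamma0 (L * q)) σ (eisDefect hℓ φ) = eisDefect hℓ φ ∧
      kappa hM hLM hM12 σ (eisDefect hℓ φ) = 1 := by
  have := Fact.mk hℓ
  have : NeZero (L * q) := ⟨mul_ne_zero (NeZero.ne L) hq.out.ne_zero⟩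
  refine ⟨?_, ?_⟩
  · rw [eisDefect, ← ES.conjAut_apply, map_mul, map_inv, map_pow, ES.conjAut_apply,
      ES.conjAut_apply, hφ, ES.conjChar_heckeChar_eq hℓ]
    congr 1
    exact Subtype.ext (by rw [hφ])
  · rw [← kappaHom_apply, eisDefect, map_mul, kappaHom_apply,
      kappa_heckeChar hM hLM hM12 hℓN σ hσ φ hφ,
      ← kappaHom_apply, ← map_pow, ← map_mul, mul_inv_cancel, map_one]

end Transform

end FermatAgent.BAD.Toric
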