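import Fermat.Agent.BAD.Toric.Bal3
import Fermat.Agent.BAD.Toric.TransferSer

/-!
# Balanced forms under products and transfers

Products of balanced forms are balanced, and so is the normalised transfer at a prime `ℓ` not
dividing the level; the reduction of the latter depends only on that of the form.
-/

set_option autoImplicit false

open UpperHalfPlane CongruenceSubgroup
open scoped MatrixGroups ModularForm

noncomputable section

namespace FermatAgent.BAD.Toric

open FermatAgent.ES (AuxLevel HasExp CPlace IsTwist galChar parGroup zetaC transferFun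
  heckeChar heckeChar_mem_parGroup)
open FermatAgent.ES (goodLevel_Gamma0)
open FermatAgent.PSEMI (wForm)

section Cont

variable {q : ℕ} [Fact q.Prime] {P : CPlace q} {c : PowerSeries ℂ}

omit [Fact (Nat.Prime q)] in
/-- Fixed integral coefficients, one of them a unit, give content one. -/
theorem Cont.of_coeff (hfix : ∀ e, InertFixed P (PowerSeries.coeff e c))
    (hmem : ∀ e, PowerSeries.coeff e c ∈ P.ring) (hu : ∃ e, P.abv (PowerSeries.coeff e c) = 1) :
    Cont P 0 c := by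
  refine ⟨hfix, ?_⟩
  rw [neg_zero, zpow_zero, map_one, one_mul]
  refine ⟨fun i => ?_, ?_⟩
  · rcases lt_or_ge i 0 with hi | hi
    · rw [HahnSeries.ofPowerSeries_apply, HahnSeries.embDomain_of_notMem_range]
      · exact P.ring.zero_mem
      · rintro ⟨j, hj⟩
        simp at hj
        omega
    · lift i to ℕ using hi
      rw [HahnSeries.ofPowerSeries_apply_coeff]
      exact hmem i
  · obtain ⟨e, he⟩ := hu
    exact ⟨(e : ℤ), by rwa [HahnSeries.ofPowerSeries_apply_coeff]⟩

/-- A rotation by a root of unity of order prime to `q` keeps the content. -/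
theorem Cont.rescale (hc : Cont P 0 c) {m : ℕ} (hm0 : m ≠ 0) (hm : ¬ q ∣ m) {z : ℂ}
    (hz : z ^ m = 1) : Cont P 0 (PowerSeries.rescale z c) := by
  have hz1 : P.abv z = 1 := P.abv_eq_one_of_pow_eq_one hm0 hz
  refine .of_coeff (fun e => ?_) (fun e => ?_) ?_
  · rw [PowerSeries.coeff_rescale]
    exact ((inertFixed_of_pow_eq_one hm0 hm hz).pow e).mul (hc.1 e)
  · rw [PowerSeries.coeff_rescale, P.mem_ring, map_mul, map_pow, hz1, one_pow, one_mul]
    exact hc.mem e
  · obtain ⟨e, he⟩ := hc.exists_unit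
    exact ⟨e, by rw [PowerSeries.coeff_rescale, map_mul, map_pow, hz1, one_pow, one_mul, he]⟩

theorem cont_prod {ι : Type*} (s : Finset ι) {f : ι → PowerSeries ℂ}
    (hf : ∀ i ∈ s, Cont P 0 (f i)) : Cont P 0 (∏ i ∈ s, f i) :=
  Finset.prod_induction _ (Cont P 0) (fun _ _ ha hb => by simpa using ha.mul hb) cont_one hf

omit [Fact (Nat.Prime q)] in
/-- Content one descends along a change of width. -/
theorem Cont.of_expand {r : ℕ} (hr : r ≠ 0) (h : Cont P 0 (PowerSeries.expand r hr c)) :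
    Cont P 0 c := by
  refine .of_coeff (fun e => ?_) (fun e => ?_) ?_
  · simpa [PowerSeries.coeff_expand_mul] using h.1 (r * e)
  · simpa [PowerSeries.coeff_expand_mul] using h.mem (r * e)
  · obtain ⟨e, he⟩ := h.exists_unit
    by_cases hd : r ∣ e
    · obtain ⟨k, rfl⟩ := hd
      exact ⟨k, by rwa [PowerSeries.coeff_expand_mul] at he⟩
    · rw [PowerSeries.coeff_expand_of_not_dvd r hr _ hd, map_zero] at he
      exact absurd he zero_ne_one

/-- The shifted product keeps content one. -/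
theorem Cont.shiftSer (hc : Cont P 0 c) {ℓ : ℕ} [NeZero ℓ] (hℓ : ¬ q ∣ ℓ) :
    Cont P 0 (shiftSer ℓ (zetaC ℓ) c) := by
  have h := ((hc.expand (NeZero.ne ℓ)).expand (NeZero.ne ℓ)).mul
    (cont_prod (Finset.univ : Finset (ZMod ℓ)) fun j _ => hc.rescale (NeZero.ne ℓ) hℓ
      (z := zetaC ℓ ^ j.val)
      (by rw [← pow_mul, mul_comm, pow_mul, (ES.zetaC_isPrimitiveRoot ℓ).pow_eq_one, one_pow]))
  rwa [add_zero] at h

omit [Fact (Nat.Prime q)]

theorem Cont.ne_zero' (hc : Cont P 0 c) : c ≠ 0 := fun h => by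
  obtain ⟨e, he⟩ := hc.exists_unit
  rw [h, map_zero, map_zero] at he
  exact zero_ne_one he

/-- A series of content one lifts to the ring of the place. -/
theorem Cont.exists_lift (hc : Cont P 0 c) :
    ∃ cv : PowerSeries P.ring, cv.map P.ring.subtype = c :=
  ⟨PowerSeries.mk fun e => ⟨_, hc.mem e⟩, by ext e; simp⟩

end Cont

theorem transferFun_smul {N : ℕ} {ℓ : ℕ} [Fact ℓ.Prime] [NeZero ℓ] (hℓN : ¬ ℓ ∣ N) (k : ℤ)
    (z : ℂ) (f : ℍ → ℂ) :
    transferFun (Period.transferDataT hℓN) k (z • f) =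
      z ^ Fintype.card (OnePoint (ZMod ℓ)) • transferFun (Period.transferDataT hℓN) k f := by
  funext τ
  simp [transferFun, ModularForm.smul_slash, UpperHalfPlane.σ,
    (Period.transferDataT hℓN).det_pos, Finset.prod_mul_distrib, Finset.card_univ]

variable {q : ℕ} [hq : Fact q.Prime] {L M : ℕ} [NeZero M] [NeZero L] {hM : M.Coprime q}
  {n : ℕ} [NeZero n] {P : CPlace q} {χ χ' : parGroup (Gamma0 (L * q)) n} {a a' : ℕ}
  {v v' : ℍ → ℂ} {c c0 c' c0' : PowerSeries ℂ}

section

omit [NeZero L] [NeZero n]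

/-- **Products of balanced forms.** -/
theorem BalForm.mul (h : BalForm hM P χ a v c c0) (h' : BalForm hM P χ' a' v' c' c0') :
    BalForm hM P (χ * χ') (a + a') (v * v') (c * c') (c0 * c0') where
  twist := by
    convert h.twist.mul h'.twist using 1
    · push_cast
      ring
    · rfl
  ne_zero h0 := (mul_ne_zero h.cont.ne_zero' h'.cont.ne_zero')
    ((h.exp.mul h'.exp).series_unique (h0 ▸ ES.HasExp.zero))
  exp := h.exp.mul h'.exp
  expW := by
    convert h.expW.mul h'.expW using 1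
    rw [show ((2 * (2 * (6 * (a + a'))) : ℕ) : ℤ) =
        ((2 * (2 * (6 * a)) : ℕ) : ℤ) + ((2 * (2 * (6 * a')) : ℕ) : ℤ) by push_cast; ring,
      PSEMI.wForm_mul, smul_mul_smul_comm, ← pow_add]
    congr 2
    ring
  cont := by simpa using h.cont.mul h'.cont
  cont0 := by simpa using h.cont0.mul h'.cont0

/-- **Powers of balanced forms.** -/
theorem BalForm.pow_succ' (h : BalForm hM P χ a v c c0) (k : ℕ) :
    BalForm hM P (χ ^ (k + 1)) (a * (k + 1)) (v ^ (k + 1)) (c ^ (k + 1)) (c0 ^ (k + 1)) := by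
  induction k with
  | zero => simpa using h
  | succ k ih =>
    rw [pow_succ χ, pow_succ v, pow_succ c, pow_succ c0, show a * (k + 1 + 1) = a * (k + 1) + a by
      ring]
    exact ih.mul h

/-- A balanced form of trivial character is one for the exponent `1`. -/
theorem BalForm.of_eq_one (h : BalForm hM P χ a v c c0) (hχ : χ = 1) :
    BalForm hM P (1 : parGroup (Gamma0 (L * q)) 1) a v c c0 where
  twist := by
    convert h.twist using 1
    rw [hχ]
    rfl
  ne_zero := h.ne_zero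
  exp := h.exp
  expW := h.expW
  cont := h.cont
  cont0 := h.cont0

end

variable (hLM : L ∣ M)

variable (hM) in
include hLM in
/-- **Balanced forms for the `24`th power.** -/
theorem exists_balForm {m : ℕ} (haux : AuxLevel M m) (hM12 : M ∣ 12 * L)
    (Φ : ℂ ≃+* PadicAlgCl q) (hn : n.Coprime q) {ℓ : ℕ} (hℓ : ℓ.Prime) (hℓN : ¬ ℓ ∣ L * q)
    (φ : parGroup (Gamma0 (L * q)) n)
    (hφ : ∀ g ∈ (CPlace.ofEquiv Φ).algVal.inertiaSubgroupIn ℚ,
      galChar (goodLevel_Gamma0 (L * q)) n g φ = φ) :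
    ∃ (a : ℕ) (v : ℍ → ℂ) (c c0 : PowerSeries ℂ), a ≠ 0 ∧
      BalForm hM (CPlace.ofEquiv Φ) (eisDefect hℓ φ ^ 24) a v c c0 := by
  obtain ⟨a, v, c, c0, ha, h⟩ := exists_balForm8 hLM haux hM12 Φ hn hℓ hℓN φ hφ
  exact ⟨a * 3, _, _, _, mul_ne_zero ha (by norm_num), by simpa [← pow_mul] using h.pow_succ' 2⟩

include hLM in
/-- **The transfer of a balanced form.** -/
theorem BalForm.transfer (hn : n.Coprime q) {ℓ : ℕ} [hℓ : Fact ℓ.Prime] [NeZero ℓ]
    (hℓN : ¬ ℓ ∣ L * q) (h : BalForm hM P χ a v c c0) {cv : PowerSeries P.ring}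
    (hcv : cv.map P.ring.subtype = c) :
    ∃ (v1 : ℍ → ℂ) (c1 c10 : PowerSeries ℂ) (U : PowerSeries P.ring),
      BalForm hM P (⟨heckeChar (L * q) hℓ.out χ.1, heckeChar_mem_parGroup hℓ.out χ.2⟩ :
        parGroup (Gamma0 (L * q)) n) (a * (ℓ + 1)) v1 c1 c10 ∧
      U.map P.ring.subtype = c1 ∧
      PowerSeries.expand ℓ (NeZero.ne ℓ) (U.map P.res) =
        shiftSer ℓ (P.res (zetaP P ℓ)) (cv.map P.res) := by
  classical
  have : NeZero (L * q) := ⟨mul_ne_zero (NeZero.ne L) hq.out.ne_zero⟩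
  have hqℓ : ¬ q ∣ ℓ := fun hd => hℓN (dvd_mul_of_dvd_right
    ((Nat.prime_dvd_prime_iff_eq hq.out hℓ.out).mp hd).symm.dvd L)
  have hs := h.symm hM hLM hn
  obtain ⟨cv0, hcv0⟩ := h.cont0.exists_lift
  set i := 2 * (6 * a) with hi
  obtain ⟨U, hU, hUs⟩ := exists_transForm_ser hℓN P χ.2.2 h.twist (hcv ▸ h.exp)
  obtain ⟨U0, hU0, hU0s⟩ := exists_transForm_ser hℓN P (wAut hM hLM n χ).2.2 hs.twist
    (hcv0 ▸ h.expW)
  set Q : ℂ := (q : ℂ) ^ i with hQ
  set m := moveVal hM hLM hℓN χ.1 with hm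
  have hm0 : m ≠ 0 := moveVal_ne_zero hM hLM hℓN _
  have hmn : m ^ n = 1 := by
    simp only [hm, moveVal, ← Finset.prod_pow]
    refine Finset.prod_eq_one fun x _ => ?_
    rw [← Units.val_pow_eq_pow_val, ← MonoidHom.pow_apply, χ.2.1]
    rfl
  have hminv : m⁻¹ ^ n = 1 := by rw [inv_pow, hmn, inv_one]
  have hcard : Fintype.card (OnePoint (ZMod ℓ)) = ℓ + 1 := by
    have h1 : Nat.card (OnePoint (ZMod ℓ)) = Nat.card (Option (ZMod ℓ)) :=
      Nat.card_congr (Equiv.refl _)
    rwa [Nat.card_eq_fintype_card, Nat.card_eq_fintype_card, Fintype.card_option, ZMod.card] at h1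
  have hC : Cont P 0 (U.map P.ring.subtype) := by
    refine .of_expand (NeZero.ne ℓ) ?_
    rw [← PowerSeries.map_expand, hUs, map_shiftSer, hcv]
    exact h.cont.shiftSer hqℓ
  have hC0 : Cont P 0 (U0.map P.ring.subtype) := by
    refine .of_expand (NeZero.ne ℓ) ?_
    rw [← PowerSeries.map_expand, hU0s, map_shiftSer, hcv0]
    exact h.cont0.shiftSer hqℓ
  refine ⟨transForm hℓN i v, U.map P.ring.subtype, PowerSeries.C m⁻¹ * U0.map P.ring.subtype, U,
    ⟨?_, fun h0 => hC.ne_zero' (hU.series_unique (h0 ▸ ES.HasExp.zero)), hU, ?_, hC, ?_⟩, rfl, ?_⟩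
  · convert isTwist_transForm hℓN h.twist using 1
    push_cast [hi]
    ring
  · -- the transform
    convert hU0.smul m⁻¹ using 1
    rw [show ((2 * (2 * (6 * (a * (ℓ + 1)))) : ℕ) : ℤ) =
        ((2 * i : ℕ) : ℤ) * (Fintype.card (OnePoint (ZMod ℓ)) : ℤ) by
      rw [hcard, hi]; push_cast; ring]
    simp only [transForm]
    rw [wForm_smul', transferFun_smul, transferFun_wForm hM hLM hℓN h.twist, hcard]
    funext τ
    simp only [Pi.smul_apply, smul_eq_mul, ← hm, ← hi]
    rw [show (q : ℂ) ^ (2 * (6 * (a * (ℓ + 1)))) = Q ^ (ℓ + 1) by rw [hQ, hi, ← pow_mul]; ring_nf]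
    field_simp
  · simpa using hC0.C_mul (inertFixed_of_pow_eq_one (NeZero.ne n)
      (fun hd => hq.out.one_lt.ne' (Nat.dvd_one.mp (hn ▸ Nat.dvd_gcd hd dvd_rfl))) hminv) (j := 0)
      (by rw [zpow_zero]; exact P.abv_eq_one_of_pow_eq_one (NeZero.ne n) hminv)
  · rw [← PowerSeries.map_expand, hUs, map_shiftSer]

end FermatAgent.BAD.Toric

end
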