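import Fermat.Agent.BAD.Toric.Root
import Fermat.Agent.BAD.GenLevel

/-!
# The Frobenius relation for split balanced data

`σ χ · (W χ) ^ q = 1`.
-/

set_option autoImplicit false

open UpperHalfPlane CongruenceSubgroup
open scoped MatrixGroups Manifold

noncomputable section

namespace FermatAgent.BAD.Toric

open FermatAgent.ES (BSub act zetaC AuxLevel CPlace parGroup conjChar goodLevel_Gamma0 vanishOrd)

variable {q M m L : ℕ} [hq : Fact q.Prime] [NeZero M] [NeZero L] (haux : AuxLevel M m)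
  (hM : M.Coprime q) (hLM : L ∣ M) {n : ℕ} [NeZero n]

include haux in
/-- **The Frobenius is `- q W` on split balanced data.** -/
theorem frobRelation (hqm : q ≠ m) (h12 : M ∣ 12 * L) (hn : n.Coprime q)
    (Φ : ℂ ≃+* PadicAlgCl q) : FrobRelation haux hM hLM Φ n := by
  intro χ i v w y hbal hsplit s hs
  obtain ⟨D, hD⟩ := exists_frobData (M := M) (P := CPlace.ofEquiv Φ) (O := (CPlace.ofEquiv Φ).ring)
    (conjC Φ s) (abv_conjC Φ s)
    (fun z hz => by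
      rw [CPlace.ofEquiv_abv, map_sub, map_pow, map_conjC]
      exact hs _ (by rwa [CPlace.ofEquiv_abv] at hz))
    (fun z hz => by rw [CPlace.mem_ring, abv_conjC]; exact hz)
  have hw : w ∈ gSub (L * q) m := hbal.w_inv
  set h : ℍ → ℂ := w * fun τ => v τ / ES.auxW haux τ ^ i with hh
  have hy : (y : ℍ → ℂ) = h ^ n := hbal.eq
  have hy0 : (y : ℍ → ℂ) ≠ 0 := coe_ne_zero_of_unit hbal.unitInf
  have hv0 : v ≠ 0 := fun h0 => hy0 (by rw [hy, hh, h0]; funext τ; simp [NeZero.ne n])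
  have hΓqM : Gamma (q * M) ≤ Gamma0 (L * q) :=
    gamma_qM_le.trans (isLevel_gamma0 hM hLM).lam_le
  have hk : IsKum q M m (χ : Gamma0 (L * q) →* ℂˣ) h :=
    isKum_form haux hΓqM χ.2.2 hbal.twist hbal.w_mem.1 hw
  obtain ⟨h', hk', hy'⟩ := D.exists_conj_isKum haux hM hLM hqm h12 hbal.twist hv0 hbal.w_mem hw hy
  set Lv := isLevel_gamma0 hM hLM
  set ψ : parGroup (Gamma0 (L * q)) n :=
    conjChar (goodLevel_Gamma0 (L * q)) D.σ χ with hψ
  have hW : KumLaw m (wAut hM hLM n ψ : Gamma0 (L * q) →* ℂˣ) (atkin hM h') :=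
    atkin_kumLaw haux hM hLM (IsKum.kumLaw hk')
  have hyg : (y : ℍ → ℂ) ∈ gSub (L * q) m := hy ▸ (IsKum.kumLaw hk).mem_gSub χ.2.1
  obtain ⟨N, B, hNg, hBg, hA0, hA1, hB0, hB1, hi, hz⟩ :=
    exists_glue haux hM hLM hqm hyg hbal.unitInf hbal.unitZero hsplit
  set A := y * N ^ n
  have hmd : ∀ f : LRing q M (CPlace.ofEquiv Φ).ring, MDiff (f : ℍ → ℂ) := fun f =>
    ES.mdifferentiable_of_mem f.2.1.1
  set g := D.frobW haux hM goodRoot_zeta
  have hkA : KumLaw m (χ : Gamma0 (L * q) →* ℂˣ) (h * (N : ℍ → ℂ)) :=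
    (IsKum.kumLaw hk).mul_gSub (hmd N) hNg
  have hA : (A : ℍ → ℂ) = (h * (N : ℍ → ℂ)) ^ n := by
    show (y : ℍ → ℂ) * (N : ℍ → ℂ) ^ n = _
    rw [hy, ← mul_pow]
  have hgy : (g y : ℍ → ℂ) = atkin hM h' ^ n := by
    show atkin hM (D.conjL haux y : ℍ → ℂ) = _
    rw [hy', map_pow]
  set Fa : ℍ → ℂ := atkin hM h' * (g N : ℍ → ℂ) * (h * (N : ℍ → ℂ)) ^ q
  set K : LRing q M (CPlace.ofEquiv Φ).ring := g B * B ^ q
  set a := twistA haux hM D goodRoot_zeta A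
  set b := twistB haux hM D goodRoot_zeta n B
  have ha : (a : ℍ → ℂ) = Fa ^ n := by
    show (g A : ℍ → ℂ) * (A : ℍ → ℂ) ^ q = _
    rw [show g A = g y * g N ^ n by simp only [A, map_mul, map_pow], hA]
    show (g y : ℍ → ℂ) * (g N : ℍ → ℂ) ^ n * _ = _
    rw [hgy]
    simp only [Fa, mul_pow, ← pow_mul, mul_comm n q]
  have hb : (b : ℍ → ℂ) = (K : ℍ → ℂ) ^ n := rfl
  have hgN := D.frobW_mem_gSub haux hM hLM goodRoot_zeta hNg
  have hkFa : KumLaw m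
      (((wAut hM hLM n ψ * χ ^ q : parGroup (Gamma0 (L * q)) n)) : Gamma0 (L * q) →* ℂˣ) Fa :=
    (hW.mul_gSub (hmd (g N)) hgN).mul (hkA.pow q)
  have hKg : (K : ℍ → ℂ) ∈ gSub (L * q) m :=
    mul_mem (D.frobW_mem_gSub haux hM hLM goodRoot_zeta hBg) (pow_mem hBg q)
  have hkK : KumLaw m (1 : Gamma0 (L * q) →* ℂˣ) (K : ℍ → ℂ) := kumLaw_one (hmd K) hKg
  have hoA : OrdDvd n A :=
    OrdDvd.mul (IsKum.ordDvd hk hy) (OrdDvd.pow_self N)
  obtain ⟨Z, hZ, hZn, hZinv⟩ := exists_twist_root haux hM hqm Φ hn s D hD hA0 hA1 hB0 hB1 hi hz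
    (fun τ j hj => dvd_vanishOrd_pow hkA.mdiff τ j (by rwa [hA] at hj))
    (fun τ j hj => dvd_vanishOrd_pow hkFa.mdiff τ j (by rwa [ha] at hj))
    (fun τ j hj => dvd_vanishOrd_pow hkK.mdiff τ j (by rwa [hb] at hj)) hoA
  -- the root is a multiple of a function with multiplier
  set F : ℍ → ℂ := Fa * (K : ℍ → ℂ) ^ (n - 1)
  set ξ : parGroup (Gamma0 (L * q)) n := wAut hM hLM n ψ * χ ^ q
  have hkF : KumLaw m (ξ : Gamma0 (L * q) →* ℂˣ) F :=
    hkFa.mul_gSub ((hmd K).pow (n - 1)) (pow_mem hKg _)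
  have hpow : F ^ n = Z ^ n := by
    rw [hZn, ha, hb, mul_pow, ← pow_mul, ← pow_mul, mul_comm n]
  have hF0 : F ≠ 0 := fun h0 => by
    have hu : UnitInf (CPlace.ofEquiv Φ) (a * b ^ (n - 1)) :=
      (twist_units haux hM D goodRoot_zeta le_rfl hA0 hA1).1.mul le_rfl
        (((twist_units haux hM D goodRoot_zeta le_rfl hB0 hB1).1.pow le_rfl n).pow le_rfl (n - 1))
    refine coe_ne_zero_of_unit hu ?_
    show (a : ℍ → ℂ) * (b : ℍ → ℂ) ^ (n - 1) = 0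
    rw [← hZn, ← hpow, h0, zero_pow (NeZero.ne n)]
  have hZ0 : Z ≠ 0 := fun h0 => hF0 (by
    funext τ
    have h3 := congrFun hpow τ
    rw [h0] at h3
    simp only [Pi.pow_apply, Pi.zero_apply, zero_pow (NeZero.ne n)] at h3
    exact (pow_eq_zero_iff (NeZero.ne n)).mp h3)
  obtain ⟨c, -, hc⟩ := ES.exists_eq_const_mul_of_pow_eq hkF.mdiff
    (ES.mdifferentiable_of_mem hZ) (NeZero.pos n) hZ0 hpow
  have hone : (ξ : Gamma0 (L * q) →* ℂˣ) = 1 :=
    parChar_eq_one_Gamma0 (L * q) haux.small _ ξ.2.2 fun δ hδ hm => by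
      have hag : (a : ℍ → ℂ) ∈ gSub (L * q) m := ha ▸ hkFa.mem_gSub ξ.2.1
      have hbg : (b : ℍ → ℂ) ∈ gSub (L * q) m := hb ▸ pow_mem hKg n
      have hZδ := hZinv δ (hag δ hδ hm) (hbg δ hδ hm)
      obtain ⟨τ0, hτ0⟩ := Function.ne_iff.mp hF0
      have h3 := congrFun (hkF.law δ hδ hm) τ0
      rw [ES.act_apply, hc, show Z (δ • τ0) = Z τ0 from congrFun hZδ τ0, ← hc] at h3
      refine Units.ext ((mul_eq_right₀ ?_).mp h3.symm)
      simpa using hτ0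
  have hξ : ξ = 1 := Subtype.ext hone
  have h1 := congrArg (wAut hM hLM n) hξ
  rw [map_mul, map_pow, map_one, wAut_wAut] at h1
  rwa [hψ, hD] at h1

end FermatAgent.BAD.Toric
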