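import Fermat.Agent.ES.Cong.Congruence
import Fermat.Agent.Assembly.Bound
import Fermat.Agent.MF.Mult.Hom
import Mathlib.LinearAlgebra.Matrix.Adjugate
import Mathlib.LinearAlgebra.Matrix.ToLinearEquiv

/-!
# Characters of `Γ₀(L)` fixed by the square of Frobenius at a good prime

A fixed exponent kills them, as `T_q` has no eigenvalue `± (q + 1)`.
-/

set_option autoImplicit false

noncomputable section

open CongruenceSubgroup ModularFormClass
open scoped MatrixGroups Matrix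
open ModularCurve.Period
open FermatAgent.Period (parRank parHom parElt parMat parMap parKer ParQuot parBasis parAction
  parabolicCoords heckeOp transferDataT)
open FermatAgent.ES (parGroup galChar goodLevel_Gamma0 charOp)

namespace FermatAgent.BAD.Toric

variable (L : ℕ) [NeZero L]

theorem nsmul_zsmul_swap {A : Type*} [AddCommGroup A] (n : ℕ) (z : ℤ) (a : A) :
    n • z • a = z • n • a :=
  smul_comm n z a

theorem sum_zsmul_fixed {A ι : Type*} [AddCommGroup A] (s : Finset ι) (f : ι → ℤ) (a : A) :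
    ∑ i ∈ s, f i • a = (∑ i ∈ s, f i) • a :=
  (Finset.sum_smul ..).symm

/-- Two vectors exchanged up to `k` by a matrix are killed by `det (M² - k²)`. -/
theorem det_smul_eq_zero_of_swap {ι A : Type*} [Fintype ι] [DecidableEq ι] [AddCommGroup A]
    (M : Matrix ι ι ℤ) (k : ℕ) (w w' : ι → A) (h₁ : ∀ i, ∑ j, M i j • w j = k • w' i)
    (h₂ : ∀ i, ∑ j, M i j • w' j = k • w i) (i : ι) :
    (M * M - ((k * k : ℕ) : ℤ) • 1).det • w i = 0 := by
  set C := M * M - ((k * k : ℕ) : ℤ) • 1 with hC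
  have hCw : ∀ a, ∑ b, C a b • w b = 0 := fun a => by
    simp only [hC, Matrix.sub_apply, sub_smul, Finset.sum_sub_distrib, Matrix.mul_apply,
      Finset.sum_smul, Matrix.smul_apply, Matrix.one_apply, smul_eq_mul, mul_ite, mul_one, mul_zero,
      ite_smul, zero_smul, Finset.sum_ite_eq, Finset.mem_univ, if_true, sub_eq_zero]
    rw [Finset.sum_comm]
    simp only [mul_smul, ← Finset.smul_sum, h₁]
    simp only [smul_comm (M a _) k, ← Finset.smul_sum, h₂]
    rw [natCast_zsmul, mul_smul]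
  have h := Finset.sum_eq_zero (s := Finset.univ) (f := fun a => C.adjugate i a •
    ∑ b, C a b • w b) fun a _ => by rw [hCw a, smul_zero]
  simp only [Finset.smul_sum, smul_smul] at h
  rw [Finset.sum_comm] at h
  simp only [← Finset.sum_smul, ← Matrix.mul_apply, Matrix.adjugate_mul, Matrix.smul_apply,
    Matrix.one_apply, smul_eq_mul, mul_ite, mul_one, mul_zero, ite_smul, zero_smul,
    Finset.sum_ite_eq, Finset.mem_univ, if_true] at h
  exact h

/-- A character in additive notation factors through the free quotient up to a fixed exponent. -/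
theorem exists_torsion_exponent :
    ∃ T : ℕ, T ≠ 0 ∧ ∀ φ : Gamma0 L →* ℂˣ, ES.IsParChar (Gamma0 L) φ → ∀ x : Gamma0 L,
      T • Additive.ofMul (φ x) = ∑ i, parHom (Gamma0 L) i (Additive.ofMul x) •
        T • Additive.ofMul (φ (parElt (Gamma0 L) i)) := by
  classical
  set U := Submodule.torsion ℤ (ParQuot (Gamma0 L))
  obtain ⟨s, hs⟩ := IsNoetherian.noetherian U
  have hsU : ∀ z ∈ s, z ∈ U := fun z hz => hs ▸ Submodule.subset_span hz
  choose k hk using fun z : s => hsU z.1 z.2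
  set K : ℤ := ∏ z, ((k z : nonZeroDivisors ℤ) : ℤ)
  have hK : K ≠ 0 := Finset.prod_ne_zero_iff.mpr fun z _ => nonZeroDivisors.coe_ne_zero _
  have hkill : ∀ u ∈ U, K • u = 0 := by
    intro u hu
    rw [← hs] at hu
    induction hu using Submodule.span_induction with
    | mem z hz =>
      obtain ⟨c, hc⟩ := Finset.dvd_prod_of_mem (fun z => ((k z : nonZeroDivisors ℤ) : ℤ))
        (Finset.mem_univ (⟨z, hz⟩ : s))
      rw [show K = c * ((k ⟨z, hz⟩ : nonZeroDivisors ℤ) : ℤ) from hc.trans (mul_comm _ _), mul_smul,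
        show ((k ⟨z, hz⟩ : nonZeroDivisors ℤ) : ℤ) • z = 0 from hk ⟨z, hz⟩, smul_zero]
    | zero => exact smul_zero K
    | add a b _ _ ha hb => rw [zsmul_add, ha, hb, add_zero]
    | smul c a _ ha => rw [smul_comm, ha, smul_zero]
  refine ⟨K.natAbs, Int.natAbs_ne_zero.mpr hK, fun φ hφ x => ?_⟩
  let a : Additive (Abelianization (Gamma0 L)) →+ Additive ℂˣ :=
    MonoidHom.toAdditive (Abelianization.lift φ)
  have hker : parKer (Gamma0 L) ≤ a.ker := (AddSubgroup.closure_le _).mpr (by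
    rintro _ ⟨γ, hγ, rfl⟩
    show Additive.ofMul (φ γ) = 0
    rw [hφ γ hγ]
    rfl)
  set b : ParQuot (Gamma0 L) →ₗ[ℤ] Additive ℂˣ :=
    (QuotientAddGroup.lift (parKer (Gamma0 L)) a hker).toIntLinearMap
  let π : Additive (Gamma0 L) →+ ParQuot (Gamma0 L) :=
    (QuotientAddGroup.mk' (parKer (Gamma0 L))).comp (MonoidHom.toAdditive Abelianization.of)
  have hb : ∀ y, b (π y) = Additive.ofMul (φ (Additive.toMul y)) := fun y => rfl
  have hu : π (Additive.ofMul x) - ∑ i, parHom (Gamma0 L) i (Additive.ofMul x) •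
      π (Additive.ofMul (parElt (Gamma0 L) i)) ∈ U := by
    rw [← Submodule.Quotient.mk_eq_zero, ← Submodule.mkQ_apply, map_sub, map_sum, sub_eq_zero]
    conv_lhs =>
      rw [show U.mkQ (π (Additive.ofMul x)) = parMap (Gamma0 L) (Additive.ofMul x) from rfl,
        ← (parBasis (Gamma0 L)).sum_repr (parMap (Gamma0 L) (Additive.ofMul x))]
    refine Finset.sum_congr rfl fun i _ => ?_
    rw [map_zsmul, show U.mkQ (π (Additive.ofMul (parElt (Gamma0 L) i))) =
      parMap (Gamma0 L) (Additive.ofMul (parElt (Gamma0 L) i)) from rfl,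
      FermatAgent.Period.parMap_parElt]
    rfl
  have h0 := congrArg b (hkill _ hu)
  rw [map_zsmul, map_zero, map_sub, map_sum, hb] at h0
  simp only [map_zsmul, hb, toMul_ofMul] at h0
  have h1 : (K.natAbs : ℤ) • (Additive.ofMul (φ x) - ∑ i, parHom (Gamma0 L) i (Additive.ofMul x) •
      Additive.ofMul (φ (parElt (Gamma0 L) i))) = 0 := by
    rcases Int.natAbs_eq K with h | h
    · rwa [← h]
    · rw [show (K.natAbs : ℤ) = -K by omega, neg_zsmul, h0, neg_zero]
  rw [zsmul_sub, sub_eq_zero, natCast_zsmul, natCast_zsmul, ← Finset.sum_nsmul] at h1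
  rw [h1]
  exact Finset.sum_congr rfl fun i _ => nsmul_zsmul_swap _ _ _

variable {q : ℕ} [hq : Fact q.Prime]

/-- `T_q` at a good prime has no eigenvalue `± (q + 1)`. -/
theorem det_parMat_sq_sub_ne_zero (hqL : ¬ q ∣ L) :
    (parMat (MF.Mult.atPrime L ∅ hq.out (Set.notMem_empty q)) *
      parMat (MF.Mult.atPrime L ∅ hq.out (Set.notMem_empty q)) -
      (((q + 1) * (q + 1) : ℕ) : ℤ) • 1).det ≠ 0 := by
  set t := MF.Mult.atPrime L ∅ hq.out (Set.notMem_empty q)
  set M := parMat t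
  intro hdet
  have key : ∀ ε : ℤ, ε = 1 ∨ ε = -1 →
      ((M - (ε * (q + 1 : ℕ)) • 1).map (Int.cast : ℤ → ℂ)).det ≠ 0 := by
    intro ε hε h0
    obtain ⟨u, hu0, hu⟩ := Matrix.exists_mulVec_eq_zero_iff.mpr h0
    set x := (parabolicCoords (Gamma0 L) ℂ ℂ).symm u with hx
    set c : ℂ := (ε : ℂ) * ((q + 1 : ℕ) : ℂ) with hc
    have hTx : heckeOp ℂ L hq.out x.1 = c • x.1 := by
      rw [← FermatAgent.Period.parAction_heckeAt ℂ ℂ hq.out (Set.notMem_empty q)]
      suffices h : parAction L ∅ ℂ ℂ t x = c • x from congrArg Subtype.val h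
      refine (parabolicCoords (Gamma0 L) ℂ ℂ).injective ?_
      rw [map_smul, hx, LinearEquiv.apply_symm_apply]
      funext j
      show (parAction L ∅ ℂ ℂ t _).1 (Additive.ofMul (parElt _ j)) = _
      rw [FermatAgent.Period.parAction_apply_parElt]
      have hj := congrFun hu j
      rw [Matrix.map_sub _ (fun a b => Int.cast_sub a b), Matrix.sub_mulVec, Pi.sub_apply,
        Pi.zero_apply, sub_eq_zero] at hj
      rw [show (c • u) j = c * u j from rfl, hc,
        show ((ε : ℂ) * ((q + 1 : ℕ) : ℂ)) * u j =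
          ((((ε * (q + 1 : ℕ)) • 1 : Matrix (Fin (parRank (Gamma0 L))) _ ℤ).map
            (Int.cast : ℤ → ℂ)) *ᵥ u) j by
          rw [Matrix.smul_one_eq_diagonal, Matrix.diagonal_map Int.cast_zero,
            Matrix.mulVec_diagonal]
          push_cast; rfl, ← hj]
      simp only [Matrix.mulVec, dotProduct, zsmul_eq_mul, Matrix.map_apply]
      refine Finset.sum_congr rfl fun i _ => ?_
      congr 1
      exact congrFun ((parabolicCoords (Gamma0 L) ℂ ℂ).apply_symm_apply u) i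
    have hx0 : x ≠ 0 := fun h => hu0 (by
      have h1 := congrArg (parabolicCoords (Gamma0 L) ℂ ℂ) h
      rwa [hx, LinearEquiv.apply_symm_apply, map_zero] at h1)
    obtain ⟨χ, hχ⟩ := MF.Mult.exists_char L {n | n ≠ q} hx0 (fun _ => c) fun ℓ hℓ hS => by
      obtain rfl : ℓ = q := by simpa using hS
      exact hTx
    obtain ⟨f, hf, hfc⟩ := MF.Mult.exists_eigenform_of_char (integralClosure ℤ ℂ).val.toRingHom χ
    have hqS : q ∉ {n : ℕ | n ≠ q} := by simp
    have hv := hfc q hq.out hqS ⟨_, MF.Mult.isIntegral_char χ _⟩ rfl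
    refine Assembly.coeffBound L f q (NeZero.pos L) hf hq.out hqL ?_
    rw [hv]
    show χ (MF.Mult.atPrime L _ hq.out hqS) ^ 2 = _
    rw [hχ q hq.out hqS, hc, mul_pow]
    rcases hε with rfl | rfl <;> simp
  have hfac : (M * M - (((q + 1) * (q + 1) : ℕ) : ℤ) • 1) =
      (M - ((1 : ℤ) * (q + 1 : ℕ)) • 1) * (M - ((-1 : ℤ) * (q + 1 : ℕ)) • 1) := by
    rw [Matrix.sub_mul, Matrix.mul_sub, Matrix.mul_sub, Matrix.smul_mul, Matrix.mul_smul,
      Matrix.smul_mul, Matrix.mul_smul, Matrix.one_mul, Matrix.mul_one, Matrix.mul_one, smul_smul]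
    push_cast
    module
  rw [hfac, Matrix.det_mul, mul_eq_zero] at hdet
  rcases hdet with h | h
  · refine key 1 (Or.inl rfl) ?_
    rw [show (M - ((1 : ℤ) * (q + 1 : ℕ)) • 1).map (Int.cast : ℤ → ℂ) =
      (Int.castRingHom ℂ).mapMatrix (M - ((1 : ℤ) * (q + 1 : ℕ)) • 1) from rfl, ← RingHom.map_det,
      h, map_zero]
  · refine key (-1) (Or.inr rfl) ?_
    rw [show (M - ((-1 : ℤ) * (q + 1 : ℕ)) • 1).map (Int.cast : ℤ → ℂ) =
      (Int.castRingHom ℂ).mapMatrix (M - ((-1 : ℤ) * (q + 1 : ℕ)) • 1) from rfl, ← RingHom.map_det,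
      h, map_zero]

/-- **Characters fixed by `Frob²` are killed by a fixed exponent.** -/
theorem exists_kill_frob_sq (hqL : ¬ q ∣ L) :
    ∃ e : ℕ, e ≠ 0 ∧ ∀ (n : ℕ) [NeZero n], n.Coprime q →
      ∀ A : ValuationSubring (AlgebraicClosure ℚ), A.LiesOverPrime q →
      ∀ g, A.IsFrobeniusAt g q → ∀ ψ : parGroup (Gamma0 L) n,
        galChar (goodLevel_Gamma0 L) n g (galChar (goodLevel_Gamma0 L) n g ψ) = ψ → ψ ^ e = 1 := by
  obtain ⟨T, hT, hexp⟩ := exists_torsion_exponent L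
  set t := MF.Mult.atPrime L ∅ hq.out (Set.notMem_empty q)
  set M := parMat t
  set c : ℕ := (q + 1) * (q + 1) with hc
  set C := M * M - (c : ℤ) • 1
  have hd := det_parMat_sq_sub_ne_zero L hqL
  refine ⟨T * (T * C.det.natAbs), mul_ne_zero hT (mul_ne_zero hT (Int.natAbs_ne_zero.mpr hd)),
    fun n _ hn A hA g hg ψ hfix => ?_⟩
  have : NeZero q := ⟨hq.out.ne_zero⟩
  have hqn : ¬ q ∣ n := fun h => hq.out.one_lt.ne' (Nat.dvd_one.mp (hn ▸ Nat.dvd_gcd h dvd_rfl))
  have hinv : galChar (goodLevel_Gamma0 L) n g⁻¹ ψ = galChar (goodLevel_Gamma0 L) n g ψ := by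
    conv_lhs => rw [← hfix, ← MulAut.mul_apply, ← map_mul, inv_mul_cancel, map_one,
      MulAut.one_apply]
  have h1 := ES.galChar_congruence (ℓ := q) hqL hqn hA hg ψ
  have h2 := ES.galChar_congruence (ℓ := q) hqL hqn hA hg (galChar (goodLevel_Gamma0 L) n g ψ)
  have hpw : ∀ χ : Gamma0 L →* ℂˣ, χ * χ ^ q = χ ^ (q + 1) := fun χ => (pow_succ' χ q).symm
  rw [hinv, hpw] at h1
  rw [hfix, show galChar (goodLevel_Gamma0 L) n g⁻¹ (galChar (goodLevel_Gamma0 L) n g ψ) = ψ by
    rw [← MulAut.mul_apply, ← map_mul, inv_mul_cancel, map_one, MulAut.one_apply], hpw] at h2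
  set φ₁ : Gamma0 L →* ℂˣ := (galChar (goodLevel_Gamma0 L) n g ψ : Gamma0 L →* ℂˣ)
  set ψ₀ : Gamma0 L →* ℂˣ := (ψ : Gamma0 L →* ℂˣ)
  let W : (Gamma0 L →* ℂˣ) → Fin (parRank (Gamma0 L)) → Additive ℂˣ :=
    fun χ i => T • Additive.ofMul (χ (parElt (Gamma0 L) i))
  have hop : ∀ (χ : Gamma0 L →* ℂˣ) (_ : ES.IsParChar (Gamma0 L) χ) (j : Fin (parRank (Gamma0 L))),
      W (charOp (transferDataT hqL) χ) j = ∑ i, M j i • W χ i := by
    intro χ hχ j
    show T • Additive.ofMul (∏ x, χ ((transferDataT hqL).factor (parElt _ j) x)) = _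
    rw [ofMul_prod, ← Finset.sum_nsmul]
    rw [Finset.sum_congr rfl fun x _ => hexp χ hχ _]
    rw [Finset.sum_comm]
    refine Finset.sum_congr rfl fun i _ => ?_
    rw [sum_zsmul_fixed]
    congr 1
    have h3 := FermatAgent.Period.parAction_apply_parElt (R := ℤ) (A := ℤ) (N := L) (S := ∅) t
      ⟨parHom (Gamma0 L) i, FermatAgent.Period.isParabolicHom_parHom _ i⟩ j
    rw [FermatAgent.Period.parAction_heckeAt ℤ ℤ hq.out (Set.notMem_empty q)] at h3
    rw [show M j i = ∑ k, M j k • parHom (Gamma0 L) i (Additive.ofMul (parElt _ k)) by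
      simp [FermatAgent.Period.parHom_parElt], ← h3, FermatAgent.Period.heckeOp, dif_neg hqL]
    rfl
  have hpow : ∀ (χ : Gamma0 L →* ℂˣ) (k : ℕ) (i), W (χ ^ k) i = k • W χ i := fun χ k i => by
    show T • Additive.ofMul ((χ ^ k) _) = k • T • Additive.ofMul (χ _)
    rw [MonoidHom.pow_apply, ofMul_pow, smul_comm]
  have hdetw : ∀ i, C.det • W ψ₀ i = 0 :=
    det_smul_eq_zero_of_swap M (q + 1) (W ψ₀) (W φ₁)
      (fun i => by rw [← hop ψ₀ ψ.2.2, h1, hpow])
      (fun i => by rw [← hop φ₁ (galChar (goodLevel_Gamma0 L) n g ψ).2.2, h2, hpow])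
  refine Subtype.ext (MonoidHom.ext fun x => ?_)
  rw [SubgroupClass.coe_pow, OneMemClass.coe_one, MonoidHom.pow_apply, MonoidHom.one_apply]
  apply Additive.ofMul.injective
  rw [ofMul_pow, ofMul_one, mul_comm T, mul_smul, hexp ψ₀ ψ.2.2, ← Finset.sum_nsmul]
  refine Finset.sum_eq_zero fun i _ => ?_
  rw [nsmul_zsmul_swap]
  refine smul_eq_zero_of_right _ ?_
  rw [mul_smul]
  refine smul_eq_zero_of_right _ ?_
  rw [← natCast_zsmul]
  rcases Int.natAbs_eq C.det with h | h
  · rw [← h]; exact hdetw i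
  · rw [show (C.det.natAbs : ℤ) = -C.det by omega, neg_smul, hdetw i, neg_zero]

end FermatAgent.BAD.Toric

end
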