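import Fermat.Agent.BAD.AL.Invol
import Fermat.Agent.BAD.Components
import Fermat.Agent.BAD.GaloisAut
import Fermat.Agent.ES.Forms.Conj

/-!
# Balanced Kummer elements with split reductions

`Balanced`: the `n`-th power of a function with multiplier `χ` on `Γ₀(L q) ∩ Γ(m)` which has unit
content on both components at `q`.  `Split`: its reduction on each component is the `n`-th power of
a function of level `Γ₀(L) ∩ Γ(m)`.  `FrobRelation`: for split balanced data `σ` is `- q W`.
-/

set_option autoImplicit false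

open UpperHalfPlane CongruenceSubgroup
open scoped MatrixGroups

noncomputable section

namespace FermatAgent.BAD.Toric

open FermatAgent.ES (BRing CPlace AuxLevel IsTwist parGroup act auxW lexp conjChar goodLevel_Gamma0
  zetaC)
open FermatAgent.PSEMI.LevelMp (zetaC_mem)

variable {q M m L n : ℕ} [Fact q.Prime] [NeZero M] [NeZero L] (haux : AuxLevel M m)
  (hM : M.Coprime q) (hLM : L ∣ M) {P : CPlace q}

/-- The `n`-th power of a function with multiplier `χ`, of unit content on both components. -/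
structure Balanced (χ : parGroup (Gamma0 (L * q)) n) (i : ℕ) (v w : ℍ → ℂ)
    (y : LRing q M P.ring) : Prop where
  twist : IsTwist (Gamma0 (L * q)) ((2 * i : ℕ) : ℤ) (χ : Gamma0 (L * q) →* ℂˣ) v
  w_mem : w ∈ LSub q M
  w_inv : ∀ δ ∈ Gamma0 (L * q), δ ∈ Gamma m → act δ w = w
  eq : (y : ℍ → ℂ) = (w * fun τ => v τ / auxW haux τ ^ i) ^ n
  unitInf : UnitInf P y
  unitZero : UnitZero P y

/-- The reduction on the component at `∞` is the `n`-th power of a function of level
`Γ₀(L) ∩ Γ(m)`. -/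
def SplitInf (L m n : ℕ) (y : LRing q M P.ring) : Prop :=
  ∃ a b : BRing M P.ring, P.UnitCoeff (lexp M 1 (a : ℍ → ℂ)) ∧
    (∀ δ ∈ Gamma0 L, δ ∈ Gamma m → act δ (a : ℍ → ℂ) = a) ∧
    (∀ δ ∈ Gamma0 L, δ ∈ Gamma m → act δ (b : ℍ → ℂ) = b) ∧
    raiseL M a ^ n * y - raiseL M b ^ n ∈ pInf le_rfl

/-- Both reductions are split. -/
def Split (L m n : ℕ) (y : LRing q M P.ring) : Prop :=
  SplitInf L m n y ∧ SplitInf L m n (atkinL hM (zetaC_mem P _) y)

/-- An automorphism of `PadicAlgCl q` inducing the Frobenius on the residue field. -/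
def IsFrobLift (s : PadicAlgCl q ≃ₐ[ℚ_[q]] PadicAlgCl q) : Prop :=
  ∀ y, ‖y‖ ≤ 1 → ‖s y - y ^ q‖ < 1

/-- For split balanced data the Frobenius is `- q W`. -/
def FrobRelation (Φ : ℂ ≃+* PadicAlgCl q) (n : ℕ) [NeZero n] : Prop :=
  ∀ (χ : parGroup (Gamma0 (L * q)) n) (i : ℕ) (v w : ℍ → ℂ)
    (y : LRing q M (CPlace.ofEquiv Φ).ring),
    Balanced haux χ i v w y → Split hM L m n y →
    ∀ s : PadicAlgCl q ≃ₐ[ℚ_[q]] PadicAlgCl q, IsFrobLift s →
      conjChar (goodLevel_Gamma0 (L * q)) (conjC Φ s) χ * wAut hM hLM n χ ^ q = 1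

end FermatAgent.BAD.Toric
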