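import Fermat.Agent.BAD.Toric.Class
import Fermat.Agent.BAD.Toric.SplitDef
import Fermat.Agent.Curve.Red.QExpansion
import Fermat.Agent.BAD.SerPS

/-!
# Split reductions from killed classes

When the class of level `L` on a component, up to an exponent `e0` (`12` in general), is killed by
`e`, the `e0 e`-th power of the balanced element is split there.
-/

set_option autoImplicit false

open UpperHalfPlane CongruenceSubgroup
open scoped MatrixGroups ModularForm

noncomputable section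

namespace FermatAgent.BAD.Toric

open FermatAgent.ES (BRing SerIn HasExp HasLExp lexp lexp_eq hasLExp_lexp act AuxLevel CPlace
  auxW IsTwist parGroup zetaC auxSer goodLevel_Gamma0)

variable {q : ℕ} [hq : Fact q.Prime] {L M m : ℕ} [NeZero M] [NeZero L] (haux : AuxLevel M m)
  (hM : M.Coprime q) (hLM : L ∣ M) (hqm : q ≠ m) {n : ℕ} [NeZero n] {Φ : ℂ ≃+* PadicAlgCl q}
  {χ : parGroup (Gamma0 (L * q)) n} {a : ℕ} {v : ℍ → ℂ} {c c0 : PowerSeries ℂ}

section

omit hq

theorem normed_ofPS {P : CPlace q} {d : PowerSeries P.ring} (hd : d.map P.res ≠ 0) :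
    Normed P (HahnSeries.ofPowerSeries ℤ ℂ (d.map P.ring.subtype)) := by
  obtain ⟨k, hk⟩ := P.exists_abv_eq_one_of_map_res_ne hd
  exact ⟨SerIn.ofPowerSeries d, (k : ℤ), by
    rw [HahnSeries.ofPowerSeries_apply_coeff, PowerSeries.coeff_map]; exact hk⟩

theorem serLT_ofPS {P : CPlace q} {d : PowerSeries P.ring} (hd : d.map P.res = 0) :
    P.SerLT (HahnSeries.ofPowerSeries ℤ ℂ (d.map P.ring.subtype)) := fun l => by
  rcases le_or_gt 0 l with hl | hl
  · lift l to ℕ using hl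
    rw [HahnSeries.ofPowerSeries_apply_coeff, PowerSeries.coeff_map]
    refine (P.res_eq_zero_iff).mp ?_
    rw [← PowerSeries.coeff_map, hd, map_zero]
  · rw [HahnSeries.ofPowerSeries_apply, HahnSeries.embDomain_of_notMem_range, map_zero]
    · exact one_pos
    · rintro ⟨k, hk⟩; simp at hk; omega

end

/-- The identity of expansions. -/
theorem series_identity {F : Type*} [Field F] {W : F} (hW : W ≠ 0) (A B G : F)
    {n N i j K : ℕ} (h : n * i = n * j + K * N) :
    ((A * (W ^ j)⁻¹) ^ n * G ^ N - (B * (W ^ i)⁻¹) ^ n) * W ^ (n * i) =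
      A ^ n * (G * W ^ K) ^ N - B ^ n := by
  have hx : ∀ (x : F) (k : ℕ), (x * (W ^ k)⁻¹) ^ n * W ^ (n * k) = x ^ n := fun x k => by
    rw [mul_pow, inv_pow, ← pow_mul, mul_comm k n, mul_assoc,
      inv_mul_cancel₀ (pow_ne_zero _ hW), mul_one]
  rw [sub_mul, hx B i, h, pow_add, mul_pow G, ← pow_mul W K, ← hx A j]
  ring

/-- The expansion at `∞` of a combination. -/
theorem lexp_comb {O : Subring ℂ} (f g h : BRing M O) (k N : ℕ) :
    lexp M 1 ((f ^ k * g ^ N - h ^ k : BRing M O) : ℍ → ℂ) =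
      lexp M 1 (f : ℍ → ℂ) ^ k * lexp M 1 (g : ℍ → ℂ) ^ N - lexp M 1 (h : ℍ → ℂ) ^ k :=
  lexp_eq ((((hasLExp_lexp f.2.1 1).pow k).mul ((hasLExp_lexp g.2.1 1).pow N)).sub
    ((hasLExp_lexp h.2.1 1).pow k))

include haux hM hLM hqm in
/-- **The reduction at `∞` is split, for any exponent.** -/
theorem splitInf_of_classE {e0 : ℕ} (hn : n.Coprime q)
    (h : BalForm hM (CPlace.ofEquiv Φ) χ a v c c0)
    {cv : PowerSeries (CPlace.ofEquiv Φ).ring}
    (hcv : cv.map (CPlace.ofEquiv Φ).ring.subtype = c) {ψ : parGroup (Gamma0 L) n}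
    (hψ : IsLevelClassE (CPlace.ofEquiv Φ) e0 (a * (q + 1)) ψ (cv.map (CPlace.ofEquiv Φ).res))
    {e : ℕ} (hψe : ψ ^ e = 1) :
    SplitInf L m n
      (balY haux hM hLM hqm (ES.hasCDVRs_ofEquiv Φ) hn h ^ (e0 * e) :
        LRing q M (CPlace.ofEquiv Φ).ring) := by
  obtain ⟨i, j, v1, D, cv1, cD, hij, hv1, hD, hcv1, hcD, hD0, hrel⟩ := hψ
  have hP := ES.hasCDVRs_ofEquiv Φ
  obtain ⟨cF, cv', hcF, hcv', -, -, hcFv⟩ := exists_balForm1_ser hM hLM haux hqm hP hn h
  obtain rfl : cv' = cv :=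
    PowerSeries.map_injective _ Subtype.val_injective (hcv'.trans hcv.symm)
  have hA := (CPlace.ofEquiv Φ).goodRoot hM
  have hM0 := NeZero.ne M
  have hΓ : Gamma M ≤ Gamma0 L :=
    (ES.gamma_le_of_dvd hLM).trans (goodLevel_Gamma0 L).gamma_le
  have hint : ∀ (d : PowerSeries (CPlace.ofEquiv Φ).ring) (k : ℕ), PowerSeries.coeff k
      ((PowerSeries.expand M hM0 d).map (CPlace.ofEquiv Φ).ring.subtype) ∈
        (CPlace.ofEquiv Φ).ring := fun d k => by
    rw [PowerSeries.coeff_map]; exact (PowerSeries.coeff k (PowerSeries.expand M hM0 d)).2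
  -- the two functions
  have hvT : IsTwist (Gamma0 L) ((2 * (i * e) : ℕ) : ℤ) 1 (v1 ^ e) := by
    have h1 := hv1.pow e
    convert h1 using 1
    · push_cast; ring
    · exact (congrArg Subtype.val hψe).symm
  have hDT : IsTwist (Gamma0 L) ((2 * (j * e) : ℕ) : ℤ) 1 (D ^ e) := by
    have h1 := hD.pow e
    convert h1 using 1
    · push_cast; ring
    · exact MonoidHom.ext fun _ => by simp
  have hve : HasExp M (v1 ^ e)
      ((PowerSeries.expand M hM0 (cv1 ^ e)).map (CPlace.ofEquiv Φ).ring.subtype) := by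
    rw [PowerSeries.map_expand, map_pow]; exact hasExp_widen hM0 (hcv1.pow e)
  have hDe : HasExp M (D ^ e)
      ((PowerSeries.expand M hM0 (cD ^ e)).map (CPlace.ofEquiv Φ).ring.subtype) := by
    rw [PowerSeries.map_expand, map_pow]; exact hasExp_widen hM0 (hcD.pow e)
  obtain ⟨hbm, hbs, -⟩ := ES.form_div_mem_BRing haux hΓ (P := CPlace.ofEquiv Φ) (n := 1) hM
    (MonoidHom.ext fun _ => by simp) hvT hve (hint _)
  obtain ⟨ham, has, -⟩ := ES.form_div_mem_BRing haux hΓ (P := CPlace.ofEquiv Φ) (n := 1) hM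
    (MonoidHom.ext fun _ => by simp) hDT hDe (hint _)
  simp only [pow_one] at hbm hbs ham has
  set fb : BRing M (CPlace.ofEquiv Φ).ring := ⟨_, hbm⟩
  set fa : BRing M (CPlace.ofEquiv Φ).ring := ⟨_, ham⟩
  have hinv : ∀ {k : ℕ} {f : ℍ → ℂ}, IsTwist (Gamma0 L) ((2 * k : ℕ) : ℤ) 1 f →
      ∀ δ ∈ Gamma0 L, δ ∈ Gamma m →
        act δ (fun τ => f τ / auxW haux τ ^ k) = fun τ => f τ / auxW haux τ ^ k :=
    fun hf δ h1 h2 => by
      rw [act_div_auxW haux hf h1 h2]
      funext τ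
      simp
  refine ⟨fa, fb, ?_, hinv hDT, hinv hvT, ?_⟩
  · show (CPlace.ofEquiv Φ).UnitCoeff _
    have h1 : Normed (CPlace.ofEquiv Φ) (HahnSeries.ofPowerSeries ℤ ℂ
        ((PowerSeries.expand M hM0 (cD ^ e)).map (CPlace.ofEquiv Φ).ring.subtype)) := by
      refine normed_ofPS ?_
      rw [PowerSeries.map_expand, map_pow]
      exact expand_ne_zero _ (pow_ne_zero e hD0)
    have h2 : Normed (CPlace.ofEquiv Φ) ((auxSer haux 1 ^ (j * e))⁻¹) := by
      rw [← inv_pow]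
      exact (normed_inv_wSer haux hM (1 : SL(2, ℤ))).pow _
    have h3 := Normed.mul h1 h2
    rw [← has] at h3
    exact h3.2
  -- the congruence
  set G := balG haux hM hLM hqm hP hn h
  set y := balY haux hM hLM hqm hP hn h
  set d : BRing M (CPlace.ofEquiv Φ).ring := fa ^ n * G ^ (e0 * e) - fb ^ n with hd
  set K := 6 * n * (a * (q + 1)) with hK
  set W := wSer haux (1 : SL(2, ℤ))
  have hGW : lexp M 1 (G : ℍ → ℂ) * W ^ K = HahnSeries.ofPowerSeries ℤ ℂ
      (PowerSeries.expand M hM0 (cF.map (CPlace.ofEquiv Φ).ring.subtype)) := by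
    refine (ofPowerSeries_eq_mul_wSer haux G K ?_).symm
    rw [SlashAction.slash_one, ← balForm1_eq haux hM hLM hqm hP hn h]
    exact hasExp_widen hM0 hcF
  have hW0 : W ≠ 0 := wSer_ne_zero haux 1
  set S : PowerSeries (CPlace.ofEquiv Φ).ring :=
    PowerSeries.expand M hM0 ((cD ^ e) ^ n * cF ^ (e0 * e) - (cv1 ^ e) ^ n) with hS
  have hser : lexp M 1 (d : ℍ → ℂ) * W ^ (n * (i * e)) =
      HahnSeries.ofPowerSeries ℤ ℂ (S.map (CPlace.ofEquiv Φ).ring.subtype) := by
    rw [hd, lexp_comb, show lexp M 1 (fa : ℍ → ℂ) = _ from has,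
      show lexp M 1 (fb : ℍ → ℂ) = _ from hbs, show auxSer haux (1 : SL(2, ℤ)) = W from rfl,
      series_identity hW0 _ _ _ (n := n) (N := e0 * e) (i := i * e) (j := j * e) (K := K)
        (by rw [hK, hij]; ring), hGW, hS]
    simp only [← map_pow, ← map_mul, ← map_sub, ← PowerSeries.map_expand]
  have hres : S.map (CPlace.ofEquiv Φ).res = 0 := by
    rw [hS, PowerSeries.map_expand]
    refine (congrArg _ ?_).trans (map_zero _)
    rw [map_sub, map_mul, map_pow, map_pow, map_pow, map_pow, map_pow, hcFv, sub_eq_zero]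
    calc _ = ((cv'.map (CPlace.ofEquiv Φ).res ^ e0 * cD.map (CPlace.ofEquiv Φ).res) ^ n) ^ e := by
          ring
      _ = _ := by rw [← hrel]; ring
  have hlt : (CPlace.ofEquiv Φ).SerLT (lexp M 1 (d : ℍ → ℂ)) := by
    have e2 : lexp M 1 (d : ℍ → ℂ) =
        HahnSeries.ofPowerSeries ℤ ℂ (S.map (CPlace.ofEquiv Φ).ring.subtype) *
          W⁻¹ ^ (n * (i * e)) := by
      rw [← hser, inv_pow, mul_inv_cancel_right₀ (pow_ne_zero _ hW0)]
    rw [e2]
    exact (serLT_ofPS hres).mul_serIn ((normed_inv_wSer haux hM (1 : SL(2, ℤ))).pow _).1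
  have hdI : raiseL M d ∈ (pInf le_rfl : Ideal (LRing q M (CPlace.ofEquiv Φ).ring)) := by
    intro γ hγ
    refine (CPlace.ofEquiv Φ).serLT_of_not_unitCoeff (fun k => serIn_serAt γ (raiseL M d) k)
      fun hu => ?_
    have h2 := unitInf_of_unitCoeff haux hA le_rfl hM goodRoot_zeta hqm hγ hu 1 (one_mem _)
    rw [serAt_raiseL] at h2
    exact hlt.not_unitCoeff (unitCoeff_of_expandL h2)
  obtain ⟨z, hz⟩ := sub_dvd_pow_sub_pow y (raiseL M G) (e0 * e)
  have hy : y - raiseL M G ∈ (pInf le_rfl : Ideal (LRing q M (CPlace.ofEquiv Φ).ring)) := by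
    rw [← neg_sub]; exact neg_mem (balG_sub_mem haux hM hLM hqm hP hn h)
  have e3 : raiseL M fa ^ n * y ^ (e0 * e) - raiseL M fb ^ n =
      raiseL M fa ^ n * ((y - raiseL M G) * z) + raiseL M d := by
    rw [← hz, hd, map_sub, map_mul, map_pow, map_pow, map_pow]
    ring
  rw [e3]
  exact add_mem (Ideal.mul_mem_left _ _ (Ideal.mul_mem_right _ _ hy)) hdI

include haux hM hLM hqm in
/-- **Both reductions are split, for any exponent.** -/
theorem split_of_classesE {e0 : ℕ} (hn : n.Coprime q) (h : BalForm hM (CPlace.ofEquiv Φ) χ a v c c0)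
    {cv cv0 : PowerSeries (CPlace.ofEquiv Φ).ring}
    (hcv : cv.map (CPlace.ofEquiv Φ).ring.subtype = c)
    (hcv0 : cv0.map (CPlace.ofEquiv Φ).ring.subtype = c0) {ψ ψ0 : parGroup (Gamma0 L) n}
    (hψ : IsLevelClassE (CPlace.ofEquiv Φ) e0 (a * (q + 1)) ψ (cv.map (CPlace.ofEquiv Φ).res))
    (hψ0 : IsLevelClassE (CPlace.ofEquiv Φ) e0 (a * (q + 1)) ψ0 (cv0.map (CPlace.ofEquiv Φ).res))
    {e : ℕ} (hψe : ψ ^ e = 1) (hψe0 : ψ0 ^ e = 1) :
    Split hM L m n
      (balY haux hM hLM hqm (ES.hasCDVRs_ofEquiv Φ) hn h ^ (e0 * e) :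
        LRing q M (CPlace.ofEquiv Φ).ring) := by
  refine ⟨splitInf_of_classE haux hM hLM hqm hn h hcv hψ hψe, ?_⟩
  rw [map_pow, atkinL_balY]
  exact splitInf_of_classE haux hM hLM hqm hn (h.symm hM hLM hn) hcv0 hψ0 hψe0

end FermatAgent.BAD.Toric

end
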