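import Fermat.Agent.BAD.Toric.TrKill
import Fermat.Agent.BAD.Toric.SplitOf
import Fermat.Agent.BAD.Toric.LowKill
import Fermat.Agent.BAD.Toric.BalHecke
import Fermat.Agent.BAD.Toric.Core
import Fermat.Agent.BAD.Toric.FrobLift
import Fermat.Agent.BAD.Lift.Main

/-!
# Frobenius squared at a prime exactly dividing the level

The Frobenius exchanges, up to inverses, the classes of level `L` of a balanced character on the two
components; once these are killed, its square acts on a power of the character as `q²`. As the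
classes are fixed by the square of the Frobenius, a fixed exponent kills them (`LowKill`), which
gives `toricSq`.
-/

set_option autoImplicit false

open UpperHalfPlane CongruenceSubgroup
open scoped MatrixGroups ModularForm

noncomputable section

namespace FermatAgent.BAD.Toric

open FermatAgent.ES (AuxLevel CPlace IsTwist parGroup conjChar conjAut galChar galChar_eq
  goodLevel_Gamma0 act)

variable (D : HM.ALData) {M m : ℕ} [NeZero M] (haux : AuxLevel M m) (hM : M.Coprime D.q)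
  (hLM : D.L ∣ M) {n : ℕ} [NeZero n]

omit [NeZero n] in
include hLM in
/-- The transform of a character is its pullback by the involution at `q`. -/
theorem wAut_apply_fac (φ : parGroup (Gamma0 (D.L * D.q)) n) (y : Gamma0 (D.L * D.q)) :
    (wAut hM hLM n φ : Gamma0 (D.L * D.q) →* ℂˣ) y = (φ : Gamma0 (D.L * D.q) →* ℂˣ)
      ((D.wCorr (L := 1) (one_dvd D.L) (Nat.coprime_one_right D.q)).fac y ()) := by
  set W := D.wCorr (L := 1) (one_dvd D.L) (Nat.coprime_one_right D.q)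
  set g := atkinMat hM
  have hL := coprime_of_aux hM hLM
  have hδ : (D.wSL : SL(2, ℤ)) * g⁻¹ ∈ Gamma0 (D.L * D.q) := by
    refine (mem_gamma0_mul_iff hL).mpr ⟨mul_mem D.wSL.2 (inv_mem ?_), ?_⟩
    · exact Gamma0_mem.mpr (Gamma_mem.mp (ES.gamma_le_of_dvd hLM (atkinMat_mem hM))).2.2.1
    · rw [mem_Gamma0_dvd]
      obtain ⟨b, hb⟩ := (atkinMat_dvd hM).2
      refine ⟨(D.L : ℤ) * b - D.w * g 1 0, ?_⟩
      have h10 : (D.wSL : SL(2, ℤ)) 1 0 = (D.L : ℤ) := rfl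
      have h11 : (D.wSL : SL(2, ℤ)) 1 1 = (D.q : ℤ) * D.w := rfl
      simp [h10, h11, Matrix.SpecialLinearGroup.coe_inv, Matrix.adjugate_fin_two,
        Matrix.mul_apply, Fin.sum_univ_two, g, hb]
      ring
  set δ : Gamma0 (D.L * D.q) := ⟨_, hδ⟩
  have hmat : D.mat = (((δ : SL(2, ℤ)) : Matrix (Fin 2) (Fin 2) ℤ)) * alMat D.q g := by
    show D.mat = (((D.wSL : SL(2, ℤ)) * g⁻¹ : SL(2, ℤ)) : Matrix (Fin 2) (Fin 2) ℤ) * alMat D.q g
    rw [alMat, ← mul_assoc, ← Matrix.SpecialLinearGroup.coe_mul, inv_mul_cancel_right]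
    ext i j
    fin_cases i <;> fin_cases j <;>
      simp [HM.ALData.mat, HM.ALData.wSL, HM.ALData.N, Matrix.mul_apply, Fin.sum_univ_two,
        mul_comm]
  set z := (isLevel_gamma0 hM hLM).wHom hM y
  have hfac : W.fac y () = δ * z * δ⁻¹ := W.fac_unique (by
    show D.mat * ((y : SL(2, ℤ)) : Matrix (Fin 2) (Fin 2) ℤ) = _ * D.mat
    rw [hmat, mul_assoc, wHom_spec hM (isLevel_gamma0 hM hLM), ← mul_assoc, ← mul_assoc,
      ← Matrix.SpecialLinearGroup.coe_mul, ← Matrix.SpecialLinearGroup.coe_mul]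
    congr 2
    first | rfl | simp [z])
  show (φ : Gamma0 (D.L * D.q) →* ℂˣ) z = _
  have key : (φ : Gamma0 (D.L * D.q) →* ℂˣ) (δ * z * δ⁻¹) = (φ : Gamma0 (D.L * D.q) →* ℂˣ) z := by
    rw [map_mul, map_mul, map_inv, mul_comm ((φ : Gamma0 (D.L * D.q) →* ℂˣ) δ),
      mul_inv_cancel_right]
  exact key.symm.trans (congrArg (fun u : Gamma0 (D.L * D.q) =>
    (φ : Gamma0 (D.L * D.q) →* ℂˣ) u) hfac.symm)

omit [NeZero n] in
include hLM in
/-- The transfer of the transform is the transfer after the involution. -/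
theorem trCor_wAut (φ : parGroup (Gamma0 (D.L * D.q)) n) (γ : Gamma0 D.L) :
    trCor D (wAut hM hLM n φ : Gamma0 (D.L * D.q) →* ℂˣ) γ =
      trCorW D (φ : Gamma0 (D.L * D.q) →* ℂˣ) γ :=
  Finset.prod_congr rfl fun x _ =>
    wAut_apply_fac D hM hLM φ ((D.corCorr (L := 1) (one_dvd D.L)).fac γ x)

/-- Powers of a character with trivial transfer have trivial transfer. -/
theorem trCor_pow {φ : Gamma0 D.N →* ℂˣ} (h : ∀ γ, trCor D φ γ = 1) (k : ℕ) (γ : Gamma0 D.L) :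
    trCor D (φ ^ k) γ = 1 := by
  have e : trCor D (φ ^ k) γ = trCor D φ γ ^ k := by
    simp only [trCor, ← Finset.prod_pow, MonoidHom.pow_apply]
  rw [e, h, one_pow]

/-- Powers of a character with trivial transfer after the involution have the same. -/
theorem trCorW_pow {φ : Gamma0 D.N →* ℂˣ} (h : ∀ γ, trCorW D φ γ = 1) (k : ℕ) (γ : Gamma0 D.L) :
    trCorW D (φ ^ k) γ = 1 := by
  have e : trCorW D (φ ^ k) γ = trCorW D φ γ ^ k := by
    simp only [trCorW, ← Finset.prod_pow, MonoidHom.pow_apply]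
  rw [e, h, one_pow]

omit [NeZero n] in
/-- A power of balanced data is balanced. -/
theorem Balanced.pow {q L : ℕ} [Fact q.Prime] {haux : AuxLevel M m} {P : CPlace q}
    {χ : parGroup (Gamma0 (L * q)) n} {i : ℕ} {v w : ℍ → ℂ} {y : LRing q M P.ring}
    (h : Balanced haux χ i v w y) (k : ℕ) :
    Balanced haux (χ ^ k) (k * i) (v ^ k) (w ^ k) (y ^ k) where
  twist := by
    have h1 := h.twist.pow k
    convert h1 using 1
    · push_cast; ring
    · rfl
  w_mem := pow_mem h.w_mem k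
  w_inv δ h1 h2 := by
    funext τ
    have h3 := congrFun (h.w_inv δ h1 h2) τ
    simp only [ES.act_apply] at h3
    simp only [ES.act_apply, Pi.pow_apply, h3]
  eq := by
    funext τ
    have h3 := congrFun h.eq τ
    simp only [Pi.pow_apply, Pi.mul_apply] at h3
    simp only [SubmonoidClass.coe_pow, Pi.pow_apply, Pi.mul_apply, h3, ← pow_mul]
    rw [mul_comm k i, pow_mul (ES.auxW haux τ) i k, ← div_pow, ← mul_pow, ← pow_mul,
      mul_comm n k]
  unitInf := h.unitInf.pow le_rfl k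
  unitZero := h.unitZero.pow le_rfl k

/-- Level classes exist up to the exponent `e0`. -/
def HasClassesE (Φ : ℂ ≃+* PadicAlgCl D.q) (n e0 : ℕ) [NeZero n] : Prop :=
  ∀ {χ : parGroup (Gamma0 (D.L * D.q)) n} {a : ℕ} {v : ℍ → ℂ} {c c0 : PowerSeries ℂ},
    BalForm hM (CPlace.ofEquiv Φ) χ a v c c0 →
    ∃ (ψ : parGroup (Gamma0 D.L) n) (cv : PowerSeries (CPlace.ofEquiv Φ).ring),
      cv.map (CPlace.ofEquiv Φ).ring.subtype = c ∧
      IsLevelClassE (CPlace.ofEquiv Φ) e0 (a * (D.q + 1)) ψ (cv.map (CPlace.ofEquiv Φ).res)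

include haux hLM in
/-- Level classes exist up to the exponent twelve. -/
theorem hasClassesE_twelve (hqm : D.q ≠ m) {Φ : ℂ ≃+* PadicAlgCl D.q} (hn : n.Coprime D.q) :
    HasClassesE D hM Φ n 12 := fun h => by
  obtain ⟨i, j, ψ, v1, D1, cv1, cD, cv, hij, h1, h2, h3, h4, hcv, hD0, -, hrel⟩ :=
    exists_level_class haux hM hLM hqm (residualLift Φ hLM hM haux) hn h
  exact ⟨ψ, cv, hcv, i, j, v1, D1, cv1, cD, hij, h1, h2, h3, h4, hD0, hrel⟩

include hLM in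
/-- With a prime `r ≡ 2 mod 3` in the level, level classes exist up to the exponent four. -/
theorem hasClassesE_four (haux : AuxLevel M 3) (hqm : D.q ≠ 3) {r : ℕ} (hr : r.Prime)
    (hr3 : r % 3 = 2) (hrL : r ∣ D.L) {Φ : ℂ ≃+* PadicAlgCl D.q} (hn : n.Coprime D.q) :
    HasClassesE D hM Φ n 4 := fun h => by
  obtain ⟨i, j, ψ, v1, D1, cv1, cD, cv, hij, h1, h2, h3, h4, hcv, hD0, -, hrel⟩ :=
    exists_level_class haux hM hLM hqm (residualLift_four Φ hLM hM haux hr hr3 hrL) hn h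
  exact ⟨ψ, cv, hcv, i, j, v1, D1, cv1, cD, hij, h1, h2, h3, h4, hD0, hrel⟩

include haux hM hLM in
/-- **The two classes of a killed balanced character and the relation they imply.** A balanced
character `χ` with trivial transfers has classes `ψ`, `ψ0` of level `L` on the two components with
`Frob ψ0 = ψ⁻¹` and `Frob ψ = ψ0⁻¹`; if `e` kills both, `Frob = -q W` and `Frob² = q²` hold on
`χ ^ (e0 e)`.

For `p ≠ 3` the exponents are `(24, 12)`; for `p = 3`, with a prime `r ≡ 2 (mod 3)` in the level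
`L`, they are `(8, 4)`. Both products are prime to `p`. -/
theorem exists_class_pair (hqm : D.q ≠ m) (h12 : M ∣ 12 * D.L) (hn : n.Coprime D.q) {e0 : ℕ}
    {Φ : ℂ ≃+* PadicAlgCl D.q} (hcl : HasClassesE D hM Φ n e0)
    {χ : parGroup (Gamma0 (D.L * D.q)) n} {a : ℕ} {v : ℍ → ℂ}
    {c c0 : PowerSeries ℂ} (h : BalForm hM (CPlace.ofEquiv Φ) χ a v c c0)
    (hT : ∀ γ, trCor D (χ : Gamma0 (D.L * D.q) →* ℂˣ) γ = 1)
    (hT' : ∀ γ, trCorW D (χ : Gamma0 (D.L * D.q) →* ℂˣ) γ = 1)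
    (s : PadicAlgCl D.q ≃ₐ[ℚ_[D.q]] PadicAlgCl D.q) (hs : IsFrobLift s) :
    ∃ (ψ ψ0 : parGroup (Gamma0 D.L) n) (cv cv0 : PowerSeries (CPlace.ofEquiv Φ).ring),
      cv.map (CPlace.ofEquiv Φ).ring.subtype = c ∧
      cv0.map (CPlace.ofEquiv Φ).ring.subtype = c0 ∧
      IsLevelClassE (CPlace.ofEquiv Φ) e0 (a * (D.q + 1)) ψ (cv.map (CPlace.ofEquiv Φ).res) ∧
      IsLevelClassE (CPlace.ofEquiv Φ) e0 (a * (D.q + 1)) ψ0 (cv0.map (CPlace.ofEquiv Φ).res) ∧
      conjAut (goodLevel_Gamma0 D.L) n (conjC Φ s) ψ0 = ψ⁻¹ ∧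
      conjAut (goodLevel_Gamma0 D.L) n (conjC Φ s) ψ = ψ0⁻¹ ∧
      ∀ e : ℕ, ψ ^ e = 1 → ψ0 ^ e = 1 →
        conjAut (goodLevel_Gamma0 (D.L * D.q)) n (conjC Φ s) (χ ^ (e0 * e)) =
            (wAut hM hLM n (χ ^ (e0 * e)) ^ D.q)⁻¹ ∧
          conjChar (goodLevel_Gamma0 (D.L * D.q)) (conjC Φ s)
              (conjChar (goodLevel_Gamma0 (D.L * D.q)) (conjC Φ s) (χ ^ (e0 * e))) =
            (χ ^ (e0 * e)) ^ (D.q * D.q) := by
  set σ := conjC Φ s
  have habv := abv_conjC Φ s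
  have hf : ∀ z, (CPlace.ofEquiv Φ).abv z ≤ 1 → (CPlace.ofEquiv Φ).abv (σ z - z ^ D.q) < 1 :=
    fun z hz => by
      rw [CPlace.ofEquiv_abv, map_sub, map_pow, map_conjC]
      exact hs _ (by rwa [CPlace.ofEquiv_abv] at hz)
  have hP := ES.hasCDVRs_ofEquiv Φ
  have h' := h.symm hM hLM hn
  obtain ⟨ψ, cv, hcv, hψ⟩ := hcl h
  obtain ⟨ψ0, cv0, hcv0, hψ0⟩ := hcl h'
  set zc : ℂ := ((χ : Gamma0 (D.L * D.q) →* ℂˣ) (sqAtk hM hLM) : ℂ)
  have hzn : zc ^ n = 1 := by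
    rw [← Units.val_pow_eq_pow_val, ← MonoidHom.pow_apply, χ.2.1]
    rfl
  set z : (CPlace.ofEquiv Φ).ring :=
    ⟨zc, ((CPlace.ofEquiv Φ).abv_eq_one_of_pow_eq_one (NeZero.ne n) hzn).le⟩
  have hcv' : (PowerSeries.C z * cv).map (CPlace.ofEquiv Φ).ring.subtype =
      PowerSeries.C zc * c := by
    rw [map_mul, PowerSeries.map_C, hcv]
    rfl
  have hψ' : IsLevelClassE (CPlace.ofEquiv Φ) e0 (a * (D.q + 1)) ψ
      ((PowerSeries.C z * cv).map (CPlace.ofEquiv Φ).res) := by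
    rw [map_mul, PowerSeries.map_C]
    refine hψ.C_mul ?_
    rw [← map_pow, show z ^ n = 1 from Subtype.ext hzn, map_one]
  have hTw : ∀ γ, trCor D (wAut hM hLM n χ : Gamma0 (D.L * D.q) →* ℂˣ) γ = 1 := fun γ => by
    rw [trCor_wAut D hM hLM, hT']
  have r1 := level_pairE D haux hM hLM h12 hn h hT hcv hcv0 hψ hψ0 habv hf
  have r2 := level_pairE D haux hM hLM h12 hn h' hTw hcv0 hcv' hψ0 hψ' habv hf
  set g := conjAut (goodLevel_Gamma0 D.L) n σ
  have e1 : g ψ0 = ψ⁻¹ := eq_inv_of_mul_eq_one_right r1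
  have e2 : g ψ = ψ0⁻¹ := eq_inv_of_mul_eq_one_right r2
  refine ⟨ψ, ψ0, cv, cv0, hcv, hcv0, hψ, hψ0, e1, e2, fun e k1 k2 => ?_⟩
  -- the relation on both sides
  have hbal := (balanced_balY haux hM hLM hqm hP hn h).pow (e0 * e)
  have hbal' := (balanced_balY haux hM hLM hqm hP hn h').pow (e0 * e)
  have hF := frobRelation haux (hM := hM) (hLM := hLM) hqm h12 hn Φ
  have f1 := hF _ _ _ _ _ hbal (split_of_classesE haux hM hLM hqm hn h hcv hcv0 hψ hψ0 k1 k2) s hs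
  have f2 := hF _ _ _ _ _ hbal' (split_of_classesE haux hM hLM hqm hn h' hcv0 hcv' hψ0 hψ' k2 k1)
    s hs
  set G := conjAut (goodLevel_Gamma0 (D.L * D.q)) n σ
  set χ' := χ ^ (e0 * e) with hχ'
  set w := wAut hM hLM n
  rw [← map_pow, show w (w χ') = χ' from wAut_wAut hM hLM χ'] at f2
  have g1 : G χ' = (w χ' ^ D.q)⁻¹ := eq_inv_of_mul_eq_one_left f1
  have g2 : G (w χ') = (χ' ^ D.q)⁻¹ := eq_inv_of_mul_eq_one_left f2
  refine ⟨g1, ?_⟩
  show G (G χ') = χ' ^ (D.q * D.q)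
  rw [g1, map_inv, map_pow, g2, inv_pow, inv_inv, ← pow_mul]

include haux hM hLM in
/-- **The square of the Frobenius on the twelfth power of a killed balanced character.** -/
theorem frob_sq_balanced (hqm : D.q ≠ m) (h12 : M ∣ 12 * D.L) (hn : n.Coprime D.q)
    {Φ : ℂ ≃+* PadicAlgCl D.q} {χ : parGroup (Gamma0 (D.L * D.q)) n} {a : ℕ} {v : ℍ → ℂ}
    {c c0 : PowerSeries ℂ} (h : BalForm hM (CPlace.ofEquiv Φ) χ a v c c0)
    (hT : ∀ γ, trCor D (χ : Gamma0 (D.L * D.q) →* ℂˣ) γ = 1)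
    (hT' : ∀ γ, trCorW D (χ : Gamma0 (D.L * D.q) →* ℂˣ) γ = 1)
    (s : PadicAlgCl D.q ≃ₐ[ℚ_[D.q]] PadicAlgCl D.q) (hs : IsFrobLift s) {e : ℕ}
    (hkill : ∀ ψ : parGroup (Gamma0 D.L) n,
      conjChar (goodLevel_Gamma0 D.L) (conjC Φ s)
        (conjChar (goodLevel_Gamma0 D.L) (conjC Φ s) ψ) = ψ → ψ ^ e = 1) :
    conjChar (goodLevel_Gamma0 (D.L * D.q)) (conjC Φ s)
        (conjChar (goodLevel_Gamma0 (D.L * D.q)) (conjC Φ s) (χ ^ (12 * e))) =
      (χ ^ (12 * e)) ^ (D.q * D.q) := by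
  obtain ⟨ψ, ψ0, -, -, -, -, -, -, e1, e2, H⟩ := exists_class_pair D haux hM hLM hqm h12 hn
    (hasClassesE_twelve D haux hM hLM hqm hn) h hT hT' s hs
  set g := ES.conjAut (goodLevel_Gamma0 D.L) n (conjC Φ s)
  refine (H e (hkill ψ ?_) (hkill ψ0 ?_)).2
  · show g (g ψ) = ψ
    rw [e2, map_inv, e1, inv_inv]
  · show g (g ψ0) = ψ0
    rw [e1, map_inv, e2, inv_inv]

/-- An auxiliary level. -/
theorem exists_auxLevel : ∃ M m : ℕ, M ≠ 0 ∧ AuxLevel M m ∧ M.Coprime D.q ∧ D.q ≠ m ∧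
    D.L ∣ M ∧ M ∣ 12 * D.L := by
  have hL : D.L.Coprime D.q := ((D.prime.coprime_iff_not_dvd).mpr D.not_dvd).symm
  have hL0 := Nat.pos_of_ne_zero D.L_ne_zero
  by_cases h3 : D.q = 3
  · refine ⟨4 * D.L, 2, by omega, ⟨Or.inl rfl, ⟨2 * D.L, by ring⟩, by omega⟩,
      Nat.Coprime.mul_left (by rw [h3]; decide) hL, by omega, dvd_mul_left _ _,
      mul_dvd_mul_right (by norm_num) _⟩
  · refine ⟨3 * D.L, 3, by omega, ⟨Or.inr rfl, dvd_mul_right _ _, by omega⟩,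
      Nat.Coprime.mul_left ((Nat.coprime_primes Nat.prime_three D.prime).mpr (Ne.symm h3)) hL,
      h3, dvd_mul_left _ _, mul_dvd_mul_right (by norm_num) _⟩

/-- **`Frob_q² = q²` on the toric part.** For `q ∥ N` and `ℓ ∤ N`, the image under `T_ℓ - ℓ - 1` of
the characters fixed by inertia at `q` and new at `q` is killed by a fixed multiple of
`Frob_q² - q²`. -/
theorem toricSq (D : HM.ALData) {ℓ : ℕ} (hℓ : ℓ.Prime) (hℓN : ¬ ℓ ∣ D.N) :
    ∃ e : ℕ, e ≠ 0 ∧ ∀ (n : ℕ) [NeZero n], n.Coprime D.q → ∀ φ : parGroup (Gamma0 D.N) n,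
      (∀ γ, trCor D φ.1 γ = 1) → (∀ γ, trCorW D φ.1 γ = 1) →
      ∀ A : ValuationSubring (AlgebraicClosure ℚ), A.LiesOverPrime D.q →
        (∀ s ∈ A.inertiaSubgroupIn ℚ, galChar (goodLevel_Gamma0 D.N) n s φ = φ) →
        ∀ g, A.IsFrobeniusAt g D.q →
          galChar (goodLevel_Gamma0 D.N) n g
              (galChar (goodLevel_Gamma0 D.N) n g (eisDefect hℓ φ)) ^ e =
            eisDefect hℓ φ ^ (D.q * D.q * e) := by
  obtain ⟨M, m, hM0, haux, hM, hqm, hLM, h12⟩ := exists_auxLevel D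
  have : NeZero M := ⟨hM0⟩
  obtain ⟨e, he, hkill⟩ := exists_kill_frob_sq (q := D.q) D.L D.not_dvd
  refine ⟨24 * (12 * e), by positivity, fun n _ hn φ h1 h2 A hA hI g hg => ?_⟩
  obtain ⟨Φ, rfl⟩ := ES.exists_padicEquiv_compat hA
  obtain ⟨a, v, c, c0, -, hbal⟩ :=
    exists_balForm (q := D.q) (L := D.L) hM hLM haux h12 Φ hn hℓ hℓN φ hI
  obtain ⟨s, hs, hsF⟩ := exists_frobLift Φ hg
  have hext : ∀ x, conjC Φ s (ES.embC x) = ES.embC (g x) := fun x => by
    apply Φ.injective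
    rw [map_conjC, hs]
  have hgal : galChar (goodLevel_Gamma0 D.L) n g = conjAut (goodLevel_Gamma0 D.L) n (conjC Φ s) :=
    galChar_eq _ n hext
  have hgalN : galChar (goodLevel_Gamma0 D.N) n g =
      conjAut (goodLevel_Gamma0 D.N) n (conjC Φ s) := galChar_eq _ n hext
  have key := frob_sq_balanced D haux hM hLM hqm h12 hn hbal
    (fun γ => trCor_pow D (trCor_eisDefect D hℓ hℓN h1) 24 γ)
    (fun γ => trCorW_pow D (trCorW_eisDefect D hℓ hℓN h2) 24 γ)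
    s hsF (fun ψ hψ => hkill n hn _ hA g hg ψ (by rw [hgal]; exact hψ))
  rw [hgalN, ← map_pow, ← map_pow, mul_comm (D.q * D.q), pow_mul _ (24 * (12 * e)),
    pow_mul _ 24 (12 * e)]
  exact key

end FermatAgent.BAD.Toric

end
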