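import Fermat.Agent.BAD.GaloisAut
import Fermat.Agent.BAD.Toric.Fixed
import Fermat.Agent.ES.Cong.Normalize

/-!
# Algebraic numbers fixed by inertia

The absolute value of such a number is an integral power of that of `q`, and the normalised forms of
the image of `T_ℓ - ℓ - 1` on characters fixed by inertia have coefficients of this kind.
-/

set_option autoImplicit false

open UpperHalfPlane CongruenceSubgroup
open scoped MatrixGroups ModularForm

noncomputable section

namespace FermatAgent.BAD.Toric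

open FermatAgent.ES (CPlace GQ embC exists_embC_eq autC HasExp IsTwist parGroup galChar
  conjChar goodLevel_Gamma0)
open FermatAgent.PSEMI (wForm)

variable {q : ℕ}

section Small

variable (P : CPlace q)

/-- An automorphism of `ℂ` congruent to the identity at `P`. -/
def IsSmall (σ : ℂ ≃+* ℂ) : Prop := ∀ z, P.abv z ≤ 1 → P.abv (σ z - z) < 1

/-- Algebraic and fixed by the automorphisms congruent to the identity. -/
def InertFixed (x : ℂ) : Prop := IsAlgebraic ℚ x ∧ ∀ σ, IsSmall P σ → σ x = x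

variable {P} {x y : ℂ}

/-- Fixed numbers are closed under products. -/
theorem InertFixed.mul (hx : InertFixed P x) (hy : InertFixed P y) : InertFixed P (x * y) :=
  ⟨hx.1.mul hy.1, fun σ hσ => by rw [map_mul, hx.2 σ hσ, hy.2 σ hσ]⟩

/-- Fixed numbers are closed under sums. -/
theorem InertFixed.add (hx : InertFixed P x) (hy : InertFixed P y) : InertFixed P (x + y) :=
  ⟨hx.1.add hy.1, fun σ hσ => by rw [map_add, hx.2 σ hσ, hy.2 σ hσ]⟩

/-- Fixed numbers are closed under inverses. -/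
theorem InertFixed.inv (hx : InertFixed P x) : InertFixed P x⁻¹ :=
  ⟨hx.1.inv, fun σ hσ => by rw [map_inv₀, hx.2 σ hσ]⟩

/-- Natural numbers are fixed. -/
theorem inertFixed_natCast (k : ℕ) : InertFixed P (k : ℂ) :=
  ⟨isAlgebraic_natCast k,
    fun σ _ => map_natCast σ k⟩

/-- Integers are fixed. -/
theorem inertFixed_intCast (k : ℤ) : InertFixed P (k : ℂ) :=
  ⟨isAlgebraic_intCast k, fun σ _ => map_intCast σ k⟩

/-- Zero is fixed. -/
theorem InertFixed.zero : InertFixed P 0 := by simpa using inertFixed_natCast (P := P) 0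

/-- One is fixed. -/
theorem InertFixed.one : InertFixed P 1 := by simpa using inertFixed_natCast (P := P) 1

/-- Fixed numbers are closed under powers. -/
theorem InertFixed.pow (hx : InertFixed P x) (k : ℕ) : InertFixed P (x ^ k) :=
  ⟨hx.1.pow k, fun σ hσ => by rw [map_pow, hx.2 σ hσ]⟩

/-- Fixed numbers are closed under integral powers. -/
theorem InertFixed.zpow (hx : InertFixed P x) (k : ℤ) : InertFixed P (x ^ k) := by
  cases k with
  | ofNat k => simpa using hx.pow k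
  | negSucc k => simpa using (hx.pow (k + 1)).inv

/-- Fixed numbers are closed under finite sums. -/
theorem InertFixed.sum {ι : Type*} {s : Finset ι} {f : ι → ℂ} (h : ∀ i ∈ s, InertFixed P (f i)) :
    InertFixed P (∑ i ∈ s, f i) :=
  Finset.sum_induction _ (InertFixed P) (fun _ _ => InertFixed.add) InertFixed.zero h

end Small

variable [Fact q.Prime]

/-- A `q`-adic automorphism moving integers by less than one gives a small automorphism of `ℂ`. -/
theorem isSmall_conjC (Φ : ℂ ≃+* PadicAlgCl q) {s : PadicAlgCl q ≃ₐ[ℚ_[q]] PadicAlgCl q}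
    (hs : ∀ y, ‖y‖ ≤ 1 → ‖s y - y‖ < 1) : IsSmall (CPlace.ofEquiv Φ) (conjC Φ s) := fun z hz => by
  rw [CPlace.ofEquiv_abv] at hz ⊢
  rw [map_sub, map_conjC]
  exact hs _ hz

/-- An automorphism congruent to the identity extends an element of inertia. -/
theorem exists_inertia_of_small {P : CPlace q} {σ : ℂ ≃+* ℂ} (hσ : IsSmall P σ) :
    ∃ g ∈ P.algVal.inertiaSubgroupIn ℚ, ∀ x, σ (embC x) = embC (g x) := by
  let : Algebra (AlgebraicClosure ℚ) ℂ := embC.toRingHom.toAlgebra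
  have : IsScalarTower ℚ (AlgebraicClosure ℚ) ℂ :=
    IsScalarTower.of_algebraMap_eq fun r => (embC.commutes r).symm
  set τ : ℂ ≃ₐ[ℚ] ℂ := AlgEquiv.ofRingEquiv (f := σ) fun r => by simp
  set g := τ.restrictNormal (AlgebraicClosure ℚ)
  have hg : ∀ x, σ (embC x) = embC (g x) := fun x =>
    (τ.restrictNormal_commutes (AlgebraicClosure ℚ) x).symm
  refine ⟨g, (GaloisBasic.mem_inertiaSubgroupIn_iff Fact.out P.algVal_liesOverPrime g).mpr
    fun b => ?_, hg⟩
  rw [GaloisBasic.mem_center, ES.embC_mem_nonunits_iff]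
  show P.abv (embC (g (b : AlgebraicClosure ℚ) - b)) < 1
  rw [map_sub, ← hg]
  exact hσ _ (CPlace.mem_algVal.mp (GaloisBasic.zbar_mem P.algVal b))

/-- Roots of unity of order prime to `q` are fixed. -/
theorem inertFixed_of_pow_eq_one {P : CPlace q} {n : ℕ} (hn0 : n ≠ 0) (hn : ¬ q ∣ n) {z : ℂ}
    (hz : z ^ n = 1) : InertFixed P z := by
  have halg : IsAlgebraic ℚ z :=
    IsAlgebraic.of_pow (Nat.pos_of_ne_zero hn0) (hz ▸ isAlgebraic_one)
  obtain ⟨y, rfl⟩ := exists_embC_eq halg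
  refine ⟨halg, fun σ hσ => ?_⟩
  obtain ⟨g, hg, hgσ⟩ := exists_inertia_of_small hσ
  rw [hgσ, Mazur.inertia_fixes_rootsOfUnity Fact.out P.algVal_liesOverPrime hn hn0 hg
    (embC.toRingHom.injective (by
      show embC (y ^ n) = embC 1
      rw [map_pow, hz, map_one]))]

/-- **The absolute value of a fixed number is a power of that of `q`.** -/
theorem InertFixed.exists_zpow {Φ : ℂ ≃+* PadicAlgCl q} {x : ℂ}
    (hx : InertFixed (CPlace.ofEquiv Φ) x) (hx0 : x ≠ 0) :
    ∃ k : ℤ, (CPlace.ofEquiv Φ).abv x = (CPlace.ofEquiv Φ).abv q ^ k := by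
  set P := CPlace.ofEquiv Φ
  obtain ⟨y, rfl⟩ := exists_embC_eq hx.1
  have hy0 : y ≠ 0 := fun h => hx0 (by rw [h, map_zero])
  obtain ⟨k, hk⟩ := Mazur.exists_zpow_valuation_eq Fact.out P.algVal_liesOverPrime hy0
    fun g hg => by
      obtain ⟨s, hs, hsm⟩ := exists_inertiaAut Φ hg
      have h1 := hx.2 _ (isSmall_conjC Φ hsm)
      rw [conjC_embC Φ s hs] at h1
      exact embC.injective h1
  refine ⟨k, ?_⟩
  have hq0 : (q : AlgebraicClosure ℚ) ≠ 0 := Nat.cast_ne_zero.mpr (Fact.out : q.Prime).ne_zero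
  set u := y * ((q : AlgebraicClosure ℚ) ^ k)⁻¹
  have hu : P.algVal.valuation u = 1 := by
    rw [map_mul, map_inv₀, map_zpow₀, hk, mul_inv_cancel₀]
    exact zpow_ne_zero _ ((map_ne_zero _).mpr hq0)
  have h1 : P.abv (embC u) ≤ 1 :=
    CPlace.mem_algVal.mp ((P.algVal.valuation_le_one_iff u).mp hu.le)
  have h2 : P.abv (embC u⁻¹) ≤ 1 := CPlace.mem_algVal.mp
    ((P.algVal.valuation_le_one_iff u⁻¹).mp (by rw [map_inv₀, hu, inv_one]))
  rw [map_inv₀, map_inv₀] at h2
  have hu0 : embC u ≠ 0 :=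
    (map_ne_zero _).mpr (mul_ne_zero hy0 (inv_ne_zero (zpow_ne_zero _ hq0)))
  have h3 : P.abv (embC u) = 1 := le_antisymm h1 ((inv_le_one₀ (P.abv.pos hu0)).mp h2)
  rw [map_mul, map_inv₀, map_zpow₀, map_natCast, map_mul, map_inv₀, map_zpow₀] at h3
  exact mul_inv_eq_one₀ (zpow_ne_zero _ (by simpa using (Fact.out : q.Prime).ne_zero)) |>.mp h3

section Pair

variable {L M : ℕ} [NeZero M] [NeZero L] (hM : M.Coprime q) (hLM : L ∣ M) (hM12 : M ∣ 12 * L)
  {n : ℕ} [NeZero n]
include hLM hM12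

/-- **Normalised forms with coefficients fixed by inertia.** -/
theorem exists_inertFixed_pair {P : CPlace q} (hn : n.Coprime q) {ℓ : ℕ} (hℓ : ℓ.Prime)
    (hℓN : ¬ ℓ ∣ L * q) (φ : parGroup (Gamma0 (L * q)) n)
    (hφ : ∀ g ∈ P.algVal.inertiaSubgroupIn ℚ,
      galChar (goodLevel_Gamma0 (L * q)) n g φ = φ) :
    ∃ (v : ℍ → ℂ) (c c0 : PowerSeries ℂ),
      IsTwist (Gamma0 (L * q)) ((2 * 2 : ℕ) : ℤ)
        (eisDefect hℓ φ : Gamma0 (L * q) →* ℂˣ) v ∧ v ≠ 0 ∧
      HasExp 1 v c ∧ HasExp 1 (wForm hM ((2 * 2 : ℕ) : ℤ) v) c0 ∧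
      (∀ e, InertFixed P (PowerSeries.coeff e c)) ∧
      ∀ e, InertFixed P (PowerSeries.coeff e c0) := by
  obtain ⟨v, c, c0, hv, hv0, hc, hc0, halg, halg0, hfix⟩ :=
    exists_fixed_pair hM hLM hM12 (eisDefect hℓ φ)
  have key : ∀ σ, IsSmall P σ →
      c.map (σ : ℂ →+* ℂ) = c ∧ c0.map (σ : ℂ →+* ℂ) = c0 := by
    intro σ hσ
    obtain ⟨g, hg, hgσ⟩ := exists_inertia_of_small hσ
    have hroot : ∀ z : ℂ, z ^ n = 1 → σ z = z := fun z hz =>
      (inertFixed_of_pow_eq_one (NeZero.ne n) (fun h => (Fact.out : q.Prime).one_lt.ne'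
        (Nat.dvd_one.mp (hn ▸ Nat.dvd_gcd h dvd_rfl))) hz).2 σ hσ
    have hconj : conjChar (goodLevel_Gamma0 (L * q)) σ φ = φ := by
      rw [← ES.conjAut_apply, ← ES.galChar_eq _ n hgσ]
      exact hφ g hg
    obtain ⟨h1, h2⟩ := kappa_eisDefect hM hLM hM12 hℓ hℓN σ hroot φ hconj
    exact hfix σ h1 h2
  refine ⟨v, c, c0, hv, hv0, hc, hc0, fun e => ⟨halg e, fun σ hσ => ?_⟩,
    fun e => ⟨halg0 e, fun σ hσ => ?_⟩⟩
  · have h := congrArg (PowerSeries.coeff e) (key σ hσ).1
    rwa [PowerSeries.coeff_map] at h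
  · have h := congrArg (PowerSeries.coeff e) (key σ hσ).2
    rwa [PowerSeries.coeff_map] at h

end Pair

end FermatAgent.BAD.Toric

end
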