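import Fermat.Agent.BAD.CuspRoot
import Fermat.Agent.BAD.IsKum

/-!
# Contents of expansions with divisible zeros

An expansion of a function all of whose zeros have multiplicity divisible by `n` is a constant
times a unit times an `n`-th power, so its roots have a content.
-/

set_option autoImplicit false

open UpperHalfPlane CongruenceSubgroup IsLocalRing
open scoped MatrixGroups

noncomputable section

namespace FermatAgent.BAD.Toric

open FermatAgent.ES (BSub BRing SerIn lexp zetaC AuxLevel CPlace GoodRoot liftSer)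

variable {q : ℕ}

section Content

variable (P : CPlace q)

/-- Integral with a unit coefficient. -/
def Normed (s : LaurentSeries ℂ) : Prop := SerIn P.ring s ∧ P.UnitCoeff s

/-- A scalar multiple is integral with a unit coefficient. -/
def HasContent (s : LaurentSeries ℂ) : Prop :=
  ∃ a : ℂ, a ≠ 0 ∧ Normed P (HahnSeries.C a * s)

variable {P} {s t : LaurentSeries ℂ}

/-- The coefficients of a constant multiple. -/
theorem coeff_C_mul' (a : ℂ) (s : LaurentSeries ℂ) (i : ℤ) :
    (HahnSeries.C a * s).coeff i = a * s.coeff i := by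
  rw [HahnSeries.C_mul_eq_smul, HahnSeries.coeff_smul, smul_eq_mul]

/-- Normed series multiply. -/
theorem Normed.mul (hs : Normed P s) (ht : Normed P t) : Normed P (s * t) :=
  ⟨hs.1.mul ht.1, CPlace.UnitCoeff.mul hs.1 ht.1 hs.2 ht.2⟩

/-- Powers of normed series are normed. -/
theorem Normed.pow (hs : Normed P s) (k : ℕ) : Normed P (s ^ k) :=
  ⟨hs.1.pow k, CPlace.UnitCoeff.pow hs.1 hs.2 k⟩

/-- A normed series is not zero. -/
theorem Normed.ne_zero (hs : Normed P s) : s ≠ 0 := fun h => by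
  obtain ⟨i, hi⟩ := hs.2
  simp [h] at hi

/-- A unit multiple of a normed series is normed. -/
theorem Normed.C_mul {a : ℂ} (ha : P.abv a = 1) (hs : Normed P s) :
    Normed P (HahnSeries.C a * s) :=
  ⟨fun i => by rw [coeff_C_mul', P.mem_ring, map_mul, ha, one_mul]; exact hs.1 i, by
    obtain ⟨i, hi⟩ := hs.2
    exact ⟨i, by rw [coeff_C_mul', map_mul, ha, one_mul, hi]⟩⟩

/-- Scalars between normed series are units. -/
theorem Normed.abv_eq_one {a : ℂ} (hs : Normed P s) (h : Normed P (HahnSeries.C a * s)) :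
    P.abv a = 1 := by
  obtain ⟨i, hi⟩ := hs.2
  obtain ⟨j, hj⟩ := h.2
  refine le_antisymm ?_ ?_
  · have h1 : P.abv ((HahnSeries.C a * s).coeff i) ≤ 1 := h.1 i
    rwa [coeff_C_mul', map_mul, hi, mul_one] at h1
  · rw [coeff_C_mul', map_mul] at hj
    rw [← hj]
    exact mul_le_of_le_one_right (P.abv.nonneg _) (hs.1 j)

/-- A normed series has content. -/
theorem Normed.hasContent (hs : Normed P s) : HasContent P s :=
  ⟨1, one_ne_zero, by rwa [map_one, one_mul]⟩

/-- A series with content is not zero. -/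
theorem HasContent.ne_zero (hs : HasContent P s) : s ≠ 0 := by
  obtain ⟨a, -, h⟩ := hs
  exact right_ne_zero_of_mul h.ne_zero

/-- Series with content multiply. -/
theorem HasContent.mul (hs : HasContent P s) (ht : HasContent P t) : HasContent P (s * t) := by
  obtain ⟨a, ha, h⟩ := hs
  obtain ⟨b, hb, h'⟩ := ht
  exact ⟨a * b, mul_ne_zero ha hb, by rw [map_mul, mul_mul_mul_comm]; exact h.mul h'⟩

/-- A non-zero multiple of a series with content has content. -/
theorem HasContent.C_mul {c : ℂ} (hc : c ≠ 0) (hs : HasContent P s) :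
    HasContent P (HahnSeries.C c * s) := by
  obtain ⟨a, ha, h⟩ := hs
  exact ⟨a * c⁻¹, mul_ne_zero ha (inv_ne_zero hc), by
    rwa [← mul_assoc, ← map_mul, mul_assoc a, inv_mul_cancel₀ hc, mul_one]⟩

/-- Powers of series with content have content. -/
theorem HasContent.pow (hs : HasContent P s) (k : ℕ) : HasContent P (s ^ k) := by
  obtain ⟨a, ha, h⟩ := hs
  exact ⟨a ^ k, pow_ne_zero k ha, by rw [map_pow, ← mul_pow]; exact h.pow k⟩

/-- A series with content times a normed one is normed only if it is. -/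
theorem HasContent.normed_of_mul (hs : HasContent P s) (ht : Normed P t)
    (h : Normed P (t * s)) : Normed P s := by
  obtain ⟨a, ha, h'⟩ := hs
  have h1 : Normed P (HahnSeries.C a * (t * s)) := by rw [mul_left_comm]; exact ht.mul h'
  have h2 := h.abv_eq_one h1
  have h3 := h'.C_mul (a := a⁻¹) (by rw [map_inv₀, h2, inv_one])
  rwa [← mul_assoc, ← map_mul, inv_mul_cancel₀ ha, map_one, one_mul] at h3

end Content

variable [Fact q.Prime] {M m : ℕ} [NeZero M] {O : Subring ℂ} (haux : AuxLevel M m)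
  (hA : GoodRoot M O (zetaC M)) {P : CPlace q} (hO' : P.IsCDVR O)

/-- The zeros of a series have multiplicities divisible by `n`, witnessed at every homomorphism to
`ℂ` which fixes the constants. -/
def DivSer (n : ℕ) (S : LaurentSeries O) : Prop :=
  ∀ Ψ : LaurentSeries O →+* ℂ, (∀ c : O, Ψ (HahnSeries.C c) = c) → Ψ S = 0 →
    ∃ (i : ℕ) (E D G : LaurentSeries O), Ψ E ≠ 0 ∧ Ψ G ≠ 0 ∧ S * E = D ^ (n * i) * G

include hO' in
omit [Fact q.Prime] in
/-- **Factorisation of a series with divisible zeros.** -/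
theorem exists_factor_of_divSer [IsDiscreteValuationRing O] {ϖ : O} (hϖ : Irreducible ϖ) {n : ℕ}
    {S : LaurentSeries O} (hS : S ≠ 0) (hd : DivSer n S) :
    ∃ (k : ℕ) (r : ℤ) (u : (PowerSeries O)ˣ) (H : PowerSeries O), psRes (H ^ n) ≠ 0 ∧
      PowerSeries.constantCoeff ((u : PowerSeries O) * H ^ n) ≠ 0 ∧
      S = HahnSeries.C (ϖ ^ k) * (HahnSeries.single r 1 *
        HahnSeries.ofPowerSeries ℤ O ((u : PowerSeries O) * H ^ n)) := by
  classical
  have := hO'.complete
  have : IsAdicComplete (maximalIdeal (PowerSeries O)) (PowerSeries O) :=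
    GaloisBasic.isAdicComplete_mvPowerSeries_of_complete
  have hϖ0 : (ϖ : ℂ) ≠ 0 := fun h => hϖ.ne_zero (Subtype.ext h)
  set F0 := S.powerSeriesPart
  have hS0 : S = HahnSeries.single S.order 1 * HahnSeries.ofPowerSeries ℤ O F0 := by
    rw [LaurentSeries.ofPowerSeries_powerSeriesPart, ← mul_assoc, HahnSeries.single_mul_single,
      add_neg_cancel, one_mul, show HahnSeries.single (0 : ℤ) (1 : O) = 1 from rfl, one_mul]
  have hF00 : PowerSeries.constantCoeff F0 ≠ 0 := by
    rw [← PowerSeries.coeff_zero_eq_constantCoeff_apply, LaurentSeries.powerSeriesPart_coeff,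
      Nat.cast_zero, add_zero]
    exact HahnSeries.coeff_order_eq_zero.not.mpr hS
  have hCu : ¬ IsUnit (PowerSeries.C ϖ) := fun h => hϖ.not_isUnit (by
    have := h.map PowerSeries.constantCoeff
    rwa [PowerSeries.constantCoeff_C] at this)
  obtain ⟨k, F1, hk, hF01⟩ := WfDvdMonoid.max_power_factor'
    (show F0 ≠ 0 from fun h => hF00 (by rw [h, map_zero])) hCu
  have hres : psRes F1 ≠ 0 := fun h0 => hk (dvd_of_psRes_eq_zero hϖ h0)
  have hF10 : PowerSeries.constantCoeff F1 ≠ 0 := fun h => hF00 (by rw [hF01, map_mul, h, mul_zero])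
  have hS1 : S = HahnSeries.C (ϖ ^ k) *
      (HahnSeries.single S.order 1 * HahnSeries.ofPowerSeries ℤ O F1) := by
    rw [mul_left_comm]
    conv_lhs => rw [hS0, hF01, map_mul, map_pow, HahnSeries.ofPowerSeries_C, ← map_pow]
  suffices h : ∃ (u : (PowerSeries O)ˣ) (H : PowerSeries O), F1 = u * H ^ n by
    obtain ⟨u, H, e⟩ := h
    refine ⟨k, S.order, u, H, fun h0 => hres ?_, by rwa [← e], by rw [← e]; exact hS1⟩
    rw [e, map_mul, h0, mul_zero]
  refine exists_factor_of_witness O.subtype O.subtype_injective hres fun ψ hψC hψF => ?_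
  have hX : ψ PowerSeries.X ≠ 0 := fun h => hF10 (Subtype.ext (by
    have e1 := congrArg ψ F1.eq_X_mul_shift_add_const
    rw [hψF, map_add, map_mul, h, zero_mul, zero_add, hψC] at e1
    exact e1.symm))
  obtain ⟨i, d, e, g, h1, h2, h3⟩ := exists_witness_at_point (RingHom.id (LaurentSeries O))
    (ι := HahnSeries.C) (fun _ => rfl) hd (F := F0) hS0 hψC
    (by rw [hF01, map_mul, hψF, mul_zero]) hX
  refine ⟨i, d, PowerSeries.C ϖ ^ k * e, g, ?_, h2, by rw [← h3, hF01]; ring⟩
  rw [map_mul, map_pow, hψC]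
  exact mul_ne_zero (pow_ne_zero k hϖ0) h1

omit [Fact (Nat.Prime q)] in
/-- A residually nonzero series is normed. -/
theorem normed_liftSer [IsDiscreteValuationRing O] (hO' : P.IsCDVR O) {H : PowerSeries O}
    (hH : psRes H ≠ 0) (r : ℤ) :
    Normed P (HahnSeries.single r 1 * HahnSeries.ofPowerSeries ℤ ℂ (H.map O.subtype)) := by
  refine ⟨fun i => ?_, ?_⟩
  · rw [ES.coeff_single_mul_ofPowerSeries]
    split_ifs
    · rw [PowerSeries.coeff_map]; exact hO'.le (PowerSeries.coeff _ H).2
    · exact P.ring.zero_mem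
  · obtain ⟨e, he⟩ : ∃ e, IsUnit (PowerSeries.coeff e H) := by
      by_contra hno
      push Not at hno
      refine hH (PowerSeries.ext fun e => ?_)
      rw [PowerSeries.coeff_map, map_zero, residue_eq_zero_iff, mem_maximalIdeal]
      exact hno e
    refine ⟨r + e, ?_⟩
    rw [ES.coeff_single_mul_ofPowerSeries, if_pos (by omega), show (r + e - r).toNat = e by omega,
      PowerSeries.coeff_map]
    exact (hO'.isUnit_iff _).mp he

include hO' in
/-- **A root of a series with divisible zeros has a content.** -/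
theorem hasContent_of_divSer [IsDiscreteValuationRing O] {n : ℕ} (hn : n.Coprime q)
    {S : LaurentSeries O} (hS0 : S ≠ 0) (hd : DivSer n S)
    {s : LaurentSeries ℂ} (hs : s ^ n = liftSer O.subtype S) : HasContent P s := by
  obtain ⟨ϖ, hϖ⟩ := IsDiscreteValuationRing.exists_irreducible O
  obtain ⟨k, r, u, H, hH, hc0, hS⟩ := exists_factor_of_divSer hO' hϖ hS0 hd
  have hn0 : n ≠ 0 := by
    rintro rfl
    exact (Fact.out : q.Prime).one_lt.ne' (by simpa using hn)
  -- the order
  obtain ⟨l, rfl⟩ : (n : ℤ) ∣ r := by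
    have h1 : S.order = r := by
      refine le_antisymm (HahnSeries.order_le_of_coeff_ne_zero ?_) ?_
      · rw [hS, HahnSeries.C_mul_eq_smul, HahnSeries.coeff_smul, smul_eq_mul]
        refine mul_ne_zero (pow_ne_zero _ hϖ.ne_zero) ?_
        rw [HahnSeries.coeff_single_mul, one_mul, sub_self,
          show (0 : ℤ) = ((0 : ℕ) : ℤ) from rfl, HahnSeries.ofPowerSeries_apply_coeff,
          PowerSeries.coeff_zero_eq_constantCoeff_apply]
        exact hc0
      · refine (HahnSeries.le_order_iff_forall hS0).mpr fun i hi => ?_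
        rw [hS, HahnSeries.C_mul_eq_smul, HahnSeries.coeff_smul, HahnSeries.coeff_single_mul,
          HahnSeries.ofPowerSeries_apply, HahnSeries.embDomain_of_notMem_range, mul_zero, smul_zero]
        rintro ⟨j, hj⟩
        simp at hj
        omega
    rw [← h1, ← order_liftSer O.subtype Subtype.val_injective, ← hs,
      HahnSeries.order_pow, nsmul_eq_mul]
    exact dvd_mul_right _ _
  -- the root of the unit
  set u0 : Oˣ := (PowerSeries.isUnit_iff_constantCoeff.mp u.isUnit).unit
  obtain ⟨v, hv⟩ := (isUnit_natCast_O (O := O) hO' hn).exists_right_inv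
  obtain ⟨w, hw⟩ := ES.exists_series_root
    (u := (u : PowerSeries O) * PowerSeries.C ((u0⁻¹ : Oˣ) : O))
    (by rw [map_mul, PowerSeries.constantCoeff_C]; exact u0.mul_inv) hv
  have hwu : IsUnit w := (isUnit_pow_iff hn0).mp (hw ▸ u.isUnit.mul (u0⁻¹.isUnit.map _))
  have hfac : (u : PowerSeries O) * H ^ n = PowerSeries.C (u0 : O) * (w * H) ^ n := by
    rw [mul_pow, hw]
    have h1 : PowerSeries.C (u0 : O) * PowerSeries.C ((u0⁻¹ : Oˣ) : O) = 1 := by
      rw [← map_mul, u0.mul_inv, map_one]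
    linear_combination (-(u : PowerSeries O) * H ^ n) * h1
  obtain ⟨a, ha⟩ := IsAlgClosed.exists_pow_nat_eq (((ϖ ^ k * (u0 : O)) : O) : ℂ)
    (Nat.pos_of_ne_zero hn0)
  have ha0 : a ≠ 0 := fun h => by
    rw [h, zero_pow hn0] at ha
    exact mul_ne_zero (pow_ne_zero k hϖ.ne_zero) u0.ne_zero (Subtype.ext ha.symm)
  set T := HahnSeries.single l (1 : ℂ) *
    HahnSeries.ofPowerSeries ℤ ℂ ((w * H).map O.subtype)
  have hT : Normed P T := normed_liftSer hO' (fun h0 => hH (by
    rw [map_mul] at h0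
    rw [map_pow, (mul_eq_zero.mp h0).resolve_left (hwu.map psRes).ne_zero, zero_pow hn0])) l
  have hpow : (HahnSeries.C a * T) ^ n = s ^ n := by
    rw [hs, hS, hfac, mul_pow, ← map_pow, ha, map_mul, map_mul, liftSer_C,
      ES.liftSer_single, map_one, ES.liftSer_ofPowerSeries, map_mul (PowerSeries.map O.subtype),
      PowerSeries.map_C, map_mul (HahnSeries.ofPowerSeries ℤ ℂ), HahnSeries.ofPowerSeries_C,
      map_pow (PowerSeries.map O.subtype), map_pow (HahnSeries.ofPowerSeries ℤ ℂ), mul_pow,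
      HahnSeries.single_pow, one_pow, Subring.coe_mul, map_mul (HahnSeries.C), nsmul_eq_mul]
    simp only [Subring.coe_subtype]
    ring
  have hs0 : s ≠ 0 := fun h => by
    rw [h, zero_pow hn0, mul_pow, mul_eq_zero] at hpow
    rcases hpow with h1 | h1
    · exact ha0 (HahnSeries.C_injective ((pow_eq_zero_iff hn0).mp h1 |>.trans (map_zero _).symm))
    · exact hT.ne_zero ((pow_eq_zero_iff hn0).mp h1)
  have : NeZero n := ⟨hn0⟩
  have hζ := (ES.zetaC_isPrimitiveRoot n).map_of_injective
    (HahnSeries.C_injective : Function.Injective (HahnSeries.C : ℂ →+* LaurentSeries ℂ))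
  have hone : (s / (HahnSeries.C a * T)) ^ n = 1 := by
    rw [div_pow, hpow, div_self (pow_ne_zero n hs0)]
  obtain ⟨j, -, hj⟩ := hζ.eq_pow_of_pow_eq_one hone
  have hCa : HahnSeries.C a * T ≠ 0 := mul_ne_zero
    ((map_ne_zero_iff _ HahnSeries.C_injective).mpr ha0) hT.ne_zero
  have hseq : s = HahnSeries.C (zetaC n ^ j * a) * T := by
    rw [map_mul, map_pow, hj, mul_assoc, div_mul_cancel₀ _ hCa]
  rw [hseq]
  exact hT.hasContent.C_mul (mul_ne_zero (pow_ne_zero _
    ((ES.zetaC_isPrimitiveRoot n).ne_zero (NeZero.ne n))) ha0)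

theorem serO_ne_zero {f : LRing q M O} (hf : f ≠ 0) (γ : SL(2, ℤ)) : serO M O q γ f ≠ 0 :=
  fun h => hf (serAt_injective γ (by rw [← liftSer_serO, h, map_zero, map_zero]))

include haux hA in
/-- Expansions of functions with divisible zeros have divisible zeros. -/
theorem divSer_serO {n : ℕ} {f : LRing q M O} (hd : Divisible q M O n (f : ℍ → ℂ))
    (γ : SL(2, ℤ)) : DivSer n (serO M O q γ f) := fun Ψ hΨ hf => by
  obtain ⟨i, d, e, g, he, hg, heq⟩ :=
    exists_witness_of_divisible haux hA hd (serO M O q γ) Ψ (fun c => by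
      rw [show serO M O q γ (constL c) = HahnSeries.C c from serO_ext (by
        rw [serAt_constL, liftSer_C]; rfl), hΨ]) hf
  exact ⟨i, e, d, g, he, hg, heq⟩

include haux hA hO' in
/-- **Functions without zeros have invertible contents.** -/
theorem hasContent_inv_of_ne_zero [IsDiscreteValuationRing O] {f : LRing q M O}
    (h : ∀ τ, (f : ℍ → ℂ) τ ≠ 0) (γ : SL(2, ℤ)) :
    HasContent P (serAt M O q γ f)⁻¹ := by
  obtain ⟨ϖ, hϖ⟩ := IsDiscreteValuationRing.exists_irreducible O
  have hf : f ≠ 0 := fun h0 => h UpperHalfPlane.I (by rw [h0]; rfl)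
  obtain ⟨k, r, u, H, -, -, hS⟩ := exists_factor_of_divSer hO' hϖ (n := 0)
    (serO_ne_zero hf γ) (divSer_serO haux hA (fun τ hτ => absurd hτ (h τ)) γ)
  rw [pow_zero, mul_one] at hS
  have hinv : (serAt M O q γ f)⁻¹ = HahnSeries.C ((ϖ : ℂ) ^ k)⁻¹ *
      (HahnSeries.single (-r) 1 * HahnSeries.ofPowerSeries ℤ ℂ
        (((u⁻¹ : (PowerSeries O)ˣ) : PowerSeries O).map O.subtype)) := by
    refine inv_eq_of_mul_eq_one_left ?_
    rw [← liftSer_serO, hS, map_mul (liftSer O.subtype), map_mul (liftSer O.subtype), liftSer_C,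
      ES.liftSer_single, map_one O.subtype, ES.liftSer_ofPowerSeries, mul_mul_mul_comm,
      ← map_mul HahnSeries.C, mul_mul_mul_comm (HahnSeries.single (-r) (1 : ℂ)),
      HahnSeries.single_mul_single, ← map_mul (HahnSeries.ofPowerSeries ℤ ℂ), ← map_mul,
      Units.inv_mul, map_one, map_one]
    rw [show O.subtype (ϖ ^ k) = (ϖ : ℂ) ^ k from by simp,
      inv_mul_cancel₀ (pow_ne_zero k (fun h0 => hϖ.ne_zero (Subtype.ext h0)))]
    simp
  rw [hinv]
  exact ((normed_liftSer hO' (fun h0 => (u⁻¹.isUnit.map psRes).ne_zero h0) _).hasContent).C_mul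
    (inv_ne_zero (pow_ne_zero k fun h0 => hϖ.ne_zero (Subtype.ext h0)))

end FermatAgent.BAD.Toric
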