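import Fermat.Agent.BAD.KumRoot

/-!
# A root from roots in the completions

For congruent `a`, `b` with divisible multiplicities the local roots of `a b ^ (n - 1)` give a
root among the functions of level `q M`, invariant where `a` and `b` are.
-/

set_option autoImplicit false

open UpperHalfPlane CongruenceSubgroup IsLocalRing
open scoped MatrixGroups

noncomputable section

namespace FermatAgent.BAD.Toric

open FermatAgent.ES (BSub BRing SerIn lexp lexp_eq lexp_act act zetaC AuxLevel CPlace GoodRoot)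

variable {q M m : ℕ} [Fact q.Prime] [NeZero M] {O : Subring ℂ} (haux : AuxLevel M m)
  (hA : GoodRoot M O (zetaC M)) {P : CPlace q} (hO' : P.IsCDVR O) (hM : M.Coprime q)
  (hζ : zetaC (q * M) ∈ O)

include haux hA hO' hM hζ in
/-- **The exact root from local roots.** -/
theorem exists_root_of_local [IsDiscreteValuationRing O] {ϖ : O}
    (hϖ : Irreducible ϖ) {n : ℕ} [NeZero n] (hn : n.Coprime q) {a b : LRing q M O}
    (hab : constL ϖ ∣ a - b) (hb0 : UnitInf P b) (hb1 : UnitZero P b)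
    (hda : Divisible q M O n (a : ℍ → ℂ)) (hdb : Divisible q M O n (b : ℍ → ℂ))
    (hoa : ∀ γ, (n : ℤ) ∣ (serO M O q γ a).order) (hob : ∀ γ, (n : ℤ) ∣ (serO M O q γ b).order)
    (hloc : ∀ 𝔪 : Ideal (LRing q M O), 𝔪.IsMaximal → constL ϖ ∈ 𝔪 → b ∈ 𝔪 →
      LocalRoot 𝔪 (constL ϖ) (a * b ^ (n - 1)) b n) :
    ∃ Z ∈ BSub (q * M), Z ^ n = (a : ℍ → ℂ) * (b : ℍ → ℂ) ^ (n - 1) ∧
      ∀ δ, act δ (a : ℍ → ℂ) = a → act δ (b : ℍ → ℂ) = b → act δ Z = Z := by
  have : IsNoetherianRing (LRing q M O) := isNoetherianRing_LRing haux hA hζ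
  obtain ⟨v, hv⟩ := (isUnit_natCast_O (O := O) hO' hn).exists_right_inv
  have happrox : ∀ c : ℕ, ∃ h : LRing q M O, constL ϖ ∣ h - b ∧
      constL ϖ ^ (c + 1) ∣ h ^ n - a * b ^ (n - 1) := fun c =>
    exists_approx_of_localRoot (NeZero.pos n) (v := constL v)
      (by rw [← map_natCast (constL (q := q) (M := M) (O := O)), ← map_mul, hv, map_one])
      (fun x hx => constL_unif_regular hO' hϖ hx) (regMod_of_unit hO'.le hO' hϖ hb0 hb1)
      (by
        rw [show a * b ^ (n - 1) - b ^ n = (a - b) * b ^ (n - 1) by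
          rw [sub_mul, ← pow_succ', Nat.sub_add_cancel (NeZero.pos n)]]
        exact hab.mul_right _)
      (fun 𝔪 h𝔪 hϖm hbm => hloc 𝔪 h𝔪 hϖm hbm) c
  have hunit : ∀ γ, P.UnitCoeff (serAt M O q γ b) := fun γ => by
    by_cases hγ : γ ∈ Gamma0 q
    exacts [hb0 γ hγ, hb1 γ hγ]
  exact exists_root_of_approx haux hA hO' hM hϖ hn hab hunit hda hdb hoa hob happrox

end FermatAgent.BAD.Toric
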