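import Fermat.Agent.BAD.Toric.Bal
import Fermat.Agent.Curve.QExpJ

/-!
# Balanced forms for the eighth power

The weight is completed by powers of `E₄(τ)` and `E₄(q τ)`, so that the exponent of the character
is prime to every odd prime.
-/

set_option autoImplicit false

open UpperHalfPlane CongruenceSubgroup
open scoped MatrixGroups ModularForm Manifold

noncomputable section

namespace FermatAgent.BAD.Toric

open FermatAgent.ES (CPlace HasExp HasLExp IsTwist parGroup goodLevel_Gamma0 galChar AuxLevel)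
open FermatAgent.PSEMI (wForm wForm_ne_zero)

local notation "Δ" => ModularForm.discriminant
local notation "E4" => (ModularForm.E₄ : ℍ → ℂ)

/-- The series of `E₄`. -/
def eis4PS : PowerSeries ℂ := ModularCurve.eisenstein4.map (Int.castRingHom ℂ)

theorem hasExp_eis4 : HasExp 1 E4 eis4PS := by
  have h : eis4PS = qExpansion ((1 : ℕ) : ℝ) E4 := by
    rw [Nat.cast_one, Curve.qExpansion_E4]; rfl
  rw [h]
  refine HasExp.exists_of_bounded ?_ (ModularFormClass.holo _) (ModularFormClass.bdd_at_infty _)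
  simpa using SlashInvariantFormClass.periodic_comp_ofComplex ModularForm.E₄
    (one_mem_strictPeriods_SL)

theorem cont_eis4 {q : ℕ} [Fact q.Prime] {P : CPlace q} : Cont P 0 eis4PS := by
  have hmem : ∀ e, PowerSeries.coeff e eis4PS ∈ P.ring := fun e => by
    rw [eis4PS, PowerSeries.coeff_map]; exact intCast_mem P.ring _
  refine ⟨fun e => ?_, fun i => ?_, 0, ?_⟩
  · rw [eis4PS, PowerSeries.coeff_map]; exact inertFixed_intCast _
  · rw [neg_zero, zpow_zero, map_one, one_mul]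
    rcases lt_or_ge i 0 with h | h
    · rw [ModularCurve.ofPowerSeries_coeff_of_neg _ h]; exact zero_mem _
    · lift i to ℕ using h
      rw [HahnSeries.ofPowerSeries_apply_coeff]; exact hmem i
  · rw [neg_zero, zpow_zero, map_one, one_mul, show (0 : ℤ) = ((0 : ℕ) : ℤ) from rfl,
      HahnSeries.ofPowerSeries_apply_coeff, eis4PS, PowerSeries.coeff_map,
      PowerSeries.coeff_zero_eq_constantCoeff_apply, ModularCurve.constantCoeff_eisenstein4,
      map_one, map_one]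

theorem isTwist_eis4 (N : ℕ) : IsTwist (Gamma0 N) (4 : ℤ) 1 E4 :=
  ⟨ModularFormClass.holo _, fun γ => by rw [Curve.slash_E]; simp,
    fun γ => by rw [Curve.slash_E]; exact ModularFormClass.bdd_at_infty _⟩

theorem eis4_ne_zero : E4 ≠ 0 := fun h => by
  have h1 := Curve.jFun_I
  rw [Curve.jFun, congrFun h UpperHalfPlane.I] at h1
  norm_num at h1

variable {q : ℕ} [hq : Fact q.Prime] {L M : ℕ} [NeZero M] [NeZero L] {hM : M.Coprime q}
  (hLM : L ∣ M) {n : ℕ} [NeZero n]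

theorem wForm_eis4 : wForm hM (4 : ℤ) E4 = dilFun q E4 := by
  rw [wForm, Curve.slash_E]

theorem hasExp_dil_eis4 :
    HasExp 1 (dilFun q E4) (PowerSeries.expand q (NeZero.ne q) eis4PS) := by
  have h := hasLExp_dilFun q (HasLExp.of_exp hasExp_eis4)
  rw [expandL_ofPowerSeries] at h
  exact ES.hasExp_of_hasLExp_ps h

omit [NeZero L] in
theorem formPair_eis4 :
    FormPair hM (4 : ℤ) (1 : Gamma0 (L * q) →* ℂˣ) E4 eis4PS
      (PowerSeries.expand q (NeZero.ne q) eis4PS) :=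
  ⟨isTwist_eis4 _, hasExp_eis4, by rw [wForm_eis4]; exact hasExp_dil_eis4⟩

omit [NeZero L] in
include hLM in
theorem formPair_dil_eis4 :
    FormPair hM (4 : ℤ) (1 : Gamma0 (L * q) →* ℂˣ) (dilFun q E4)
      (PowerSeries.expand q (NeZero.ne q) eis4PS)
      (PowerSeries.C ((q : ℂ) ^ (4 : ℤ))⁻¹ * eis4PS) := by
  have h : IsTwist (Gamma0 (L * q)) (4 : ℤ) 1 E4 := isTwist_eis4 _
  refine ⟨?_, hasExp_dil_eis4, ?_⟩
  · have h1 := (isLevel_gamma0 hM hLM).isTwist_wForm hM h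
    rw [wForm_eis4] at h1
    exact h1
  · rw [← wForm_eis4 (hM := hM), wForm_wForm hM hLM h, MonoidHom.one_apply, Units.val_one, mul_one]
    exact hasExp_eis4.smul _

theorem dilFun_ne_zero {f : ℍ → ℂ} (hf : f ≠ 0) : dilFun q f ≠ 0 := fun h => hf <| by
  funext τ
  have hq0 : (0 : ℝ) < q := by exact_mod_cast hq.out.pos
  have h1 := congrFun h ⟨(τ : ℂ) / q, by
    rw [Complex.div_natCast_im]; exact div_pos τ.im_pos hq0⟩
  have e : dilPt q ⟨(τ : ℂ) / q, by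
      rw [Complex.div_natCast_im]; exact div_pos τ.im_pos hq0⟩ = τ := by
    ext : 1
    simp [dilPt, mul_div_cancel₀ (τ : ℂ) (q_cast_ne_zero (q := q))]
  rw [dilFun_apply, e] at h1
  exact h1

include hLM in
/-- **Balanced forms for the eighth power.** -/
theorem exists_balForm8 {m : ℕ} (haux : AuxLevel M m) (hM12 : M ∣ 12 * L)
    (Φ : ℂ ≃+* PadicAlgCl q) (hn : n.Coprime q) {ℓ : ℕ} (hℓ : ℓ.Prime) (hℓN : ¬ ℓ ∣ L * q)
    (φ : parGroup (Gamma0 (L * q)) n)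
    (hφ : ∀ g ∈ (CPlace.ofEquiv Φ).algVal.inertiaSubgroupIn ℚ,
      galChar (goodLevel_Gamma0 (L * q)) n g φ = φ) :
    ∃ (a : ℕ) (v : ℍ → ℂ) (c c0 : PowerSeries ℂ), a ≠ 0 ∧
      BalForm hM (CPlace.ofEquiv Φ) (eisDefect hℓ φ ^ 8) a v c c0 := by
  have : NeZero (L * q) := ⟨mul_ne_zero (NeZero.ne L) hq.out.ne_zero⟩
  set P := CPlace.ofEquiv Φ
  set ψ := eisDefect hℓ φ
  obtain ⟨v, c, c0, hv, hv0, hc, hc0, hfix, hfix0⟩ :=
    exists_inertFixed_pair hM hLM hM12 hn hℓ hℓN φ hφ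
  have hP : P.HasCDVRs := ES.hasCDVRs_ofEquiv Φ
  have hqM : q * M ≠ 0 := mul_ne_zero hq.out.ne_zero (NeZero.ne M)
  have hlam : lam q M ≤ Gamma0 (L * q) := (isLevel_gamma0 hM hLM).lam_le
  have hcont : ∀ (θ : parGroup (Gamma0 (L * q)) n) (u : ℍ → ℂ) (d : PowerSeries ℂ),
      IsTwist (Gamma0 (L * q)) ((2 * 2 : ℕ) : ℤ) (θ : Gamma0 (L * q) →* ℂˣ) u → u ≠ 0 →
      HasExp 1 u d → (∀ e, InertFixed P (PowerSeries.coeff e d)) → ∃ k, Cont P k d := by
    intro θ u d hu hu0 hd hf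
    have h := Sq.hasContent_form haux hM hP hn hlam θ.2.1 θ.2.2 hu hu0 1
    have h2 := ES.hasExp_slash_twist (M := q * M) (gamma_qM_le.trans hlam) θ.2.2 hu 1
    rw [SlashAction.slash_one] at h h2
    rw [h2.series_unique (hasExp_widen hqM hd)] at h
    exact exists_cont hf hqM h
  obtain ⟨k1, hk1⟩ := hcont ψ v c hv hv0 hc hfix
  obtain ⟨k2, hk2⟩ := hcont (wAut hM hLM n ψ) _ c0 (isTwist_wAut hM hLM hv)
    (wForm_ne_zero hM hv0) hc0 hfix0
  -- the exponent of `E₄(q τ)`, fixed by the difference of the contents modulo three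
  set d := k2 - k1 with hd
  obtain ⟨l, d', hl, hdl⟩ : ∃ (l : ℕ) (d' : ℤ), l < 3 ∧ 2 * d = ((l + 1 : ℕ) : ℤ) + 3 * d' :=
    ⟨((2 * d - 1) % 3).toNat, (2 * d - 1) / 3, by omega, by omega⟩
  set S := 4 * d'.natAbs with hS
  obtain ⟨a, ha⟩ : ∃ a : ℕ, (a : ℤ) = 8 + (S + 1 : ℕ) + d' :=
    ⟨(8 + (S + 1 : ℕ) + d').toNat, Int.toNat_of_nonneg (by omega)⟩
  obtain ⟨T, hT⟩ : ∃ T : ℕ, ((T + 1 : ℕ) : ℤ) = a + d' := ⟨(a + d' - 1).toNat, by omega⟩
  obtain ⟨l0, hl0⟩ : ∃ l0 : ℕ, l0 + l = 14 := ⟨14 - l, by omega⟩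
  set x : ℂ := (q : ℂ) ^ (-(8 * k1)) with hx
  have hxf : InertFixed P x := (inertFixed_natCast q).zpow _
  have hxabv : P.abv x = P.abv q ^ (-(8 * k1)) := map_zpow₀ _ _ _
  set y : ℂ := ((q : ℂ) ^ (12 : ℤ))⁻¹ with hy
  have hyf : InertFixed P y := ((inertFixed_natCast q).zpow _).inv
  have hyabv : P.abv y = P.abv q ^ (-12 : ℤ) := by rw [map_inv₀, map_zpow₀, zpow_neg]
  set z : ℂ := ((q : ℂ) ^ (4 : ℤ))⁻¹ with hz
  have hzf : InertFixed P z := ((inertFixed_natCast q).zpow _).inv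
  have hzabv : P.abv z = P.abv q ^ (-4 : ℤ) := by rw [map_inv₀, map_zpow₀, zpow_neg]
  have hF0 : FormPair hM ((2 * 2 : ℕ) : ℤ) (ψ : Gamma0 (L * q) →* ℂˣ) v c c0 := ⟨hv, hc, hc0⟩
  have hFP := ((((((hF0.pow 7).mul ((formPair_eis4 (L := L) (hM := hM)).pow l0)).mul
    ((formPair_dil_eis4 (hM := hM) hLM).pow l)).mul
    ((formPair_disc (L := L) (hM := hM)).pow S)).mul
      ((formPair_dil_disc (hM := hM) hLM).pow T))).smul x
  have hwt : ((7 + 1 : ℕ) : ℤ) * ((2 * 2 : ℕ) : ℤ) + ((l0 + 1 : ℕ) : ℤ) * 4 +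
      ((l + 1 : ℕ) : ℤ) * 4 + ((S + 1 : ℕ) : ℤ) * 12 +
      ((T + 1 : ℕ) : ℤ) * 12 = ((2 * (2 * (6 * a)) : ℕ) : ℤ) := by push_cast at ha hT ⊢; omega
  have hchar : (ψ : Gamma0 (L * q) →* ℂˣ) ^ (7 + 1) * 1 ^ (l0 + 1) * 1 ^ (l + 1) * 1 ^ (S + 1) *
      1 ^ (T + 1) = ((ψ ^ 8 : parGroup (Gamma0 (L * q)) n) : Gamma0 (L * q) →* ℂˣ) := by
    rw [SubgroupClass.coe_pow]
    exact MonoidHom.ext fun γ => by simp [MonoidHom.pow_apply]
  rw [hwt, hchar] at hFP
  obtain ⟨hv', hc', hc0'⟩ := hFP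
  refine ⟨a, _, _, _, by omega, hv', ?_, hc', hc0'.smul _, ?_, ?_⟩
  · refine smul_ne_zero (zpow_ne_zero _ q_cast_ne_zero) fun h => ?_
    have hm : ∀ {f g : ℍ → ℂ}, MDiff f → MDiff g → f ≠ 0 → g ≠ 0 → f * g ≠ 0 :=
      fun hf hg hf0 hg0 h0 => (UpperHalfPlane.mul_eq_zero_iff hf hg).mp h0 |>.elim hf0 hg0
    have hp : ∀ {f : ℍ → ℂ}, MDiff f → f ≠ 0 → ∀ k, f ^ k ≠ 0 := fun {f} hf hf0 k h0 => by
      rcases Nat.eq_zero_or_pos k with rfl | hk
      · exact one_ne_zero (congrFun h0 UpperHalfPlane.I)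
      exact hf0 (funext fun τ => pow_eq_zero_iff hk.ne' |>.1 (congrFun h0 τ))
    have hE : MDiff (E4 : ℍ → ℂ) := ModularFormClass.holo _
    have hDE : MDiff (dilFun q E4) := (formPair_dil_eis4 (hM := hM) hLM).1.mdiff
    obtain ⟨τ, hτ⟩ := Function.ne_iff.mp (hm (((hv.mdiff.pow 8).mul (hE.pow (l0 + 1))))
      (hDE.pow (l + 1)) (hm (hv.mdiff.pow 8) (hE.pow (l0 + 1)) (hp hv.mdiff hv0 8)
        (hp hE eis4_ne_zero _)) (hp hDE (dilFun_ne_zero eis4_ne_zero) _))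
    exact mul_ne_zero (mul_ne_zero hτ (pow_ne_zero (S + 1) (ModularForm.discriminant_ne_zero τ)))
      (pow_ne_zero (T + 1) (ModularForm.discriminant_ne_zero (dilPt q τ))) (congrFun h τ)
  · have h := ((((((hk1.pow (7 + 1)).mul ((cont_eis4 (P := P)).pow (l0 + 1))).mul
      (((cont_eis4 (P := P)).expand (NeZero.ne q)).pow (l + 1))).mul
      ((cont_delta (P := P)).pow (S + 1))).mul
      (((cont_delta (P := P)).expand (NeZero.ne q)).pow (T + 1)))).C_mul hxf hxabv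
    convert h using 1
    push_cast
    ring
  · have h := ((((((hk2.pow (7 + 1)).mul
      (((cont_eis4 (P := P)).expand (NeZero.ne q)).pow (l0 + 1))).mul
      (((cont_eis4 (P := P)).C_mul hzf hzabv).pow (l + 1))).mul
      (((cont_delta (P := P)).expand (NeZero.ne q)).pow (S + 1))).mul
      ((((cont_delta (P := P)).C_mul hyf hyabv)).pow (T + 1))).C_mul hxf hxabv).C_mul
        (((inertFixed_natCast q).pow (2 * (6 * a))) : InertFixed P _)
        (j := ((2 * (6 * a) : ℕ) : ℤ)) (by rw [map_pow, zpow_natCast])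
    convert h using 1
    push_cast at hT hdl ⊢
    linarith

end FermatAgent.BAD.Toric

end
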