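import Fermat.Agent.BAD.Toric.Bal
import Fermat.Agent.BAD.Toric.AtkinForm
import Fermat.Agent.BAD.Toric.SplitDef

/-!
# The balanced Kummer element of a balanced form

For a balanced form `v` of weight `24 a` the `n`-th power of `hasseFun ^ (6 a) v / W ^ (12 a)` is
integral with a unit coefficient at every cusp, and the Atkin operator sends it to the one of the
transform.
-/

set_option autoImplicit false

open UpperHalfPlane CongruenceSubgroup
open scoped MatrixGroups ModularForm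

noncomputable section

namespace FermatAgent.BAD.Toric

open FermatAgent.ES (HasExp HasLExp lexp lexp_eq hasLExp_lexp lexp_act act AuxLevel CPlace auxW
  IsTwist parGroup zetaC twistSer)
open FermatAgent.PSEMI (wForm)

variable {q : ℕ} [hq : Fact q.Prime] {L M m : ℕ} [NeZero M] [NeZero L] (haux : AuxLevel M m)
  (hM : M.Coprime q) (hLM : L ∣ M) (hqm : q ≠ m) {n : ℕ} [NeZero n] {P : CPlace q}

/-- The balanced quotient. -/
def balH (q : ℕ) [NeZero q] (haux : AuxLevel M m) (a : ℕ) (v : ℍ → ℂ) : ℍ → ℂ :=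
  hasseFun haux q ^ (6 * a) * fun τ => v τ / auxW haux τ ^ (2 * (6 * a))

include hqm in
theorem atkin_balH (a : ℕ) (v : ℍ → ℂ) :
    atkin hM (balH q haux a v) = balH q haux a
      ((q : ℂ) ^ (2 * (6 * a)) • wForm hM ((2 * (2 * (6 * a)) : ℕ) : ℤ) v) :=
  atkin_balanced haux hM hqm (6 * a) v

include hqm in
/-- `hasseFun` is invariant under `Γ₀(q) ∩ Γ(m)`. -/
theorem act_hasse {δ : SL(2, ℤ)} (hδ : δ ∈ Gamma0 q) (hδm : δ ∈ Gamma m) :
    act δ (hasseFun haux q) = hasseFun haux q := by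
  obtain ⟨γ', h00, h01, h10, h11, h⟩ := exists_dil_conj q δ (mem_Gamma0_dvd.mp hδ)
  obtain ⟨a, b, c, d⟩ := Gamma_mem.mp hδm
  obtain ⟨e, he, he'⟩ : ∃ e : ZMod m, (q : ZMod m) = e ∧ (e = 1 ∨ e = -1) :=
    ⟨_, rfl, natCast_eq_one_or haux hqm⟩
  have hee : e * e = 1 := by rcases he' with rfl | rfl <;> simp
  have hγ' : γ' ∈ Gamma m := by
    refine Gamma_mem.mpr ⟨by rw [h00, a], by rw [h01]; push_cast; rw [b, mul_zero], ?_,
      by rw [h11, d]⟩
    have h1 := congrArg (Int.cast : ℤ → ZMod m) h10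
    push_cast at h1
    rw [c, he] at h1
    linear_combination e * h1 - ((γ' 1 0 : ℤ) : ZMod m) * hee
  funext τ
  rw [ES.act_apply, hasseFun, hasseFun, h, ES.auxW_smul_of_mem haux hδm,
    ES.auxW_smul_of_mem haux hγ', denom_dil_conj h10 h11,
    mul_div_mul_left _ _ (pow_ne_zero 2 (UpperHalfPlane.denom_ne_zero _ τ))]

variable {χ : parGroup (Gamma0 (L * q)) n} {a : ℕ} {v : ℍ → ℂ} {c c0 : PowerSeries ℂ}

omit [NeZero L] in
include hM hLM in
theorem balH_pow_mem_LSub (hv : IsTwist (Gamma0 (L * q)) ((2 * (2 * (6 * a)) : ℕ) : ℤ)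
    (χ : Gamma0 (L * q) →* ℂˣ) v) : balH q haux a v ^ n ∈ LSub q M := by
  rw [balH, mul_pow]
  exact mul_mem (pow_mem (pow_mem (hasse_mem_LSub haux hM) _) _)
    (pow_div_auxW_mem_LSub haux (isLevel_gamma0 hM hLM).lam_le χ.2.1 hv)

include haux hM hLM hqm in
/-- Normed at the cusps of type `∞`. -/
theorem normed_balH (hP : P.HasCDVRs) (hn : n.Coprime q) (h : BalForm hM P χ a v c c0)
    {γ : SL(2, ℤ)} (hγ : γ ∈ Gamma0 q) :
    Normed P (lexp (q * M) γ (balH q haux a v ^ n)) := by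
  have : NeZero (L * q) := ⟨mul_ne_zero (NeZero.ne L) hq.out.ne_zero⟩
  have hlam : lam q M ≤ Gamma0 (L * q) := (isLevel_gamma0 hM hLM).lam_le
  have hz : zetaC (q * M) ∈ P.ring := goodRoot_zeta
  have hA := P.goodRoot hM
  have hqM : q * M ≠ 0 := mul_ne_zero hq.out.ne_zero (NeZero.ne M)
  have hser : ∀ (δ : SL(2, ℤ)), lexp (q * M) δ (balH q haux a v ^ n) =
      (lexp (q * M) δ (hasseFun haux q) ^ (6 * a) * (HahnSeries.ofPowerSeries ℤ ℂ
        (qExpansion ((q * M : ℕ) : ℝ) (v ∣[((2 * (2 * (6 * a)) : ℕ) : ℤ)] δ)) *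
          (expandL q (wSer haux δ) ^ (2 * (6 * a)))⁻¹)) ^ n := fun δ =>
    lexp_eq ((((hasLExp_lexp (hasse_mem_LSub haux hM).1 δ).pow (6 * a)).mul
      (hasLExp_form_div_level haux (ES.hasExp_slash_twist (M := q * M) (gamma_qM_le.trans hlam)
        χ.2.2 h.twist δ))).pow n |>.congr_fun fun τ => by
          simp only [balH, ES.act_apply, Pi.pow_apply, Pi.mul_apply])
  refine normed_inf_of_one haux hM hP hqm (balH_pow_mem_LSub haux hM hLM h.twist) (fun δ => ?_)
    ?_ hγ
  · rw [hser]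
    obtain ⟨r, hr⟩ := Sq.exists_hasAbs_lexp haux hM hP (hasse_mem_LSub haux hM).1
      (fun h0 => div_ne_zero (ES.auxW_ne_zero haux I) (ES.auxW_ne_zero haux _) (congrFun h0 I)) δ
    exact ((hr.hasContent.pow _).mul (Sq.hasContent_form_div haux hM hP hn
      (gamma_qM_le.trans hlam) χ.2.1 χ.2.2 h.twist h.ne_zero δ)).pow n
  · rw [hser]
    refine ((Normed.pow ?_ _).mul (Normed.mul ?_ ?_)).pow n
    · rw [show hasseFun haux q = ((hasseL haux hM hA hz : LRing q M P.ring) : ℍ → ℂ) from rfl,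
        ← serAt_apply]
      exact ⟨fun k => serIn_serAt 1 _ k, hasseL_unitInf haux hM hA hz le_rfl hqm 1 (one_mem _)⟩
    · have h2 := ES.hasExp_slash_twist (M := q * M) (gamma_qM_le.trans hlam) χ.2.2 h.twist 1
      rw [SlashAction.slash_one] at h2 ⊢
      rw [h2.series_unique (hasExp_widen hqM h.exp)]
      exact normed_of_cont_expand hqM h.cont
    · rw [← inv_pow, ← map_inv₀]
      exact (normed_expandL (normed_inv_wSer haux hM 1)).pow _

include haux hM hLM hqm in
/-- Normed at all cusps. -/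
theorem normed_balH_all (hP : P.HasCDVRs) (hn : n.Coprime q) (h : BalForm hM P χ a v c c0)
    (γ : SL(2, ℤ)) : Normed P (lexp (q * M) γ (balH q haux a v ^ n)) := by
  by_cases hγ : γ ∈ Gamma0 q
  · exact normed_balH haux hM hLM hqm hP hn h hγ
  obtain ⟨δ, hδ, hδf⟩ := exists_atkin_sq hM
  set f := balH q haux a v ^ n
  have hf : f ∈ LSub q M := balH_pow_mem_LSub haux hM hLM h.twist
  have hδγ : δ⁻¹ * γ ∉ Gamma0 q := fun h' => hγ (by simpa using mul_mem hδ h')
  have e : lexp (q * M) γ f = lexp (q * M) (δ⁻¹ * γ) (atkin hM (atkin hM f)) := by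
    rw [hδf, lexp_act, mul_inv_cancel_left]
  obtain ⟨γ', hγ', j, t, hts, hlx⟩ := hasLExp_atkin_zero hM (atkin_mem_LSub hM hf) hδγ
  have h1 := normed_balH haux hM hLM hqm hP hn (h.symm hM hLM hn) hγ'
  rw [← atkin_balH haux hM hqm, ← map_pow, hts] at h1
  rw [e, lexp_eq hlx]
  refine ⟨serIn_twist (fun k => ?_) goodRoot_zeta j, ?_⟩
  · rw [← expandL_coeff_mul q t]; exact h1.1 _
  · obtain ⟨k, hk⟩ := h1.2
    obtain ⟨i, rfl⟩ : (q : ℤ) ∣ k := by
      by_contra hd
      rw [expandL_coeff_of_not_dvd q _ hd, map_zero] at hk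
      exact zero_ne_one hk
    rw [expandL_coeff_mul] at hk
    exact ⟨i, by rw [ES.coeff_twistSer, map_mul, abv_twist, mul_one, hk]⟩

/-- The balanced element. -/
def balY (hP : P.HasCDVRs) (hn : n.Coprime q) (h : BalForm hM P χ a v c c0) :
    LRing q M P.ring :=
  ⟨balH q haux a v ^ n, mem_LRing.mpr ⟨balH_pow_mem_LSub haux hM hLM h.twist,
    fun γ => (normed_balH_all haux hM hLM hqm hP hn h γ).1⟩⟩

variable (hP : P.HasCDVRs) (hn : n.Coprime q) (h : BalForm hM P χ a v c c0)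
include haux hM hLM hqm hP hn h

theorem coe_balY : (balY haux hM hLM hqm hP hn h : ℍ → ℂ) = balH q haux a v ^ n := rfl

/-- **The balanced data of a balanced form.** -/
theorem balanced_balY : Balanced haux χ (2 * (6 * a)) v (hasseFun haux q ^ (6 * a))
    (balY haux hM hLM hqm hP hn h) where
  twist := h.twist
  w_mem := pow_mem (hasse_mem_LSub haux hM) _
  w_inv δ hδ hδm := by
    funext τ
    have h2 := congrFun (act_hasse haux hqm
      ((mem_gamma0_mul_iff (coprime_of_aux hM hLM)).mp hδ).2 hδm) τ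
    simp only [ES.act_apply] at h2
    simp only [ES.act_apply, Pi.pow_apply, h2]
  eq := rfl
  unitInf γ _ := (normed_balH_all haux hM hLM hqm hP hn h γ).2
  unitZero γ _ := (normed_balH_all haux hM hLM hqm hP hn h γ).2

/-- **The Atkin operator gives the element of the transform.** -/
theorem atkinL_balY (hζ : zetaC (q * M) ∈ P.ring) :
    atkinL hM hζ (balY haux hM hLM hqm hP hn h) =
      balY haux hM hLM hqm hP hn (h.symm hM hLM hn) :=
  Subtype.ext (by rw [coe_atkinL, coe_balY, coe_balY, map_pow, atkin_balH haux hM hqm])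

end FermatAgent.BAD.Toric

end
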