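import Fermat.Agent.BAD.Toric.BalElt
import Fermat.Agent.BAD.Kummer

/-!
# Balanced elements are fixed by inertia and have divisible zeros

The `n`-th power of a balanced form divided by the standard form is fixed by the conjugations from
inertia, and all its zeros have multiplicity divisible by `n`.
-/

set_option autoImplicit false

open UpperHalfPlane CongruenceSubgroup
open scoped MatrixGroups ModularForm Manifold

noncomputable section

namespace FermatAgent.BAD.Toric

open FermatAgent.ES (HasExp HasLExp lexp lexp_eq hasLExp_lexp act AuxLevel CPlace auxW IsTwist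
  parGroup zetaC mapSer vanishOrd GoodRoot)

variable {q : ℕ} [hq : Fact q.Prime] {L M m : ℕ} [NeZero M] [NeZero L] (haux : AuxLevel M m)
  (hM : M.Coprime q) (hLM : L ∣ M) (hqm : q ≠ m) {n : ℕ} [NeZero n] {P : CPlace q}
  {χ : parGroup (Gamma0 (L * q)) n} {a : ℕ} {v : ℍ → ℂ} {c c0 : PowerSeries ℂ}

include hM in
theorem mapSer_wSer {σ : ℂ ≃+* ℂ} (hσ : IsSmall P σ) (γ : SL(2, ℤ)) :
    mapSer (σ : ℂ →+* ℂ) (wSer haux γ) = wSer haux γ := by
  have hz : σ (zetaC M) = zetaC M := (inertFixed_of_pow_eq_one (P := P) (NeZero.ne M)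
    (fun h => hq.out.one_lt.ne' (Nat.dvd_one.mp (hM ▸ Nat.dvd_gcd h dvd_rfl)))
    (ES.zetaC_isPrimitiveRoot M).pow_eq_one).2 σ hσ
  rw [wSer, ES.mapSer_difLaurent, RingEquiv.coe_toRingHom, hz]

variable {O : Subring ℂ}

omit [NeZero L] [NeZero n] in
include haux hM in
/-- **Balanced elements are fixed.** -/
theorem conjL_eq_self_of_balH (h : BalForm hM P χ a v c c0) (D : InertData M P O)
    {y : LRing q M O} (hy : (y : ℍ → ℂ) = balH q haux a v ^ n) : D.conjL haux y = y := by
  refine Subtype.ext ?_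
  set f : ES.BSub (q * M) := ⟨(y : ℍ → ℂ), y.2.1.1⟩
  show (D.conjB haux f : ℍ → ℂ) = _
  refine ES.lexp_injective (D.conjB haux f).2 y.2.1.1 (γ := 1) ?_
  rw [D.lexp_conjB haux f (ES.GalRel.one _)]
  obtain ⟨γ', -, hl⟩ := hasLExp_hasse_inf haux (one_mem (Gamma0 q))
  have hqM : q * M ≠ 0 := mul_ne_zero hq.out.ne_zero (NeZero.ne M)
  have hW : HasLExp (q * M) (auxW haux) (expandL q (wSer haux (1 : SL(2, ℤ)))) :=
    (hasLExp_raise q (hasLExp_auxW_conj haux (1 : SL(2, ℤ)))).congr_fun fun τ => by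
      simp only [ES.vmul_one]; rfl
  have hW0 : expandL q (wSer haux (1 : SL(2, ℤ))) ≠ 0 :=
    (map_ne_zero_iff _ (expandL_injective q)).mpr (wSer_ne_zero haux 1)
  rw [ES.act_one] at hl
  have hser : lexp (q * M) 1 (f : ℍ → ℂ) =
      (expandL q (wSer haux 1 * (expandL q (wSer haux γ'))⁻¹) ^ (6 * a) *
        (HahnSeries.ofPowerSeries ℤ ℂ (PowerSeries.expand (q * M) hqM c) *
          (expandL q (wSer haux 1) ^ (2 * (6 * a)))⁻¹)) ^ n := by
    refine lexp_eq ?_
    refine (((hl.pow (6 * a)).mul ((HasLExp.of_exp (hasExp_widen hqM h.exp)).mul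
      ((hW.pow (2 * (6 * a))).inv (fun τ => pow_ne_zero _ (ES.auxW_ne_zero haux τ))
        (pow_ne_zero _ hW0)))).pow n).congr_fun fun τ => ?_
    rw [ES.act_one, show (f : ℍ → ℂ) = _ from hy]
    simp [balH, div_eq_mul_inv]
  have hfix : ∀ e, D.σ (PowerSeries.coeff e c) = PowerSeries.coeff e c := fun e =>
    (h.cont.1 e).2 D.σ D.small
  have hc : mapSer (D.σ : ℂ →+* ℂ)
      (HahnSeries.ofPowerSeries ℤ ℂ (PowerSeries.expand (q * M) hqM c)) =
      HahnSeries.ofPowerSeries ℤ ℂ (PowerSeries.expand (q * M) hqM c) := by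
    rw [ES.mapSer_ofPowerSeries, PowerSeries.map_expand]
    congr 2
    ext e
    rw [PowerSeries.coeff_map]
    exact hfix e
  rw [hser]
  simp only [map_pow, map_mul, map_inv₀, mapSer_expandL, hc, mapSer_wSer haux hM D.small]

omit [NeZero L] [NeZero n] in
include haux hM hLM in
/-- **Zeros of multiplicity divisible by `n`.** -/
theorem dvd_vanishOrd_balH (h : BalForm hM P χ a v c c0) (τ : ℍ) (j : ℕ)
    (hj : vanishOrd (balH q haux a v ^ n) τ = j) : n ∣ j := by
  have hlam : lam q M ≤ Gamma0 (L * q) := (isLevel_gamma0 hM hLM).lam_le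
  have hu := hasLExp_form_div_level haux (q := q) (γ := (1 : SL(2, ℤ))) (f := v)
    (i := 2 * (6 * a))
    (ES.hasExp_slash_twist (M := q * M) (gamma_qM_le.trans hlam) χ.2.2 h.twist 1)
  rw [ES.act_one] at hu
  have hmd : MDiff (balH q haux a v) := by
    refine MDifferentiable.mul ?_ hu.mdifferentiable
    exact ((hasLExp_lexp (hasse_mem_LSub haux hM).1 (1 : SL(2, ℤ))).pow (6 * a)).mdifferentiable
      |> fun hm => by simpa [ES.act_one] using hm
  exact dvd_vanishOrd_pow hmd τ j hj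

end FermatAgent.BAD.Toric

end
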