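import Fermat.Agent.BAD.Toric.CuspOrder
import Fermat.Agent.BAD.Toric.Def

/-!
# The norm to level `L` of a balanced form

When the transfer of the multiplier is trivial the norm is a form of level `L`; its reduction is
the reduction at `∞` times the Frobenius transform of the reduction at `0`.
-/

set_option autoImplicit false

open UpperHalfPlane CongruenceSubgroup
open scoped MatrixGroups ModularForm Manifold OnePoint

noncomputable section

namespace FermatAgent.BAD.Toric

open FermatAgent.ES (HasExp HasLExp act CPlace IsTwist parGroup zetaC twistSer SerIn)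
open FermatAgent.PSEMI (wForm)

variable (D : HM.ALData) {n : ℕ}

/-- The product of the slashes at the representatives of `Γ₀(L q) \ Γ₀(L)`. -/
def normForm (k : ℤ) (v : ℍ → ℂ) : ℍ → ℂ := ∏ x : D.PLine, v ∣[k] D.transversal x

theorem card_pLine : Fintype.card D.PLine = D.q + 1 := by
  have e : Nat.card D.PLine = Nat.card (Option (ZMod D.q)) := Nat.card_congr (Equiv.refl _)
  rw [Nat.card_eq_fintype_card, Nat.card_eq_fintype_card, Fintype.card_option, ZMod.card] at e
  exact e

theorem isTwist_normForm {k : ℤ} {χ : Gamma0 D.N →* ℂˣ} {v : ℍ → ℂ}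
    (hv : IsTwist (Gamma0 D.N) k χ v) (hT : ∀ γ, trCor D χ γ = 1) :
    IsTwist (Gamma0 D.L) (k * ((D.q + 1 : ℕ) : ℤ)) 1 (normForm D k v) where
  mdiff := MDifferentiable.prod fun x _ => hv.mdiff.slash k _
  slash γ := by
    rw [← card_pLine, normForm, ES.prod_slash_int]
    set E := D.corCorr (L := 1) (one_dvd D.L)
    have e : ∀ x, (v ∣[k] D.transversal x) ∣[k] (γ : SL(2, ℤ)) =
        fun τ => ((χ (E.fac γ x) : ℂˣ) : ℂ) * (v ∣[k] D.transversal (E.perm γ x)) τ := fun x => by
      have h1 : D.transversal x * (γ : SL(2, ℤ)) =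
          (E.fac γ x : SL(2, ℤ)) * D.transversal (E.perm γ x) := Subtype.ext (by
        rw [Matrix.SpecialLinearGroup.coe_mul, Matrix.SpecialLinearGroup.coe_mul]
        exact E.fac_spec γ x)
      rw [← SlashAction.slash_mul, h1, SlashAction.slash_mul, hv.slash,
        show (fun τ => ((χ (E.fac γ x) : ℂˣ) : ℂ) * v τ) =
          ((χ (E.fac γ x) : ℂˣ) : ℂ) • v from rfl, ModularForm.SL_smul_slash]
      rfl
    funext τ
    simp only [e, Finset.prod_apply, Finset.prod_mul_distrib, MonoidHom.one_apply, Units.val_one,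
      one_mul]
    rw [← Units.coe_prod, show (∏ x, χ (E.fac γ x)) = 1 from hT γ, Units.val_one, one_mul]
    exact Equiv.prod_comp (E.perm γ) fun x => (v ∣[k] D.transversal x) τ
  bdd γ := by
    rw [← card_pLine, normForm, ES.prod_slash_int]
    refine ES.isBounded_prod _ (fun x => ?_) _
    rw [← SlashAction.slash_mul]
    exact hv.bdd _

variable {M : ℕ} [NeZero M] [NeZero n] (hM : M.Coprime D.q) (hLM : D.L ∣ M)

include hM hLM in
/-- The representatives at the cusp `0`. -/
theorem exists_transversal_eq (j : ZMod D.q) : ∃ δ ∈ Gamma0 (D.L * D.q),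
    D.transversal j = δ * (atkinMat hM * ModularGroup.T ^ j.val) := by
  refine ⟨D.transversal j * (atkinMat hM * ModularGroup.T ^ j.val)⁻¹, ?_, by group⟩
  have hT : ModularGroup.T ^ j.val ∈ Gamma0 D.L :=
    pow_mem (ES.goodLevel_Gamma0 D.L).T_mem _
  have hg : atkinMat hM ∈ Gamma0 D.L :=
    Gamma0_mem.mpr (Gamma_mem.mp (ES.gamma_le_of_dvd hLM (atkinMat_mem hM))).2.2.1
  refine (mem_gamma0_mul_iff (coprime_of_aux hM hLM)).mpr
    ⟨mul_mem (D.transversal_mem j) (inv_mem (mul_mem hg hT)), ?_⟩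
  rw [mem_Gamma0_dvd]
  obtain ⟨b, hb⟩ := (atkinMat_dvd hM).2
  refine ⟨(D.L : ℤ) * b - D.w * atkinMat hM 1 0, ?_⟩
  rw [← zpow_natCast ModularGroup.T j.val, mul_inv_rev, ← zpow_neg]
  have h10 : (D.transversal j) 1 0 = (D.L : ℤ) := rfl
  have h11 : (D.transversal j) 1 1 = (D.L : ℤ) * j.val + D.q * D.w := rfl
  simp [ModularGroup.coe_T_zpow, Matrix.SpecialLinearGroup.coe_inv, Matrix.adjugate_fin_two,
    Matrix.mul_apply, Fin.sum_univ_two, h10, h11, hb]
  ring

variable {P : CPlace D.q} {χ : parGroup (Gamma0 (D.L * D.q)) n} {a : ℕ} {v : ℍ → ℂ}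
  {c c0 : PowerSeries ℂ}

omit [NeZero M] in
/-- A product over the projective line splits off the point `∞`. -/
private theorem prod_pLine (f : D.PLine → ℍ → ℂ) :
    ∏ x, f x = f ∞ * ∏ j : ZMod D.q, f (j : D.PLine) := by
  let e : Option (ZMod D.q) ≃ D.PLine := Equiv.refl _
  rw [← Fintype.prod_equiv e (fun x => f (e x)) f fun _ => rfl, Fintype.prod_option]
  rfl

/-- The twisted, scaled expansion at the cusp `0` is a rescaled expansion with integral
coefficients. -/
private theorem twistSer_series {ζ z : P.ring} (hζ : (ζ : ℂ) = zetaC (D.q * M)) {Q : ℂ}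
    (hQ : Q ≠ 0)
    (cv0 : PowerSeries P.ring) (j : ℕ) :
    HahnSeries.C (Q * (z : ℂ)) * twistSer (zetaC (D.q * M) ^ j) (HahnSeries.ofPowerSeries ℤ ℂ
      (PowerSeries.expand M (NeZero.ne M) (PowerSeries.C Q⁻¹ * cv0.map P.ring.subtype))) =
    HahnSeries.ofPowerSeries ℤ ℂ ((PowerSeries.C z * PowerSeries.rescale (ζ ^ j)
      (PowerSeries.expand M (NeZero.ne M) cv0)).map P.ring.subtype) := by
  ext i
  rcases lt_or_ge i 0 with hi | hi
  · rw [HahnSeries.C_apply, HahnSeries.coeff_single_zero_mul, ES.coeff_twistSer,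
      HahnSeries.ofPowerSeries_apply, HahnSeries.ofPowerSeries_apply,
      HahnSeries.embDomain_of_notMem_range, HahnSeries.embDomain_of_notMem_range, zero_mul,
      mul_zero] <;>
    · rintro ⟨e, he⟩
      simp at he
      omega
  lift i to ℕ using hi
  rw [HahnSeries.C_apply, HahnSeries.coeff_single_zero_mul, ES.coeff_twistSer,
    HahnSeries.ofPowerSeries_apply_coeff, HahnSeries.ofPowerSeries_apply_coeff, zpow_natCast,
    PowerSeries.coeff_map, PowerSeries.coeff_C_mul, PowerSeries.coeff_rescale]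
  by_cases hd : M ∣ i
  · obtain ⟨e, rfl⟩ := hd
    rw [PowerSeries.coeff_expand_mul, PowerSeries.coeff_expand_mul, PowerSeries.coeff_C_mul,
      PowerSeries.coeff_map, map_mul, map_mul, map_pow, map_pow]
    simp only [Subring.coe_subtype, hζ]
    field_simp
  · rw [PowerSeries.coeff_expand_of_not_dvd _ _ _ hd,
      PowerSeries.coeff_expand_of_not_dvd _ _ _ hd, mul_zero, mul_zero, map_zero, zero_mul,
      mul_zero]

omit [NeZero n] in
include hM hLM in
/-- The expansion of a factor at the cusp `0`. -/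
private theorem hasExp_transversal (h : BalForm hM P χ a v c c0) {cv0 : PowerSeries P.ring}
    (hcv0 : cv0.map P.ring.subtype = c0) {ζ : P.ring} (hζ : (ζ : ℂ) = zetaC (D.q * M))
    (j : ZMod D.q) {δ : SL(2, ℤ)} (hδ : δ ∈ Gamma0 (D.L * D.q))
    (hrep : D.transversal j = δ * (atkinMat hM * ModularGroup.T ^ j.val)) {z : P.ring}
    (hz : (z : ℂ) = ((χ : Gamma0 (D.L * D.q) →* ℂˣ) ⟨δ, hδ⟩ : ℂ)) :
    HasExp (D.q * M) (((D.q : ℂ) ^ (2 * (6 * a))) •
        (v ∣[((2 * (2 * (6 * a)) : ℕ) : ℤ)] D.transversal (j : D.PLine)))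
      ((PowerSeries.C z * PowerSeries.rescale (ζ ^ j.val)
        (PowerSeries.expand M (NeZero.ne M) cv0)).map P.ring.subtype) := by
  set k : ℤ := ((2 * (2 * (6 * a)) : ℕ) : ℤ) with hk
  set Q : ℂ := (D.q : ℂ) ^ (2 * (6 * a)) with hQ
  have hg := ES.hasExp_slash_twist (M := D.q * M)
    (gamma_qM_le.trans (isLevel_gamma0 hM hLM).lam_le) χ.2.2 h.twist (atkinMat hM)
  have hw : HasExp 1 (wForm hM k v) (PowerSeries.C Q⁻¹ * c0) :=
    (h.expW.smul Q⁻¹).congr_fun fun τ => by
      simp only [Pi.smul_apply, smul_eq_mul, ← hk, ← hQ]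
      rw [inv_mul_cancel_left₀ (pow_ne_zero _ q_cast_ne_zero)]
  have hs : HahnSeries.ofPowerSeries ℤ ℂ _ =
      HahnSeries.ofPowerSeries ℤ ℂ
        (PowerSeries.expand M (NeZero.ne M) (PowerSeries.C Q⁻¹ * c0)) :=
    hasLExp_slash_atkin hM (HasLExp.of_exp hg) hw
  have hg' := hg
  rw [HahnSeries.ofPowerSeries_injective hs] at hg'
  have ht := ES.hasLExp_act_T_pow (HasLExp.of_exp hg') j.val
  refine ES.hasExp_of_hasLExp_ps ?_
  have hl := (HasLExp.const (Q * (z : ℂ))).mul ht
  convert hl.congr_fun (fun τ => ?_) using 1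
  · rw [← twistSer_series D hζ (pow_ne_zero _ (q_cast_ne_zero (q := D.q))) cv0 j.val, hcv0]
  · rw [hrep, SlashAction.slash_mul, h.twist.slash ⟨δ, hδ⟩,
      show (fun τ => ((χ : Gamma0 (D.L * D.q) →* ℂˣ) ⟨δ, hδ⟩ : ℂ) * v τ) =
        ((χ : Gamma0 (D.L * D.q) →* ℂˣ) ⟨δ, hδ⟩ : ℂ) • v from rfl, ModularForm.SL_smul_slash,
      SlashAction.slash_mul, Pi.smul_apply, Pi.smul_apply, smul_eq_mul, smul_eq_mul,
      Pi.mul_apply, ES.act_apply,
      ModularForm.SL_slash_apply (v ∣[k] atkinMat hM) (ModularGroup.T ^ j.val),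
      ModularGroup.denom_apply, ← zpow_natCast ModularGroup.T j.val, ModularGroup.coe_T_zpow]
    simp [hz, mul_assoc, hk]

/-- Frobenius being injective, `ζ_{qM}` reduces to an `M`-th root of unity. -/
private theorem res_zeta_pow {ζ : P.ring} (hζ : (ζ : ℂ) = zetaC (D.q * M)) : P.res ζ ^ M = 1 := by
  have := ES.charP_residueField D.prime P
  have : ExpChar (IsLocalRing.ResidueField P.ring) D.q := ExpChar.prime D.prime
  refine frobenius_inj (IsLocalRing.ResidueField P.ring) D.q ?_
  rw [frobenius_def, frobenius_def, one_pow, ← pow_mul, ← map_pow, ← map_one P.res]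
  congr 1
  refine Subtype.ext ?_
  rw [SubmonoidClass.coe_pow, mul_comm, hζ]
  exact (ES.zetaC_isPrimitiveRoot (D.q * M)).pow_eq_one

/-- The reduction of the product of the expansions. -/
private theorem res_prod_series {ζ : P.ring} (hζ : (ζ : ℂ) = zetaC (D.q * M))
    (hqM : D.q * M ≠ 0) (cv cv0 : PowerSeries P.ring) (zj : ZMod D.q → P.ring)
    {σ : P.ring →+* P.ring} (hσ : ∀ z, P.res (σ z) = P.res z ^ D.q) :
    (PowerSeries.expand (D.q * M) hqM cv * ∏ j : ZMod D.q, PowerSeries.C (zj j) *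
        PowerSeries.rescale (ζ ^ j.val) (PowerSeries.expand M (NeZero.ne M) cv0)).map P.res =
      PowerSeries.expand (D.q * M) hqM
        (PowerSeries.C (P.res (∏ j, zj j)) * (cv.map P.res * (cv0.map σ).map P.res)) := by
  have hsjres : ∀ j, (PowerSeries.C (zj j) *
      PowerSeries.rescale (ζ ^ j.val) (PowerSeries.expand M (NeZero.ne M) cv0)).map P.res =
      PowerSeries.C (P.res (zj j)) * PowerSeries.expand M (NeZero.ne M) (cv0.map P.res) := by
    intro j
    rw [map_mul, PowerSeries.map_C, ← PowerSeries.map_expand]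
    congr 1
    ext i
    simp only [PowerSeries.coeff_map, PowerSeries.coeff_rescale, map_mul, map_pow]
    by_cases hd : M ∣ i
    · obtain ⟨e, rfl⟩ := hd
      rw [← pow_mul, mul_comm j.val, mul_assoc, pow_mul, res_zeta_pow D hζ, one_pow, one_mul]
    · rw [PowerSeries.coeff_expand_of_not_dvd _ _ _ hd, map_zero, mul_zero]
  have := ES.charP_residueField D.prime P
  have : ExpChar (IsLocalRing.ResidueField P.ring) D.q := ExpChar.prime D.prime
  have hfr : (cv0.map σ).map P.res = (cv0.map P.res).map (frobenius _ D.q) := by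
    ext e; simp [hσ, frobenius_def]
  have hp : PowerSeries.expand M (NeZero.ne M) (cv0.map P.res) ^ D.q =
      PowerSeries.expand (D.q * M) hqM ((cv0.map σ).map P.res) := by
    rw [ES.pow_char_series D.prime.ne_zero, PowerSeries.map_expand, PowerSeries.map_expand, hfr,
      PowerSeries.expand_mul]
  rw [map_mul, map_prod]
  simp only [hsjres, Finset.prod_mul_distrib, Finset.prod_const, Finset.card_univ, ZMod.card]
  rw [hp, map_mul, map_mul, PowerSeries.expand_C, ← map_prod, ← map_prod,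
    PowerSeries.map_expand]
  ring

/-- An expansion in `q ^ (1/N)` with integral coefficients of a function expanded in `q` is one in
`q`, with the contracted reduction. -/
private theorem exists_series_one {N : ℕ} (hN : N ≠ 0) {g : ℍ → ℂ} {S : PowerSeries P.ring}
    (hg : HasExp N g (S.map P.ring.subtype)) {cg0 : PowerSeries ℂ} (h0 : HasExp 1 g cg0) :
    ∃ cg : PowerSeries P.ring, HasExp 1 g (cg.map P.ring.subtype) ∧
      ∀ X, S.map P.res = PowerSeries.expand N hN X → cg.map P.res = X := by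
  have : NeZero N := ⟨hN⟩
  have hser := hg.series_unique (hasExp_widen hN h0)
  refine ⟨PowerSeries.mk fun e => PowerSeries.coeff (N * e) S, ?_, fun X hX => ?_⟩
  · convert h0
    ext e
    have h1 := congrArg (PowerSeries.coeff (N * e)) hser
    rw [PowerSeries.coeff_expand_mul, PowerSeries.coeff_map] at h1
    rw [PowerSeries.coeff_map, PowerSeries.coeff_mk]
    exact h1
  · ext e
    have h1 := congrArg (PowerSeries.coeff (N * e)) hX
    rw [PowerSeries.coeff_expand_mul, PowerSeries.coeff_map] at h1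
    rw [PowerSeries.coeff_map, PowerSeries.coeff_mk]
    exact h1

include hM hLM in
/-- **The reduction of the norm.** -/
theorem exists_norm_ser (h : BalForm hM P χ a v c c0)
    (hT : ∀ γ, trCor D (χ : Gamma0 (D.L * D.q) →* ℂˣ) γ = 1) {cv cv0 : PowerSeries P.ring}
    (hcv : cv.map P.ring.subtype = c) (hcv0 : cv0.map P.ring.subtype = c0) {σ : P.ring →+* P.ring}
    (hσ : ∀ z, P.res (σ z) = P.res z ^ D.q) :
    ∃ (g : ℍ → ℂ) (cg : PowerSeries P.ring) (z : P.ring), z ^ n = 1 ∧
      IsTwist (Gamma0 D.L) ((2 * (12 * a * (D.q + 1)) : ℕ) : ℤ) 1 g ∧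
      HasExp 1 g (cg.map P.ring.subtype) ∧
      cg.map P.res = PowerSeries.C (P.res z) * (cv.map P.res * (cv0.map σ).map P.res) := by
  classical
  set k : ℤ := ((2 * (2 * (6 * a)) : ℕ) : ℤ) with hk
  set Q : ℂ := (D.q : ℂ) ^ (2 * (6 * a)) with hQ
  have hqM : D.q * M ≠ 0 := mul_ne_zero D.prime.ne_zero (NeZero.ne M)
  have hζ : zetaC (D.q * M) ∈ P.ring := goodRoot_zeta
  set ζ : P.ring := ⟨_, hζ⟩
  -- the multipliers
  choose δ hδ hrep using exists_transversal_eq D hM hLM
  set zj : ZMod D.q → P.ring := fun j => ⟨((χ : Gamma0 (D.L * D.q) →* ℂˣ) ⟨_, hδ j⟩ : ℂ),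
    (P.abv_eq_one_of_pow_eq_one (NeZero.ne n) (by
      rw [← Units.val_pow_eq_pow_val, ← MonoidHom.pow_apply, χ.2.1]; rfl)).le⟩
  have hzj : ∀ j, zj j ^ n = 1 := fun j => Subtype.ext (by
    rw [SubmonoidClass.coe_pow]
    show (((χ : Gamma0 (D.L * D.q) →* ℂˣ) ⟨_, hδ j⟩ : ℂˣ) : ℂ) ^ n = ((1 : P.ring) : ℂ)
    rw [← Units.val_pow_eq_pow_val, ← MonoidHom.pow_apply, χ.2.1]
    rfl)
  -- the expansions of the factors
  set sInf : PowerSeries P.ring := PowerSeries.expand (D.q * M) hqM cv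
  set sj : ZMod D.q → PowerSeries P.ring := fun j => PowerSeries.C (zj j) *
    PowerSeries.rescale (ζ ^ j.val) (PowerSeries.expand M (NeZero.ne M) cv0)
  have hInf : HasExp (D.q * M) (v ∣[k] D.transversal (∞ : D.PLine))
      (sInf.map P.ring.subtype) := by
    rw [show D.transversal (∞ : D.PLine) = 1 from rfl, SlashAction.slash_one,
      PowerSeries.map_expand, hcv]
    exact hasExp_widen hqM h.exp
  have hj : ∀ j : ZMod D.q, HasExp (D.q * M)
      (Q • (v ∣[k] D.transversal (j : D.PLine))) ((sj j).map P.ring.subtype) := fun j =>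
    hasExp_transversal D hM hLM h hcv0 (ζ := ζ) rfl j (hδ j) (hrep j) (z := zj j) rfl
  -- the product
  have hN := isTwist_normForm D h.twist hT
  set g : ℍ → ℂ := Q ^ D.q • normForm D k v with hgdef
  have hwt : ((2 * (12 * a * (D.q + 1)) : ℕ) : ℤ) = k * ((D.q + 1 : ℕ) : ℤ) := by
    rw [hk]; push_cast; ring
  have hgT : IsTwist (Gamma0 D.L) ((2 * (12 * a * (D.q + 1)) : ℕ) : ℤ) 1 g := by
    rw [hwt]; exact hN.smul _
  set prodS : PowerSeries P.ring := sInf * ∏ j, sj j with hprodS
  have hgexp : HasExp (D.q * M) g (prodS.map P.ring.subtype) := by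
    rw [hprodS, map_mul, map_prod]
    have h1 : HasExp (D.q * M) ((v ∣[k] D.transversal (∞ : D.PLine)) *
        ∏ j : ZMod D.q, Q • (v ∣[k] D.transversal (j : D.PLine)))
        (sInf.map P.ring.subtype * ∏ j, (sj j).map P.ring.subtype) :=
      hInf.mul (ES.HasExp.prod _ fun j _ => hj j)
    refine h1.congr_fun fun τ => ?_
    rw [hgdef, normForm, prod_pLine]
    simp only [Pi.smul_apply, Pi.mul_apply, Finset.prod_apply, smul_eq_mul,
      Finset.prod_mul_distrib, Finset.prod_const, Finset.card_univ, ZMod.card]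
    ring
  obtain ⟨cg0, hcg0⟩ : ∃ cg0, HasExp 1 g cg0 :=
    ⟨_, ES.hasExp_one_twist (ES.goodLevel_Gamma0 D.L).T_mem
      (1 : parGroup (Gamma0 D.L) 1).2.2 hgT⟩
  obtain ⟨cg, hcg, hcgres⟩ := exists_series_one D hqM hgexp hcg0
  exact ⟨g, cg, ∏ j, zj j, by rw [← Finset.prod_pow]; exact Finset.prod_eq_one fun j _ => hzj j,
    hgT, hcg, hcgres _ (res_prod_series D rfl hqM cv cv0 zj hσ)⟩

end FermatAgent.BAD.Toric

end
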