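import Fermat.Agent.BAD.Toric.LiftApply
import Fermat.Agent.BAD.Toric.NormForm

/-!
# The classes of level `L` on the two components

When the transfers vanish the class on one component is inverse to the Frobenius transform of the
class on the other, so both are fixed by the square of the Frobenius.
-/

set_option autoImplicit false

open UpperHalfPlane CongruenceSubgroup
open scoped MatrixGroups ModularForm

noncomputable section

namespace FermatAgent.BAD.Toric

open FermatAgent.ES (HasExp AuxLevel CPlace IsTwist parGroup conjChar goodLevel_Gamma0)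
open FermatAgent.PSEMI (wForm)

/-- Series with equal `n`-th powers differ by a constant. -/
theorem series_eq_C_mul_of_pow_eq {k : Type} [Field k] {n : ℕ} (hn : (n : k) ≠ 0)
    {f g : PowerSeries k} (hg : g ≠ 0) (h : f ^ n = g ^ n) :
    ∃ z : k, z ≠ 0 ∧ f = PowerSeries.C z * g := by
  have hn0 : n ≠ 0 := fun h0 => hn (by rw [h0, Nat.cast_zero])
  obtain ⟨o, u, hu, rfl⟩ := exists_X_pow_mul hg
  have hf : f ≠ 0 := fun h0 => pow_ne_zero n hg (by rw [← h, h0, zero_pow hn0])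
  obtain ⟨o', w, hw, rfl⟩ := exists_X_pow_mul hf
  rw [mul_pow, mul_pow, ← pow_mul, ← pow_mul] at h
  have ho := eq_of_X_pow_mul_unit (hw.pow n) (hu.pow n) h
  obtain rfl : o' = o := Nat.eq_of_mul_eq_mul_right (Nat.pos_of_ne_zero hn0) ho
  have h' : w ^ n = u ^ n := mul_left_cancel₀ (pow_ne_zero _ PowerSeries.X_ne_zero) h
  have hu0 : PowerSeries.constantCoeff u ≠ 0 :=
    (PowerSeries.isUnit_iff_constantCoeff.mp hu).ne_zero
  have hw0 : PowerSeries.constantCoeff w ≠ 0 :=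
    (PowerSeries.isUnit_iff_constantCoeff.mp hw).ne_zero
  set z := PowerSeries.constantCoeff w / PowerSeries.constantCoeff u
  have hz : z ≠ 0 := div_ne_zero hw0 hu0
  have hzn : z ^ n = 1 := by
    have h2 := congrArg PowerSeries.constantCoeff h'
    rw [map_pow, map_pow] at h2
    rw [div_pow, h2, div_self (pow_ne_zero n hu0)]
  refine ⟨z, hz, ?_⟩
  have hp : w ^ n = (PowerSeries.C z * u) ^ n := by
    rw [mul_pow, ← map_pow, hzn, map_one, one_mul, h']
  have h3 := geom_sum₂_mul w (PowerSeries.C z * u) n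
  rw [hp, sub_self, mul_eq_zero] at h3
  have h4 : w = PowerSeries.C z * u := by
    refine sub_eq_zero.mp (h3.resolve_left fun h0 => ?_)
    have h5 := congrArg PowerSeries.constantCoeff h0
    simp only [map_sum, map_mul, map_pow, map_zero, PowerSeries.constantCoeff_C] at h5
    rw [show z * PowerSeries.constantCoeff u = PowerSeries.constantCoeff w from
      div_mul_cancel₀ _ hu0] at h5
    rw [Finset.sum_congr rfl (fun i hi => by
      rw [← pow_add, Nat.add_sub_cancel' (by have := Finset.mem_range.mp hi; omega)])] at h5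
    simp only [Finset.sum_const, Finset.card_range, nsmul_eq_mul] at h5
    exact mul_ne_zero hn (pow_ne_zero _ hw0) h5
  rw [h4]
  ring

variable {q : ℕ} [hq : Fact q.Prime] {L : ℕ} [NeZero L] {n : ℕ} [NeZero n]

/-- `ψ` is the class of level `L` of the residual series `cr`, up to the exponent `e0`. -/
def IsLevelClassE (P : CPlace q) (e0 a : ℕ) (ψ : parGroup (Gamma0 L) n)
    (cr : PowerSeries (IsLocalRing.ResidueField P.ring)) : Prop :=
  ∃ (i j : ℕ) (v1 D : ℍ → ℂ) (cv1 cD : PowerSeries P.ring),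
    i = e0 * (6 * a) + j ∧
    IsTwist (Gamma0 L) ((2 * i : ℕ) : ℤ) (ψ : Gamma0 L →* ℂˣ) v1 ∧
    IsTwist (Gamma0 L) ((2 * j : ℕ) : ℤ) 1 D ∧
    HasExp 1 v1 (cv1.map P.ring.subtype) ∧ HasExp 1 D (cD.map P.ring.subtype) ∧
    cD.map P.res ≠ 0 ∧ cv1.map P.res ^ n = (cr ^ e0 * cD.map P.res) ^ n

section

omit [NeZero n]

omit hq [NeZero L] in
/-- A root of unity does not change the class. -/
theorem IsLevelClassE.C_mul {P : CPlace q} {e0 a : ℕ} {ψ : parGroup (Gamma0 L) n}
    {cr : PowerSeries (IsLocalRing.ResidueField P.ring)} (h : IsLevelClassE P e0 a ψ cr)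
    {z : IsLocalRing.ResidueField P.ring} (hz : z ^ n = 1) :
    IsLevelClassE P e0 a ψ (PowerSeries.C z * cr) := by
  obtain ⟨i, j, v1, D, cv1, cD, hij, h1, h2, h3, h4, h5, h6⟩ := h
  refine ⟨i, j, v1, D, cv1, cD, hij, h1, h2, h3, h4, h5, ?_⟩
  rw [h6, mul_pow (PowerSeries.C z), mul_assoc, mul_pow (PowerSeries.C z ^ e0), ← pow_mul,
    mul_comm e0 n, pow_mul, ← map_pow, hz, map_one, one_pow, one_mul]

/-- An exponent prime to `q` is not zero in the residue field. -/
theorem natCast_res_ne_zero (P : CPlace q) (hn : n.Coprime q) :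
    (n : IsLocalRing.ResidueField P.ring) ≠ 0 := by
  have := ES.charP_residueField hq.out P
  rw [Ne, CharP.cast_eq_zero_iff _ q]
  exact fun h => hq.out.one_lt.ne' (Nat.dvd_one.mp (hn ▸ Nat.dvd_gcd h dvd_rfl))

end

omit hq in
theorem ne_zero_of_res {M : ℕ} [NeZero M] {P : CPlace q} {f : ℍ → ℂ} {c : PowerSeries P.ring}
    (hc : HasExp M f (c.map P.ring.subtype)) (h : c.map P.res ≠ 0) : f ≠ 0 := by
  rintro rfl
  refine h ?_
  have h0 : c.map P.ring.subtype = 0 := hc.series_unique ES.HasExp.zero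
  rw [show c = 0 from PowerSeries.map_injective _ Subtype.val_injective (by rw [h0, map_zero]),
    map_zero]

section Pair

variable (D : HM.ALData) {n : ℕ} [NeZero n] {M m : ℕ} [NeZero M] (haux : AuxLevel M m)
  (hM : M.Coprime D.q) (hLM : D.L ∣ M) {Φ : ℂ ≃+* PadicAlgCl D.q}
  {χ : parGroup (Gamma0 (D.L * D.q)) n} {a : ℕ} {v : ℍ → ℂ} {c c0 : PowerSeries ℂ}

include haux hM hLM in
/-- **The classes on the two components, for any exponent.** -/
theorem level_pairE {e0 : ℕ} (h12 : M ∣ 12 * D.L) (hn : n.Coprime D.q)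
    (h : BalForm hM (CPlace.ofEquiv Φ) χ a v c c0)
    (hT : ∀ γ, trCor D (χ : Gamma0 (D.L * D.q) →* ℂˣ) γ = 1)
    {cv cv0 : PowerSeries (CPlace.ofEquiv Φ).ring}
    (hcv : cv.map (CPlace.ofEquiv Φ).ring.subtype = c)
    (hcv0 : cv0.map (CPlace.ofEquiv Φ).ring.subtype = c0)
    {ψ ψ0 : parGroup (Gamma0 D.L) n}
    (hψ : IsLevelClassE (CPlace.ofEquiv Φ) e0 (a * (D.q + 1)) ψ (cv.map (CPlace.ofEquiv Φ).res))
    (hψ0 : IsLevelClassE (CPlace.ofEquiv Φ) e0 (a * (D.q + 1)) ψ0 (cv0.map (CPlace.ofEquiv Φ).res))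
    {σ : ℂ ≃+* ℂ} (habv : ∀ z, (CPlace.ofEquiv Φ).abv (σ z) = (CPlace.ofEquiv Φ).abv z)
    (hf : ∀ z, (CPlace.ofEquiv Φ).abv z ≤ 1 → (CPlace.ofEquiv Φ).abv (σ z - z ^ D.q) < 1) :
    ψ * conjChar (goodLevel_Gamma0 D.L) σ ψ0 = 1 := by
  set σR : (CPlace.ofEquiv Φ).ring →+* (CPlace.ofEquiv Φ).ring :=
    ((σ : ℂ →+* ℂ).comp (CPlace.ofEquiv Φ).ring.subtype).codRestrict (CPlace.ofEquiv Φ).ring
      fun z => by
    rw [CPlace.mem_ring]
    exact (habv z).trans_le z.2
  have hσR : ∀ z, (CPlace.ofEquiv Φ).res (σR z) = (CPlace.ofEquiv Φ).res z ^ D.q := fun z => by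
    rw [← map_pow, CPlace.res_eq_iff, SubmonoidClass.coe_pow]
    exact hf z z.2
  have := ES.charP_residueField D.prime (CPlace.ofEquiv Φ)
  have : ExpChar (IsLocalRing.ResidueField (CPlace.ofEquiv Φ).ring) D.q := ExpChar.prime D.prime
  set F := frobenius (IsLocalRing.ResidueField (CPlace.ofEquiv Φ).ring) D.q
  have hmap : ∀ d : PowerSeries (CPlace.ofEquiv Φ).ring, (d.map σR).map (CPlace.ofEquiv Φ).res =
      (d.map (CPlace.ofEquiv Φ).res).map F := fun d => by
    ext e; simp [hσR, F, frobenius_def]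
  have hmapC : ∀ d : PowerSeries (CPlace.ofEquiv Φ).ring,
      (d.map σR).map (CPlace.ofEquiv Φ).ring.subtype =
      (d.map (CPlace.ofEquiv Φ).ring.subtype).map (σ : ℂ →+* ℂ) := fun d => by ext e; simp [σR]
  have hnk := natCast_res_ne_zero (CPlace.ofEquiv Φ) hn
  obtain ⟨g, cg, z, hz, hg, hcg, hres⟩ := exists_norm_ser D hM hLM h hT hcv hcv0 hσR
  obtain ⟨i, j, v1, D1, cv1, cD, hij, hv1, hD1, hcv1, hcD, hD0, hrel⟩ := hψ
  obtain ⟨i', j', v2, D2, cv2, cD', hij', hv2, hD2, hcv2, hcD', hD0', hrel'⟩ := hψ0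
  have hc0 := h.cont.res_ne_zero hcv
  have hc00 := h.cont0.res_ne_zero hcv0
  obtain ⟨z1, hz1, h1⟩ := series_eq_C_mul_of_pow_eq hnk
    (mul_ne_zero (pow_ne_zero e0 hc0) hD0) hrel
  obtain ⟨z2, hz2, h2⟩ := series_eq_C_mul_of_pow_eq hnk
    (mul_ne_zero (pow_ne_zero e0 hc00) hD0') hrel'
  -- the conjugate forms
  obtain ⟨r, hr⟩ := h12
  have hr0 : r ≠ 0 := fun h0 => by simp [h0, D.L_ne_zero] at hr
  have hw2 : HasExp M v2
      ((PowerSeries.expand M (NeZero.ne M) cv2).map (CPlace.ofEquiv Φ).ring.subtype) := by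
    rw [PowerSeries.map_expand]; exact hasExp_widen (NeZero.ne M) hcv2
  have hwD : HasExp M D2
      ((PowerSeries.expand M (NeZero.ne M) cD').map (CPlace.ofEquiv Φ).ring.subtype) := by
    rw [PowerSeries.map_expand]; exact hasExp_widen (NeZero.ne M) hcD'
  have hv20 : cv2.map (CPlace.ofEquiv Φ).res ≠ 0 := by
    rw [h2]
    exact mul_ne_zero ((map_ne_zero_iff _ PowerSeries.C_injective).mpr hz2)
      (mul_ne_zero (pow_ne_zero e0 hc00) hD0')
  obtain ⟨v2', hv2', -, hv2e⟩ := ES.exists_conj_level haux (goodLevel_Gamma0 D.L) hLM hr0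
    (by rw [hr, mul_comm]) σ ψ0 hv2 (ne_zero_of_res hcv2 hv20) hw2
  obtain ⟨D2', hD2', -, hD2e⟩ := ES.exists_conj_level haux (goodLevel_Gamma0 D.L) hLM hr0
    (by rw [hr, mul_comm]) σ (1 : parGroup (Gamma0 D.L) n) hD2 (ne_zero_of_res hcD' hD0') hwD
  rw [show conjChar (goodLevel_Gamma0 D.L) σ (1 : parGroup (Gamma0 D.L) n) = 1 from
    map_one (ES.conjAut (goodLevel_Gamma0 D.L) n σ)] at hD2'
  rw [← hmapC] at hv2e hD2e
  -- the constant
  obtain ⟨w, hw⟩ := IsLocalRing.residue_surjective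
    (z1 * F z2 / (CPlace.ofEquiv Φ).res z ^ e0 : IsLocalRing.ResidueField (CPlace.ofEquiv Φ).ring)
  have hzr : (CPlace.ofEquiv Φ).res z ≠ 0 := by
    intro h0
    have h1 := congrArg (CPlace.ofEquiv Φ).res hz
    rw [map_pow, h0, zero_pow (NeZero.ne n), map_one] at h1
    exact zero_ne_one h1
  set φ := ψ * conjChar (goodLevel_Gamma0 D.L) σ ψ0
  have hwt : (2 * (i + i') : ℕ) = e0 * (2 * (12 * a * (D.q + 1))) + 2 * j + 2 * j' := by
    rw [hij, hij']; ring
  have hV : IsTwist (Gamma0 D.L) ((2 * (i + i') : ℕ) : ℤ) (φ : Gamma0 D.L →* ℂˣ) (v1 * v2') := by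
    have := hv1.mul hv2'
    convert this using 1
    · push_cast; ring
    · rfl
  have hG : IsTwist (Gamma0 D.L) ((2 * (i + i') : ℕ) : ℤ) 1 ((w : ℂ) • (g ^ e0 * D1 * D2')) := by
    have := (((hg.pow e0).mul hD1).mul hD2').smul (w : ℂ)
    convert this using 1
    · rw [hwt]; push_cast; ring
    · exact MonoidHom.ext fun _ => by simp
  have hM0 := NeZero.ne M
  set cV : PowerSeries (CPlace.ofEquiv Φ).ring :=
    PowerSeries.expand M hM0 cv1 * (PowerSeries.expand M hM0 cv2).map σR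
  set cG : PowerSeries (CPlace.ofEquiv Φ).ring :=
    PowerSeries.C w * (PowerSeries.expand M hM0 cg ^ e0 *
    PowerSeries.expand M hM0 cD * (PowerSeries.expand M hM0 cD').map σR)
  have hcV : HasExp M (v1 * v2') (cV.map (CPlace.ofEquiv Φ).ring.subtype) := by
    rw [map_mul, PowerSeries.map_expand]
    exact (hasExp_widen hM0 hcv1).mul hv2e
  have hcG : HasExp M ((w : ℂ) • (g ^ e0 * D1 * D2')) (cG.map (CPlace.ofEquiv Φ).ring.subtype) := by
    rw [map_mul, map_mul, map_mul, map_pow, PowerSeries.map_C, PowerSeries.map_expand,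
      PowerSeries.map_expand]
    exact ((((hasExp_widen hM0 hcg).pow e0).mul (hasExp_widen hM0 hcD)).mul hD2e).smul (w : ℂ)
  have hres' : cV.map (CPlace.ofEquiv Φ).res = cG.map (CPlace.ofEquiv Φ).res := by
    simp only [cV, cG, map_mul, map_pow, PowerSeries.map_C, hmap, PowerSeries.map_expand, hres,
      h1, h2, PowerSeries.expand_C]
    rw [show (CPlace.ofEquiv Φ).res w = z1 * F z2 / (CPlace.ofEquiv Φ).res z ^ e0 from hw, mul_pow]
    have e : PowerSeries.C (z1 * F z2) = PowerSeries.C (z1 * F z2 / (CPlace.ofEquiv Φ).res z ^ e0) *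
        PowerSeries.C ((CPlace.ofEquiv Φ).res z ^ e0) := by
      rw [← map_mul, div_mul_cancel₀ _ (pow_ne_zero _ hzr)]
    rw [map_mul, map_pow] at e
    linear_combination (PowerSeries.expand M hM0 (cv.map (CPlace.ofEquiv Φ).res) ^ e0 *
      PowerSeries.expand M hM0 ((cv0.map (CPlace.ofEquiv Φ).res).map F) ^ e0 *
      (PowerSeries.expand M hM0 (cD.map (CPlace.ofEquiv Φ).res) *
        PowerSeries.expand M hM0 ((cD'.map (CPlace.ofEquiv Φ).res).map F))) * e
  refine Subtype.ext (ES.mult_eq_one_res haux (φ := (φ : Gamma0 D.L →* ℂˣ))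
    ((ES.gamma_le_of_dvd hLM).trans (goodLevel_Gamma0 D.L).gamma_le)
    (ES.hasCDVRs_ofEquiv Φ) hM hn φ.2.1 φ.2.2 hV hG hcV hcG hres' ?_)
  rw [← hres']
  have hv10 : cv1.map (CPlace.ofEquiv Φ).res ≠ 0 := by
    rw [h1]
    exact mul_ne_zero ((map_ne_zero_iff _ PowerSeries.C_injective).mpr hz1)
      (mul_ne_zero (pow_ne_zero e0 hc0) hD0)
  simp only [cV, map_mul, hmap, PowerSeries.map_expand]
  exact mul_ne_zero (expand_ne_zero _ hv10) (expand_ne_zero _
    ((map_ne_zero_iff _ (PowerSeries.map_injective F (frobenius_inj _ D.q))).mpr hv20))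

end Pair

end FermatAgent.BAD.Toric

end
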