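import Fermat.Agent.BAD.Toric.BalHecke
import Fermat.Agent.BAD.Toric.BalSer

/-!
# The class of level `L` depends only on the character

Two balanced forms of one character have the same class, so the classes of an eigencharacter are
eigen with the same eigenvalues.
-/

set_option autoImplicit false

open UpperHalfPlane CongruenceSubgroup
open scoped MatrixGroups ModularForm

noncomputable section

namespace FermatAgent.BAD.Toric

open FermatAgent.ES (HasExp AuxLevel CPlace IsTwist parGroup heckeChar heckeChar_mem_parGroup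
  goodLevel_Gamma0)

variable {q : ℕ} [hq : Fact q.Prime] {L M m : ℕ} [NeZero M] [NeZero L] (haux : AuxLevel M m)
  (hM : M.Coprime q) (hLM : L ∣ M) (hqm : q ≠ m) {n : ℕ} [NeZero n] {Φ : ℂ ≃+* PadicAlgCl q}
  {χ : parGroup (Gamma0 (L * q)) n} {a a' : ℕ} {v v' : ℍ → ℂ} {c c0 c' c0' : PowerSeries ℂ}
  {e0 : ℕ} {ψ ψ' : parGroup (Gamma0 L) n}

include haux hM hLM hqm in
/-- **Two balanced forms of one character have the same class.** -/
theorem class_eq (hn : n.Coprime q) (h : BalForm hM (CPlace.ofEquiv Φ) χ a v c c0)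
    (h' : BalForm hM (CPlace.ofEquiv Φ) χ a' v' c' c0')
    {cv cv' : PowerSeries (CPlace.ofEquiv Φ).ring}
    (hcv : cv.map (CPlace.ofEquiv Φ).ring.subtype = c)
    (hcv' : cv'.map (CPlace.ofEquiv Φ).ring.subtype = c')
    (hψ : IsLevelClassE (CPlace.ofEquiv Φ) e0 (a * (q + 1)) ψ (cv.map (CPlace.ofEquiv Φ).res))
    (hψ' : IsLevelClassE (CPlace.ofEquiv Φ) e0 (a' * (q + 1)) ψ'
      (cv'.map (CPlace.ofEquiv Φ).res)) : ψ' = ψ := by
  have hn0 := NeZero.ne n
  set k := 2 * n - 2 with hk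
  have hk1 : k + 1 + 1 = 2 * n := by omega
  have hχ : ∀ {G : Subgroup SL(2, ℤ)} (x : parGroup G n), x ^ (2 * n) = 1 := fun x => by
    rw [mul_comm, pow_mul, show x ^ n = 1 from Subtype.ext x.2.1, one_pow]
  have hu := ((h.pow_succ' k).mul h').of_eq_one (by rw [← pow_succ, hk1, hχ])
  have hP := ES.hasCDVRs_ofEquiv Φ
  obtain ⟨cF, cu, hcF, hcu, -, -, hres⟩ :=
    exists_balForm1_ser hM hLM haux hqm hP (Nat.coprime_one_left q) hu
  obtain rfl : cu = cv ^ (k + 1) * cv' := PowerSeries.map_injective _ Subtype.val_injective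
    (by rw [hcu, map_mul, map_pow, hcv, hcv'])
  rw [pow_one, map_mul, map_pow] at hres
  have hF := isTwist_balForm1 hM hLM hu
  set F := balForm1 q M 1 (a * (k + 1) + a') (v ^ (k + 1) * v')
  obtain ⟨i, j, v1, D1, cv1, cD, hij, hv1, hD1, hcv1, hcD, hD0, hrel⟩ := hψ
  obtain ⟨i', j', v2, D2, cv2, cD', hij', hv2, hD2, hcv2, hcD', hD0', hrel'⟩ := hψ'
  have hnk := natCast_res_ne_zero (CPlace.ofEquiv Φ) hn
  have hc0 := h.cont.res_ne_zero hcv
  have hc0' := h'.cont.res_ne_zero hcv'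
  obtain ⟨z1, hz1, h1⟩ := series_eq_C_mul_of_pow_eq hnk (mul_ne_zero (pow_ne_zero e0 hc0) hD0) hrel
  obtain ⟨z2, hz2, h2⟩ :=
    series_eq_C_mul_of_pow_eq hnk (mul_ne_zero (pow_ne_zero e0 hc0') hD0') hrel'
  obtain ⟨w, hw⟩ := IsLocalRing.residue_surjective
    (z1 ^ (k + 1) * z2 : IsLocalRing.ResidueField (CPlace.ofEquiv Φ).ring)
  set W := i * (k + 1) + i' with hW
  have hV : IsTwist (Gamma0 L) ((2 * W : ℕ) : ℤ) ((ψ ^ (k + 1) * ψ' : parGroup (Gamma0 L) n) :
      Gamma0 L →* ℂˣ) (v1 ^ (k + 1) * v2) := by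
    convert (hv1.pow (k + 1)).mul hv2 using 1
    · rw [hW]; push_cast; ring
    · rfl
  have hG : IsTwist (Gamma0 L) ((2 * W : ℕ) : ℤ) 1
      ((w : ℂ) • (F ^ e0 * D1 ^ (k + 1) * D2)) := by
    convert (((hF.pow e0).mul (hD1.pow (k + 1))).mul hD2).smul (w : ℂ) using 1
    · rw [hW, hij, hij']; push_cast; ring
    · exact MonoidHom.ext fun _ => by simp
  have hM0 := NeZero.ne M
  set cV : PowerSeries (CPlace.ofEquiv Φ).ring :=
    PowerSeries.expand M hM0 (cv1 ^ (k + 1) * cv2) with hcV'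
  set cG : PowerSeries (CPlace.ofEquiv Φ).ring :=
    PowerSeries.expand M hM0 (PowerSeries.C w * (cF ^ e0 * cD ^ (k + 1) * cD')) with hcG'
  have hcV : HasExp M (v1 ^ (k + 1) * v2) (cV.map (CPlace.ofEquiv Φ).ring.subtype) := by
    rw [hcV', PowerSeries.map_expand, map_mul, map_pow]
    exact hasExp_widen hM0 ((hcv1.pow _).mul hcv2)
  have hcG : HasExp M ((w : ℂ) • (F ^ e0 * D1 ^ (k + 1) * D2))
      (cG.map (CPlace.ofEquiv Φ).ring.subtype) := by
    have hcP : (PowerSeries.C w * (cF ^ e0 * cD ^ (k + 1) * cD')).map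
        (CPlace.ofEquiv Φ).ring.subtype = PowerSeries.C (w : ℂ) *
          ((cF.map (CPlace.ofEquiv Φ).ring.subtype) ^ e0 *
            (cD.map (CPlace.ofEquiv Φ).ring.subtype) ^ (k + 1) *
            cD'.map (CPlace.ofEquiv Φ).ring.subtype) := by
      rw [map_mul, map_mul, map_mul, map_pow, map_pow, PowerSeries.map_C]
      rfl
    rw [hcG', PowerSeries.map_expand, hcP]
    exact hasExp_widen hM0 ((((hcF.pow e0).mul (hcD.pow _)).mul hcD').smul (w : ℂ))
  have hres' : cV.map (CPlace.ofEquiv Φ).res = cG.map (CPlace.ofEquiv Φ).res := by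
    rw [hcV', hcG', PowerSeries.map_expand, PowerSeries.map_expand]
    congr 1
    simp only [map_mul, map_pow, PowerSeries.map_C, hres, h1, h2]
    rw [show (CPlace.ofEquiv Φ).res w = z1 ^ (k + 1) * z2 from hw, map_mul, map_pow]
    ring
  set Θ : parGroup (Gamma0 L) n := ψ ^ (k + 1) * ψ' with hΘ
  have h0 : (Θ : Gamma0 L →* ℂˣ) = 1 := by
    refine ES.mult_eq_one_res haux (φ := (Θ : Gamma0 L →* ℂˣ))
      ((ES.gamma_le_of_dvd hLM).trans (goodLevel_Gamma0 L).gamma_le)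
      hP hM hn Θ.2.1 Θ.2.2 hV hG hcV hcG hres' ?_
    rw [← hres', hcV', PowerSeries.map_expand]
    intro h0
    refine mul_ne_zero (pow_ne_zero (k + 1) ?_) ?_ (PowerSeries.ext fun e => ?_ :
      cv1.map (CPlace.ofEquiv Φ).res ^ (k + 1) * cv2.map (CPlace.ofEquiv Φ).res = 0)
    · rw [h1]
      exact mul_ne_zero ((map_ne_zero_iff _ PowerSeries.C_injective).mpr hz1)
        (mul_ne_zero (pow_ne_zero e0 hc0) hD0)
    · rw [h2]
      exact mul_ne_zero ((map_ne_zero_iff _ PowerSeries.C_injective).mpr hz2)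
        (mul_ne_zero (pow_ne_zero e0 hc0') hD0')
    · have h3 := congrArg (PowerSeries.coeff (M * e)) h0
      rwa [PowerSeries.coeff_expand_mul, map_mul, map_pow, map_zero] at h3
  exact mul_left_cancel (a := ψ ^ (k + 1))
    ((Subtype.ext h0 : ψ ^ (k + 1) * ψ' = 1).trans (by rw [← pow_succ, hk1, hχ]))

include haux hM hLM hqm in
/-- **The class of an eigencharacter is eigen.** -/
theorem class_eigen (hn : n.Coprime q) {ℓ : ℕ} [hℓ : Fact ℓ.Prime] [NeZero ℓ]
    (hℓN : ¬ ℓ ∣ L * q) (h : BalForm hM (CPlace.ofEquiv Φ) χ a v c c0)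
    {cv : PowerSeries (CPlace.ofEquiv Φ).ring}
    (hcv : cv.map (CPlace.ofEquiv Φ).ring.subtype = c)
    (hψ : IsLevelClassE (CPlace.ofEquiv Φ) e0 (a * (q + 1)) ψ (cv.map (CPlace.ofEquiv Φ).res))
    {b : ℕ} (heig : heckeChar (L * q) hℓ.out (χ : Gamma0 (L * q) →* ℂˣ) =
      (χ : Gamma0 (L * q) →* ℂˣ) ^ b) :
    heckeChar L hℓ.out (ψ : Gamma0 L →* ℂˣ) = (ψ : Gamma0 L →* ℂˣ) ^ b := by
  have : NeZero (L * q) := ⟨mul_ne_zero (NeZero.ne L) hq.out.ne_zero⟩
  have hℓL : ¬ ℓ ∣ L := fun hd => hℓN (dvd_mul_of_dvd_left hd q)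
  set k := b + n - 1 with hk
  have hk1 : k + 1 = b + n := by have := NeZero.ne n; omega
  have hb : ∀ {G : Subgroup SL(2, ℤ)} (x : parGroup G n),
      (x ^ (k + 1) : parGroup G n).1 = x.1 ^ b :=
    fun x => by rw [hk1, pow_add, show x ^ n = 1 from Subtype.ext x.2.1, mul_one,
      SubgroupClass.coe_pow]
  obtain ⟨v1, c1, c10, U, hT, hU, hres⟩ := h.transfer hLM hn hℓN hcv
  have h2 : BalForm hM (CPlace.ofEquiv Φ)
      (⟨heckeChar (L * q) hℓ.out χ.1, heckeChar_mem_parGroup hℓ.out χ.2⟩ :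
        parGroup (Gamma0 (L * q)) n) (a * (k + 1)) (v ^ (k + 1)) (c ^ (k + 1)) (c0 ^ (k + 1)) := by
    rw [show (⟨heckeChar (L * q) hℓ.out χ.1, heckeChar_mem_parGroup hℓ.out χ.2⟩ :
        parGroup (Gamma0 (L * q)) n) = χ ^ (k + 1) from Subtype.ext (heig.trans (hb χ).symm)]
    exact h.pow_succ' k
  have hψ1 := hψ.transfer hℓL hres
  rw [mul_right_comm] at hψ1
  have hψ2 := hψ.pow (k + 1)
  rw [mul_right_comm, ← map_pow] at hψ2
  exact (congrArg Subtype.val
    (class_eq haux hM hLM hqm hn hT h2 hU (by rw [map_pow, hcv]) hψ1 hψ2)).symm.trans (hb ψ)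

end FermatAgent.BAD.Toric

end
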