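import Fermat.Agent.BAD.Toric.Sym
import Fermat.Agent.BAD.IsKum

/-!
# Conjugates and Atkin transforms of functions with multiplier

The conjugate of a Kummer function belongs to the conjugate character and its Atkin transform to
the transformed character; the orders at the cusps stay divisible.
-/

set_option autoImplicit false

open UpperHalfPlane CongruenceSubgroup
open scoped MatrixGroups ModularForm Manifold

noncomputable section

namespace FermatAgent.BAD.Toric

open FermatAgent.ES (BSub BRing lexp lexp_eq hasLExp_lexp act zetaC AuxLevel CPlace HasExp HasLExp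
  IsTwist IsParChar parGroup auxW auxSer conjChar goodLevel_Gamma0 mapSer vanishOrd)

/-- A holomorphic invariant function has the trivial multiplier. -/
theorem kumLaw_one {N m : ℕ} {h : ℍ → ℂ} (hd : MDiff h) (hh : h ∈ gSub N m) :
    KumLaw m (1 : Gamma0 N →* ℂˣ) h where
  mdiff := hd
  law δ hδ hm := by rw [hh δ hδ hm]; simp

/-- Multiplying by an invariant function keeps the multiplier. -/
theorem _root_.FermatAgent.BAD.KumLaw.mul_gSub {N m : ℕ} {χ : Gamma0 N →* ℂˣ} {h g : ℍ → ℂ}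
    (hh : KumLaw m χ h)
    (hd : MDiff g) (hg : g ∈ gSub N m) : KumLaw m χ (h * g) :=
  mul_one χ ▸ hh.mul (kumLaw_one hd hg)

/-- The `n`-th power of a function with multiplier is invariant. -/
theorem _root_.FermatAgent.BAD.KumLaw.mem_gSub {N m : ℕ} {χ : Gamma0 N →* ℂˣ} {h : ℍ → ℂ}
    (hh : KumLaw m χ h) {n : ℕ}
    (hn : χ ^ n = 1) : h ^ n ∈ gSub N m := fun _ hδ hm => hh.act_pow hn hδ hm

variable {q M m L : ℕ} [hq : Fact q.Prime] [NeZero M] [NeZero L] (haux : AuxLevel M m)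
  (hM : M.Coprime q) (hLM : L ∣ M)

omit [NeZero L] in
include haux hM hLM in
/-- The Atkin transform has the transformed character. -/
theorem atkin_kumLaw {χ : Gamma0 (L * q) →* ℂˣ} {h : ℍ → ℂ} (hh : KumLaw m χ h) :
    KumLaw m (χ.comp ((isLevel_gamma0 hM hLM).wHom hM)) (atkin hM h) where
  mdiff := by
    rw [atkin_apply, PSEMI.dilFun_eq_slash 0, ← ES.slash_zero_eq_act]
    exact ((hh.mdiff.slash 0 _).slash 0 _).const_smul _
  law δ hδ hm := by
    have := haux.neZero
    set Lv := isLevel_gamma0 hM hLM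
    set g := atkinMat hM
    set x : Gamma0 q := Lv.toG0 ⟨δ, hδ⟩
    have hx : (x : SL(2, ℤ)) = δ := rfl
    have hq0 : (q : ℤ) ≠ 0 := Nat.cast_ne_zero.mpr hq.out.ne_zero
    have hxm : PSEMI.LevelMp.dilHom q x ∈ Gamma m := by
      refine dil_conj_mem (coprime_aux haux hM) hm ?_ ?_ ?_ ?_ <;>
        simp only [PSEMI.LevelMp.dilHom_apply, PSEMI.LevelMp.dilMat_00, PSEMI.LevelMp.dilMat_01,
          PSEMI.LevelMp.dilMat_10, PSEMI.LevelMp.dilMat_11, hx]
      exact Int.mul_ediv_cancel' (mem_Gamma0_dvd.mp x.2)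
    have hwm : (Lv.wHom hM ⟨δ, hδ⟩ : SL(2, ℤ)) ∈ Gamma m :=
      (Gamma_normal m).conj_mem _ hxm g
    have hlaw := hh.law _ (Lv.wHom hM ⟨δ, hδ⟩).2 hwm
    funext τ
    have h2 := congrFun hlaw (g • dilPt q τ)
    have e : (Lv.wHom hM ⟨δ, hδ⟩ : SL(2, ℤ)) * g = g * PSEMI.LevelMp.dilHom q x := by
      rw [Lv.coe_wHom hM, inv_mul_cancel_right]
    rw [ES.act_apply] at h2
    rw [← mul_smul _ g, e, mul_smul] at h2
    rw [ES.act_apply, atkin_apply_pt, atkin_apply_pt, show dilPt q (δ • τ) =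
      PSEMI.LevelMp.dilHom q x • dilPt q τ from PSEMI.LevelMp.dilPt_smul x τ]
    exact h2

/-! ### Orders -/

theorem order_expandL {R : Type*} [CommRing R] {s : LaurentSeries R} (hs : s ≠ 0) :
    (expandL q s).order = (q : ℤ) * s.order := by
  have hc : (expandL q s).coeff ((q : ℤ) * s.order) ≠ 0 := by
    rw [expandL_coeff_mul]
    exact HahnSeries.coeff_order_eq_zero.not.mpr hs
  refine le_antisymm (HahnSeries.order_le_of_coeff_ne_zero hc) ?_
  by_contra hlt
  have hne : expandL q s ≠ 0 := fun h => hc (by rw [h, HahnSeries.coeff_zero])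
  have h1 := HahnSeries.coeff_order_eq_zero.not.mpr hne
  by_cases hd : (q : ℤ) ∣ (expandL q s).order
  · obtain ⟨k, hk⟩ := hd
    rw [hk, expandL_coeff_mul] at h1
    have h2 := HahnSeries.order_le_of_coeff_ne_zero h1
    rw [hk] at hlt
    exact hlt (mul_le_mul_of_nonneg_left h2 (Int.natCast_nonneg q))
  · exact h1 (expandL_coeff_of_not_dvd q s hd)

theorem order_twistSer {c : ℂ} (hc : c ≠ 0) (s : LaurentSeries ℂ) :
    (ES.twistSer c s).order = s.order := by
  rcases eq_or_ne s 0 with rfl | hs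
  · rw [show ES.twistSer c 0 = 0 from HahnSeries.ext (funext fun i => by simp)]
  have hne : ∀ i, (ES.twistSer c s).coeff i = 0 ↔ s.coeff i = 0 := fun i => by
    simp [zpow_ne_zero _ hc]
  have hts := twistSer_ne_zero hc hs
  refine le_antisymm (HahnSeries.order_le_of_coeff_ne_zero fun h =>
    HahnSeries.coeff_order_eq_zero.not.mpr hs ((hne _).mp h))
    (HahnSeries.order_le_of_coeff_ne_zero fun h =>
      HahnSeries.coeff_order_eq_zero.not.mpr hts ((hne _).mpr h))

theorem dvd_order_expandL {n : ℕ} {s : LaurentSeries ℂ} (h : (n : ℤ) ∣ s.order) :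
    (n : ℤ) ∣ (expandL q s).order := by
  rcases eq_or_ne s 0 with rfl | hs
  · simp
  · rw [order_expandL hs]; exact h.mul_left _

variable {O : Subring ℂ}

/-- All orders at the cusps are divisible by `n`. -/
def OrdDvd (n : ℕ) (f : LRing q M O) : Prop :=
  ∀ γ, (n : ℤ) ∣ (serAt M O q γ f).order

/-- The orders of the integral expansions are divisible. -/
theorem OrdDvd.serO {n : ℕ} {f : LRing q M O} (h : OrdDvd n f) (γ : SL(2, ℤ)) :
    (n : ℤ) ∣ (serO M O q γ f).order := by
  rw [← order_liftSer O.subtype Subtype.val_injective, liftSer_serO]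
  exact h γ

/-- Divisibility of the orders is closed under products. -/
theorem OrdDvd.mul {n : ℕ} {f g : LRing q M O} (hf : OrdDvd n f) (hg : OrdDvd n g) :
    OrdDvd n (f * g) := fun γ => by
  rw [map_mul]
  rcases eq_or_ne (serAt M O q γ f) 0 with h | h
  · simp [h]
  rcases eq_or_ne (serAt M O q γ g) 0 with h' | h'
  · simp [h']
  rw [HahnSeries.order_mul h h']
  exact dvd_add (hf γ) (hg γ)

/-- The orders of an `n`-th power are divisible by `n`. -/
theorem OrdDvd.pow_self {n : ℕ} (f : LRing q M O) : OrdDvd n (f ^ n) := fun γ => by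
  rw [map_pow, HahnSeries.order_pow, nsmul_eq_mul]
  exact dvd_mul_right _ _

/-- Divisibility of the orders is closed under powers. -/
theorem OrdDvd.pow {n : ℕ} {f : LRing q M O} (hf : OrdDvd n f) (i : ℕ) :
    OrdDvd n (f ^ i) := fun γ => by
  rw [map_pow, HahnSeries.order_pow, nsmul_eq_mul]
  exact (hf γ).mul_left _

/-- The orders of the power of a Kummer function are divisible. -/
theorem IsKum.ordDvd {N n : ℕ} {χ : Gamma0 N →* ℂˣ} {h : ℍ → ℂ} (hh : IsKum q M m χ h)
    {f : LRing q M O} (hf : (f : ℍ → ℂ) = h ^ n) : OrdDvd n f := fun γ => by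
  have h1 := hh.dvd_order hf γ
  rwa [← order_liftSer O.subtype Subtype.val_injective, liftSer_serO] at h1

/-- The Atkin operator keeps the divisibility of the orders. -/
theorem OrdDvd.atkinL {n : ℕ} (hn : n.Coprime q) (hζ : zetaC (q * M) ∈ O) {f : LRing q M O}
    (hf : OrdDvd n f) : OrdDvd n (BAD.atkinL hM hζ f) := fun γ => by
  have hfL : (f : ℍ → ℂ) ∈ LSub q M := f.2.2
  by_cases hγ : γ ∈ Gamma0 q
  · obtain ⟨γ', -, h⟩ := hasLExp_atkin_inf hM hfL hγ
    rw [serAt_apply, coe_atkinL, lexp_eq h, ← serAt_apply]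
    exact dvd_order_expandL (hf γ')
  · obtain ⟨γ', -, j, t, hts, h⟩ := hasLExp_atkin_zero hM hfL hγ
    rw [serAt_apply, coe_atkinL, lexp_eq h,
      order_twistSer (pow_ne_zero _ ((ES.zetaC_isPrimitiveRoot _).ne_zero (NeZero.ne _)))]
    rcases eq_or_ne t 0 with rfl | ht
    · simp
    have h1 := hf γ'
    rw [serAt_apply, hts, order_expandL ht] at h1
    exact (Nat.isCoprime_iff_coprime.mpr hn).dvd_of_dvd_mul_left h1

namespace FrobData

variable {P : CPlace q} (D : FrobData M P O)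

/-- Conjugation keeps the divisibility of the orders. -/
theorem ordDvd_conjL {n : ℕ} {f : LRing q M O} (hf : OrdDvd n f) :
    OrdDvd n (D.conjL haux f) := fun γ => by
  obtain ⟨γ0, hr⟩ := ES.GalRel.exists_left D.unit γ
  rw [D.serAt_conjL haux f hr]
  set s := serAt M O q γ0 f with hsdef
  have hs : (n : ℤ) ∣ s.order := hf γ0
  rcases eq_or_ne s 0 with h | h
  · rw [h, map_zero]; simp
  have hne : ∀ i, (mapSer (D.σ : ℂ →+* ℂ) s).coeff i = 0 ↔ s.coeff i = 0 := fun i => by simp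
  have hms : mapSer (D.σ : ℂ →+* ℂ) s ≠ 0 := fun h0 => h (HahnSeries.ext (funext fun i =>
    (hne i).mp (by rw [h0, HahnSeries.coeff_zero])))
  rwa [le_antisymm (HahnSeries.order_le_of_coeff_ne_zero fun h' =>
    HahnSeries.coeff_order_eq_zero.not.mpr h ((hne _).mp h'))
    (HahnSeries.order_le_of_coeff_ne_zero fun h' =>
      HahnSeries.coeff_order_eq_zero.not.mpr hms ((hne _).mpr h')) (b := s.order)]

include haux hM in
/-- The cyclotomic value is `± 1` modulo `m`. -/
theorem a_sign (hqm : q ≠ m) : (D.a : ZMod m) = 1 ∨ (D.a : ZMod m) = -1 := by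
  have h := congrArg (ZMod.castHom haux.dvd (ZMod m)) (D.a_eq hM)
  rw [map_natCast, map_natCast] at h
  rw [h]
  exact natCast_eq_one_or haux hqm

include haux hM hLM in
/-- **The conjugate of a Kummer function.** -/
theorem exists_conj_isKum (hqm : q ≠ m) (h12 : M ∣ 12 * L) {n i : ℕ} [NeZero n]
    {φ : parGroup (Gamma0 (L * q)) n} {v w : ℍ → ℂ}
    (hv : IsTwist (Gamma0 (L * q)) ((2 * i : ℕ) : ℤ) (φ : Gamma0 (L * q) →* ℂˣ) v) (hv0 : v ≠ 0)
    (hw : w ∈ LSub q M) (hwinv : w ∈ gSub (L * q) m) {y : LRing q M O}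
    (hy : (y : ℍ → ℂ) = (w * fun τ => v τ / auxW haux τ ^ i) ^ n) :
    ∃ h' : ℍ → ℂ, IsKum q M m
        (conjChar (goodLevel_Gamma0 (L * q)) D.σ φ : Gamma0 (L * q) →* ℂˣ) h' ∧
      (D.conjL haux y : ℍ → ℂ) = h' ^ n := by
  have : NeZero (L * q) := ⟨mul_ne_zero (NeZero.ne L) hq.out.ne_zero⟩
  set hG := goodLevel_Gamma0 (L * q)
  have hNM : L * q ∣ q * M := mul_comm q L ▸ mul_dvd_mul_left q hLM
  obtain ⟨r, hr⟩ := h12
  have hr0 : r ≠ 0 := fun h => by simp [h, NeZero.ne L] at hr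
  obtain ⟨v', hv', -, hy'⟩ := D.exists_conj_kum haux (D.a_sign haux hM hqm) hG hNM hr0
    (by rw [← mul_assoc, hr]; ring) φ hv hv0 hw.1 y.2.1.1 hy
  exact ⟨_, isKum_form haux ((ES.gamma_le_of_dvd hNM).trans hG.gamma_le)
    (conjChar hG D.σ φ).2.2 hv' (D.conjB haux ⟨w, hw.1⟩).2
    (D.act_conjB_of_inv haux hG hNM hw.1 hwinv), hy'⟩

end FrobData

end FermatAgent.BAD.Toric
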