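import Fermat.Agent.BAD.NodeRoot
import Fermat.Agent.BAD.PSFactor
import Mathlib.RingTheory.Polynomial.Cyclotomic.Basic

/-!
# Roots in the ring of a node with prescribed reductions

In a finer node an element whose multiplicities are divisible by `n` has `n`-th roots; those with a
prescribed reduction on one branch descend to the node itself.
-/

set_option autoImplicit false

noncomputable section

open IsLocalRing

namespace FermatAgent.BAD.Toric

variable {O : Type} [CommRing O] [IsDomain O] [IsDiscreteValuationRing O]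

/-- The constants inject into a node. -/
theorem nodeC_injective {c ϖ : O} (hc : c ∈ maximalIdeal O) (hϖ : Irreducible ϖ) :
    Function.Injective (nodeC c) := by
  rw [injective_iff_map_eq_zero]
  intro r hr
  by_contra h0
  obtain ⟨k, u, rfl⟩ := IsDiscreteValuationRing.eq_unit_mul_pow_irreducible h0 hϖ
  rw [map_mul, map_pow] at hr
  have h1 : nodeC c ϖ ^ k * 1 = 0 := by
    obtain ⟨v, hv⟩ := (u.isUnit.map (nodeC c)).exists_left_inv
    linear_combination v * hr - nodeC c ϖ ^ k * hv
  have key : ∀ (k : ℕ) (x : Node O c), nodeC c ϖ ^ k * x = 0 → x = 0 := by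
    intro k
    induction k with
    | zero => intro x hx; simpa using hx
    | succ k ih =>
      intro x hx
      rw [pow_succ, mul_assoc] at hx
      exact nodeC_uniformiser_regular hc hϖ.maximalIdeal_eq hϖ.ne_zero (ih _ hx)
  have h2 := congrArg (branch hc 0) (key k 1 h1)
  rw [map_one, map_zero] at h2
  exact one_ne_zero h2

/-- The branches of the projection to weight zero. -/
theorem coeff_branch_nodeProj {c : O} (hc : c ∈ maximalIdeal O) (E : ℕ) (i : Fin 2)
    (x : Node O c) (e : ℕ) :
    PowerSeries.coeff e (branch hc i (nodeProj E c x)) =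
      if E ∣ e then PowerSeries.coeff e (branch hc i x) else 0 := by
  obtain ⟨f, rfl⟩ := nodeMk_surjective c x
  rw [nodeProj_nodeMk, branch_nodeMk, branch_nodeMk, coeff_axisHom, coeff_axisHom, coeff_wtPart]
  have hiff : ((axisExp i e 0 : ℕ) : ZMod E) = ((axisExp i e 1 : ℕ) : ZMod E) ↔ E ∣ e := by
    fin_cases i <;> simp [axisExp, ZMod.natCast_eq_zero_iff, eq_comm]
  by_cases hE : E ∣ e
  · rw [if_pos hE, if_pos (hiff.mpr hE)]
  · rw [if_neg hE, if_neg (fun h => hE (hiff.mp h)), map_zero]

variable {ϖ c : O} (hϖ : Irreducible ϖ) (hc : c ∈ maximalIdeal O) {E : ℕ} [NeZero E] {a : Fin 2 → O}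
  (ha : ∀ i, IsUnit (a i)) (h : (RingHom.id O) c = a 0 * a 1 * ϖ ^ E) {n : ℕ} (hn : IsUnit (n : O))

include hc hϖ ha h in
theorem branch_inj {x y : Node O c} {i : Fin 2}
    (e : branch (unif_mem hϖ) i (nodeDiag h x) = branch (unif_mem hϖ) i (nodeDiag h y)) :
    branch hc i x = branch hc i y := by
  by_contra hne
  refine branch_nodeDiag_ne_zero hc (unif_mem hϖ) h (fun _ => rfl) (ha i) (x := x - y) ?_ ?_
  · rwa [map_sub, sub_ne_zero]
  · rw [map_sub, map_sub, sub_eq_zero]; exact e

include hc hϖ ha h hn in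
/-- **A root with branches coming from the node descends.** -/
theorem exists_root_descent_branch {K : Node O ϖ}
    {y : Node O c} (hK : K ^ n = nodeDiag h y) (hy : ∀ i, branch hc i y ≠ 0) {B : Fin 2 → Node O c}
    (hB : ∀ i, branch (unif_mem hϖ) i K = branch (unif_mem hϖ) i (nodeDiag h (B i))) :
    ∃ L₀ : Node O c, L₀ ^ n = y ∧ ∀ i, branch hc i L₀ = branch hc i (B i) := by
  have hϖm := unif_mem hϖ
  set T := nodeDiag h
  have hn0 : n ≠ 0 := by rintro rfl; simp at hn
  have hP : ∀ i, branch hϖm i (nodeProj E ϖ K) = branch hϖm i K := fun i => by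
    ext e
    rw [coeff_branch_nodeProj]
    split_ifs with he
    · rfl
    · rw [hB, branch_nodeDiag hc hϖm h (fun _ => rfl), PowerSeries.coeff_expand_of_not_dvd _ _ _ he]
  obtain ⟨b, hb⟩ := exists_of_nodeProj_eq h ha (nodeProj_idem (E := E) K)
  have hbr : ∀ i, branch hϖm i (T b) = branch hϖm i K := fun i => by rw [hb]; exact hP i
  have hdvd : nodeC ϖ ϖ ∣ K - T b := dvd_of_branches hϖm hϖ.maximalIdeal_eq
    (by rw [map_sub, hbr, sub_self]) (by rw [map_sub, hbr, sub_self])
  have hb0 : ∀ i, branch hc i b ≠ 0 := fun i h0 => by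
    refine branch_nodeDiag_ne_zero hc hϖm h (fun _ => rfl) (ha i) (hy i) ?_
    rw [← hK, map_pow, ← hbr, branch_nodeDiag hc hϖm h (fun _ => rfl), h0, map_zero, map_zero,
      zero_pow hn0]
  obtain ⟨L₀, hL, hLb⟩ := exists_root_descent hc hϖm hϖ h ha hn hK hdvd hb0
  refine ⟨L₀, hL, fun i => ?_⟩
  obtain ⟨r, hr⟩ := hLb
  have h1 : branch hc i L₀ = branch hc i b := by
    rw [← sub_eq_zero, ← map_sub, hr, map_mul, branch_nodeC,
      residue_uniformiser hϖ.maximalIdeal_eq, map_zero, zero_mul]
  rw [h1]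
  exact branch_inj hϖ hc ha h ((hbr i).trans (hB i))

include hc hϖ ha h hn in
/-- **Roots with prescribed reduction on a branch.** -/
theorem exists_branch_root [IsAdicComplete (maximalIdeal O) O]
    {y D : Node O c} {U : (Node O ϖ)ˣ} {H : Node O ϖ} (hT : nodeDiag h y = U * H ^ n)
    (hyD : ∀ i, branch hc i y = branch hc i D ^ n) (hy : ∀ i, branch hc i y ≠ 0) (i : Fin 2) :
    ∃ L : Node O c, L ^ n = y ∧ branch hc i L = branch hc i D := by
  have := node_isLocalRing (unif_mem hϖ)
  have : IsAdicComplete (maximalIdeal (Node O ϖ)) (Node O ϖ) := node_isAdicComplete (unif_mem hϖ)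
  have hϖm := unif_mem hϖ
  set T := nodeDiag h
  have hn0 : n ≠ 0 := by rintro rfl; simp at hn
  have hnk : IsUnit (n : ResidueField O) := by simpa using hn.map (residue O)
  set br := branch hϖm i
  have hTD : br (T D) ^ n = br (U : Node O ϖ) * br H ^ n := by
    rw [← map_pow br H, ← map_mul, ← hT]
    simp only [br, T, branch_nodeDiag hc hϖm h (fun _ => rfl), hyD, map_pow]
  have hH0 : br H ≠ 0 := fun h0 => by
    refine branch_nodeDiag_ne_zero hc hϖm h (fun _ => rfl) (ha i) (hy i) ?_
    show br (T y) = 0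
    rw [hT, map_mul, map_pow, h0, zero_pow hn0, mul_zero]
  obtain ⟨r, hr⟩ : br H ∣ br (T D) :=
    (IsIntegrallyClosed.pow_dvd_pow_iff hn0).mp ⟨br (U : Node O ϖ), by rw [hTD, mul_comm]⟩
  have hrn : r ^ n = br (U : Node O ϖ) := by
    rw [hr, mul_pow] at hTD
    exact mul_left_cancel₀ (pow_ne_zero n hH0) (hTD.trans (mul_comm _ _))
  have hru : IsUnit r := (isUnit_pow_iff hn0).mp (hrn ▸ U.isUnit.map br)
  obtain ⟨ρ, hρ⟩ := residue_surjective (PowerSeries.constantCoeff r)
  have hρu : IsUnit ρ := by
    rw [← residue_ne_zero_iff_isUnit, hρ]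
    exact (PowerSeries.isUnit_iff_constantCoeff.mp hru).ne_zero
  have hres : ∀ {u v : Node O ϖ}, PowerSeries.constantCoeff (br u) =
      PowerSeries.constantCoeff (br v) →
      residue (Node O ϖ) u = residue (Node O ϖ) v := fun {u v} e => by
    rw [← sub_eq_zero, ← map_sub, residue_eq_zero_iff, mem_maximalIdeal, mem_nonunits_iff]
    intro hu
    have h1 := PowerSeries.isUnit_iff_constantCoeff.mp (hu.map br)
    rw [map_sub, map_sub, e, sub_self] at h1
    exact not_isUnit_zero h1
  obtain ⟨α, hα, hαρ⟩ := exists_root_of_residue (O := Node O ϖ) (n := n)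
    (by simpa using hn.map (nodeC ϖ)) (u := (U : Node O ϖ)) (r := nodeC ϖ ρ) (hρu.map _) (by
      rw [← map_pow, ← map_pow]
      refine hres ?_
      simp only [br, branch_nodeC, PowerSeries.constantCoeff_C]
      rw [map_pow (residue O), hρ, ← map_pow, hrn])
  have hαr : br α = r := by
    refine eq_of_pow_eq_pow (O := PowerSeries (ResidueField O)) (n := n) ?_ ?_ ?_ ?_
    · rw [PowerSeries.isUnit_iff_constantCoeff, map_natCast]; exact hnk
    · exact ((isUnit_pow_iff hn0).mp (hα ▸ U.isUnit)).map br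
    · rw [← map_pow, hα, hrn]
    · rw [← sub_eq_zero, ← map_sub, residue_eq_zero_iff, mem_maximalIdeal, mem_nonunits_iff,
        PowerSeries.isUnit_iff_constantCoeff, map_sub]
      intro hu
      refine not_isUnit_zero (M₀ := ResidueField O) (?_ : IsUnit (0 : ResidueField O))
      have h1 : α - nodeC ϖ ρ ∈ maximalIdeal (Node O ϖ) := by
        rw [← residue_eq_zero_iff, map_sub, hαρ, sub_self]
      have h2 : ¬ IsUnit (br (α - nodeC ϖ ρ)) := fun hu' => h1 (by
        obtain ⟨w, hw⟩ := hu'.exists_right_inv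
        by_contra hnu
        exact absurd hu' (fun hu'' => hnu (isUnit_of_branch hϖm i hu'')))
      rw [PowerSeries.isUnit_iff_constantCoeff, map_sub, map_sub] at h2
      simp only [br, branch_nodeC, PowerSeries.constantCoeff_C, hρ] at h2
      exact absurd hu h2
  have hKn : (α * H) ^ n = T y := by rw [mul_pow, hα, hT]
  have hKi : br (α * H) = br (T D) := by rw [map_mul, hαr, hr, mul_comm]
  -- the other branch
  have hB : ∀ j, ∃ b : Node O c,
      branch hϖm j (α * H) = branch hϖm j (T b) := by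
    intro j
    have hne : branch hϖm j (T D) ≠ 0 := branch_nodeDiag_ne_zero hc hϖm h (fun _ => rfl) (ha j)
      fun h0 => hy j (by rw [hyD, h0, zero_pow hn0])
    obtain ⟨d, -, hd⟩ := exists_C_mul_of_pow_eq hnk hne (x := branch hϖm j (α * H)) (by
      rw [← map_pow, hKn]
      simp only [T, branch_nodeDiag hc hϖm h (fun _ => rfl), hyD, map_pow])
    obtain ⟨d', rfl⟩ := residue_surjective d
    exact ⟨nodeC c d' * D, by
      rw [map_mul T, nodeDiag_nodeC, RingHom.id_apply, map_mul (branch hϖm j) (nodeC ϖ d'),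
        branch_nodeC]
      exact hd⟩
  choose b hb using hB
  obtain ⟨L₀, hL, hLb⟩ := exists_root_descent_branch hϖ hc ha h hn hKn hy (B := b) hb
  exact ⟨L₀, hL, (hLb i).trans (branch_inj hϖ hc ha h ((hb i).symm.trans hKi))⟩
where
  isUnit_of_branch {O : Type} [CommRing O] [IsLocalRing O] {c : O} (hc : c ∈ maximalIdeal O)
      (i : Fin 2) {x : Node O c} (hx : IsUnit (branch hc i x)) : IsUnit x := by
    obtain ⟨f, rfl⟩ := nodeMk_surjective c x
    refine IsUnit.map _ (MvPowerSeries.isUnit_iff_constantCoeff.mpr ?_)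
    have h1 := PowerSeries.isUnit_iff_constantCoeff.mp hx
    rw [branch_nodeMk, ← PowerSeries.coeff_zero_eq_constantCoeff_apply, coeff_axisHom,
      show axisExp i 0 = 0 from Finsupp.single_zero _,
      MvPowerSeries.coeff_zero_eq_constantCoeff_apply] at h1
    exact isUnit_of_map_unit (residue O) _ h1

end FermatAgent.BAD.Toric
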