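import Fermat.Agent.BAD.Diamond.Complete
import Fermat.Agent.BAD.Toric.NodeRoots
import Fermat.Agent.BAD.TwoP.ComplUnit

/-!
# The node at a crossing point as the target of a map of rings

Semilinear maps fixing the point extend to the node.
-/

set_option autoImplicit false

open UpperHalfPlane CongruenceSubgroup IsLocalRing
open scoped MatrixGroups

noncomputable section

namespace FermatAgent.BAD.Toric

open FermatAgent.ES (BSub BRing zetaC AuxLevel CPlace GoodRoot GoodPoint)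

section Completion

variable {B : Type} [CommRing B] {𝔪 : Ideal B}

/-- A ring map preserving `𝔪` extends to the completion. -/
theorem exists_completion_map (g : B →+* B) (hg : ∀ x ∈ 𝔪, g x ∈ 𝔪) :
    ∃ G : AdicCompletion 𝔪 B →+* AdicCompletion 𝔪 B,
      ∀ b, G (algebraMap B _ b) = algebraMap B _ (g b) := by
  have hle : ∀ k : ℕ, 𝔪 ^ k ≤ (𝔪 ^ k).comap g := fun k => Ideal.map_le_iff_le_comap.mp (by
    rw [Ideal.map_pow]
    exact Ideal.pow_right_mono (Ideal.map_le_iff_le_comap.mpr hg) k)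
  have hcompat : ∀ {j k : ℕ} (hjk : j ≤ k), (Ideal.Quotient.factorPow 𝔪 hjk).comp
      ((Ideal.quotientMap (𝔪 ^ k) g (hle k)).comp (AdicCompletion.evalₐ 𝔪 k).toRingHom) =
      (Ideal.quotientMap (𝔪 ^ j) g (hle j)).comp (AdicCompletion.evalₐ 𝔪 j).toRingHom := by
    intro j k hjk
    refine RingHom.ext fun z => ?_
    induction z using AdicCompletion.induction_on with
    | _ a =>
      simp only [RingHom.comp_apply, AlgHom.toRingHom_eq_coe, RingHom.coe_coe,
        AdicCompletion.evalₐ_mk, Ideal.quotientMap_mk, Ideal.Quotient.factor_mk]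
      rw [Ideal.Quotient.eq, ← map_sub]
      have h1 : a.val k - a.val j ∈ 𝔪 ^ j := by
        have h2 := SModEq.sub_mem.mp (a.property hjk)
        rw [smul_eq_mul, Ideal.mul_top] at h2
        simpa using (𝔪 ^ j).neg_mem h2
      exact hle j h1
  refine ⟨AdicCompletion.liftRingHom 𝔪 _ hcompat, fun b => AdicCompletion.ext_evalₐ fun k => ?_⟩
  rw [AdicCompletion.evalₐ_liftRingHom, (AdicCompletion.evalₐ 𝔪 k).commutes, RingHom.comp_apply,
    AlgHom.toRingHom_eq_coe, RingHom.coe_coe, (AdicCompletion.evalₐ 𝔪 k).commutes]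
  exact Ideal.quotientMap_mk

end Completion

variable {q M m : ℕ} [Fact q.Prime] [NeZero M] {O : Subring ℂ} (haux : AuxLevel M m)
  (hA : GoodRoot M O (zetaC M)) {P : CPlace q} (hO' : P.IsCDVR O)
  (hM : M.Coprime q) (hζ : zetaC (q * M) ∈ O) (hqm : q ≠ m)

/-- The node at a crossing point, with the map to it. -/
structure CrossChart (𝔪 : Ideal (LRing q M O)) [IsLocalRing O]
    (hq : (q : O) ∈ maximalIdeal O) where
  /-- The map to the node. -/
  F : LRing q M O →+* Node O (q : O)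
  map_constL : ∀ r, F (constL r) = nodeC (q : O) r
  inf_zero : ∀ f ∈ pInf hO'.le, branch hq 0 (F f) = 0
  zero_zero : ∀ f ∈ pZero hO'.le, branch hq 1 (F f) = 0
  inf_ne : ∀ f, UnitInf P f → branch hq 0 (F f) ≠ 0
  zero_ne : ∀ f, UnitZero P f → branch hq 1 (F f) ≠ 0
  mem_iff : ∀ f, f ∈ 𝔪 ↔ ¬ IsUnit (F f)
  exists_ext : ∀ (g : LRing q M O →+* LRing q M O), (∀ x ∈ 𝔪, g x ∈ 𝔪) →
    ∃ G : Node O (q : O) →+* Node O (q : O), ∀ f, G (F f) = F (g f)
  localRoot : ∀ {ϖ : O}, Irreducible ϖ → ∀ {n : ℕ} {y b : LRing q M O}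
    (L : Node O (q : O)), L ^ n = F y → nodeC (q : O) ϖ ∣ L - F b →
    (∀ i, branch hq i (F b) ≠ 0) → LocalRoot 𝔪 (constL ϖ) y b n

include haux hA hM hζ hqm in
/-- **The chart at a crossing point**, compatible with a semilinear map fixing the coordinates. -/
theorem exists_crossChart_semi [IsDiscreteValuationRing O]
    [IsNoetherianRing (LRing q M O)] {𝔪 : Ideal (LRing q M O)} [h𝔪 : 𝔪.IsMaximal]
    (hinf : pInf hO'.le ≤ 𝔪) (hzero : pZero hO'.le ≤ 𝔪) {τ0 τ1 : ℍ}
    (hg : GoodPoint haux O τ0) (ht : raiseL M (tPar haux hA hg) ∈ 𝔪)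
    (hg' : GoodPoint haux O τ1)
    (ht' : (atkinEquiv hM hζ).symm (raiseL M (tPar haux hA hg')) ∈ 𝔪)
    {σ : O →+* O} {τ : LRing q M O →+* LRing q M O} (hτC : ∀ r, τ (constL r) = constL (σ r))
    (hτX : τ (kXL haux hM hA hζ) = kXL haux hM hA hζ)
    (hτY : τ (kYL haux hM hA hζ) = kYL haux hM hA hζ)
    (hτ : ∀ {ϖ : O}, Irreducible ϖ → ∀ z, constL ϖ ∣ τ z - z) :
    ∃ C : CrossChart (M := M) hO' 𝔪 (natCast_q_mem_maximal hO'),
      C.F (kXL haux hM hA hζ) = nodeVar (q : O) 0 ∧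
      ∀ (hhu : σ (q : O) = ![(1 : O), 1] 0 * ![(1 : O), 1] 1 * (q : O) ^ 1) f,
        nodeDiag hhu (C.F f) = C.F (τ f) := by
  obtain ⟨ϖ, hϖ⟩ := IsDiscreteValuationRing.exists_irreducible O
  obtain ⟨e, heC, heX, -, he0, he1, hu0, hu1, hdiag⟩ := exists_node_iso haux hA hO'.le hO' hϖ hM hζ
    hqm hinf hzero hg ht hg' ht' hτC hτX hτY (hτ hϖ)
  set f := algebraMap (LRing q M O) (AdicCompletion 𝔪 (LRing q M O))
  set F : LRing q M O →+* Node O (q : O) := e.symm.toRingHom.comp f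
  have heF : ∀ b, e (F b) = f b := fun b => e.apply_symm_apply (f b)
  have hq := natCast_q_mem_maximal (O := O) hO'
  have := node_isLocalRing hq
  have hmem : ∀ b, b ∈ 𝔪 ↔ ¬ IsUnit (F b) := fun b => by
    rw [TwoP.isUnit_iff_notMem_of_surjective_completion h𝔪 e.toRingHom e.surjective (heF b),
      not_not]
  refine ⟨⟨F, fun r => e.injective ((heF _).trans (heC r).symm),
    fun b hb => he0 _ b (heF b) hb, fun b hb => he1 _ b (heF b) hb,
    fun b hb => hu0 _ b (heF b) hb, fun b hb => hu1 _ b (heF b) hb, hmem,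
    fun g hg => ?_, fun {ϖ'} hϖ' {n y b} L hL hLb hb => ?_⟩,
    e.injective ((heF _).trans heX.symm),
    fun hhu b => e.injective ((hdiag hhu _ b (heF b)).trans (heF (τ b)).symm)⟩
  · obtain ⟨G, hG⟩ := exists_completion_map g hg
    exact ⟨e.symm.toRingHom.comp (G.comp e.toRingHom), fun b => congrArg e.symm
      ((congrArg G (heF b)).trans (hG b))⟩
  · refine ⟨⟨e L, ?_, ?_⟩, completion_regular 𝔪 (fun x hx => constL_unif_regular hO' hϖ' hx),
      fun x hx => ?_⟩
    · rw [← map_pow, hL, heF]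
    · rw [← heC, ← heF b, ← map_sub]
      exact map_dvd e hLb
    · obtain ⟨xN, rfl⟩ := e.surjective x
      rw [← heC, ← heF b, ← map_mul] at hx
      rw [← heC]
      exact map_dvd e (regMod_of_branches hq hϖ'.maximalIdeal_eq hb xN
        ((map_dvd_iff e).mp hx))

include haux hA hM hζ hqm in
/-- **The chart at a crossing point.** -/
theorem exists_crossChart [IsDiscreteValuationRing O]
    [IsNoetherianRing (LRing q M O)] {𝔪 : Ideal (LRing q M O)} [𝔪.IsMaximal]
    (hinf : pInf hO'.le ≤ 𝔪) (hzero : pZero hO'.le ≤ 𝔪) {τ0 τ1 : ℍ}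
    (hg : GoodPoint haux O τ0) (ht : raiseL M (tPar haux hA hg) ∈ 𝔪)
    (hg' : GoodPoint haux O τ1)
    (ht' : (atkinEquiv hM hζ).symm (raiseL M (tPar haux hA hg')) ∈ 𝔪) :
    Nonempty (CrossChart (M := M) hO' 𝔪 (natCast_q_mem_maximal hO')) := by
  obtain ⟨C, -⟩ := exists_crossChart_semi haux hA hO' hM hζ hqm hinf hzero hg ht hg' ht'
    (σ := RingHom.id O) (τ := RingHom.id (LRing q M O)) (fun _ => rfl) rfl rfl (fun _ z => by simp)
  exact ⟨C⟩

end FermatAgent.BAD.Toric
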