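import Fermat.Agent.BAD.New.Sigma
import Fermat.Agent.BAD.GaloisConj
import Fermat.Agent.BAD.Normal

/-!
# Conjugation by an automorphism inducing the Frobenius

It preserves the two types of cusps, and followed by the Atkin operator it exchanges the two
components, is congruent to the `q`-th power on functions of level `M` on the component at `∞`,
and so fixes the crossing points.
-/

set_option autoImplicit false

open UpperHalfPlane CongruenceSubgroup
open scoped MatrixGroups

noncomputable section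

namespace FermatAgent.BAD.Toric

open FermatAgent.ES (BSub BRing SerIn lexp lexp_eq hasLExp_lexp lexp_act act zetaC AuxLevel CPlace
  GoodRoot GalRel mapSer conjHom GoodPoint)
open FermatAgent.PSEMI (red red_eq_red_iff red_pow)

variable {q M m : ℕ} [hq : Fact q.Prime] [NeZero M]

/-- An automorphism of `ℂ` which stabilises `O` and induces the Frobenius at `P`. -/
structure FrobData (M : ℕ) (P : CPlace q) (O : Subring ℂ) extends ConjData q M O where
  abv_eq : ∀ z, P.abv (σ z) = P.abv z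
  frob : ∀ z, P.abv z ≤ 1 → P.abv (σ z - z ^ q) < 1

/-- An automorphism inducing the Frobenius and stabilising the ring gives the data. -/
theorem exists_frobData {P : CPlace q} {O : Subring ℂ} (σ : ℂ ≃+* ℂ)
    (habv : ∀ z, P.abv (σ z) = P.abv z) (hf : ∀ z, P.abv z ≤ 1 → P.abv (σ z - z ^ q) < 1)
    (hO : ∀ z ∈ O, σ z ∈ O) : ∃ D : FrobData M P O, D.σ = σ := by
  obtain ⟨D, rfl⟩ := exists_conjData (q := q) (M := M) σ hO
  exact ⟨⟨D, habv, hf⟩, rfl⟩

namespace FrobData

variable {P : CPlace q} {O : Subring ℂ} (D : FrobData M P O)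

/-- As an automorphism inducing the Frobenius. -/
def toFrobAut : New.FrobAut P := ⟨D.σ, D.abv_eq, D.frob⟩

/-- The cyclotomic value is `q` modulo `M`. -/
theorem a_eq (hM : M.Coprime q) : (D.a : ZMod M) = q := by
  have h := D.frob (zetaC M) (P.abv_eq_one_of_pow_eq_one (NeZero.ne M)
    (P.goodRoot hM).prim.pow_eq_one).le
  rw [D.zeta_base] at h
  exact zmod_eq_of_abv_pow_sub_lt P hM h

variable (haux : AuxLevel M m)

omit hq [NeZero M] in
/-- On residues the automorphism is the `q`-th power. -/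
theorem residue_σO [IsLocalRing O] (hO' : P.IsCDVR O) (z : O) :
    IsLocalRing.residue O (D.σO z) = IsLocalRing.residue O z ^ q := by
  rw [← map_pow, ← sub_eq_zero, ← map_sub, IsLocalRing.residue_eq_zero_iff,
    hO'.mem_maximalIdeal_iff]
  exact D.frob _ (hO'.le z.2)

omit hq [NeZero M] in
theorem unitCoeff_mapSer {s : LaurentSeries ℂ} (h : P.UnitCoeff s) :
    P.UnitCoeff (mapSer (D.σ : ℂ →+* ℂ) s) := by
  obtain ⟨n, hn⟩ := h
  exact ⟨n, by rw [ES.coeff_mapSer, RingEquiv.coe_toRingHom, D.abv_eq, hn]⟩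

/-- Conjugation keeps unit coefficients on stable sets of cusps. -/
theorem unitAt_conjL {p : SL(2, ℤ) → Prop}
    (hp : ∀ {γ γ' : SL(2, ℤ)}, GalRel (D.a : ZMod (q * M)) γ γ' → p γ' → p γ) {f : LRing q M O}
    (hf : UnitAt P p f) : UnitAt P p (D.conjL haux f) := fun γ' hγ' => by
  obtain ⟨γ, hr⟩ := GalRel.exists_left D.unit γ'
  rw [D.serAt_conjL haux f hr]
  exact D.unitCoeff_mapSer (hf γ (hp hr hγ'))

theorem conjL_mem_smallAt (hO : O ≤ P.ring) {p : SL(2, ℤ) → Prop}
    (hp : ∀ {γ γ' : SL(2, ℤ)}, GalRel (D.a : ZMod (q * M)) γ γ' → p γ' → p γ) {f : LRing q M O}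
    (hf : f ∈ smallAt hO p) : D.conjL haux f ∈ smallAt hO p := fun γ' hγ' n => by
  obtain ⟨γ, hr⟩ := GalRel.exists_left D.unit γ'
  rw [D.serAt_conjL haux f hr, ES.coeff_mapSer, RingEquiv.coe_toRingHom, D.abv_eq]
  exact hf γ (hp hr hγ') n

/-! ### Followed by the Atkin operator -/

variable (hM : M.Coprime q) (hζ : zetaC (q * M) ∈ O)

/-- The conjugation followed by the Atkin operator. -/
def frobW : LRing q M O →+* LRing q M O := (atkinL hM hζ).comp (D.conjL haux)

/-- The Frobenius with the Atkin operator on constants. -/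
theorem frobW_constL (r : O) : D.frobW haux hM hζ (constL r) = constL (D.σO r) := by
  show atkinL hM hζ (D.conjL haux (constL r)) = _
  rw [D.conjL_constL]
  exact Subtype.ext (atkin_const hM _)

/-- It carries the component at `∞` to the other one. -/
theorem frobW_unitZero {f : LRing q M O} (hf : UnitInf P f) :
    UnitZero P (D.frobW haux hM hζ f) :=
  atkinL_unitZero hM hζ (D.unitAt_conjL haux (fun h h' => (D.gamma0_iff h).mpr h') hf)

/-- It carries the other component to the one at `∞`. -/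
theorem frobW_unitInf {f : LRing q M O} (hf : UnitZero P f) :
    UnitInf P (D.frobW haux hM hζ f) :=
  atkinL_unitInf hM hζ (D.unitAt_conjL haux (fun h h' h0 => h' ((D.gamma0_iff h).mp h0)) hf)

theorem frobW_mem_pZero (hO : O ≤ P.ring) {f : LRing q M O} (hf : f ∈ pInf hO) :
    D.frobW haux hM hζ f ∈ pZero hO :=
  atkinL_mem_pZero hO hM hζ (D.conjL_mem_smallAt haux hO (fun h h' => (D.gamma0_iff h).mpr h') hf)

theorem serAt_frobW_raiseL_one (x : BRing M O) :
    serAt M O q 1 (D.frobW haux hM hζ (raiseL M x)) =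
      expandL q (expandL q (mapSer (D.σ : ℂ →+* ℂ) (lexp M 1 (x : ℍ → ℂ)))) := by
  set f' := D.conjL haux (raiseL M x : LRing q M O)
  obtain ⟨γ, hr⟩ := GalRel.exists_left D.unit (atkinMat hM)
  have hγ : γ ∈ Gamma M :=
    (D.gamma_iff_of_dvd (dvd_mul_left M q) hr).mpr (atkinMat_mem hM)
  have hs : serAt M O q 1 (D.frobW haux hM hζ (raiseL M x)) =
      expandL q (serAt M O q (atkinMat hM) f') := by
    show serAt M O q 1 (atkinL hM hζ f') = _
    rw [serAt_apply, serAt_apply, coe_atkinL]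
    refine lexp_eq ?_
    rw [ES.act_one, atkin_apply]
    exact hasLExp_dilFun q (hasLExp_lexp f'.2.2.1 _)
  have hx : lexp M γ (x : ℍ → ℂ) = lexp M 1 (x : ℍ → ℂ) := by
    conv_lhs => rw [← mul_one γ, ← lexp_act, x.2.1.1 γ hγ]
  rw [hs, D.serAt_conjL haux _ hr, serAt_raiseL, hx, mapSer_expandL]

variable {hA : GoodRoot M O (zetaC M)} (hqm : q ≠ m)

include haux hM hζ hA hqm in
/-- On the component at `∞` it is the `q`-th power on functions of level `M`. -/
theorem frobW_raiseL_sub_pow (hO : O ≤ P.ring) (x : BRing M O) :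
    D.frobW haux hM hζ (raiseL M x) - raiseL M x ^ q ∈ pInf hO := by
  intro γ hγ
  refine P.serLT_of_not_unitCoeff (fun n => hO (serIn_serAt γ _ n)) fun hu => ?_
  have h1 := unitInf_of_unitCoeff haux hA hO hM hζ hqm hγ hu 1 (one_mem _)
  refine CPlace.SerLT.not_unitCoeff ?_ h1
  set s := lexp M 1 (x : ℍ → ℂ)
  have hs : SerIn P.ring s := fun n => hO (x.2.2 1 n)
  have hσs : SerIn P.ring (mapSer (D.σ : ℂ →+* ℂ) s) := D.toFrobAut.serIn_mapSer hs
  rw [map_sub, D.serAt_frobW_raiseL_one haux hM hζ, map_pow, serAt_raiseL, ← map_pow, ← map_sub]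
  have key : P.SerLT (expandL q (mapSer (D.σ : ℂ →+* ℂ) s) - s ^ q) := by
    rw [← red_eq_red_iff (expandL_serIn hσs) (hs.pow q), red_pow hs, ← New.frobL_expandL]
    ext i
    rw [New.coeff_frobL]
    by_cases hi : (q : ℤ) ∣ i
    · obtain ⟨k, rfl⟩ := hi
      rw [PSEMI.coeff_red (expandL_serIn hσs), expandL_coeff_mul q (red s) k, PSEMI.coeff_red hs]
      refine (congrArg PSEMI.rd (Subtype.ext ?_)).trans (D.toFrobAut.rd_σ ⟨_, hs k⟩)
      show (expandL q _).coeff _ = D.σ _
      rw [expandL_coeff_mul]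
      rfl
    · rw [PSEMI.coeff_red (expandL_serIn hσs), expandL_coeff_of_not_dvd q (red s) hi,
        zero_pow hq.out.ne_zero]
      exact PSEMI.rd_eq_zero_iff.mpr (by simp [expandL_coeff_of_not_dvd q _ hi])
  intro n
  by_cases hn : (q : ℤ) ∣ n
  · obtain ⟨k, rfl⟩ := hn
    rw [expandL_coeff_mul]
    exact key k
  · rw [expandL_coeff_of_not_dvd q _ hn]
    simp

include haux hM hζ hA hqm in
/-- **It fixes the crossing points.** -/
theorem frobW_mem_crossing (hO : O ≤ P.ring) (hO' : P.IsCDVR O) {𝔪 : Ideal (LRing q M O)}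
    [h𝔪 : 𝔪.IsMaximal] (hinf : pInf hO ≤ 𝔪) (hzero : pZero hO ≤ 𝔪) {τ0 : ℍ}
    (hg : GoodPoint haux O τ0) (ht : raiseL M (tPar haux hA hg) ∈ 𝔪) {f : LRing q M O}
    (hf : f ∈ 𝔪) : D.frobW haux hM hζ f ∈ 𝔪 := by
  set g := D.frobW haux hM hζ
  have hraise : ∀ x : BRing M O, g (raiseL M x) ∈ 𝔪 ↔ (raiseL M x : LRing q M O) ∈ 𝔪 := fun x => by
    have h := hinf (D.frobW_raiseL_sub_pow haux hM hζ (hA := hA) hqm hO x)
    constructor
    · intro hx
      have := sub_mem hx h
      rw [sub_sub_cancel] at this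
      exact h𝔪.isPrime.mem_of_pow_mem q this
    · intro hx
      have := add_mem h (Ideal.pow_mem_of_mem _ hx q hq.out.pos)
      rwa [sub_add_cancel] at this
  obtain ⟨w, u, hw, hrel⟩ := exists_levelM_congr haux hA hO hO' hM hg hinf ht hζ hqm f
  have hu : (raiseL M u : LRing q M O) ∈ 𝔪 := by
    have := sub_mem (𝔪.mul_mem_left (raiseL M w) hf) (hinf hrel)
    rwa [sub_sub_cancel] at this
  have h1 := hzero (D.frobW_mem_pZero haux hM hζ hO hrel)
  rw [map_sub, map_mul] at h1
  have h2 := add_mem h1 ((hraise u).mpr hu)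
  rw [sub_add_cancel] at h2
  exact (h𝔪.isPrime.mem_or_mem h2).resolve_left fun h => hw ((hraise w).mp h)

end FrobData

end FermatAgent.BAD.Toric
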