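import Fermat.Agent.BAD.Toric.CrossRoot
import Fermat.Agent.BAD.Toric.FrobConj
import Fermat.Agent.BAD.InertiaRoot
import Fermat.Agent.BAD.NodeRoot

/-!
# Orders at crossing points of functions fixed by inertia

Tame inertia rotates one branch of the fine node; a unit times an `n`-th power fixed by it has
orders divisible by `n` on both branches.
-/

set_option autoImplicit false

open UpperHalfPlane CongruenceSubgroup IsLocalRing
open scoped MatrixGroups

noncomputable section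

namespace FermatAgent.BAD.Toric

open FermatAgent.ES (BSub BRing zetaC AuxLevel CPlace GoodRoot GoodPoint embC)

section Node

/-- The exponent of `X` in a unit multiple is unique. -/
theorem eq_of_X_pow_mul_unit {k : Type} [Field k] {a b : ℕ} {u v : PowerSeries k} (hu : IsUnit u)
    (hv : IsUnit v) (h : PowerSeries.X ^ a * u = PowerSeries.X ^ b * v) : a = b := by
  rw [PowerSeries.isUnit_iff_constantCoeff] at hu hv
  have key : ∀ {a b : ℕ} {u v : PowerSeries k}, PowerSeries.constantCoeff u ≠ 0 →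
      PowerSeries.X ^ a * u = PowerSeries.X ^ b * v → ¬ a < b := fun {a b u v} hu h hab => by
    have h1 := congrArg (PowerSeries.coeff a) h
    rw [PowerSeries.coeff_X_pow_mul', if_pos le_rfl, Nat.sub_self,
      PowerSeries.coeff_zero_eq_constantCoeff_apply, PowerSeries.coeff_X_pow_mul',
      if_neg (by omega)] at h1
    exact hu h1
  have h1 := key hu.ne_zero h
  have h2 := key hv.ne_zero h.symm
  omega

/-- A non-zero series is a power of `X` times a unit. -/
theorem exists_X_pow_mul {k : Type} [Field k] {f : PowerSeries k} (hf : f ≠ 0) :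
    ∃ (r : ℕ) (w : PowerSeries k), IsUnit w ∧ f = PowerSeries.X ^ r * w := by
  obtain ⟨r, w, hw, hfac⟩ := WfDvdMonoid.max_power_factor hf PowerSeries.X_irreducible
  exact ⟨r, w, PowerSeries.isUnit_iff_constantCoeff.mpr
    (isUnit_iff_ne_zero.mpr fun h => hw (PowerSeries.X_dvd_iff.mpr h)), hfac⟩

variable {O : Type} [CommRing O] [IsDomain O] [IsDiscreteValuationRing O]
  [IsAdicComplete (maximalIdeal O) O]

omit [IsAdicComplete (maximalIdeal O) O] in
theorem constantCoeff_branch_eq {c : O} (hc : c ∈ maximalIdeal O) (i j : Fin 2) (x : Node O c) :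
    PowerSeries.constantCoeff (branch hc i x) = PowerSeries.constantCoeff (branch hc j x) := by
  obtain ⟨f, rfl⟩ := nodeMk_surjective c x
  simp only [branch_nodeMk, ← PowerSeries.coeff_zero_eq_constantCoeff_apply, coeff_axisHom,
    show ∀ i : Fin 2, axisExp i 0 = 0 from fun i => Finsupp.single_zero _]

omit [IsAdicComplete (maximalIdeal O) O] in
/-- The order on the branch `i` of a fixed element is divisible by `n`. -/
theorem exists_branch_order {ϖ : O} (hϖ : Irreducible ϖ) {σ : O →+* O}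
    (hσ : ∀ r, residue O (σ r) = residue O r) {c : O} (hc : c ∈ maximalIdeal O) (hσc : σ c = c)
    {n E₁ : ℕ} [NeZero n] [NeZero E₁] {i j : Fin 2} (hij : i ≠ j) {a : Fin 2 → O}
    (ha : ∀ k, IsUnit (a k)) (haj : a j = 1)
    (h : (RingHom.id O) c = a 0 * a 1 * ϖ ^ (n * E₁)) {θ : O} (hθ : σ ϖ = θ * ϖ)
    (hprim : IsPrimitiveRoot (residue O θ ^ E₁) n)
    (hhu : σ c = ![(1 : O), 1] 0 * ![(1 : O), 1] 1 * c ^ 1) {y : Node O c}
    (hy : nodeDiag hhu y = y) {U : (Node O ϖ)ˣ} {H : Node O ϖ}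
    (hT : nodeDiag h y = U * H ^ n) (hne : ∀ k, branch hc k y ≠ 0) :
    ∃ (l : ℕ) (w : PowerSeries (ResidueField O)), IsUnit w ∧
      branch hc i y = PowerSeries.X ^ (n * l) * w := by
  have := node_isDomain hϖ
  have := node_ufm hϖ
  have : NeZero (n * E₁) := ⟨mul_ne_zero (NeZero.ne n) (NeZero.ne E₁)⟩
  have hϖm := unif_mem hϖ
  set b : Fin 2 → O := fun k => if k = i then θ else 1 with hb
  have hbp : b 0 * b 1 = θ := by fin_cases i <;> simp [hb]
  have hτ : σ ϖ = b 0 * b 1 * ϖ ^ 1 := by rw [hbp, pow_one, hθ]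
  set T := nodeDiag h
  set τ := nodeDiag hτ
  have hap : a 0 * a 1 = a i := by
    fin_cases i <;> fin_cases j <;> simp_all
  have hai : σ (a i) * θ ^ (n * E₁) = a i := by
    refine mul_right_cancel₀ (pow_ne_zero (n * E₁) hϖ.ne_zero) ?_
    have h1 : c = a i * ϖ ^ (n * E₁) := by rw [← hap]; exact h
    have h2 := congrArg σ h1
    rw [map_mul, map_pow, hθ, hσc, mul_pow, h1] at h2
    linear_combination -h2
  have hcomm : τ (T y) = T y := by
    have hb' : σ c = a 0 * a 1 * ϖ ^ (n * E₁) := by rw [hσc]; exact h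
    have h1 := nodeDiag_nodeDiag hτ h hb' (one_mul _) (RingHom.comp_id σ) (fun k => by
      by_cases hk : k = i
      · subst hk; simp only [hb, if_pos]; linear_combination hai
      · have hkj : k = j := by omega
        subst hkj; simp [hb, if_neg hk, haj]) y
    have h2 := nodeDiag_nodeDiag h hhu hb' (mul_one _) (RingHom.id_comp σ) (fun k => by
      fin_cases k <;> simp) y
    rw [hy] at h2
    exact h1.trans h2.symm
  have hbr : ∀ k x, branch hϖm k (τ x) =
      PowerSeries.rescale (residue O (b k)) (branch hϖm k x) := fun k x =>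
    branch_semi hϖm hϖm hτ hσ k x
  have hTne : ∀ k, branch hϖm k (T y) ≠ 0 := fun k =>
    branch_nodeDiag_ne_zero hc hϖm h (fun _ => rfl) (ha k) (hne k)
  have hH : ∀ k, branch hϖm k H ≠ 0 := fun k h0 => hTne k (by
    rw [hT, map_mul, map_pow, h0, zero_pow (NeZero.ne n), mul_zero])
  have hH0 : H ≠ 0 := fun h0 => hH 0 (by rw [h0, map_zero])
  have heq : τ (U : Node O ϖ) * τ H ^ n = U * H ^ n := by
    rw [← map_pow, ← map_mul, ← hT]; exact hcomm
  obtain ⟨V, hV⟩ := (U.isUnit.map τ).exists_left_inv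
  obtain ⟨ν, hν⟩ : H ∣ τ H := (IsIntegrallyClosed.pow_dvd_pow_iff (NeZero.ne n)).mp
    ⟨V * U, by linear_combination V * heq - τ H ^ n * hV⟩
  have hν1 : PowerSeries.constantCoeff (branch hϖm i ν) = 1 := by
    have h1 := congrArg (branch hϖm j) hν
    rw [hbr, show b j = 1 by simp [hb, Ne.symm hij], map_one, PowerSeries.rescale_one,
      RingHom.id_apply, map_mul] at h1
    have h2 : branch hϖm j ν = 1 := mul_left_cancel₀ (hH j) (by rw [mul_one, ← h1])
    rw [constantCoeff_branch_eq hϖm i j, h2, map_one]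
  obtain ⟨l, w, hw, hHi⟩ := exists_X_pow_mul (hH i)
  obtain ⟨r, w', hw', hyi⟩ := exists_X_pow_mul (hne i)
  -- the orders
  have hord : n * E₁ * r = n * l := by
    have h1 := congrArg (branch hϖm i) hT
    rw [branch_nodeDiag hc hϖm h (fun _ => rfl), map_mul, map_pow, hyi, hHi] at h1
    simp only [map_mul, map_pow, PowerSeries.rescale_X, mul_pow, PowerSeries.expand_C,
      PowerSeries.expand_X] at h1
    refine eq_of_X_pow_mul_unit
      (u := PowerSeries.C (residue O (a i)) ^ r *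
        PowerSeries.expand (n * E₁) (NeZero.ne _) (PowerSeries.rescale (residue O (a i)) w'))
      (v := branch hϖm i (U : Node O ϖ) * w ^ n) ?_ ?_ ?_
    · exact ((((ha i).map _).map _).pow r).mul ((hw'.map _).map _)
    · exact (U.isUnit.map _).mul (hw.pow n)
    · rw [← pow_mul PowerSeries.X l n, mul_comm l n] at h1
      rw [pow_mul PowerSeries.X (n * E₁) r]
      linear_combination h1
  have hθl : residue O θ ^ l = 1 := by
    have h1 := congrArg (branch hϖm i) hν
    rw [hbr, show b i = θ by simp [hb], map_mul] at h1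
    have h2 := congrArg (PowerSeries.coeff l) h1
    rw [PowerSeries.coeff_rescale, hHi, mul_assoc, PowerSeries.coeff_X_pow_mul',
      PowerSeries.coeff_X_pow_mul', if_pos le_rfl, Nat.sub_self,
      PowerSeries.coeff_zero_eq_constantCoeff_apply, PowerSeries.coeff_zero_eq_constantCoeff_apply,
      map_mul, hν1, mul_one, if_pos le_rfl] at h2
    exact mul_right_cancel₀ (PowerSeries.isUnit_iff_constantCoeff.mp hw).ne_zero
      (h2.trans (one_mul _).symm)
  have hl : l = E₁ * r := (Nat.eq_of_mul_eq_mul_left (NeZero.pos n)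
    (by rw [← mul_assoc]; exact hord)).symm
  obtain ⟨l', rfl⟩ : n ∣ r := by
    rw [← hprim.pow_eq_one_iff_dvd, ← pow_mul, ← hl]
    exact hθl
  exact ⟨l', w', hw', hyi⟩

end Node

variable {q M m : ℕ} [Fact q.Prime] [NeZero M] (haux : AuxLevel M m) (hM : M.Coprime q)
  (hqm : q ≠ m)

section Chart

variable {O : Subring ℂ} (hA : GoodRoot M O (zetaC M)) {P : CPlace q} (hO' : P.IsCDVR O)
  [IsDiscreteValuationRing O] (hζ : zetaC (q * M) ∈ O) {𝔪 : Ideal (LRing q M O)} [h𝔪 : 𝔪.IsMaximal]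
  (C : CrossChart (M := M) hO' 𝔪 (natCast_q_mem_maximal hO'))

omit h𝔪 in
theorem isUnit_branch {f : LRing q M O} (hf : f ∉ 𝔪) (i : Fin 2) :
    IsUnit (branch (natCast_q_mem_maximal hO') i (C.F f)) :=
  (not_not.mp (fun h => hf ((C.mem_iff f).mpr h))).map _

include haux hM hqm hζ hA C in
/-- The parameter is a uniformiser on the branch at `∞`. -/
theorem branch_tPar {τ0 : ℍ} (hg : GoodPoint haux O τ0) (hinf : pInf hO'.le ≤ 𝔪)
    (hzero : pZero hO'.le ≤ 𝔪) (ht : raiseL M (tPar haux hA hg) ∈ 𝔪)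
    (hX : C.F (kXL haux hM hA hζ) = nodeVar (q : O) 0) :
    ∃ w, IsUnit w ∧ branch (natCast_q_mem_maximal hO') 0
      (C.F (raiseL M (tPar haux hA hg))) = PowerSeries.X * w := by
  obtain ⟨u, hu, hXu⟩ := exists_kXL_param haux hM hA hζ hO'.le hO' hqm hg hinf hzero ht
  have h1 := C.inf_zero _ hXu
  rw [map_sub, map_sub, sub_eq_zero, hX, branch_nodeVar, if_pos rfl, map_mul, map_mul, map_mul]
    at h1
  exact ⟨_, Units.isUnit (isUnit_branch hO' C hu 0).unit⁻¹,
    (Units.eq_mul_inv_iff_mul_eq _).mpr h1.symm⟩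

end Chart

omit [Fact (Nat.Prime q)] in
theorem residue_eq_iff_abv {P : CPlace q} {O : Subring ℂ} [IsLocalRing O] (hO' : P.IsCDVR O)
    {x y : O} : residue O x = residue O y ↔ P.abv ((x : ℂ) - y) < 1 := by
  rw [← sub_eq_zero, ← map_sub, residue_eq_zero_iff, hO'.mem_maximalIdeal_iff,
    AddSubgroupClass.coe_sub]

/-- An inertia element multiplying a given `n`-th root `ρ` of `q` by the standard `n`-th root of
unity. -/
private theorem exists_inertia_rotating (Φ : ℂ ≃+* PadicAlgCl q) {S : Set ℂ} {n : ℕ} [NeZero n]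
    (hn : n.Coprime q) {ρ : ℂ} (hρ : ρ ^ n = q) :
    ∃ D : InertData M (CPlace.ofEquiv Φ) (stableRing Φ S), D.σ ρ = zetaC n * ρ := by
  have hqC : (q : ℂ) ≠ 0 := Nat.cast_ne_zero.mpr (Fact.out : q.Prime).ne_zero
  obtain ⟨ζ0, hζ0⟩ := HasEnoughRootsOfUnity.exists_primitiveRoot (AlgebraicClosure ℚ) n
  have hζ0C : IsPrimitiveRoot (embC ζ0) n := hζ0.map_of_injective embC.injective
  obtain ⟨k, -, hk⟩ := hζ0C.eq_pow_of_pow_eq_one (ES.zetaC_isPrimitiveRoot n).pow_eq_one
  obtain ⟨r0, hr0⟩ := IsAlgClosed.exists_pow_nat_eq (q : AlgebraicClosure ℚ) (NeZero.pos n)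
  have hr00 : embC r0 ≠ 0 := fun h => hqC (by
    rw [← map_natCast embC, ← hr0, map_pow, h, zero_pow (NeZero.ne n)])
  obtain ⟨k', -, hk'⟩ := hζ0C.eq_pow_of_pow_eq_one (ξ := ρ / embC r0)
    (by rw [div_pow, hρ, ← map_pow, hr0, map_natCast, div_self hqC])
  have hr1 : embC (ζ0 ^ k' * r0) = ρ := by
    rw [map_mul, map_pow, hk', div_mul_cancel₀ _ hr00]
  obtain ⟨g, hg1, hg2, -⟩ := exists_inertia_smul_root (Fact.out : q.Prime)
    (CPlace.algVal_liesOverPrime (CPlace.ofEquiv Φ)) (NeZero.ne n) hn (ρ := ζ0 ^ k' * r0)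
    (ζ := ζ0 ^ k)
    (by rw [mul_pow, ← pow_mul, mul_comm k', pow_mul, hζ0.pow_eq_one, one_pow, one_mul, hr0])
    (by rw [← pow_mul, mul_comm k, pow_mul, hζ0.pow_eq_one, one_pow])
  obtain ⟨s, hs, hsmall⟩ := exists_inertiaAut Φ hg1
  obtain ⟨D, hD⟩ := exists_inertData (M := M) (conjC Φ s)
    (P := (CPlace.ofEquiv Φ)) (O := (stableRing Φ S)) (fun z hz => by
      rw [CPlace.ofEquiv_abv, map_sub, map_conjC]
      exact hsmall _ (by rwa [CPlace.ofEquiv_abv] at hz))
    (fun z hz => conjC_mem_stableRing Φ s hz)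
  exact ⟨D, by rw [hD, ← hr1, conjC_embC Φ s hs, hg2, map_mul, map_pow, hk]⟩

omit [Fact (Nat.Prime q)] [NeZero M] in
/-- When inertia multiplies `u ϖ ^ E` by `ζ_n` and `ϖ` by `θ`, then `θ ^ E` is congruent to
`ζ_n`. -/
private theorem abv_pow_sub_zetaC_lt {P : CPlace q} {O : Subring ℂ}
    (hO' : P.IsCDVR O) (D : InertData M P O) {n E : ℕ} {ϖ θ : O} (hϖ : (ϖ : ℂ) ≠ 0) (u : Oˣ)
    (hθ : D.σO ϖ = θ * ϖ)
    (hσ : D.σ (((u : O) * ϖ ^ E : O) : ℂ) = zetaC n * (((u : O) * ϖ ^ E : O) : ℂ)) :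
    P.abv ((θ : ℂ) ^ E - zetaC n) < 1 := by
  rw [← D.coe_σO, map_mul, map_pow, hθ] at hσ
  simp only [Subring.coe_mul, SubmonoidClass.coe_pow, D.coe_σO] at hσ
  have hkey : D.σ (u : O) * (θ : ℂ) ^ E = zetaC n * (u : O) :=
    mul_right_cancel₀ (pow_ne_zero E hϖ) (by linear_combination hσ)
  have h1 := D.small ((u : O) : ℂ) (hO'.le (u : O).2)
  have hu1 : P.abv ((u : O) : ℂ) = 1 := (hO'.isUnit_iff _).mp u.isUnit
  have h2 : ((u : O) : ℂ) * ((θ : ℂ) ^ E - zetaC n) =
      -((D.σ (u : O) - (u : O)) * (θ : ℂ) ^ E) := by linear_combination hkey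
  have h3 := congrArg P.abv h2
  rw [map_mul, hu1, one_mul, AbsoluteValue.map_neg, map_mul, map_pow] at h3
  rw [h3]
  exact mul_lt_one_of_nonneg_of_lt_one_left (P.abv.nonneg _) h1
    (pow_le_one₀ (P.abv.nonneg _) (hO'.le θ.2))

omit [Fact (Nat.Prime q)] [NeZero M] in
/-- The residue of an element congruent to `ζ_n` is a primitive `n`-th root of unity. -/
private theorem isPrimitiveRoot_residue_of_abv_lt {P : CPlace q} {O : Subring ℂ} [IsLocalRing O]
    (hO' : P.IsCDVR O) {n : ℕ} [NeZero n] (hn : n.Coprime q) {x : O}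
    (hx : P.abv ((x : ℂ) - zetaC n) < 1) : IsPrimitiveRoot (residue O x) n := by
  have hz : zetaC n ∈ P.ring :=
    (P.abv_eq_one_of_pow_eq_one (NeZero.ne n) (ES.zetaC_isPrimitiveRoot n).pow_eq_one).le
  have hpow : ∀ i : ℕ, P.abv ((x : ℂ) ^ i - zetaC n ^ i) < 1 := fun i => by
    obtain ⟨w, hw⟩ := sub_dvd_pow_sub_pow (⟨(x : ℂ), hO'.le x.2⟩ : P.ring) ⟨zetaC n, hz⟩ i
    have h4 : (x : ℂ) ^ i - zetaC n ^ i = ((x : ℂ) - zetaC n) * w := congrArg Subtype.val hw
    rw [h4, map_mul]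
    exact mul_lt_one_of_nonneg_of_lt_one_left (P.abv.nonneg _) hx w.2
  have hiff : ∀ i : ℕ, residue O x ^ i = 1 ↔ n ∣ i := fun i => by
    rw [← map_pow, ← map_one (residue O), residue_eq_iff_abv hO', OneMemClass.coe_one,
      SubmonoidClass.coe_pow]
    constructor
    · intro h
      have h5 : P.abv (zetaC n ^ i - zetaC n ^ 0) < 1 := by
        rw [pow_zero, show zetaC n ^ i - 1 =
          ((x : ℂ) ^ i - 1) + -((x : ℂ) ^ i - zetaC n ^ i) by ring]
        exact P.add_lt h (by rw [AbsoluteValue.map_neg]; exact hpow i)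
      have h6 := zmod_eq_of_abv_pow_sub_lt P hn h5
      rwa [Nat.cast_zero, ZMod.natCast_eq_zero_iff] at h6
    · intro h
      have h5 := hpow i
      rwa [(ES.zetaC_isPrimitiveRoot n).pow_eq_one_iff_dvd i |>.mpr h] at h5
  exact ⟨(hiff n).mpr dvd_rfl, fun l hl => (hiff l).mp hl⟩

include haux hM hqm in
/-- Modulo `pInf`, a function with unit coefficients at `∞` is a power of the level-`M` parameter,
up to factors outside `𝔪`. -/
private theorem exists_levelM_order {O : Subring ℂ} {P : CPlace q} (hO' : P.IsCDVR O)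
    (hA : GoodRoot M O (zetaC M)) (hζ : zetaC (q * M) ∈ O) {𝔪 : Ideal (LRing q M O)}
    [𝔪.IsMaximal] (hinf : pInf hO'.le ≤ 𝔪) {τ0 : ℍ} (hg : GoodPoint haux O τ0)
    (ht : raiseL M (tPar haux hA hg) ∈ 𝔪) {y : LRing q M O} (hy : UnitInf P y) :
    ∃ (i : ℕ) (e v : BRing M O), raiseL M e ∉ 𝔪 ∧ raiseL M v ∉ 𝔪 ∧
      raiseL M e * y - raiseL M (tPar haux hA hg ^ i * v) ∈ pInf hO'.le := by
  obtain ⟨w0, u0, hw0, hrel⟩ := exists_levelM_congr haux hA hO'.le hO' hM hg hinf ht hζ hqm y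
  have hu0u : UnitInf P (raiseL M u0 : LRing q M O) :=
    UnitAt.of_sub_mem hO'.le (UnitAt.mul hO'.le
      (unitAt_raiseL_of_not_mem haux hO'.le hM (fun h => hw0 (hinf h)) _) hy) hrel
  have hu0c : P.UnitCoeff (ES.lexp M 1 (u0 : ℍ → ℂ)) := by
    obtain ⟨i, hi⟩ := hu0u 1 (one_mem _)
    rw [serAt_raiseL] at hi
    by_cases hd : (q : ℤ) ∣ i
    · obtain ⟨i', rfl⟩ := hd
      rw [expandL_coeff_mul] at hi
      exact ⟨i', hi⟩
    · rw [expandL_coeff_of_not_dvd q _ hd, map_zero] at hi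
      exact absurd hi zero_ne_one
  obtain ⟨i, e, v, he, hv, hev⟩ := exists_order haux hA hO'.le hO' hM hg ht hu0c
  refine ⟨i, e * w0, v, ?_, hv, ?_⟩
  · rw [map_mul]
    exact fun h => ((‹𝔪.IsMaximal›).isPrime.mem_or_mem h).elim he hw0
  · have := add_mem (Ideal.mul_mem_left _ (raiseL M e) hrel) hev
    simp only [map_mul] at this ⊢
    convert this using 1
    ring

include haux hM hqm in
/-- **The order at a crossing point of a function fixed by inertia is divisible by `n`.** -/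
theorem exists_crossing_order (Φ : ℂ ≃+* PadicAlgCl q) {S : Set ℂ} (hS : S.Finite)
    (hA : GoodRoot M (stableRing Φ S) (zetaC M)) (hζ : zetaC (q * M) ∈ stableRing Φ S) {n : ℕ}
    [NeZero n] (hn : n.Coprime q) {ρ : ℂ} (hρ : ρ ^ n = q) (hρS : ρ ∈ stableRing Φ S)
    {y : LRing q M (stableRing Φ S)} (hy0 : UnitInf (CPlace.ofEquiv Φ) y)
    (hy1 : UnitZero (CPlace.ofEquiv Φ) y)
    (hdiv : Divisible q M (stableRing Φ S) n (y : ℍ → ℂ))
    (hfix : ∀ D : InertData M (CPlace.ofEquiv Φ) (stableRing Φ S), D.conjL haux y = y)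
    {𝔪 : Ideal (LRing q M (stableRing Φ S))} [𝔪.IsMaximal]
    (hinf : pInf (isCDVR_stableRing Φ hS).le ≤ 𝔪) (hzero : pZero (isCDVR_stableRing Φ hS).le ≤ 𝔪)
    {τ0 τ1 : ℍ} (hg : GoodPoint haux (stableRing Φ S) τ0) (ht : raiseL M (tPar haux hA hg) ∈ 𝔪)
    (hg' : GoodPoint haux (stableRing Φ S) τ1)
    (ht' : (atkinEquiv hM hζ).symm (raiseL M (tPar haux hA hg')) ∈ 𝔪) :
    ∃ (j : ℕ) (e u : BRing M (stableRing Φ S)), raiseL M e ∉ 𝔪 ∧ raiseL M u ∉ 𝔪 ∧
      raiseL M e * y - raiseL M (tPar haux hA hg ^ (n * j) * u) ∈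
        pInf (isCDVR_stableRing Φ hS).le := by
  have hO' := isCDVR_stableRing Φ hS
  have := hO'.dvr
  have := hO'.complete
  have := finite_residueField_stableRing Φ hS
  have : IsNoetherianRing (LRing q M (stableRing Φ S)) := isNoetherianRing_LRing haux hA hζ
  obtain ⟨ϖ, hϖ⟩ := IsDiscreteValuationRing.exists_irreducible (stableRing Φ S)
  have hq := natCast_q_mem_maximal (O := (stableRing Φ S)) hO'
  have hqC : (q : ℂ) ≠ 0 := Nat.cast_ne_zero.mpr (Fact.out : q.Prime).ne_zero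
  set ρO : (stableRing Φ S) := ⟨ρ, hρS⟩
  have hρn : ρO ^ n = (q : (stableRing Φ S)) := Subtype.ext (by simp [ρO, hρ])
  have hρ0 : ρO ≠ 0 := fun h => hqC (by
    rw [← hρ, show ρ = ((ρO : (stableRing Φ S)) : ℂ) from rfl, h]; simp [NeZero.ne n])
  obtain ⟨E₁, u, hu⟩ := IsDiscreteValuationRing.eq_unit_mul_pow_irreducible hρ0 hϖ
  have : NeZero E₁ := ⟨fun h0 => by
    subst h0
    rw [pow_zero, mul_one] at hu
    exact (IsLocalRing.mem_maximalIdeal _).mp hq (hρn ▸ hu ▸ (u.isUnit.pow n))⟩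
  have : NeZero (n * E₁) := ⟨mul_ne_zero (NeZero.ne n) (NeZero.ne E₁)⟩
  have hca : (RingHom.id (stableRing Φ S)) (q : (stableRing Φ S)) =
      ![((u : (stableRing Φ S)) ^ n), 1] 0 * ![((u : (stableRing Φ S)) ^ n), 1] 1 *
        ϖ ^ (n * E₁) := by
    rw [RingHom.id_apply, ← hρn, hu, mul_pow, ← pow_mul, mul_comm E₁ n]
    simp
  -- an inertia element rotating `ρ`
  obtain ⟨D, hD⟩ := exists_inertia_rotating (M := M) Φ (S := S) hn hρ
  obtain ⟨θ, hθ⟩ : ∃ θ, D.σO ϖ = θ * ϖ := by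
    have : D.σO ϖ ∈ maximalIdeal (stableRing Φ S) := by
      rw [← residue_eq_zero_iff, D.residue_σO hO', residue_eq_zero_iff]
      exact unif_mem hϖ
    rw [hϖ.maximalIdeal_eq, Ideal.mem_span_singleton'] at this
    obtain ⟨θ, hθ⟩ := this
    exact ⟨θ, hθ.symm⟩
  have hϖ0 : (ϖ : ℂ) ≠ 0 := fun h => hϖ.ne_zero (Subtype.ext h)
  have hprim : IsPrimitiveRoot (residue (stableRing Φ S) θ ^ E₁) n := by
    rw [← map_pow]
    refine isPrimitiveRoot_residue_of_abv_lt hO' hn ?_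
    rw [SubmonoidClass.coe_pow]
    exact abv_pow_sub_zetaC_lt hO' D hϖ0 u hθ (by rw [← hu]; exact hD)
  -- the chart
  obtain ⟨hτX, hτY⟩ := D.conjL_kXL haux hM hA hζ
  obtain ⟨C, hX, hC⟩ := exists_crossChart_semi haux hA hO' hM hζ hqm hinf hzero hg ht hg' ht'
    (D.conjL_constL haux) hτX hτY
    (fun hϖ' z => D.unif_dvd_conjL_sub haux hM hO'.le hO' hϖ' z)
  have hσq : D.σO (q : (stableRing Φ S)) = (q : (stableRing Φ S)) := map_natCast _ q
  have hhu : D.σO (q : (stableRing Φ S)) = ![(1 : (stableRing Φ S)), 1] 0 *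
      ![(1 : (stableRing Φ S)), 1] 1 * (q : (stableRing Φ S)) ^ 1 := by simp
  have hFy : nodeDiag hhu (C.F y) = C.F y := by rw [hC hhu y, hfix D]
  have hne := branch_unit_ne hO' C hy0 hy1
  have hua : ∀ i, IsUnit (![((u : (stableRing Φ S)) ^ n), 1] i) := fun i => by
    fin_cases i
    · exact u.isUnit.pow n
    · exact isUnit_one
  obtain ⟨U, H, hUH⟩ := exists_fine_factor haux hA hO' C hϖ hua hca hne hdiv
  obtain ⟨l, w, hw, hyl⟩ := exists_branch_order hϖ (fun r => D.residue_σO hO' r) hq hσq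
    (i := 0) (j := 1) (by decide) hua rfl hca hθ hprim hhu hFy hUH hne
  -- the function of level `M`
  obtain ⟨i, e, v, hew, hv, hfin⟩ := exists_levelM_order haux hM hqm hO' hA hζ hinf hg ht hy0
  have hi : i = n * l := by
    obtain ⟨t, htu, htw⟩ := branch_tPar haux hM hqm hA hO' hζ C hg hinf hzero ht hX
    have h1 := C.inf_zero _ hfin
    simp only [map_sub, map_mul, map_pow, htw, hyl, mul_pow, sub_eq_zero] at h1
    refine eq_of_X_pow_mul_unit (u := t ^ i * branch hq 0 (C.F (raiseL M v)))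
      (v := branch hq 0 (C.F (raiseL M e)) * w)
      ((htu.pow i).mul (isUnit_branch hO' C hv 0)) ((isUnit_branch hO' C hew 0).mul hw) ?_
    linear_combination -h1
  exact ⟨l, e, v, hew, hv, by rw [← hi]; exact hfin⟩

end FermatAgent.BAD.Toric
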