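import Fermat.Agent.BAD.Toric.CrossChart

/-!
# Roots at a crossing for split functions

If `A` reduces on both components to `n`-th powers of `D` and `g` is semilinear for a Frobenius,
fixes the point and exchanges the components, then `g A · A ^ q` has an `n`-th root congruent to
`g D · D ^ q`.
-/

set_option autoImplicit false

open UpperHalfPlane CongruenceSubgroup IsLocalRing
open scoped MatrixGroups

noncomputable section

namespace FermatAgent.BAD.Toric

open FermatAgent.ES (BSub BRing zetaC AuxLevel CPlace GoodRoot GoodPoint)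

section Node

variable {O : Type} [CommRing O] [IsLocalRing O] {c : O} (hc : c ∈ maximalIdeal O)

/-- A semilinear map sending a function which vanishes on a branch to one which does not, sends
the functions vanishing on the other branch to the opposite one. -/
theorem branch_swap {ϖ : O} (hϖ : maximalIdeal O = Ideal.span {ϖ})
    {G : Node O c →+* Node O c} {σ : O →+* O}
    (hG : ∀ r, G (nodeC c r) = nodeC c (σ r)) (hσ : residue O (σ ϖ) = 0) {i j : Fin 2}
    (hij : i ≠ j) {X : Node O c} (hX : branch hc j X = 0) (hGX : branch hc j (G X) ≠ 0)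
    {z : Node O c} (hz : branch hc i z = 0) : branch hc j (G z) = 0 := by
  obtain ⟨w, hw⟩ : nodeC c ϖ ∣ z * X := by
    have h : ∀ k, branch hc k (z * X) = 0 := fun k => by
      rw [map_mul]
      rcases (show k = i ∨ k = j by omega) with rfl | rfl
      · rw [hz, zero_mul]
      · rw [hX, mul_zero]
    exact dvd_of_branches hc hϖ (h 0) (h 1)
  have h := congrArg (fun x => branch hc j (G x)) hw
  simp only [map_mul, hG, branch_nodeC, hσ, map_zero, zero_mul] at h
  exact (mul_eq_zero.mp h).resolve_right hGX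

end Node

section RootsOfUnity

variable {O : Type} [CommRing O] [IsDomain O] [IsDiscreteValuationRing O] {ϖ c : O} {n : ℕ}
  [NeZero n]

/-- Two roots of the same element differ by a root of unity. -/
theorem exists_eq_root_mul (hϖ : Irreducible ϖ) (hc : c ∈ maximalIdeal O) {E : ℕ} [NeZero E]
    {a : Fin 2 → O} (ha : ∀ i, IsUnit (a i)) (h : (RingHom.id O) c = a 0 * a 1 * ϖ ^ E) {ζ : O}
    (hζ : IsPrimitiveRoot ζ n) {x y : Node O c} (hxy : x ^ n = y ^ n) :
    ∃ k : ℕ, x = nodeC c (ζ ^ k) * y := by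
  have := node_isDomain hϖ
  set T := nodeDiag h
  have hζ' : IsPrimitiveRoot (nodeC ϖ ζ) n :=
    hζ.map_of_injective (nodeC_injective (unif_mem hϖ) hϖ)
  have h0 : (Polynomial.X ^ n - Polynomial.C (T y ^ n)).eval (T x) = 0 := by
    simp [← map_pow, hxy]
  rw [X_pow_sub_C_eq_prod hζ' (NeZero.pos n) rfl, Polynomial.eval_prod,
    Finset.prod_eq_zero_iff] at h0
  obtain ⟨k, -, hk⟩ := h0
  refine ⟨k, nodeDiag_id_injective hc (unif_mem hϖ) hϖ h ha ?_⟩
  simpa [T, nodeDiag_nodeC, map_pow, sub_eq_zero] using hk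

end RootsOfUnity

variable {q M m : ℕ} [Fact q.Prime] [NeZero M] {O : Subring ℂ} (haux : AuxLevel M m)
  (hA : GoodRoot M O (zetaC M)) {P : CPlace q} (hO' : P.IsCDVR O)
  [IsDiscreteValuationRing O] {𝔪 : Ideal (LRing q M O)}
  (C : CrossChart (M := M) hO' 𝔪 (natCast_q_mem_maximal hO')) {ϖ : O} (hϖ : Irreducible ϖ)

include hϖ in
theorem branch_eq_of_dvd_sub {x y : LRing q M O} (h : constL ϖ ∣ x - y) (i : Fin 2) :
    branch (natCast_q_mem_maximal hO') i (C.F x) =
      branch (natCast_q_mem_maximal hO') i (C.F y) := by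
  obtain ⟨w, hw⟩ := h
  rw [← sub_eq_zero, ← map_sub, ← map_sub, hw, map_mul, C.map_constL, map_mul, branch_nodeC,
    residue_uniformiser hϖ.maximalIdeal_eq, map_zero, zero_mul]

/-- A function with unit coefficients is non-zero on both branches. -/
theorem branch_unit_ne {y : LRing q M O} (h0 : UnitInf P y) (h1 : UnitZero P y) :
    ∀ i, branch (natCast_q_mem_maximal hO') i (C.F y) ≠ 0 :=
  Fin.forall_fin_two.mpr ⟨C.inf_ne y h0, C.zero_ne y h1⟩

include haux hA hϖ in
/-- On a finer node a function with divisible multiplicities is a unit times an `n`-th power. -/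
theorem exists_fine_factor {E : ℕ} [NeZero E] {a : Fin 2 → O}
    (hua : ∀ i, IsUnit (a i)) (h : (RingHom.id O) (q : O) = a 0 * a 1 * ϖ ^ E) {n : ℕ}
    {y : LRing q M O} (hy : ∀ i, branch (natCast_q_mem_maximal hO') i (C.F y) ≠ 0)
    (hdiv : Divisible q M O n (y : ℍ → ℂ)) :
    ∃ (U : (Node O ϖ)ˣ) (H : Node O ϖ), nodeDiag h (C.F y) = U * H ^ n := by
  have := hO'.complete
  have hq := natCast_q_mem_maximal (O := O) hO'
  have hϖm := unif_mem hϖ
  set T := nodeDiag h
  exact exists_node_factor_of_witness hϖ O.subtype O.subtype_injective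
    (fun i => branch_nodeDiag_ne_zero hq hϖm h (fun _ => rfl) (hua i) (hy i)) fun ψ hψ h0 =>
      exists_witness_of_divisible haux hA hdiv (T.comp C.F) ψ (fun r => by
        show ψ (T (C.F (constL r))) = _
        rw [C.map_constL, nodeDiag_nodeC, hψ]; rfl) h0

include haux hA C hϖ in
/-- **The root at a crossing.** -/
theorem localRoot_cross {n : ℕ} [NeZero n] (hn : n.Coprime q) {ζ : O}
    (hζn : IsPrimitiveRoot ζ n) {σ : O →+* O}
    (hσ : ∀ r, residue O (σ r) = residue O r ^ q) {g : LRing q M O →+* LRing q M O}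
    (hgC : ∀ r, g (constL r) = constL (σ r)) (hg𝔪 : ∀ x ∈ 𝔪, g x ∈ 𝔪)
    (hgu0 : ∀ {f}, UnitInf P f → UnitZero P (g f)) (hgu1 : ∀ {f}, UnitZero P f → UnitInf P (g f))
    {X Y : LRing q M O} (hX : X ∈ pZero hO'.le) (hXu : UnitInf P X) (hY : Y ∈ pInf hO'.le)
    (hYu : UnitZero P Y) {A D : LRing q M O} (hA0 : UnitInf P A) (hA1 : UnitZero P A)
    (hD0 : UnitInf P D) (hD1 : UnitZero P D) (hAD : constL ϖ ∣ A - D ^ n)
    (hdiv : Divisible q M O n (A : ℍ → ℂ)) :
    LocalRoot 𝔪 (constL ϖ) (g A * A ^ q * ((g D * D ^ q) ^ n) ^ (n - 1))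
      ((g D * D ^ q) ^ n) n := by
  have := hO'.complete
  have hq := natCast_q_mem_maximal (O := O) hO'
  have hnO := isUnit_natCast_O (O := O) hO' hn
  have hq0 : q ≠ 0 := (Fact.out : q.Prime).ne_zero
  obtain ⟨G, hG⟩ := C.exists_ext g hg𝔪
  have hGC : ∀ r, G (nodeC (q : O) r) = nodeC (q : O) (σ r) := fun r => by
    rw [← C.map_constL, hG, hgC, C.map_constL]
  have hσϖ : residue O (σ ϖ) = 0 := by
    rw [hσ, residue_uniformiser hϖ.maximalIdeal_eq, zero_pow hq0]
  have hsw0 : ∀ {z}, branch hq 1 z = 0 → branch hq 0 (G z) = 0 := fun hz =>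
    branch_swap hq hϖ.maximalIdeal_eq hGC hσϖ (by decide) (C.inf_zero Y hY)
      (by rw [hG]; exact C.inf_ne _ (hgu1 hYu)) hz
  have hsw1 : ∀ {z}, branch hq 0 z = 0 → branch hq 1 (G z) = 0 := fun hz =>
    branch_swap hq hϖ.maximalIdeal_eq hGC hσϖ (by decide) (C.zero_zero X hX)
      (by rw [hG]; exact C.zero_ne _ (hgu0 hXu)) hz
  -- the fine node
  have hq' : (q : O) ≠ 0 := fun h => natCast_q_ne_zero (by rw [h]; rfl)
  obtain ⟨E, a1, hqE⟩ := IsDiscreteValuationRing.eq_unit_mul_pow_irreducible hq' hϖ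
  have : NeZero E := ⟨fun h0 => by
    subst h0
    rw [pow_zero, mul_one] at hqE
    exact (IsLocalRing.mem_maximalIdeal _).mp hq (hqE ▸ a1.isUnit)⟩
  have hca : (RingHom.id O) (q : O) = ![(1 : O), (a1 : O)] 0 * ![(1 : O), (a1 : O)] 1 * ϖ ^ E := by
    simpa using hqE
  have hua : ∀ i, IsUnit (![(1 : O), (a1 : O)] i) := fun i => by fin_cases i <;> simp
  have hFA := branch_unit_ne hO' C hA0 hA1
  have hAD' : ∀ i, branch hq i (C.F A) = branch hq i (C.F D) ^ n := fun i => by
    rw [branch_eq_of_dvd_sub hO' C hϖ hAD i, map_pow, map_pow]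
  obtain ⟨U, H, hUH⟩ := exists_fine_factor haux hA hO' C hϖ hua hca hFA hdiv
  obtain ⟨H0, hH0, hH0b⟩ := exists_branch_root hϖ hq hua hca hnO hUH hAD' hFA 0
  obtain ⟨H1, hH1, hH1b⟩ := exists_branch_root hϖ hq hua hca hnO hUH hAD' hFA 1
  obtain ⟨k, hk⟩ := exists_eq_root_mul hϖ hq hua hca hζn (hH1.trans hH0.symm)
  set L := G H1 * H0 ^ q
  have hLn : L ^ n = C.F (g A * A ^ q) := by
    rw [mul_pow, ← map_pow G, hH1, hG, ← pow_mul, mul_comm q, pow_mul, hH0, map_mul, map_pow]
  have hb0 : branch hq 0 L = branch hq 0 (C.F (g D * D ^ q)) := by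
    have h1 := hsw0 (show branch hq 1 (H1 - C.F D) = 0 by rw [map_sub, hH1b, sub_self])
    rw [map_sub, map_sub, sub_eq_zero, hG] at h1
    simp only [L, map_mul, map_pow, h1, hH0b]
  have hb1 : branch hq 1 L = branch hq 1 (C.F (g D * D ^ q)) := by
    have h1 := hsw1 (show branch hq 0 (H0 - C.F D) = 0 by rw [map_sub, hH0b, sub_self])
    rw [map_sub, map_sub, sub_eq_zero, hG] at h1
    have h2 : PowerSeries.C (residue O (ζ ^ k)) * branch hq 1 H0 = branch hq 1 (C.F D) := by
      rw [← hH1b, hk, map_mul, branch_nodeC]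
    simp only [L, map_mul, map_pow, hk, hGC, branch_nodeC, hσ, h1, ← h2, mul_pow]
    ring
  have hbD : ∀ i, branch hq i (C.F ((g D * D ^ q) ^ n)) ≠ 0 := fun i => by
    rw [map_pow, map_pow]
    refine pow_ne_zero n ?_
    rw [map_mul, map_mul, map_pow, map_pow]
    refine mul_ne_zero ?_ (pow_ne_zero q (branch_unit_ne hO' C hD0 hD1 i))
    revert i
    rw [Fin.forall_fin_two]
    exact ⟨C.inf_ne _ (hgu1 hD1), C.zero_ne _ (hgu0 hD0)⟩
  set K := g D * D ^ q
  refine C.localRoot hϖ (L * C.F (K ^ (n - 1))) ?_ ?_ hbD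
  · rw [mul_pow, hLn, map_mul C.F (g A * A ^ q), ← map_pow C.F, ← pow_mul, ← pow_mul,
      mul_comm n (n - 1)]
  · refine dvd_of_branches hq hϖ.maximalIdeal_eq ?_ ?_ <;>
      simp only [map_sub, map_mul, hb0, hb1] <;>
      rw [← map_mul, ← map_mul, ← pow_succ', Nat.sub_add_cancel (NeZero.pos n), sub_self]

end FermatAgent.BAD.Toric
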