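import Fermat.Agent.BAD.Ihara.Eigen
import Mathlib.GroupTheory.PGroup

/-!
# The Galois end of Mazur's principle

On the eigencharacters of a residual representation unramified at `q`, its kernel acts unipotently,
so fixes a nonzero one. If Frobenius at `q` is `-q W` on fixed eigencharacters, it commutes with
Galois there, hence is residually a scalar `c` with `c² = q`; its square on the eigencharacters is
`q²`, so the characteristic equation gives `q ≡ 1 (mod p)`.
-/

set_option autoImplicit false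

open CongruenceSubgroup
open scoped MatrixGroups Matrix
open ModularCurve.Period
open FermatAgent.ES (GQ parGroup galChar goodLevel_Gamma0 heckeChar)
open FermatAgent.BAD.Ihara (chr galW eigenW galW_trace galW_mem_eigenW ext_chr)

noncomputable section

namespace FermatAgent.BAD.Toric

variable {N p : ℕ} [NeZero N] [hp : Fact p.Prime]

omit [NeZero N] in
theorem chr_zero_hom (f : ZMod p →ₗ[ZMod p] ZMod p) :
    chr f (0 : parabolicHoms (ZMod p) (Gamma0 N) (ZMod p)) = 1 :=
  Subtype.ext (MonoidHom.ext fun γ => by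
    rw [Ihara.chr_apply]
    show ES.zU p (Multiplicative.ofAdd (f 0)) = 1
    rw [map_zero]
    exact map_one _)

omit [NeZero N] in
theorem chr_natCast_smul (f : ZMod p →ₗ[ZMod p] ZMod p) (m : ℕ)
    (y : parabolicHoms (ZMod p) (Gamma0 N) (ZMod p)) :
    chr f ((m : ZMod p) • y) = chr f y ^ m := by
  induction m with
  | zero => rw [Nat.cast_zero, zero_smul, pow_zero, chr_zero_hom]
  | succ m ih => rw [Nat.cast_succ, add_smul, one_smul, Ihara.chr_add, ih, pow_succ]

theorem step_unipotent {R V : Type*} [CommRing R] [AddCommGroup V] [Module R V] {x x2 z : V}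
    (h : x2 - (2 : R) • x + z = 0) (n : R) :
    x + n • (x2 - x) = z + (n + 1) • (x - z) := by
  have h' : x2 = (2 : R) • x - z := by rw [← sub_eq_zero, ← h]; abel
  rw [h']
  module

theorem fix_commutator {R G V : Type*} [CommSemiring R] [Group G] [AddCommMonoid V] [Module R V]
    (ρ : Representation R G V) {g : G} {y : V}
    (hc : ∀ h h' : G, ρ g (ρ h (ρ h' y)) = ρ h (ρ g (ρ h' y))) (h : G) :
    ρ (g * h * g⁻¹ * h⁻¹) y = y := by
  have e := hc h (g⁻¹ * h⁻¹)
  simp only [← Module.End.mul_apply, ← map_mul] at e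
  rw [show g * h * g⁻¹ * h⁻¹ = g * (h * (g⁻¹ * h⁻¹)) by group]
  rw [e, show h * (g * (g⁻¹ * h⁻¹)) = 1 by group, map_one, Module.End.one_apply]

omit hp in
theorem isPGroup_range {G G' : Type*} [Group G] [Group G'] (r : G →* G')
    (h : ∀ u, r (u ^ p) = 1) : IsPGroup p r.range := by
  rintro ⟨_, u, rfl⟩
  exact ⟨1, Subtype.ext (by rw [pow_one, SubmonoidClass.coe_pow, Subgroup.coe_one, ← map_pow, h])⟩

variable (S : Finset ℕ) (σ : GQ →* Matrix.GeneralLinearGroup (Fin 2) (ZMod p)) (a : ℕ → ZMod p)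
  (hσ : Ihara.IsEigenData N p S σ a)
include hσ

/-- The characteristic equation on eigencharacters. -/
theorem galW_charpoly {z : parabolicHoms (ZMod p) (Gamma0 N) (ZMod p)} (hz : z ∈ eigenW N S a)
    (u : GQ) :
    galW N p (ZMod p) u (galW N p (ZMod p) u z) -
        Matrix.trace (σ u : Matrix (Fin 2) (Fin 2) (ZMod p)) • galW N p (ZMod p) u z +
      Matrix.det (σ u : Matrix (Fin 2) (Fin 2) (ZMod p)) • z = 0 := by
  have h2 := congrArg (galW N p (ZMod p) u) (galW_trace S σ a hσ hz u)
  rw [map_add, _root_.map_smul, _root_.map_smul,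
    ← Module.End.mul_apply (galW N p (ZMod p) u) (galW N p (ZMod p) u⁻¹),
    ← map_mul, mul_inv_cancel, map_one, Module.End.one_apply] at h2
  rw [← h2]
  abel

/-- **The kernel of the residual representation fixes a nonzero eigencharacter.** -/
theorem exists_fixed_eigen (hne : ∃ y ∈ eigenW N S a, y ≠ 0) :
    ∃ y ∈ eigenW N S a, y ≠ 0 ∧ ∀ u : GQ, σ u = 1 → galW N p (ZMod p) u y = y := by
  classical
  set E := eigenW (N := N) (k := ZMod p) S a
  have := ES.finite_parGroup (goodLevel_Gamma0 N) p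
  have : Finite (parabolicHoms (ZMod p) (Gamma0 N) (ZMod p)) :=
    Finite.of_injective (fun y => chr (LinearMap.id : ZMod p →ₗ[ZMod p] ZMod p) y) fun y y' h =>
      ext_chr (p := p) fun f => by
        have key : ∀ z : parabolicHoms (ZMod p) (Gamma0 N) (ZMod p),
            chr f z = chr (LinearMap.id : ZMod p →ₗ[ZMod p] ZMod p) z ^ (f 1).val := fun z => by
          rw [← Ihara.chr_smul_fun]
          congr 1
          exact LinearMap.ext_ring (by simp)
        rw [key, key]
        exact congrArg (· ^ (f 1).val) h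
  set K : Subgroup GQ := σ.ker
  have hm : ∀ (u v : GQ) (z : parabolicHoms (ZMod p) (Gamma0 N) (ZMod p)),
      galW N p (ZMod p) (u * v) z = galW N p (ZMod p) u (galW N p (ZMod p) v z) := fun u v z => by
    rw [map_mul, Module.End.mul_apply]
  have h1 : ∀ z : parabolicHoms (ZMod p) (Gamma0 N) (ZMod p),
      galW N p (ZMod p) 1 z = z := fun z => by
    rw [map_one, Module.End.one_apply]
  let r : K →* Equiv.Perm E :=
    { toFun := fun u =>
        { toFun := fun z => ⟨galW N p (ZMod p) u.1 z.1, galW_mem_eigenW S a z.2 u.1⟩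
          invFun := fun z => ⟨galW N p (ZMod p) u.1⁻¹ z.1, galW_mem_eigenW S a z.2 u.1⁻¹⟩
          left_inv := fun z => Subtype.ext (by
            show galW N p (ZMod p) u.1⁻¹ (galW N p (ZMod p) u.1 z.1) = z.1
            rw [← hm, inv_mul_cancel, h1])
          right_inv := fun z => Subtype.ext (by
            show galW N p (ZMod p) u.1 (galW N p (ZMod p) u.1⁻¹ z.1) = z.1
            rw [← hm, mul_inv_cancel, h1]) }
      map_one' := Equiv.ext fun z => Subtype.ext (h1 z.1)
      map_mul' := fun u v => Equiv.ext fun z => Subtype.ext (hm u.1 v.1 z.1) }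
  have huni : ∀ (u : K) (z : parabolicHoms (ZMod p) (Gamma0 N) (ZMod p)), z ∈ E → ∀ n : ℕ,
      galW N p (ZMod p) (u.1 ^ n) z = z + (n : ZMod p) • (galW N p (ZMod p) u.1 z - z) := by
    intro u z hz n
    induction n with
    | zero => rw [pow_zero, h1, Nat.cast_zero, zero_smul, add_zero]
    | succ n ih =>
      have h := galW_charpoly S σ a hσ hz u.1
      rw [MonoidHom.mem_ker.mp u.2, Units.val_one, Matrix.trace_one, Matrix.det_one,
        Fintype.card_fin, one_smul, Nat.cast_ofNat] at h
      rw [pow_succ', hm, ih, map_add, _root_.map_smul, map_sub, Nat.cast_succ]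
      exact step_unipotent h _
  have hP : IsPGroup p r.range := by
    refine isPGroup_range r fun u => Equiv.ext fun z => Subtype.ext ?_
    show galW N p (ZMod p) (u ^ p : K).1 z.1 = z.1
    rw [SubmonoidClass.coe_pow, huni u z.1 z.2, ZMod.natCast_self, zero_smul, add_zero]
  obtain ⟨y₀, hy₀, hy₀0⟩ := hne
  have : Nontrivial E := ⟨⟨⟨y₀, hy₀⟩, 0, fun e => hy₀0 (congrArg Subtype.val e)⟩⟩
  have hdvd : p ∣ Nat.card E := by
    rw [Module.natCard_eq_pow_finrank (K := ZMod p), Nat.card_zmod]
    exact dvd_pow_self p Module.finrank_pos.ne'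
  obtain ⟨b, hb, hb0⟩ := hP.exists_fixed_point_of_prime_dvd_card_of_fixed_point E hdvd (a := 0)
    (fun x => by
      obtain ⟨_, u, rfl⟩ := x
      exact Subtype.ext (map_zero (galW N p (ZMod p) u.1)))
  refine ⟨b.1, b.2, fun h => hb0 (Subtype.ext h).symm, fun u hu => ?_⟩
  exact congrArg Subtype.val (hb ⟨_, ⟨u, MonoidHom.mem_ker.mpr hu⟩, rfl⟩)

/-- **The Galois end of Mazur's principle.** Let `σ` be absolutely irreducible, unramified at `q`,
with non-zero eigencharacters of level `N`. If on the eigencharacters fixed by inertia at `q`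
Frobenius is the inverse `q`-th power of an involution `w` commuting with Galois, then
`q ≡ 1 (mod p)`. -/
theorem cast_eq_one_of_relation (hp2 : p ≠ 2)
    (hspan : Submodule.span (ZMod p)
      (Set.range fun x => (σ x : Matrix (Fin 2) (Fin 2) (ZMod p))) = ⊤)
    (hne : ∃ y ∈ eigenW N S a, y ≠ 0) {q : ℕ} (hq : (q : ZMod p) ≠ 0)
    {A : ValuationSubring (AlgebraicClosure ℚ)}
    (hI : ∀ s ∈ A.inertiaSubgroupIn ℚ, σ s = 1) {g : GQ}
    (hdet : Matrix.det (σ g : Matrix (Fin 2) (Fin 2) (ZMod p)) = q)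
    (w : MulAut (parGroup (Gamma0 N) p)) (hww : ∀ φ, w (w φ) = φ)
    (hw : ∀ (h : GQ) φ, galChar (goodLevel_Gamma0 N) p h (w φ) =
      w (galChar (goodLevel_Gamma0 N) p h φ))
    (hrel : ∀ φ : parGroup (Gamma0 N) p,
      (∀ s ∈ A.inertiaSubgroupIn ℚ, galChar (goodLevel_Gamma0 N) p s φ = φ) →
      (∀ (ℓ : ℕ) (hℓ : ℓ.Prime), ℓ ∉ S → heckeChar N hℓ φ.1 = φ.1 ^ (a ℓ).val) →
      galChar (goodLevel_Gamma0 N) p g φ * w φ ^ q = 1) :
    (q : ZMod p) = 1 := by
  classical
  obtain ⟨y, hy, hy0, hfix⟩ := exists_fixed_eigen S σ a hσ hne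
  set G := galChar (goodLevel_Gamma0 N) p
  -- the relation at every conjugate of the fixed vector
  have hR : ∀ (f : ZMod p →ₗ[ZMod p] ZMod p) (h : GQ),
      G g (chr f (galW N p (ZMod p) h y)) =
        (w (chr f (galW N p (ZMod p) h y)) ^ q)⁻¹ := fun f h => by
    refine eq_inv_of_mul_eq_one_left (hrel _ (fun s hs => ?_) fun ℓ hℓ hℓS => ?_)
    · rw [← Ihara.chr_galW]
      congr 1
      rw [← Module.End.mul_apply, ← map_mul, show s * h = h * (h⁻¹ * s * h) by group, map_mul,
        Module.End.mul_apply, hfix _ (by rw [map_mul, map_mul, hI s hs, mul_one, ← map_mul,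
          inv_mul_cancel, map_one])]
    · rw [← Ihara.chr_heckeW, galW_mem_eigenW S a hy h ℓ hℓ hℓS]
      conv_lhs => rw [← ZMod.natCast_zmod_val (a ℓ), chr_natCast_smul]
      rfl
  -- it commutes with the whole group
  have hm : ∀ (u v : GQ) (z : parabolicHoms (ZMod p) (Gamma0 N) (ZMod p)),
      galW N p (ZMod p) (u * v) z = galW N p (ZMod p) u (galW N p (ZMod p) v z) := fun u v z => by
    rw [map_mul, Module.End.mul_apply]
  have hcomm : ∀ h h' : GQ, galW N p (ZMod p) g (galW N p (ZMod p) h (galW N p (ZMod p) h' y)) =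
      galW N p (ZMod p) h (galW N p (ZMod p) g (galW N p (ZMod p) h' y)) := fun h h' =>
    ext_chr (p := p) fun f => by
      rw [← hm h h' y, Ihara.chr_galW f g, Ihara.chr_galW f h, Ihara.chr_galW f g, hR f (h * h'),
        hR f h', hm h h' y, Ihara.chr_galW f h]
      show _ = G h (w _ ^ q)⁻¹
      rw [map_inv, map_pow, hw]
  obtain ⟨c, hc⟩ := Ihara.scalar_of_fixed (galW N p (ZMod p)) σ hspan hy0
    (galW_charpoly S σ a hσ hy) fun h => fix_commutator (galW N p (ZMod p)) hcomm h
  -- the arithmetic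
  have hd : c * c = (q : ZMod p) := by
    rw [← hdet, hc, Matrix.det_smul, Matrix.det_one, mul_one, Fintype.card_fin, sq]
  have hc0 : c ≠ 0 := fun h => hq (by rw [← hd, h, mul_zero])
  have hgg : galW N p (ZMod p) g (galW N p (ZMod p) g y) = ((q * q : ℕ) : ZMod p) • y :=
    ext_chr (p := p) fun f => by
      have h1 : G g (chr f y) = (w (chr f y) ^ q)⁻¹ := by simpa using hR f 1
      refine ((Ihara.chr_galW f g (galW N p (ZMod p) g y)).trans
        (congrArg (G g) ((Ihara.chr_galW f g y).trans h1))).trans ?_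
      refine Eq.trans ?_ (chr_natCast_smul f (q * q) y).symm
      rw [map_inv (G g), map_pow (G g)]
      refine (congrArg (fun x => (x ^ q)⁻¹) ((hw g (chr f y)).trans (congrArg w h1))).trans ?_
      rw [map_inv w, map_pow w, hww, inv_pow, inv_inv, ← pow_mul]
  have hCH := galW_charpoly S σ a hσ hy g
  rw [hdet, hc, Matrix.trace_smul, Matrix.trace_one, Fintype.card_fin, hgg, ← hd, smul_eq_mul,
    Nat.cast_ofNat, Nat.cast_mul, ← hd] at hCH
  set z := galW N p (ZMod p) g y
  have h2 : (2 : ZMod p) ≠ 0 := by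
    rw [show (2 : ZMod p) = ((2 : ℕ) : ZMod p) by norm_num, Ne, ZMod.natCast_eq_zero_iff,
      Nat.prime_dvd_prime_iff_eq hp.out Nat.prime_two]
    exact hp2
  have hz : z = ((c * c * (c * c) + c * c) / (c * 2)) • y := by
    rw [div_eq_inv_mul, mul_smul, eq_inv_smul_iff₀ (mul_ne_zero hc0 h2)]
    linear_combination (norm := module) -hCH
  set e := (c * c * (c * c) + c * c) / (c * 2) with he
  have hzz : (e * e) • y = ((c * c) * (c * c)) • y := by
    have h3 := hgg
    rw [Nat.cast_mul, ← hd] at h3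
    rw [← h3, hz, _root_.map_smul]
    show _ = e • z
    rw [hz, smul_smul]
  have he2 := smul_left_injective (ZMod p) hy0 hzz
  rw [he, div_mul_div_comm, div_eq_iff (mul_ne_zero (mul_ne_zero hc0 h2) (mul_ne_zero hc0 h2))]
    at he2
  have hsq : (c * c - 1) ^ 2 = 0 := by
    have h4 : (c * c) ^ 2 * (c * c - 1) ^ 2 = 0 := by linear_combination he2
    exact (mul_eq_zero.mp h4).resolve_left (pow_ne_zero _ (mul_ne_zero hc0 hc0))
  rw [← hd]
  exact sub_eq_zero.mp (eq_zero_of_pow_eq_zero hsq)

end FermatAgent.BAD.Toric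

end
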