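import Fermat.Agent.BAD.Toric.CrossChart

/-!
# The power series ring at a point of the component at `∞` alone
-/

set_option autoImplicit false

open UpperHalfPlane CongruenceSubgroup IsLocalRing
open scoped MatrixGroups

noncomputable section

namespace FermatAgent.BAD.Toric

open FermatAgent.ES (BSub BRing zetaC AuxLevel CPlace GoodRoot GoodPoint)

variable {q M m : ℕ} [Fact q.Prime] [NeZero M] {O : Subring ℂ} (haux : AuxLevel M m)
  (hA : GoodRoot M O (zetaC M)) {P : CPlace q} (hO' : P.IsCDVR O)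
  (hM : M.Coprime q) (hζ : zetaC (q * M) ∈ O) (hqm : q ≠ m)

include haux hA hM hζ hqm in
/-- **The chart at a point of the component at `∞` alone**, with the parameter as variable. -/
theorem exists_smooth_hom [IsDiscreteValuationRing O] [IsNoetherianRing (LRing q M O)]
    {𝔪 : Ideal (LRing q M O)} [h𝔪 : 𝔪.IsMaximal] (hinf : pInf hO'.le ≤ 𝔪)
    (hzero : ¬ pZero hO'.le ≤ 𝔪) {τ0 : ℍ} (hg : GoodPoint haux O τ0)
    (ht : raiseL M (tPar haux hA hg) ∈ 𝔪) :
    ∃ F : LRing q M O →+* PowerSeries O,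
      (∀ r, F (constL r) = PowerSeries.C r) ∧
      F (raiseL M (tPar haux hA hg)) = PowerSeries.X ∧
      (∀ f ∈ pInf hO'.le, psRes (F f) = 0) ∧
      (∀ f, UnitInf P f → psRes (F f) ≠ 0) ∧
      ∀ f, f ∈ 𝔪 ↔ ¬ IsUnit (F f) := by
  have := hO'.complete
  obtain ⟨ϖ, hϖ⟩ := IsDiscreteValuationRing.exists_irreducible O
  have hϖm : constL ϖ ∈ 𝔪 := hinf (constL_unif_mem hO'.le hO' hϖ _)
  obtain ⟨e, heC, heX, he0, hu0⟩ :=
    (exists_smooth_iso haux hA hO'.le hO' hϖ hM hζ hqm hϖm).1 hinf hzero hg ht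
  set f := algebraMap (LRing q M O) (AdicCompletion 𝔪 (LRing q M O))
  set F : LRing q M O →+* PowerSeries O := e.symm.toRingHom.comp f
  have heF : ∀ b, e (F b) = f b := fun b => e.apply_symm_apply (f b)
  exact ⟨F, fun r => e.injective ((heF _).trans (heC r).symm),
    e.injective ((heF _).trans heX.symm), fun b hb => he0 _ b (heF b) hb,
    fun b hb => hu0 _ b (heF b) hb, fun b => by
      rw [TwoP.isUnit_iff_notMem_of_surjective_completion h𝔪 e.toRingHom e.surjective (heF b),
        not_not]⟩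

end FermatAgent.BAD.Toric
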