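import Fermat.Agent.BAD.CuspRoot
import Fermat.Agent.BAD.Toric.CrossOrder
import Fermat.Agent.BAD.Toric.SmoothPoint
import Fermat.Agent.BAD.TValue
import Fermat.Agent.BAD.TwoP.InfSer
import Fermat.Agent.BAD.TwoP.Rat
import Fermat.Agent.BAD.DivisibleWitness

/-!
# Orders at points of level `M` of functions congruent to an element fixed by inertia

An element `y` with unit coefficients on both components and divisible zeros, fixed by inertia: a
function of level `M` congruent to it on the component at `∞` has order divisible by `n` at every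
point.
-/

set_option autoImplicit false

open UpperHalfPlane CongruenceSubgroup IsLocalRing
open scoped MatrixGroups

noncomputable section

namespace FermatAgent.BAD.Toric

open FermatAgent.ES (BSub BRing zetaC AuxLevel CPlace GoodRoot GoodPoint discHom)

variable {q M m : ℕ} [hq : Fact q.Prime] [NeZero M] {O : Subring ℂ} (haux : AuxLevel M m)
  (hA : GoodRoot M O (zetaC M)) {P : CPlace q} (hO' : P.IsCDVR O) (hM : M.Coprime q)

section Local

variable [IsDiscreteValuationRing O] {τ0 : ℍ} (hg : GoodPoint haux O τ0)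

/-- The residual value at a point. -/
def valRes : BRing M O →+* ResidueField O :=
  (residue O).comp (PowerSeries.constantCoeff.comp (discHom haux τ0 hA hg))

/-- The residual value is the constant term of the residual series. -/
theorem constantCoeff_psRes_disc (z : BRing M O) :
    PowerSeries.constantCoeff (psRes (discHom haux τ0 hA hg z)) = valRes haux hA hg z := by
  rw [← PowerSeries.coeff_zero_eq_constantCoeff_apply, PowerSeries.coeff_map,
    PowerSeries.coeff_zero_eq_constantCoeff_apply]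
  rfl

theorem valRes_const (c : O) :
    valRes haux hA hg ⟨_, ES.const_mem_BRing c.2⟩ = residue O c := by
  rw [valRes, RingHom.comp_apply, RingHom.comp_apply, ES.discHom_const haux τ0 hA hg c.2,
    PowerSeries.constantCoeff_C]

include hM hO' in
/-- Functions of level `M` small on the component reduce to zero at every point. -/
theorem psRes_disc_eq_zero {d : BRing M O} (hd : raiseL M d ∈ pInf hO'.le (q := q)) :
    psRes (discHom haux τ0 hA hg d) = 0 := by
  obtain ⟨ϖ, hϖ⟩ := IsDiscreteValuationRing.exists_irreducible O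
  have hsmall : ∀ γ, P.SerLT (ES.lexp M γ (d : ℍ → ℂ)) := by
    intro γ
    obtain ⟨γ', hγ', hmod⟩ := TwoP.exists_gamma0_modMat (q := q) hM γ
    intro n
    have h1 := hd γ' hγ' (q * n)
    rw [serAt_raiseL, expandL_coeff_mul, TwoP.lexp_of_modMat d.2.1 hmod] at h1
    exact h1
  have hϖ0 : (ϖ : ℂ) ≠ 0 := fun h0 => hϖ.ne_zero (Subtype.ext h0)
  set d' : ℍ → ℂ := (fun _ => (ϖ : ℂ)⁻¹) * (d : ℍ → ℂ)
  have hd' : d' ∈ BRing M O := by
    refine ⟨mul_mem ((BSub M).algebraMap_mem _) d.2.1, fun γ n => ?_⟩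
    rw [ES.lexp_eq ((ES.HasLExp.const _).mul (ES.hasLExp_lexp d.2.1 γ)), HahnSeries.C_apply,
      HahnSeries.coeff_single_zero_mul]
    obtain ⟨u, hu, hzu⟩ := exists_eq_unif_mul hO' hϖ (d.2.2 γ n) (hsmall γ n)
    rw [hzu, inv_mul_cancel_left₀ hϖ0]
    exact hu
  have e : d = ⟨_, ES.const_mem_BRing ϖ.2⟩ * ⟨d', hd'⟩ := Subtype.ext (funext fun τ => by
    show (d : ℍ → ℂ) τ = (ϖ : ℂ) * ((ϖ : ℂ)⁻¹ * (d : ℍ → ℂ) τ)
    rw [mul_inv_cancel_left₀ hϖ0])
  rw [e, map_mul, map_mul, ES.discHom_const haux τ0 hA hg ϖ.2, PowerSeries.map_C,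
    (residue_eq_zero_iff _).mpr (unif_mem hϖ), map_zero, zero_mul]

include hM hO' in
/-- **A maximal ideal over a point of level `M` on the component at `∞`.** -/
theorem exists_maximal_at :
    ∃ 𝔪 : Ideal (LRing q M O), 𝔪.IsMaximal ∧ pInf hO'.le ≤ 𝔪 ∧
      ∀ z : BRing M O, raiseL M z ∈ 𝔪 ↔ valRes haux hA hg z = 0 := by
  set K := RingHom.ker (valRes haux hA hg)
  set I : Ideal (LRing q M O) := K.map (raiseL M)
  have key : ∀ w ∈ I, ∃ k ∈ K, w - raiseL M k ∈ pInf hO'.le := by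
    intro w hw
    refine Submodule.span_induction (p := fun w _ => ∃ k ∈ K, w - raiseL M k ∈ pInf hO'.le)
      ?_ ?_ ?_ ?_ hw
    · rintro _ ⟨k, hk, rfl⟩
      exact ⟨k, hk, by rw [sub_self]; exact zero_mem _⟩
    · exact ⟨0, zero_mem _, by rw [map_zero, sub_zero]; exact zero_mem _⟩
    · rintro a b - - ⟨k, hk, hak⟩ ⟨l, hl, hbl⟩
      exact ⟨k + l, add_mem hk hl, by rw [map_add, add_sub_add_comm]; exact add_mem hak hbl⟩
    · rintro x a - ⟨k, hk, hak⟩
      refine ⟨trB x * k, K.mul_mem_left _ hk, ?_⟩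
      have e : x • a - raiseL M (trB x * k) =
          x * (a - raiseL M k) + (x - raiseL M (trB x)) * raiseL M k := by
        rw [smul_eq_mul, map_mul]; ring
      rw [e]
      exact add_mem (Ideal.mul_mem_left _ _ hak)
        (Ideal.mul_mem_right _ _ (TwoP.sub_trB_mem_pInf hM hO'.le x))
  have hne : pInf hO'.le ⊔ I ≠ ⊤ := by
    intro h
    obtain ⟨i, hi, w, hw, hiw⟩ := Submodule.mem_sup.mp ((Ideal.eq_top_iff_one _).mp h)
    obtain ⟨k, hk, hwk⟩ := key w hw
    have hd : raiseL M (1 - k) ∈ pInf hO'.le (q := q) := by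
      rw [map_sub, map_one, show (1 : LRing q M O) - raiseL M k = i + (w - raiseL M k) by
        rw [← hiw]; ring]
      exact add_mem hi hwk
    have h0 := constantCoeff_psRes_disc haux hA hg (1 - k)
    rw [psRes_disc_eq_zero haux hA hO' hM hg hd, map_zero, map_sub, map_one,
      RingHom.mem_ker.mp hk, sub_zero] at h0
    exact zero_ne_one h0
  obtain ⟨𝔪, h𝔪, hle⟩ := Ideal.exists_le_maximal _ hne
  refine ⟨𝔪, h𝔪, le_sup_left.trans hle, fun z => ⟨fun hz => ?_, fun hz =>
    hle (Ideal.mem_sup_right (Ideal.mem_map_of_mem _ (RingHom.mem_ker.mpr hz)))⟩⟩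
  by_contra hne0
  obtain ⟨c, hc⟩ := residue_surjective (valRes haux hA hg z)
  have hk : z - ⟨_, ES.const_mem_BRing c.2⟩ ∈ K := RingHom.mem_ker.mpr (by
    rw [map_sub, valRes_const, hc, sub_self])
  have h1 := sub_mem hz (hle (Ideal.mem_sup_right (Ideal.mem_map_of_mem (raiseL M) hk)))
  rw [map_sub, sub_sub_cancel] at h1
  have hcu : IsUnit c := by
    rw [← IsLocalRing.notMem_maximalIdeal, ← residue_eq_zero_iff, hc]
    exact hne0
  exact h𝔪.ne_top (Ideal.eq_top_of_isUnit_mem _ h1 (hcu.map (constL : O →+* LRing q M O)))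

include hM hO' in
/-- A relation modulo the component gives the order of the residual series at the point. -/
theorem order_psRes_disc_eq {G e u : BRing M O} {i : ℕ} (he : valRes haux hA hg e ≠ 0)
    (hu : valRes haux hA hg u ≠ 0)
    (hrel : raiseL M (e * G) - raiseL M (tPar haux hA hg ^ i * u) ∈ pInf hO'.le (q := q)) :
    (psRes (discHom haux τ0 hA hg G)).order = i := by
  have hd := psRes_disc_eq_zero haux hA hO' hM hg (d := e * G - tPar haux hA hg ^ i * u)
    (by rw [map_sub]; exact hrel)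
  simp only [map_sub, map_mul, map_pow, discHom_tPar, PowerSeries.map_X, sub_eq_zero] at hd
  have hunit : ∀ {z}, valRes haux hA hg z ≠ 0 → (psRes (discHom haux τ0 hA hg z)).order = 0 := by
    intro z hz
    refine PowerSeries.order_zero_of_unit (PowerSeries.isUnit_iff_constantCoeff.mpr ?_)
    rw [constantCoeff_psRes_disc]
    exact isUnit_iff_ne_zero.mpr hz
  have h1 := congrArg PowerSeries.order hd
  rwa [PowerSeries.order_mul, PowerSeries.order_mul, PowerSeries.order_X_pow, hunit he, hunit hu,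
    zero_add, add_zero] at h1

omit [IsDiscreteValuationRing ↥O] in
/-- A unit coefficient at level `q M` gives one at level `M`. -/
theorem unitCoeff_of_raiseL {z : BRing M O} {γ : SL(2, ℤ)}
    (h : P.UnitCoeff (serAt M O q γ (raiseL M z))) :
    P.UnitCoeff (ES.lexp M γ (z : ℍ → ℂ)) := by
  obtain ⟨i, hi⟩ := h
  rw [serAt_raiseL] at hi
  by_cases hd : (q : ℤ) ∣ i
  · obtain ⟨k, rfl⟩ := hd
    rw [expandL_coeff_mul] at hi
    exact ⟨k, hi⟩
  · rw [expandL_coeff_of_not_dvd q _ hd, map_zero] at hi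
    exact absurd hi zero_ne_one

end Local

include haux hM in
/-- **Orders at points are divisible by `n`.** -/
theorem dvd_disc_order_of_congr (hqm : q ≠ m) (Φ : ℂ ≃+* PadicAlgCl q) {S : Set ℂ} (hS : S.Finite)
    (hA : GoodRoot M (stableRing Φ S) (zetaC M)) (hζ : zetaC (q * M) ∈ stableRing Φ S) {n : ℕ}
    [NeZero n] (hn : n.Coprime q) {ρ : ℂ} (hρ : ρ ^ n = q) (hρS : ρ ∈ stableRing Φ S)
    {y : LRing q M (stableRing Φ S)} (hy0 : UnitInf (CPlace.ofEquiv Φ) y)
    (hy1 : UnitZero (CPlace.ofEquiv Φ) y)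
    (hdiv : Divisible q M (stableRing Φ S) n (y : ℍ → ℂ))
    (hfix : ∀ D : InertData M (CPlace.ofEquiv Φ) (stableRing Φ S), D.conjL haux y = y)
    (htv : ∀ 𝔪 : Ideal (LRing q M (stableRing Φ S)), 𝔪.IsMaximal → y ∈ 𝔪 →
      pZero (isCDVR_stableRing Φ hS).le ≤ 𝔪 → ∃ (τ1 : ℍ) (hg' : GoodPoint haux (stableRing Φ S) τ1),
        (atkinEquiv hM hζ).symm (raiseL M (tPar haux hA hg')) ∈ 𝔪)
    {G : BRing M (stableRing Φ S)} (hG : raiseL M G - y ∈ pInf (isCDVR_stableRing Φ hS).le)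
    {τ0 : ℍ} (hg : GoodPoint haux (stableRing Φ S) τ0) {i : ℕ}
    (hi : haveI := (isCDVR_stableRing Φ hS).dvr
      (psRes (discHom haux τ0 hA hg G)).order = i) : n ∣ i := by
  have hO' := isCDVR_stableRing Φ hS
  have := hO'.dvr
  have := hO'.complete
  have : IsNoetherianRing (LRing q M (stableRing Φ S)) := isNoetherianRing_LRing haux hA hζ
  obtain ⟨𝔪, h𝔪, hinf, hiff⟩ := exists_maximal_at haux hA hO' hM hg
  have := h𝔪
  have ht : raiseL M (tPar haux hA hg) ∈ 𝔪 := (hiff _).mpr (by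
    rw [← constantCoeff_psRes_disc, discHom_tPar, PowerSeries.map_X, PowerSeries.constantCoeff_X])
  have hne : ∀ {z}, raiseL M z ∉ 𝔪 → valRes haux hA hg z ≠ 0 := fun hz h0 => hz ((hiff _).mpr h0)
  have hGu : (CPlace.ofEquiv Φ).UnitCoeff (ES.lexp M 1 (G : ℍ → ℂ)) :=
    unitCoeff_of_raiseL (γ := 1) ((UnitAt.of_sub_mem hO'.le hy0
      (by rw [← neg_sub]; exact neg_mem hG)) 1 (one_mem _))
  obtain ⟨i', e, u, he, hu, hrel⟩ := exists_order haux hA hO'.le hO' hM hg ht hGu
  have hii : i = i' := by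
    have h1 := order_psRes_disc_eq haux hA hO' hM hg (hne he) (hne hu) hrel
    rw [hi] at h1
    exact_mod_cast h1
  by_cases hy𝔪 : y ∈ 𝔪
  swap
  · -- `y` does not vanish
    obtain rfl : i' = 0 := by
      by_contra h0
      have h1 := hinf hrel
      rw [map_mul, map_mul, map_pow] at h1
      have h2 := add_mem h1
        (Ideal.mul_mem_right (raiseL M u) _ (Ideal.pow_mem_of_mem _ ht _ (Nat.pos_of_ne_zero h0)))
      rw [sub_add_cancel] at h2
      have h3 := sub_mem ((h𝔪.isPrime.mem_or_mem h2).resolve_left he) (hinf hG)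
      rw [sub_sub_cancel] at h3
      exact hy𝔪 h3
    rw [hii]
    exact dvd_zero n
  by_cases hzero : pZero hO'.le ≤ 𝔪
  · -- a crossing point
    obtain ⟨τ1, hg', ht'⟩ := htv 𝔪 h𝔪 hy𝔪 hzero
    obtain ⟨j, e', u', he', hu', hrel'⟩ := exists_crossing_order haux hM hqm Φ hS hA hζ hn hρ hρS
      hy0 hy1 hdiv hfix hinf hzero hg ht hg' ht'
    have h1 := order_psRes_disc_eq haux hA hO' hM hg (i := n * j) (hne he') (hne hu') (G := G)
      (by
        have := add_mem hrel' (Ideal.mul_mem_left _ (raiseL M e') hG)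
        rw [map_mul]
        convert this using 1
        ring)
    rw [hi] at h1
    exact ⟨j, by exact_mod_cast h1⟩
  · -- a point of one component
    obtain ⟨F, hFC, hFt, hF0, hFu, hFm⟩ :=
      exists_smooth_hom haux hA hO' hM hζ hqm hinf hzero hg ht
    obtain ⟨U, H, hUH⟩ := exists_series_factor haux hA hdiv F hFC (hFu y hy0)
    have hH : psRes H ≠ 0 := fun h => hFu y hy0 (by
      rw [hUH, map_mul, map_pow, h, zero_pow (NeZero.ne n), mul_zero])
    obtain ⟨l, w', hw', hHl⟩ := exists_X_pow_mul hH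
    have hunit : ∀ {b}, b ∉ 𝔪 → IsUnit (psRes (F b)) := fun hb =>
      (not_not.mp fun h => hb ((hFm _).mpr h)).map _
    have h1 := hF0 _ (show raiseL M e * y - raiseL M (tPar haux hA hg ^ i' * u) ∈ pInf hO'.le by
      have := sub_mem hrel (Ideal.mul_mem_left _ (raiseL M e) hG)
      rw [map_mul] at this
      convert this using 1
      ring)
    simp only [map_sub, map_mul, map_pow, hUH, hFt, PowerSeries.map_X, hHl, mul_pow,
      sub_eq_zero] at h1
    rw [hii]
    refine ⟨l, (eq_of_X_pow_mul_unit (u := psRes (F (raiseL M e)) * (psRes ↑U * w' ^ n))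
      (v := psRes (F (raiseL M u))) (a := n * l) (b := i')
      ((hunit he).mul ((U.isUnit.map psRes).mul (hw'.pow n)))
      (hunit hu) ?_).symm⟩
    rw [mul_comm n l, pow_mul]
    linear_combination h1

include haux hM in
/-- **Orders at all points are divisible by `n`.** -/
theorem dvd_disc_order_ofEquiv (hqm : q ≠ m) (Φ : ℂ ≃+* PadicAlgCl q) {n : ℕ} [NeZero n]
    (hn : n.Coprime q) {y : LRing q M (CPlace.ofEquiv Φ).ring}
    (hy0 : UnitInf (CPlace.ofEquiv Φ) y) (hy1 : UnitZero (CPlace.ofEquiv Φ) y)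
    (hord : ∀ τ (j : ℕ), ES.vanishOrd (y : ℍ → ℂ) τ = j → n ∣ j)
    (hfix : ∀ (O : Subring ℂ) (D : InertData M (CPlace.ofEquiv Φ) O) (y' : LRing q M O),
      (y' : ℍ → ℂ) = y → D.conjL haux y' = y')
    {G : BRing M (CPlace.ofEquiv Φ).ring} (hG : raiseL M G - y ∈ pInf le_rfl)
    {τ0 : ℍ} (hg : GoodPoint haux (CPlace.ofEquiv Φ).ring τ0) {i : ℕ}
    (hi : ((discHom haux τ0 ((CPlace.ofEquiv Φ).goodRoot hM) hg G).map
      (CPlace.ofEquiv Φ).res).order = i) : n ∣ i := by
  classical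
  have hyne : (y : ℍ → ℂ) ≠ 0 := fun h => by
    obtain ⟨e, he⟩ := hy0 1 (one_mem _)
    rw [show y = 0 from Subtype.ext h, map_zero, HahnSeries.coeff_zero, map_zero] at he
    exact zero_ne_one he
  obtain ⟨S1, hS1, hS1O⟩ := exists_finset_mem_LRing haux hM y.2
  obtain ⟨S2, hS2, hS2O⟩ := exists_finset_divisible (P := CPlace.ofEquiv Φ) haux hM y.2.2 hyne hord
  obtain ⟨S3, hS3, hS3O⟩ := exists_finset_tValues haux hM hqm hy0 hy1
  obtain ⟨S4, hS4, hS4O⟩ := ES.exists_finset_mem_BRing haux ((CPlace.ofEquiv Φ).goodRoot hM) G.2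
  obtain ⟨ρ, hρ⟩ := IsAlgClosed.exists_pow_nat_eq (q : ℂ) (NeZero.pos n)
  have hρP : (CPlace.ofEquiv Φ).abv ρ ≤ 1 := by
    refine (pow_le_one_iff_of_nonneg ((CPlace.ofEquiv Φ).abv.nonneg ρ) (NeZero.ne n)).mp ?_
    rw [← map_pow, hρ]
    exact natCast_mem (CPlace.ofEquiv Φ).ring q
  set S : Set ℂ := insert (zetaC (q * M)) (insert ρ
    (↑S1 ∪ ↑S2 ∪ ↑S3 ∪ ↑S4 ∪ ES.fibVals haux τ0))
  have hS : S.Finite := (((((S1.finite_toSet.union S2.finite_toSet).union S3.finite_toSet).union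
    S4.finite_toSet).union (ES.finite_fibVals haux τ0)).insert _).insert _
  have hmem : ∀ x ∈ S, x ∈ stableRing Φ S := fun x hx => mem_stableRing Φ hx (by
    rcases hx with rfl | rfl | ((((h | h) | h) | h) | h)
    exacts [goodRoot_zeta (P := CPlace.ofEquiv Φ), hρP, hS1 h, hS2 h, hS3 h, hS4 h,
      ES.fibVals_subset haux hg h])
  have hζ : zetaC (q * M) ∈ stableRing Φ S := hmem _ (Set.mem_insert _ _)
  have hO' := isCDVR_stableRing Φ hS
  have hA : GoodRoot M (stableRing Φ S) (zetaC M) := hO'.goodRoot ((CPlace.ofEquiv Φ).goodRoot hM)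
    (by rw [← zetaC_level_pow (q := q)]; exact Subring.pow_mem _ hζ q)
  have h1 : (↑S1 : Set ℂ) ⊆ stableRing Φ S := fun x hx =>
    hmem x (Set.mem_insert_of_mem _ (Set.mem_insert_of_mem _ (.inl (.inl (.inl (.inl hx))))))
  have h2 : (↑S2 : Set ℂ) ⊆ stableRing Φ S := fun x hx =>
    hmem x (Set.mem_insert_of_mem _ (Set.mem_insert_of_mem _ (.inl (.inl (.inl (.inr hx))))))
  have h3 : (↑S3 : Set ℂ) ⊆ stableRing Φ S := fun x hx =>
    hmem x (Set.mem_insert_of_mem _ (Set.mem_insert_of_mem _ (.inl (.inl (.inr hx)))))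
  have h4 : (↑S4 : Set ℂ) ⊆ stableRing Φ S := fun x hx =>
    hmem x (Set.mem_insert_of_mem _ (Set.mem_insert_of_mem _ (.inl (.inr hx))))
  have hg' : GoodPoint haux (stableRing Φ S) τ0 := ES.goodPoint_of_isCDVR haux hO' hg fun x hx =>
    hmem x (Set.mem_insert_of_mem _ (Set.mem_insert_of_mem _ (.inr hx)))
  have := hO'.dvr
  set G' : BRing M (stableRing Φ S) := ⟨_, hS4O _ hA h4⟩
  set yO : LRing q M (stableRing Φ S) := ⟨_, hS1O _ hO' hA hζ h1⟩
  refine dvd_disc_order_of_congr haux hM hqm Φ hS hA hζ hn hρ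
    (hmem _ (Set.mem_insert_of_mem _ (Set.mem_insert _ _))) (y := yO) hy0 hy1
    (hS2O _ hO' hA hζ h2) (fun D => hfix _ D yO rfl)
    (fun 𝔪 h𝔪 hy𝔪 hz => (hS3O _ hO' hA hζ h3 yO.2 𝔪 h𝔪 hy𝔪).2 hz)
    (G := G') (fun γ hγ => hG γ hγ) hg' (i := i) ?_
  have e := ES.discHom_mono haux τ0 hA hg' ((CPlace.ofEquiv Φ).goodRoot hM) hg hO'.le G'
  have hiff : ∀ k, PowerSeries.coeff k (psRes (discHom haux τ0 hA hg' G')) = 0 ↔
      PowerSeries.coeff k ((discHom haux τ0 ((CPlace.ofEquiv Φ).goodRoot hM) hg G).map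
          (CPlace.ofEquiv Φ).res) = 0 := fun k => by
    rw [show G = ⟨(G' : ℍ → ℂ), G'.2.1, fun γ n => hO'.le (G'.2.2 γ n)⟩ from Subtype.ext rfl, e,
      PowerSeries.coeff_map, PowerSeries.coeff_map, PowerSeries.coeff_map, residue_eq_zero_iff,
      hO'.mem_maximalIdeal_iff, (CPlace.ofEquiv Φ).res_eq_zero_iff]
    rfl
  rw [PowerSeries.order_eq_nat] at hi ⊢
  exact ⟨fun h => hi.1 ((hiff i).mp h), fun j hj => (hiff j).mpr (hi.2 j hj)⟩

end FermatAgent.BAD.Toric

end
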