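import Fermat.Agent.BAD.Toric.CuspOrder
import Fermat.Agent.BAD.Toric.PointOrder
import Fermat.Agent.BAD.Toric.BalFix
import Fermat.Agent.BAD.ResidualLift

/-!
# The class of level `L` on a component

The reduction of a balanced form to a component is, up to the exponent `e0` of residual lifting
and `n`-th powers, the reduction of a form of level `L` with multiplier.
-/

set_option autoImplicit false

open UpperHalfPlane CongruenceSubgroup
open scoped MatrixGroups ModularForm

noncomputable section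

namespace FermatAgent.BAD.Toric

open FermatAgent.ES (BRing HasExp AuxLevel CPlace auxW IsTwist parGroup)

variable {q : ℕ} [hq : Fact q.Prime] {L M m : ℕ} [NeZero M] [NeZero L] (haux : AuxLevel M m)
  (hM : M.Coprime q) (hLM : L ∣ M) (hqm : q ≠ m) {n : ℕ} [NeZero n] {Φ : ℂ ≃+* PadicAlgCl q}
  {χ : parGroup (Gamma0 (L * q)) n} {a : ℕ} {v : ℍ → ℂ} {c c0 : PowerSeries ℂ}

include haux hM hLM hqm in
/-- **The class of level `L` of a balanced form.** -/
theorem exists_level_class {e0 : ℕ} (hlift : ResidualLift Φ L haux hM e0) (hn : n.Coprime q)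
    (h : BalForm hM (CPlace.ofEquiv Φ) χ a v c c0) :
    ∃ (i j : ℕ) (ψ : parGroup (Gamma0 L) n) (v1 D : ℍ → ℂ)
      (cv1 cD cv : PowerSeries (CPlace.ofEquiv Φ).ring),
      i = e0 * (6 * (a * (q + 1))) + j ∧
      IsTwist (Gamma0 L) ((2 * i : ℕ) : ℤ) (ψ : Gamma0 L →* ℂˣ) v1 ∧
      IsTwist (Gamma0 L) ((2 * j : ℕ) : ℤ) 1 D ∧
      HasExp 1 v1 (cv1.map (CPlace.ofEquiv Φ).ring.subtype) ∧
      HasExp 1 D (cD.map (CPlace.ofEquiv Φ).ring.subtype) ∧
      cv.map (CPlace.ofEquiv Φ).ring.subtype = c ∧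
      cD.map (CPlace.ofEquiv Φ).res ≠ 0 ∧ cv.map (CPlace.ofEquiv Φ).res ≠ 0 ∧
      cv1.map (CPlace.ofEquiv Φ).res ^ n =
        (cv.map (CPlace.ofEquiv Φ).res ^ e0 * cD.map (CPlace.ofEquiv Φ).res) ^ n := by
  have hP := ES.hasCDVRs_ofEquiv Φ
  obtain ⟨cF, cv, hcF, hcv, halg, hcv0, hcFv⟩ :=
    exists_balForm1_ser hM hLM haux hqm hP hn h
  obtain ⟨i, j, ψ, v1, D, cv1, cD, hij, hv1, hD, hcv1, hcD, hD0, hrel⟩ :=
    hlift n (a * (q + 1)) hn (balForm1 q M n a v) cF
      (isTwist_balForm1 hM hLM h) hcF halg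
      (by rw [hcFv]; exact pow_ne_zero n hcv0)
      (fun γ w hw d hd i hi => dvd_cusp_order haux hM hLM hqm hP hn h hw hd hi)
      (fun G hG τ hg i hi => by
        obtain rfl : G = balG haux hM hLM hqm hP hn h := Subtype.ext (by
          rw [hG, balForm1_eq haux hM hLM hqm hP hn h]
          funext τ
          simp only [Pi.mul_apply]
          rw [mul_div_cancel_right₀ _ (pow_ne_zero _ (ES.auxW_ne_zero haux τ))])
        have hb := balanced_balY haux hM hLM hqm hP hn h
        exact dvd_disc_order_ofEquiv haux hM hqm Φ hn hb.unitInf hb.unitZero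
          (dvd_vanishOrd_balH haux hM hLM h)
          (fun O D y' hy' => conjL_eq_self_of_balH haux hM h D hy')
          (balG_sub_mem haux hM hLM hqm hP hn h) hg hi)
  refine ⟨i, j, ψ, v1, D, cv1, cD, cv, hij, hv1, hD, hcv1, hcD, hcv, hD0, hcv0, ?_⟩
  rw [hrel, hcFv, mul_pow, ← pow_mul, ← pow_mul, mul_comm n e0]

end FermatAgent.BAD.Toric

end
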