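import Fermat.Agent.BAD.Toric.ClassUniq
import Fermat.Agent.BAD.Toric.Main
import Fermat.Agent.BAD.Toric.Bal3

/-!
# The Frobenius relation on an eigencharacter without old part

For a character of `Γ₀(L q)` of prime exponent, fixed by inertia at `q`, eigen at the primes not
dividing the level with a system of eigenvalues which does not occur at level `L` and is not
Eisenstein: the transfers are trivial and the Frobenius is inverse to the `q`-th power of the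
involution.
-/

set_option autoImplicit false

open UpperHalfPlane CongruenceSubgroup
open scoped MatrixGroups ModularForm

noncomputable section

namespace FermatAgent.BAD.Toric

open FermatAgent.ES (AuxLevel CPlace parGroup conjAut galChar galChar_eq goodLevel_Gamma0
  heckeChar heckeChar_mem_parGroup charOp)

theorem heckeChar_pow {N : ℕ} {ℓ : ℕ} [hℓ : Fact ℓ.Prime] (hℓN : ¬ ℓ ∣ N)
    (φ : Gamma0 N →* ℂˣ) (k : ℕ) :
    heckeChar N hℓ.out (φ ^ k) = heckeChar N hℓ.out φ ^ k := by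
  have : NeZero ℓ := ⟨hℓ.out.ne_zero⟩
  rw [ES.heckeChar_of_not_dvd hℓN, ES.heckeChar_of_not_dvd hℓN]
  refine MonoidHom.ext fun γ => ?_
  simp [ES.charOp_apply, MonoidHom.pow_apply, Finset.prod_pow]

/-- Powers of an eigencharacter are eigen. -/
theorem heig_pow {N p : ℕ} {φ : parGroup (Gamma0 N) p} {ℓ b : ℕ} [hℓ : Fact ℓ.Prime]
    (hℓN : ¬ ℓ ∣ N) (h : heckeChar N hℓ.out φ.1 = φ.1 ^ b) (j : ℕ) :
    heckeChar N hℓ.out (φ ^ j : parGroup (Gamma0 N) p).1 =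
      (φ ^ j : parGroup (Gamma0 N) p).1 ^ b := by
  rw [SubgroupClass.coe_pow, heckeChar_pow hℓN, h]
  exact MonoidHom.ext fun γ => by simp [MonoidHom.pow_apply, ← pow_mul, mul_comm]

theorem parGroup_pow_eq {N p : ℕ} (φ : parGroup (Gamma0 N) p) {x y : ℕ}
    (h : x ≡ y [MOD p]) : φ ^ x = φ ^ y := by
  have hp : φ ^ p = 1 := Subtype.ext φ.2.1
  rw [pow_eq_pow_mod x hp, pow_eq_pow_mod y hp, h]

/-- An eigencharacter which is not Eisenstein at `ℓ` has defect a power with exponent prime to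
`p`. -/
theorem exists_eisDefect_eq_pow {N p : ℕ} [hp : Fact p.Prime]
    (φ : parGroup (Gamma0 N) p) {ℓ b : ℕ} (hℓ : ℓ.Prime) (h : heckeChar N hℓ φ.1 = φ.1 ^ b)
    (hne : (b : ZMod p) ≠ (ℓ + 1 : ℕ)) :
    ∃ j : ℕ, j.Coprime p ∧ eisDefect hℓ φ = φ ^ j := by
  refine ⟨b + (p - 1) * (ℓ + 1), ?_, ?_⟩
  · refine (hp.out.coprime_iff_not_dvd.mpr fun hd => hne ?_).symm
    rw [← ZMod.natCast_eq_zero_iff] at hd
    push_cast [Nat.cast_sub hp.out.one_le, ZMod.natCast_self] at hd ⊢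
    linear_combination hd
  · rw [eisDefect, pow_add φ b, show (⟨heckeChar N hℓ φ.1, heckeChar_mem_parGroup hℓ φ.2⟩ :
      parGroup (Gamma0 N) p) = φ ^ b from Subtype.ext (h.trans (SubgroupClass.coe_pow φ b).symm)]
    congr 1
    rw [inv_eq_iff_mul_eq_one, ← pow_add]
    refine (parGroup_pow_eq φ (y := 0) ?_).trans (pow_zero φ)
    rw [Nat.modEq_zero_iff_dvd, ← one_mul (ℓ + 1), ← mul_assoc, ← add_mul, mul_one,
      Nat.add_sub_cancel' hp.out.one_le]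
    exact dvd_mul_right p _

/-- A relation between two automorphisms on a power with exponent prime to `p` holds already at
`φ`. -/
theorem mul_pow_eq_one_of_pow {N p : ℕ} [hp : Fact p.Prime] {φ : parGroup (Gamma0 N) p} {e k : ℕ}
    (he : e.Coprime p) (C W : MulAut (parGroup (Gamma0 N) p))
    (h : C (φ ^ e) = (W (φ ^ e) ^ k)⁻¹) : C φ * W φ ^ k = 1 := by
  obtain ⟨r, -, hr⟩ := Nat.exists_mul_mod_eq_one_of_coprime he hp.out.one_lt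
  have hrφ : φ ^ (e * r) = φ :=
    (parGroup_pow_eq φ (show e * r ≡ 1 [MOD p] by
      rw [Nat.ModEq, hr, Nat.one_mod_eq_one.mpr hp.out.ne_one])).trans (pow_one φ)
  rw [eq_inv_iff_mul_eq_one] at h
  have h2 := congrArg (· ^ r) h
  rwa [one_pow, mul_pow, ← pow_right_comm _ r k, ← map_pow, ← map_pow, ← pow_mul, hrφ] at h2

variable (D : HM.ALData) {p : ℕ}

/-- **Both transfers of an eigencharacter without old part are trivial.** -/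
theorem trCor_eq_one_of_eigen [NeZero p] (φ : parGroup (Gamma0 D.N) p) (b : ℕ → ℕ)
    {E : ℕ} (hNE : D.N ∣ E)
    (heig : ∀ (ℓ : ℕ) (hℓ : ℓ.Prime), ¬ ℓ ∣ E → heckeChar D.N hℓ φ.1 = φ.1 ^ b ℓ)
    (hlow : ∀ ψ : Gamma0 D.L →* ℂˣ, ψ ^ p = 1 →
      (∀ (ℓ : ℕ) (hℓ : ℓ.Prime), ¬ ℓ ∣ E → heckeChar D.L hℓ ψ = ψ ^ b ℓ) → ψ = 1) :
    (∀ γ, trCor D φ.1 γ = 1) ∧ (∀ γ, trCorW D φ.1 γ = 1) := by
  have key : ∀ θ : parGroup (Gamma0 D.N) p,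
      (∀ (ℓ : ℕ) (hℓ : ℓ.Prime), ¬ ℓ ∣ E → heckeChar D.N hℓ θ.1 = θ.1 ^ b ℓ) →
      ∀ γ, trCor D θ.1 γ = 1 := fun θ hθ γ => by
    rw [← trHom_apply, hlow (trHom D θ.1) ?_ ?_]
    · rfl
    · rw [← trHom_pow, θ.2.1]
      exact MonoidHom.ext fun δ => by rw [trHom_apply, trCor]; simp
    · intro ℓ hℓ hℓE
      have := Fact.mk hℓ
      rw [heckeChar_trHom D (fun hd => hℓE (hd.trans hNE)), hθ ℓ hℓ hℓE, trHom_pow]
  refine ⟨key φ heig, fun γ => ?_⟩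
  obtain ⟨M, m, hM0, haux, hM, hqm, hLM, h12⟩ := exists_auxLevel D
  have : NeZero M := ⟨hM0⟩
  refine (trCor_wAut D hM hLM φ γ).symm.trans ?_
  refine key (wAut hM hLM p φ) (fun ℓ hℓ hℓE => ?_) γ
  have := Fact.mk hℓ
  refine (heckeChar_comp_wHom hM hLM
    (show ¬ ℓ ∣ D.L * D.q from fun hd => hℓE (hd.trans hNE)) φ).trans ?_
  refine MonoidHom.ext fun γ => ?_
  exact DFunLike.congr_fun (heig ℓ hℓ hℓE) _

variable {M m : ℕ} [NeZero M] (haux : AuxLevel M m) (hM : M.Coprime D.q) (hLM : D.L ∣ M)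
  [hp : Fact p.Prime]

include haux hM hLM in
/-- The relation at a given auxiliary level and exponent. -/
theorem mazur_frob_aux (hqm : D.q ≠ m) (h12 : M ∣ 12 * D.L) (hn : p.Coprime D.q) {e0 k : ℕ}
    (hek : (k * e0).Coprime p) {Φ : ℂ ≃+* PadicAlgCl D.q} (hcl : HasClassesE D hM Φ p e0)
    (φ : parGroup (Gamma0 (D.L * D.q)) p) (b : ℕ → ℕ)
    {E : ℕ} (hNE : D.N ∣ E)
    (heig : ∀ (ℓ : ℕ) (hℓ : ℓ.Prime), ¬ ℓ ∣ E → heckeChar (D.L * D.q) hℓ φ.1 = φ.1 ^ b ℓ)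
    (hlow : ∀ ψ : Gamma0 D.L →* ℂˣ, ψ ^ p = 1 →
      (∀ (ℓ : ℕ) (hℓ : ℓ.Prime), ¬ ℓ ∣ E → heckeChar D.L hℓ ψ = ψ ^ b ℓ) → ψ = 1)
    {ℓ0 : ℕ} (hℓ0 : ℓ0.Prime) (hℓ0E : ¬ ℓ0 ∣ E) (hne : (b ℓ0 : ZMod p) ≠ (ℓ0 + 1 : ℕ))
    {a : ℕ} {v : ℍ → ℂ} {c c0 : PowerSeries ℂ}
    (h : BalForm hM (CPlace.ofEquiv Φ) (eisDefect hℓ0 φ ^ k) a v c c0)
    (s : PadicAlgCl D.q ≃ₐ[ℚ_[D.q]] PadicAlgCl D.q) (hs : IsFrobLift s) :
    conjAut (goodLevel_Gamma0 (D.L * D.q)) p (conjC Φ s) φ * wAut hM hLM p φ ^ D.q = 1 := by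
  obtain ⟨hT, hT'⟩ := trCor_eq_one_of_eigen D φ b hNE heig hlow
  have hℓ0N : ¬ ℓ0 ∣ D.L * D.q := fun hd => hℓ0E (hd.trans hNE)
  have : NeZero (D.L * D.q) := ⟨mul_ne_zero D.L_ne_zero D.prime.ne_zero⟩
  obtain ⟨j, hjp, hj⟩ := exists_eisDefect_eq_pow φ hℓ0 (heig ℓ0 hℓ0 hℓ0E) hne
  set χ := eisDefect hℓ0 φ ^ k with hχ
  have hχ' : χ = φ ^ (j * k) := by rw [hχ, hj, ← pow_mul]
  obtain ⟨ψ, ψ0, cv, cv0, hcv, hcv0, hψ, hψ0, -, -, hrel⟩ :=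
    exists_class_pair D haux hM hLM hqm h12 hn hcl h
      (fun γ => trCor_pow D (trCor_eisDefect D hℓ0 hℓ0N hT) k γ)
      (fun γ => trCorW_pow D (trCorW_eisDefect D hℓ0 hℓ0N hT') k γ) s hs
  have heχ : ∀ (ℓ : ℕ) (hℓ : ℓ.Prime), ¬ ℓ ∣ E → heckeChar (D.L * D.q) hℓ χ.1 = χ.1 ^ b ℓ :=
    fun ℓ hℓ hℓE => by
      have := Fact.mk hℓ
      rw [hχ']
      exact heig_pow (fun hd => hℓE (hd.trans hNE)) (heig ℓ hℓ hℓE) _
  have hψ1 : ψ = 1 := Subtype.ext (hlow ψ.1 ψ.2.1 fun ℓ hℓ hℓE => by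
    have := Fact.mk hℓ
    have : NeZero ℓ := ⟨hℓ.ne_zero⟩
    have hℓN : ¬ ℓ ∣ D.L * D.q := fun hd => hℓE (hd.trans hNE)
    exact class_eigen haux hM hLM hqm hn hℓN h hcv hψ (heχ ℓ hℓ hℓE))
  have hψ01 : ψ0 = 1 := Subtype.ext (hlow ψ0.1 ψ0.2.1 fun ℓ hℓ hℓE => by
    have := Fact.mk hℓ
    have : NeZero ℓ := ⟨hℓ.ne_zero⟩
    have hℓN : ¬ ℓ ∣ D.L * D.q := fun hd => hℓE (hd.trans hNE)
    refine class_eigen haux hM hLM hqm hn hℓN (h.symm hM hLM hn) hcv0 hψ0 ?_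
    refine (heckeChar_comp_wHom hM hLM hℓN χ).trans ?_
    refine MonoidHom.ext fun γ => ?_
    exact DFunLike.congr_fun (heχ ℓ hℓ hℓE) _)
  have h1 := (hrel 1 (by rw [hψ1, one_pow]) (by rw [hψ01, one_pow])).1
  rw [mul_one, hχ', ← pow_mul, mul_assoc] at h1
  exact mul_pow_eq_one_of_pow (hjp.mul_left hek) _ _ h1

omit [NeZero M] in
/-- **The Frobenius relation on an eigencharacter without old part.** -/
theorem mazur_frob (hp2 : p ≠ 2) (hpq : p ≠ D.q)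
    (h3 : p = 3 → ∃ r : ℕ, r.Prime ∧ r % 3 = 2 ∧ r ∣ D.L)
    (φ : parGroup (Gamma0 D.N) p) (b : ℕ → ℕ) {E : ℕ} (hNE : D.N ∣ E)
    (heig : ∀ (ℓ : ℕ) (hℓ : ℓ.Prime), ¬ ℓ ∣ E → heckeChar D.N hℓ φ.1 = φ.1 ^ b ℓ)
    (hns : ∃ ℓ : ℕ, ℓ.Prime ∧ ¬ ℓ ∣ E ∧ (b ℓ : ZMod p) ≠ (ℓ + 1 : ℕ))
    (hlow : ∀ ψ : Gamma0 D.L →* ℂˣ, ψ ^ p = 1 →
      (∀ (ℓ : ℕ) (hℓ : ℓ.Prime), ¬ ℓ ∣ E → heckeChar D.L hℓ ψ = ψ ^ b ℓ) → ψ = 1)
    {A : ValuationSubring (AlgebraicClosure ℚ)} (hA : A.LiesOverPrime D.q)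
    (hI : ∀ s ∈ A.inertiaSubgroupIn ℚ, galChar (goodLevel_Gamma0 D.N) p s φ = φ)
    {g : AlgebraicClosure ℚ ≃ₐ[ℚ] AlgebraicClosure ℚ} (hg : A.IsFrobeniusAt g D.q) :
    (∀ γ, trCor D φ.1 γ = 1) ∧ (∀ γ, trCorW D φ.1 γ = 1) ∧
      ∀ γ, (galChar (goodLevel_Gamma0 D.N) p g φ).1 γ *
        φ.1 ((D.wCorr (L := 1) (one_dvd D.L) (Nat.coprime_one_right D.q)).fac γ ()) ^ D.q = 1 := by
  have : NeZero p := ⟨hp.out.ne_zero⟩
  obtain ⟨hT, hT'⟩ := trCor_eq_one_of_eigen D φ b hNE heig hlow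
  refine ⟨hT, hT', ?_⟩
  obtain ⟨ℓ0, hℓ0, hℓ0E, hne⟩ := hns
  have hℓ0N : ¬ ℓ0 ∣ D.N := fun hd => hℓ0E (hd.trans hNE)
  have hn : p.Coprime D.q := (Nat.coprime_primes hp.out D.prime).mpr hpq
  obtain ⟨Φ, rfl⟩ := ES.exists_padicEquiv_compat hA
  obtain ⟨s, hs, hsF⟩ := exists_frobLift Φ hg
  have hgal : galChar (goodLevel_Gamma0 D.N) p g =
      conjAut (goodLevel_Gamma0 D.N) p (conjC Φ s) := galChar_eq _ p fun x => by
    apply Φ.injective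
    rw [map_conjC, hs]
  suffices H : ∃ (M : ℕ) (_ : NeZero M) (hM : M.Coprime D.q) (hLM : D.L ∣ M),
      conjAut (goodLevel_Gamma0 (D.L * D.q)) p (conjC Φ s)
          (show parGroup (Gamma0 (D.L * D.q)) p from φ) *
        wAut hM hLM p (show parGroup (Gamma0 (D.L * D.q)) p from φ) ^ D.q = 1 by
    obtain ⟨M, hM0, hM, hLM, H⟩ := H
    intro γ
    have h1 := congrArg (fun θ : parGroup (Gamma0 D.N) p => θ.1 γ) H
    rw [hgal]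
    refine Eq.trans ?_ h1
    exact (congrArg (fun x : ℂˣ => (conjAut (goodLevel_Gamma0 (D.L * D.q)) p (conjC Φ s)
      (show parGroup (Gamma0 (D.L * D.q)) p from φ)).1 γ * x ^ D.q)
      (wAut_apply_fac D hM hLM φ γ)).symm
  by_cases h : p = 3
  · subst h
    obtain ⟨r, hr, hr3, hrL⟩ := h3 rfl
    have : NeZero (3 * D.L) := ⟨mul_ne_zero (by norm_num) D.L_ne_zero⟩
    have haux : AuxLevel (3 * D.L) 3 :=
      ⟨Or.inr rfl, dvd_mul_right _ _, by have := Nat.pos_of_ne_zero D.L_ne_zero; omega⟩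
    have hLM : D.L ∣ 3 * D.L := dvd_mul_left _ _
    have hM : (3 * D.L).Coprime D.q :=
      Nat.Coprime.mul_left hn ((D.prime.coprime_iff_not_dvd).mpr D.not_dvd).symm
    have h12 : 3 * D.L ∣ 12 * D.L := mul_dvd_mul_right (by norm_num) _
    obtain ⟨a, v, c, c0, -, hbal⟩ := exists_balForm8 (q := D.q) (L := D.L) (M := 3 * D.L) (hM := hM)
      hLM haux h12 Φ hn hℓ0
      hℓ0N φ hI
    exact ⟨3 * D.L, inferInstance, hM, hLM, mazur_frob_aux D haux hM hLM (Ne.symm hpq) h12 hn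
      (by decide) (hasClassesE_four D hM hLM haux (Ne.symm hpq) hr hr3 hrL hn) φ b hNE heig hlow
      hℓ0 hℓ0E hne hbal s hsF⟩
  · obtain ⟨M, m, hM0, haux, hM, hqm, hLM, h12⟩ := exists_auxLevel D
    have : NeZero M := ⟨hM0⟩
    obtain ⟨a, v, c, c0, -, hbal⟩ := exists_balForm (q := D.q) (L := D.L) hM hLM haux h12 Φ hn hℓ0
      hℓ0N φ hI
    refine ⟨M, inferInstance, hM, hLM, mazur_frob_aux D haux hM hLM hqm h12 hn ?_
      (hasClassesE_twelve D haux hM hLM hqm hn) φ b hNE heig hlow hℓ0 hℓ0E hne hbal s hsF⟩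
    refine (hp.out.coprime_iff_not_dvd.mpr fun hd => ?_).symm
    have h5 : p ∣ 2 ^ 5 * 3 ^ 2 := hd.trans (by norm_num)
    rcases hp.out.dvd_mul.mp h5 with h' | h'
    · exact hp2 ((Nat.prime_dvd_prime_iff_eq hp.out Nat.prime_two).mp (hp.out.dvd_of_dvd_pow h'))
    · exact h ((Nat.prime_dvd_prime_iff_eq hp.out Nat.prime_three).mp (hp.out.dvd_of_dvd_pow h'))

end FermatAgent.BAD.Toric

end
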