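import Fermat.Agent.BAD.Toric.FrobConj
import Fermat.Agent.BAD.AL.Invol
import Fermat.Agent.BAD.Toric.SplitDef
import Fermat.Agent.BAD.Trace
import Fermat.Agent.BAD.Kummer

/-!
# Functions invariant under `Γ₀(L q) ∩ Γ(m)`

The operators preserve the invariance, and the two split reductions glue to one power.
-/

set_option autoImplicit false

open UpperHalfPlane CongruenceSubgroup
open scoped MatrixGroups

noncomputable section

namespace FermatAgent.BAD.Toric

open FermatAgent.ES (BSub BRing lexp act zetaC AuxLevel CPlace GoodRoot scaleVec embVec)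

/-- The functions invariant under `Γ₀(N) ∩ Γ(m)`. -/
def gSub (N m : ℕ) : Subring (ℍ → ℂ) where
  carrier := {f | ∀ δ ∈ Gamma0 N, δ ∈ Gamma m → act δ f = f}
  mul_mem' {f g} hf hg δ h1 h2 := by rw [ES.act_mulFun, hf δ h1 h2, hg δ h1 h2]
  one_mem' _ _ _ := rfl
  add_mem' {f g} hf hg δ h1 h2 := by rw [ES.act_add, hf δ h1 h2, hg δ h1 h2]
  zero_mem' _ _ _ := rfl
  neg_mem' {f} hf δ h1 h2 := by rw [ES.act_neg, hf δ h1 h2]

theorem gSub_anti {N N' m : ℕ} (h : N ∣ N') : gSub N m ≤ gSub N' m := fun _ hf δ h1 h2 =>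
  hf δ (mem_Gamma0_dvd.mpr ((Int.natCast_dvd_natCast.mpr h).trans (mem_Gamma0_dvd.mp h1))) h2

variable {q M m L : ℕ} [hq : Fact q.Prime] [NeZero M] (haux : AuxLevel M m) (hM : M.Coprime q)
  (hLM : L ∣ M)

include haux hM in
theorem hasseFun_mem_gSub : hasseFun haux q ∈ gSub (L * q) m := by
  have := haux.neZero
  intro γ h0 hγ
  have hq0 : γ ∈ Gamma0 q := mem_Gamma0_dvd.mpr (by
    have := mem_Gamma0_dvd.mp h0
    push_cast at this
    exact (dvd_mul_left _ _).trans this)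
  obtain ⟨γ', h00, h01, h10, h11, h⟩ := exists_dil_conj q γ (mem_Gamma0_dvd.mp hq0)
  have hγ'm := dil_conj_mem (coprime_aux haux hM) hγ h00 h01 h10 h11
  funext τ
  rw [ES.act_apply, hasseFun, h]
  simp only [ES.auxW, ES.dif_smul, ES.refA, ES.refB, ← ES.embVec_vmul, ES.vmul_of_mem hγ,
    ES.vmul_of_mem hγ'm, denom_dil_conj h10 h11]
  rw [mul_div_mul_left _ _ (pow_ne_zero 2 (UpperHalfPlane.denom_ne_zero _ τ))]
  rfl

include haux hM hLM in
theorem atkin_mem_gSub {f : ℍ → ℂ} (hf : f ∈ gSub (L * q) m) :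
    atkin hM f ∈ gSub (L * q) m := by
  have := haux.neZero
  intro γ h0 hγ
  have hc := (mem_gamma0_mul_iff (coprime_of_aux hM hLM)).mp h0
  obtain ⟨γ', h00, h01, h10, h11, h⟩ := exists_dil_conj q γ (mem_Gamma0_dvd.mp hc.2)
  set g := atkinMat hM
  have hgm : g ∈ Gamma m := ES.gamma_le_of_dvd haux.dvd (atkinMat_mem hM)
  have hγ'm := dil_conj_mem (coprime_aux haux hM) hγ h00 h01 h10 h11
  have hmem : g * γ' * g⁻¹ ∈ Gamma0 (L * q) := by
    refine (mem_gamma0_mul_iff (coprime_of_aux hM hLM)).mpr ⟨?_, ?_⟩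
    · have hgL : g ∈ Gamma0 L := mem_Gamma0_dvd.mpr (alElt_atkin hM hLM).low
      refine mul_mem (mul_mem hgL (mem_Gamma0_dvd.mpr ?_)) (inv_mem hgL)
      refine (Nat.isCoprime_iff_coprime.mpr (coprime_of_aux hM hLM)).dvd_of_dvd_mul_left ?_
      rw [h10]
      exact mem_Gamma0_dvd.mp hc.1
    · exact atkin_conj_mem_Gamma0 hM ⟨_, h01⟩
  funext τ
  rw [ES.act_apply, atkin_apply_pt, h, atkin_apply_pt, ← mul_smul,
    show g * γ' = g * γ' * g⁻¹ * g by group, mul_smul]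
  exact congrFun (hf _ hmem ((Gamma_normal m).conj_mem γ' hγ'm g)) _

include haux hM hLM in
theorem atkin_atkin_of_mem {f : ℍ → ℂ} (hf : f ∈ gSub (L * q) m) :
    atkin hM (atkin hM f) = f := by
  have := haux.neZero
  set g := atkinMat hM with hg
  obtain ⟨h00, h11⟩ := atkinMat_dvd hM
  obtain ⟨γ', e00, e01, e10, e11, h⟩ := exists_ctr_conj q g 0 (by simpa [hg] using h11)
  have hgL : (L : ℤ) ∣ g 1 0 := (alElt_atkin hM hLM).low
  have h10 : (g * γ') 1 0 = g 1 0 * γ' 0 0 + g 1 1 * γ' 1 0 := by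
    rw [Matrix.SpecialLinearGroup.coe_mul, Matrix.mul_apply, Fin.sum_univ_two]
  have hmem : g * γ' ∈ Gamma0 (L * q) := by
    refine (mem_gamma0_mul_iff (coprime_of_aux hM hLM)).mpr ⟨mem_Gamma0_dvd.mpr ?_,
      atkin_type_zero hM ⟨_, e00⟩⟩
    rw [h10, e10]
    exact dvd_add (hgL.mul_right _) (hgL.mul_left _)
  have hgm : g ∈ Gamma m := ES.gamma_le_of_dvd haux.dvd (atkinMat_mem hM)
  obtain ⟨a, b, c, d⟩ := Gamma_mem.mp hgm
  have hqu : (q : ZMod m) * (q : ZMod m) = 1 ∧ ((q : ZMod m) = 1 ∨ (q : ZMod m) = -1) := by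
    have hu : IsUnit (q : ZMod m) :=
      (ZMod.isUnit_iff_coprime q m).mpr (coprime_aux haux hM).symm
    have key : ∀ x : ZMod m, IsUnit x → x * x = 1 ∧ (x = 1 ∨ x = -1) := by
      rcases haux.small with rfl | rfl <;> decide
    exact key _ hu
  have hd' : ((γ' 1 1 : ℤ) : ZMod m) = (q : ZMod m) := by
    have h1 := congrArg (Int.cast : ℤ → ZMod m) e11
    push_cast at h1
    rw [d, c, mul_zero, sub_zero] at h1
    calc ((γ' 1 1 : ℤ) : ZMod m) = ((q : ZMod m) * q) * (γ' 1 1 : ℤ) := by rw [hqu.1, one_mul]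
      _ = (q : ZMod m) := by rw [mul_assoc, h1, mul_one]
  have ha' : ((γ' 0 0 : ℤ) : ZMod m) = (q : ZMod m) := by rw [e00]; push_cast; rw [a, mul_one]
  have hb' : ((γ' 0 1 : ℤ) : ZMod m) = 0 := by rw [e01]; push_cast; rw [a, b]; ring
  have hc' : ((γ' 1 0 : ℤ) : ZMod m) = 0 := by rw [e10, c]
  have hact : act (g * γ') f = f := by
    rcases hqu.2 with h1 | h1
    · exact hf _ hmem (mul_mem hgm (Gamma_mem.mpr ⟨by rw [ha', h1], hb', hc', by rw [hd', h1]⟩))
    · have hm : -(g * γ') ∈ Gamma m := by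
        rw [show -(g * γ') = g * -γ' from (mul_neg g γ').symm]
        refine mul_mem hgm (Gamma_mem.mpr ?_)
        simp only [Matrix.SpecialLinearGroup.coe_neg, Matrix.neg_apply, Int.cast_neg, ha', hb', hc',
          hd', h1, neg_neg, neg_zero, and_self]
      have hm0 : -(g * γ') ∈ Gamma0 (L * q) := by
        rw [Gamma0_mem] at hmem ⊢
        simp only [Matrix.SpecialLinearGroup.coe_neg, Matrix.neg_apply, Int.cast_neg, hmem,
          neg_zero]
      have h2 := hf _ hm0 hm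
      rwa [show -(g * γ') = -1 * (g * γ') by simp, ES.act_mul, ES.act_neg_one] at h2
  refine Eq.trans ?_ hact
  funext τ
  rw [atkin_apply_pt, atkin_apply_pt, h, ES.act_apply, mul_smul]
  congr 3
  refine UpperHalfPlane.ext ?_
  rw [coe_ctrPt, coe_dilPt, Nat.cast_zero, add_zero,
    mul_div_cancel_left₀ _ (Nat.cast_ne_zero.mpr (NeZero.ne q))]

namespace FrobData

variable {P : CPlace q} {O : Subring ℂ} (D : FrobData M P O)

include haux hLM in
theorem conjL_mem_gSub {f : LRing q M O} (hf : (f : ℍ → ℂ) ∈ gSub (L * q) m) :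
    (D.conjL haux f : ℍ → ℂ) ∈ gSub (L * q) m := by
  have : NeZero L := ⟨fun h => NeZero.ne M (Nat.eq_zero_of_zero_dvd (h ▸ hLM))⟩
  have := haux.neZero
  have : NeZero (L * q) := ⟨mul_ne_zero (NeZero.ne L) hq.out.ne_zero⟩
  exact D.act_conjB_of_inv haux (ES.goodLevel_Gamma0 (L * q))
    ((mul_comm L q) ▸ mul_dvd_mul_left q hLM) f.2.1.1 hf

include haux hM hLM in
/-- The Frobenius with the Atkin operator keeps the invariance. -/
theorem frobW_mem_gSub (hζ : zetaC (q * M) ∈ O) {f : LRing q M O}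
    (hf : (f : ℍ → ℂ) ∈ gSub (L * q) m) :
    (D.frobW haux hM hζ f : ℍ → ℂ) ∈ gSub (L * q) m :=
  atkin_mem_gSub haux hM hLM (D.conjL_mem_gSub haux hLM hf)

end FrobData

/-! ### Glueing the two split reductions -/

theorem unitAt_of_pow {P : CPlace q} {O : Subring ℂ} (hO : O ≤ P.ring) {p : SL(2, ℤ) → Prop}
    {f : LRing q M O} {k : ℕ} (hk : k ≠ 0) (h : UnitAt P p (f ^ k)) : UnitAt P p f := fun γ hγ => by
  by_contra hno
  obtain ⟨k', rfl⟩ := Nat.exists_eq_succ_of_ne_zero hk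
  have h1 := h γ hγ
  have hlt := CPlace.serLT_of_not_unitCoeff (fun i => hO (serIn_serAt γ f i)) hno
  rw [map_pow, pow_succ'] at h1
  exact (hlt.mul_serIn ((show ES.SerIn P.ring (serAt M O q γ f) from
    fun i => hO (serIn_serAt γ f i)).pow k')).not_unitCoeff h1

include haux hLM in
/-- **Glueing.** -/
theorem exists_glue {P : CPlace q} (hqm : q ≠ m) {n : ℕ} [NeZero n] {y : LRing q M P.ring}
    (hy : (y : ℍ → ℂ) ∈ gSub (L * q) m) (hy0 : UnitInf P y) (hy1 : UnitZero P y)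
    (hsplit : Split hM L m n y) :
    ∃ N D : LRing q M P.ring, (N : ℍ → ℂ) ∈ gSub (L * q) m ∧ (D : ℍ → ℂ) ∈ gSub (L * q) m ∧
      UnitInf P (y * N ^ n) ∧ UnitZero P (y * N ^ n) ∧ UnitInf P D ∧ UnitZero P D ∧
      y * N ^ n - D ^ n ∈ pInf le_rfl ∧ y * N ^ n - D ^ n ∈ pZero le_rfl := by
  obtain ⟨⟨a, b, hau, hai, hbi, hinf⟩, a', b', hau', hai', hbi', hinf'⟩ := hsplit
  have hA := P.goodRoot hM
  have hζ : zetaC (q * M) ∈ P.ring := goodRoot_zeta
  have hn := NeZero.ne n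
  set W : LRing q M P.ring →+* LRing q M P.ring := atkinL hM hζ
  set X := hasseL haux hM hA hζ
  set Y := W X
  have hXp : X ∈ pZero le_rfl := hasseL_mem_pZero haux hM hA hζ le_rfl
  have hYp : Y ∈ pInf le_rfl := atkinL_mem_pInf le_rfl hM hζ hXp
  have hXu : UnitInf P X := hasseL_unitInf haux hM hA hζ le_rfl hqm
  have hYu : UnitZero P Y := atkinL_unitZero hM hζ hXu
  have hg : ∀ {x : BRing M P.ring}, (∀ δ ∈ Gamma0 L, δ ∈ Gamma m → act δ (x : ℍ → ℂ) = x) →
      ((raiseL M x : LRing q M P.ring) : ℍ → ℂ) ∈ gSub (L * q) m ∧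
        (W (raiseL M x) : ℍ → ℂ) ∈ gSub (L * q) m :=
    fun hx => ⟨gSub_anti (dvd_mul_right L q) hx,
      atkin_mem_gSub haux hM hLM (gSub_anti (dvd_mul_right L q) hx)⟩
  have hXg : (X : ℍ → ℂ) ∈ gSub (L * q) m := hasseFun_mem_gSub haux hM
  have hYg : (Y : ℍ → ℂ) ∈ gSub (L * q) m := atkin_mem_gSub haux hM hLM hXg
  set A : LRing q M P.ring := raiseL M a
  set B : LRing q M P.ring := raiseL M b
  set A' := W (raiseL M a')
  set B' := W (raiseL M b')
  have hAu : ∀ p, UnitAt P p A := unitAt_raiseL (M := M) le_rfl haux hM ⟨1, hau⟩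
  have hA'0 : UnitInf P A' :=
    atkinL_unitInf hM hζ (unitAt_raiseL (M := M) le_rfl haux hM ⟨1, hau'⟩ _)
  have hA'1 : UnitZero P A' :=
    atkinL_unitZero hM hζ (unitAt_raiseL (M := M) le_rfl haux hM ⟨1, hau'⟩ _)
  set N := A * A' * (X + Y)
  set D := B * A' * X + B' * A * Y
  have hz' : A' ^ n * y - B' ^ n ∈ pZero le_rfl := by
    have h := atkinL_mem_pZero le_rfl hM hζ hinf'
    simp only [map_sub, map_mul, map_pow] at h
    convert h using 3
    exact Subtype.ext (atkin_atkin_of_mem haux hM hLM hy).symm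
  have hXY0 : UnitInf P (X + Y) := hXu.of_sub_mem le_rfl (by
    rw [show X - (X + Y) = -Y by ring]; exact neg_mem hYp)
  have hXY1 : UnitZero P (X + Y) := hYu.of_sub_mem le_rfl (by
    rw [show Y - (X + Y) = -X by ring]; exact neg_mem hXp)
  have hN0 : UnitInf P N := ((hAu _).mul le_rfl hA'0).mul le_rfl hXY0
  have hN1 : UnitZero P N := ((hAu _).mul le_rfl hA'1).mul le_rfl hXY1
  have h0 : y * N ^ n - D ^ n ∈ pInf le_rfl := by
    obtain ⟨r, hr⟩ := sub_dvd_pow_sub_pow N (A * A' * X) n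
    obtain ⟨s, hs⟩ := sub_dvd_pow_sub_pow D (B * A' * X) n
    rw [show y * N ^ n - D ^ n = y * (N ^ n - (A * A' * X) ^ n) - (D ^ n - (B * A' * X) ^ n) +
      (A ^ n * y - B ^ n) * (A' * X) ^ n by ring, hr, hs,
      show N - A * A' * X = A * A' * Y by ring, show D - B * A' * X = B' * A * Y by ring]
    exact add_mem (sub_mem (Ideal.mul_mem_left _ _ (Ideal.mul_mem_right _ _
      (Ideal.mul_mem_left _ _ hYp))) (Ideal.mul_mem_right _ _ (Ideal.mul_mem_left _ _ hYp)))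
      (Ideal.mul_mem_right _ _ hinf)
  have h1 : y * N ^ n - D ^ n ∈ pZero le_rfl := by
    obtain ⟨r, hr⟩ := sub_dvd_pow_sub_pow N (A * A' * Y) n
    obtain ⟨s, hs⟩ := sub_dvd_pow_sub_pow D (B' * A * Y) n
    rw [show y * N ^ n - D ^ n = y * (N ^ n - (A * A' * Y) ^ n) - (D ^ n - (B' * A * Y) ^ n) +
      (A' ^ n * y - B' ^ n) * (A * Y) ^ n by ring, hr, hs,
      show N - A * A' * Y = A * A' * X by ring, show D - B' * A * Y = B * A' * X by ring]
    exact add_mem (sub_mem (Ideal.mul_mem_left _ _ (Ideal.mul_mem_right _ _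
      (Ideal.mul_mem_left _ _ hXp))) (Ideal.mul_mem_right _ _ (Ideal.mul_mem_left _ _ hXp)))
      (Ideal.mul_mem_right _ _ hz')
  have hP0 : UnitInf P (y * N ^ n) := hy0.mul le_rfl (hN0.pow le_rfl n)
  have hP1 : UnitZero P (y * N ^ n) := hy1.mul le_rfl (hN1.pow le_rfl n)
  exact ⟨N, D, mul_mem (mul_mem (hg hai).1 (hg hai').2) (add_mem hXg hYg),
    add_mem (mul_mem (mul_mem (hg hbi).1 (hg hai').2) hXg)
      (mul_mem (mul_mem (hg hbi').2 (hg hai).1) hYg),
    hP0, hP1, unitAt_of_pow le_rfl hn (hP0.of_sub_mem le_rfl h0),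
    unitAt_of_pow le_rfl hn (hP1.of_sub_mem le_rfl h1), h0, h1⟩

end FermatAgent.BAD.Toric
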