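import Fermat.Agent.BAD.Toric.Approx
import Fermat.Agent.BAD.Toric.Sym
import Fermat.Agent.BAD.Toric.CrossRoot
import Fermat.Agent.BAD.Toric.ConjKum
import Fermat.Agent.BAD.DivisibleWitness
import Fermat.Agent.BAD.TValue
import Fermat.Agent.BAD.GaloisAut

/-!
# The root of the twisted power of split functions

If `A` reduces to `n`-th powers of `D` on both components, `g A · A ^ q` times the right power of
`g D · D ^ q` is an `n`-th power, `g` the Frobenius followed by the Atkin operator.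
-/

set_option autoImplicit false

open UpperHalfPlane CongruenceSubgroup IsLocalRing
open scoped MatrixGroups

noncomputable section

namespace FermatAgent.BAD.Toric

open FermatAgent.ES (BSub BRing act zetaC AuxLevel CPlace GoodRoot GoodPoint vanishOrd)

variable {q M m : ℕ} [hq : Fact q.Prime] [NeZero M] (haux : AuxLevel M m) (hM : M.Coprime q)

section Twist

variable {P : CPlace q} {O : Subring ℂ} (D : FrobData M P O) (hζ : zetaC (q * M) ∈ O)

/-- `g A · A ^ q`. -/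
def twistA (A : LRing q M O) : LRing q M O := D.frobW haux hM hζ A * A ^ q

/-- `(g B · B ^ q) ^ n`. -/
def twistB (n : ℕ) (B : LRing q M O) : LRing q M O := (D.frobW haux hM hζ B * B ^ q) ^ n

/-- The twist keeps unit coefficients on both components. -/
theorem twist_units (hO : O ≤ P.ring) {A : LRing q M O} (h0 : UnitInf P A) (h1 : UnitZero P A) :
    UnitInf P (D.frobW haux hM hζ A * A ^ q) ∧ UnitZero P (D.frobW haux hM hζ A * A ^ q) :=
  ⟨(D.frobW_unitInf haux hM hζ h1).mul hO (h0.pow hO q),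
    (D.frobW_unitZero haux hM hζ h0).mul hO (h1.pow hO q)⟩

theorem unif_dvd_frobW [IsDiscreteValuationRing O] (hO' : P.IsCDVR O) {ϖ : O}
    (hϖ : Irreducible ϖ) {f : LRing q M O} (h : constL ϖ ∣ f) :
    constL ϖ ∣ D.frobW haux hM hζ f := by
  obtain ⟨w, rfl⟩ := h
  rw [map_mul, D.frobW_constL]
  refine Dvd.dvd.mul_right (map_dvd constL ?_) _
  rw [← Ideal.mem_span_singleton, ← hϖ.maximalIdeal_eq, ← residue_eq_zero_iff,
    D.residue_σO hO', residue_uniformiser hϖ.maximalIdeal_eq, zero_pow hq.out.ne_zero]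

end Twist

variable (hqm : q ≠ m) (Φ : ℂ ≃+* PadicAlgCl q) {n : ℕ} [NeZero n]

/-- A function with a unit coefficient is not zero. -/
theorem coe_ne_zero_of_unit {P : CPlace q} {f : LRing q M P.ring} (hf : UnitInf P f) :
    (f : ℍ → ℂ) ≠ 0 := fun h0 => by
  obtain ⟨i, hi⟩ := hf 1 (one_mem _)
  rw [serAt_apply, h0, ES.lexp_eq (γ := 1) (f := (0 : ℍ → ℂ)) ES.HasLExp.zero] at hi
  simp at hi

include hqm in
/-- **The root.** -/
theorem exists_twist_root (hn : n.Coprime q) (s : PadicAlgCl q ≃ₐ[ℚ_[q]] PadicAlgCl q)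
    (D : FrobData M (CPlace.ofEquiv Φ) (CPlace.ofEquiv Φ).ring) (hD : D.σ = conjC Φ s)
    {A B : LRing q M (CPlace.ofEquiv Φ).ring}
    (hA0 : UnitInf (CPlace.ofEquiv Φ) A) (hA1 : UnitZero (CPlace.ofEquiv Φ) A)
    (hB0 : UnitInf (CPlace.ofEquiv Φ) B) (hB1 : UnitZero (CPlace.ofEquiv Φ) B)
    (hi : A - B ^ n ∈ pInf le_rfl) (hz : A - B ^ n ∈ pZero le_rfl)
    (hordA : ∀ τ (j : ℕ), vanishOrd (A : ℍ → ℂ) τ = j → n ∣ j)
    (horda : ∀ τ (j : ℕ), vanishOrd (twistA haux hM D goodRoot_zeta A : ℍ → ℂ) τ = j → n ∣ j)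
    (hordb : ∀ τ (j : ℕ), vanishOrd (twistB haux hM D goodRoot_zeta n B : ℍ → ℂ) τ = j → n ∣ j)
    (hoA : OrdDvd n A) :
    ∃ Z ∈ BSub (q * M), Z ^ n = (twistA haux hM D goodRoot_zeta A : ℍ → ℂ) *
        (twistB haux hM D goodRoot_zeta n B : ℍ → ℂ) ^ (n - 1) ∧
      ∀ δ, act δ (twistA haux hM D goodRoot_zeta A : ℍ → ℂ) = twistA haux hM D goodRoot_zeta A →
        act δ (twistB haux hM D goodRoot_zeta n B : ℍ → ℂ) = twistB haux hM D goodRoot_zeta n B →
        act δ Z = Z := by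
  classical
  set a := twistA haux hM D goodRoot_zeta A
  set b := twistB haux hM D goodRoot_zeta n B
  obtain ⟨ha0, -⟩ := twist_units haux hM D goodRoot_zeta le_rfl hA0 hA1
  obtain ⟨hb0', hb1'⟩ := twist_units haux hM D goodRoot_zeta le_rfl hB0 hB1
  have hb0 : UnitInf (CPlace.ofEquiv Φ) b := hb0'.pow le_rfl n
  have hb1 : UnitZero (CPlace.ofEquiv Φ) b := hb1'.pow le_rfl n
  -- the coefficient ring
  obtain ⟨S1, hS1, hS1O⟩ := exists_finset_mem_LRing haux hM A.2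
  obtain ⟨S2, hS2, hS2O⟩ := exists_finset_mem_LRing haux hM B.2
  obtain ⟨S3, hS3, hS3O⟩ := exists_finset_divisible (P := CPlace.ofEquiv Φ) haux hM A.2.2
    (coe_ne_zero_of_unit hA0)
    hordA
  obtain ⟨S4, hS4, hS4O⟩ := exists_finset_divisible (P := CPlace.ofEquiv Φ) haux hM a.2.2
    (coe_ne_zero_of_unit ha0)
    horda
  obtain ⟨S5, hS5, hS5O⟩ := exists_finset_divisible (P := CPlace.ofEquiv Φ) haux hM b.2.2
    (coe_ne_zero_of_unit hb0)
    hordb
  obtain ⟨S6, hS6, hS6O⟩ := exists_finset_tValues haux hM hqm hb0 hb1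
  set T : Finset ℂ :=
    insert (zetaC n) (insert (zetaC (q * M)) (S1 ∪ S2 ∪ S3 ∪ S4 ∪ S5 ∪ S6))
  set O := stableRing Φ (T : Set ℂ)
  have hO' : (CPlace.ofEquiv Φ).IsCDVR O := isCDVR_stableRing Φ T.finite_toSet
  have hTP : (T : Set ℂ) ⊆ (CPlace.ofEquiv Φ).ring := by
    intro x hx
    simp only [T, Finset.coe_insert, Finset.coe_union, Set.mem_insert_iff, Set.mem_union] at hx
    rcases hx with rfl | rfl | ((((hx | hx) | hx) | hx) | hx) | hx
    exacts [((CPlace.ofEquiv Φ).abv_eq_one_of_pow_eq_one (NeZero.ne n)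
      (ES.zetaC_isPrimitiveRoot _).pow_eq_one).le,
      goodRoot_zeta, hS1 hx, hS2 hx, hS3 hx, hS4 hx, hS5 hx, hS6 hx]
  have hTO : (T : Set ℂ) ⊆ O := fun x hx => mem_stableRing Φ hx (hTP hx)
  have hζ : zetaC (q * M) ∈ O := hTO (by simp [T])
  have hζn : zetaC n ∈ O := hTO (by simp [T])
  have hzM : zetaC M ∈ O := by
    rw [← zetaC_level_pow (q := q)]
    exact O.pow_mem hζ q
  have hA : GoodRoot M O (zetaC M) :=
    ⟨((CPlace.ofEquiv Φ).goodRoot hM).1, hzM, fun i hi =>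
      hO'.unitIn (O.sub_mem O.one_mem (O.pow_mem hzM i))
      ((CPlace.ofEquiv Φ).abv_eq_one_of_unitIn (((CPlace.ofEquiv Φ).goodRoot hM).3 i hi))⟩
  have hsub : ∀ S : Finset ℂ, S ⊆ S1 ∪ S2 ∪ S3 ∪ S4 ∪ S5 ∪ S6 → (S : Set ℂ) ⊆ O := fun S hS x hx =>
    hTO (Finset.mem_insert_of_mem (Finset.mem_insert_of_mem (hS hx)))
  have := hO'.dvr
  have : Finite (ResidueField O) := finite_residueField_stableRing Φ T.finite_toSet
  have : IsNoetherianRing (LRing q M O) := isNoetherianRing_LRing haux hA hζ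
  obtain ⟨ϖ, hϖ⟩ := IsDiscreteValuationRing.exists_irreducible O
  let DO : FrobData M (CPlace.ofEquiv Φ) O := ⟨⟨D.σ, D.a,
    fun z hzO => by rw [hD]; exact conjC_mem_stableRing Φ s hzO, D.unit, D.zeta⟩, D.abv_eq, D.frob⟩
  set AO : LRing q M O := ⟨_, hS1O O hO' hA hζ (hsub S1 fun x hx => by simp [hx])⟩
  set BO : LRing q M O := ⟨_, hS2O O hO' hA hζ (hsub S2 fun x hx => by simp [hx])⟩
  set g := DO.frobW haux hM hζ
  set aO := twistA haux hM DO hζ AO
  set bO := twistB haux hM DO hζ n BO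
  have haO : (aO : ℍ → ℂ) = a := rfl
  have hbO : (bO : ℍ → ℂ) = b := rfl
  have hdvd : constL ϖ ∣ AO - BO ^ n :=
    dvd_of_mem_pInf_pZero hO'.le hO' hϖ (fun γ hγ => hi γ hγ) (fun γ hγ => hz γ hγ)
  have hab : constL ϖ ∣ aO - bO := by
    have h1 := unif_dvd_frobW haux hM DO hζ hO' hϖ hdvd
    rw [map_sub, map_pow] at h1
    have h2 : constL ϖ ∣ AO ^ q - (BO ^ n) ^ q := hdvd.trans (sub_dvd_pow_sub_pow _ _ _)
    rw [show aO - bO = (g AO - g BO ^ n) * AO ^ q + g BO ^ n * (AO ^ q - (BO ^ n) ^ q) by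
      simp only [aO, bO, twistA, twistB, g]; ring]
    exact dvd_add (h1.mul_right _) (h2.mul_left _)
  have hoAO : OrdDvd n AO := fun γ => hoA γ
  have hoa : OrdDvd n aO :=
    ((DO.ordDvd_conjL haux hoAO).atkinL hM hn hζ).mul (hoAO.pow q)
  have hob : OrdDvd n bO := OrdDvd.pow_self _
  have hdA := hS3O O hO' hA hζ (hsub S3 fun x hx => by simp [hx])
  have hda := hS4O O hO' hA hζ (hsub S4 fun x hx => by simp [hx])
  have hdb := hS5O O hO' hA hζ (hsub S5 fun x hx => by simp [hx])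
  set X := hasseL haux hM hA hζ
  have hXp : X ∈ pZero hO'.le := hasseL_mem_pZero haux hM hA hζ hO'.le
  have hXu : UnitInf (CPlace.ofEquiv Φ) X := hasseL_unitInf haux hM hA hζ hO'.le hqm
  have hprim : IsPrimitiveRoot (⟨zetaC n, hζn⟩ : O) n :=
    IsPrimitiveRoot.of_map_of_injective (f := O.subtype) (ES.zetaC_isPrimitiveRoot n)
      Subtype.val_injective
  refine exists_root_of_local haux hA hO' hM hζ hϖ hn hab (fun γ hγ => hb0 γ hγ)
    (fun γ hγ => hb1 γ hγ) hda hdb hoa.serO hob.serO fun 𝔪 h𝔪 hϖm hbm => ?_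
  have := h𝔪
  obtain ⟨hI, hZ⟩ := hS6O O hO' hA hζ (hsub S6 fun x hx => by simp [hx]) bO.2 𝔪 h𝔪 hbm
  by_cases hinf : pInf hO'.le ≤ 𝔪
  · obtain ⟨τ0, hg, ht⟩ := hI hinf
    by_cases hzero : pZero hO'.le ≤ 𝔪
    · obtain ⟨τ1, hg', ht'⟩ := hZ hzero
      obtain ⟨C⟩ := exists_crossChart haux hA hO' hM hζ hqm hinf hzero hg ht hg' ht'
      exact localRoot_cross haux hA hO' C hϖ hn hprim (fun r => DO.residue_σO hO' r)
        (DO.frobW_constL haux hM hζ)
        (fun x hx => DO.frobW_mem_crossing haux hM hζ (hA := hA) hqm hO'.le hO' hinf hzero hg ht hx)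
        (fun hu => DO.frobW_unitZero haux hM hζ hu) (fun hu => DO.frobW_unitInf haux hM hζ hu)
        hXp hXu (atkinL_mem_pInf hO'.le hM hζ hXp) (atkinL_unitZero hM hζ hXu)
        (fun γ hγ => hA0 γ hγ) (fun γ hγ => hA1 γ hγ) (fun γ hγ => hB0 γ hγ)
        (fun γ hγ => hB1 γ hγ) hdvd hdA
    · exact localRoot_inf haux hA hO'.le hO' hϖ hM hζ hqm hϖm hinf hzero hg ht hn hab
        (fun γ hγ => hb0 γ hγ) hda hdb
  · have hzero : pZero hO'.le ≤ 𝔪 :=
      (mem_pInf_or_pZero hO'.le h𝔪.isPrime hO' hϖ hϖm).resolve_left hinf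
    obtain ⟨τ1, hg', ht'⟩ := hZ hzero
    exact localRoot_zero haux hA hO'.le hO' hϖ hM hζ hqm hϖm hzero hinf hg' ht' hn hab
      (fun γ hγ => hb1 γ hγ) hda hdb

end FermatAgent.BAD.Toric
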