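import Fermat.Agent.BAD.Toric.Def
import Fermat.Agent.HM.H1.TrivialChar

/-!
# The transfers commute with the Hecke operators away from the level

If both transfers to level `L` of a character of `Γ₀(L q)` are trivial, so are those of its image
under `T_ℓ - ℓ - 1`.
-/

set_option autoImplicit false

noncomputable section

open scoped MatrixGroups
open CongruenceSubgroup

namespace FermatAgent.BAD.Toric

open FermatAgent.ES (parGroup heckeChar)
open FermatAgent.HM (heckeCorr Corr)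

variable (D : HM.ALData)

local notation "hq₁" => Nat.coprime_one_right (HM.ALData.q D)

variable {ℓ : ℕ} [hℓ : Fact ℓ.Prime]

private theorem heckeHom_eq {N : ℕ} [NeZero N] (hℓN : ¬ ℓ ∣ N) (φ : Gamma0 N →* ℂˣ) :
    (heckeCorr (N := 1) (L := 1) (p := ℓ) (one_dvd N) (Nat.coprime_one_right ℓ)).homOp
        (MonoidHom.toAdditive φ) = MonoidHom.toAdditive (heckeChar N hℓ.out φ) := by
  have : NeZero ℓ := ⟨hℓ.out.ne_zero⟩
  rw [HM.homOp_heckeCorr_eq (S := ℤ) _ hℓN]
  unfold Period.heckeOp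
  rw [dif_neg hℓN, ES.heckeChar_of_not_dvd hℓN]
  refine AddMonoidHom.ext fun γ => ?_
  obtain ⟨γ, rfl⟩ := Additive.ofMul.surjective γ
  rw [Period.TransferData.op_apply]
  show _ = Additive.ofMul (∏ i, φ ((Period.transferDataT hℓN).factor γ i))
  rw [ofMul_prod]
  rfl

private theorem cor_hom_eq_zero {φ : Gamma0 D.N →* ℂˣ} (h : ∀ γ, trCor D φ γ = 1) :
    (D.corCorr (L := 1) (one_dvd D.L)).homOp (MonoidHom.toAdditive φ) = 0 := by
  refine AddMonoidHom.ext fun γ => ?_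
  obtain ⟨γ, rfl⟩ := Additive.ofMul.surjective γ
  rw [Corr.homOp_apply, AddMonoidHom.zero_apply]
  have h1 := congrArg Additive.ofMul (h γ)
  rw [trCor, ofMul_prod, ofMul_one] at h1
  exact h1

private theorem corW_hom_eq_zero {φ : Gamma0 D.N →* ℂˣ} (h : ∀ γ, trCorW D φ γ = 1) :
    (D.corCorr (L := 1) (one_dvd D.L)).homOp
      ((D.wCorr (L := 1) (one_dvd D.L) hq₁).homOp (MonoidHom.toAdditive φ)) = 0 := by
  refine AddMonoidHom.ext fun γ => ?_
  obtain ⟨γ, rfl⟩ := Additive.ofMul.surjective γ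
  simp only [Corr.homOp_apply, Fintype.sum_unique, AddMonoidHom.zero_apply]
  have h1 := congrArg Additive.ofMul (h γ)
  rw [trCorW, ofMul_prod, ofMul_one] at h1
  exact h1

private theorem cor_hecke [NeZero D.N] (hℓN : ¬ ℓ ∣ D.N)
    (ψ : Gamma0 D.N →* ℂˣ) :
    (D.corCorr (L := 1) (one_dvd D.L)).homOp
        (MonoidHom.toAdditive (heckeChar D.N hℓ.out ψ)) =
      (heckeCorr (N := 1) (L := 1) (p := ℓ) (one_dvd D.L) (Nat.coprime_one_right ℓ)).homOp
        ((D.corCorr (L := 1) (one_dvd D.L)).homOp (MonoidHom.toAdditive ψ)) := by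
  rw [← heckeHom_eq hℓN]
  exact HM.homOp_cor_comm (fun e : ℓ = D.q => hℓN (e ▸ D.q_dvd_N)) _ _

section

omit hℓ

/-- The transfer to level `L`, as a homomorphism. -/
def trHom (φ : Gamma0 D.N →* ℂˣ) : Gamma0 D.L →* ℂˣ :=
  MonoidHom.toAdditive.symm
    ((D.corCorr (L := 1) (one_dvd D.L)).homOp (MonoidHom.toAdditive φ))

/-- The transfer homomorphism has the values of the transfer. -/
theorem trHom_apply (φ : Gamma0 D.N →* ℂˣ) (γ : Gamma0 D.L) : trHom D φ γ = trCor D φ γ := by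
  show Additive.toMul ((D.corCorr (L := 1) (one_dvd D.L)).homOp (MonoidHom.toAdditive φ)
    (Additive.ofMul γ)) = _
  rw [Corr.homOp_apply, toMul_sum]
  rfl

/-- The transfer respects powers. -/
theorem trHom_pow (φ : Gamma0 D.N →* ℂˣ) (b : ℕ) : trHom D (φ ^ b) = trHom D φ ^ b := by
  refine MonoidHom.ext fun γ => ?_
  rw [MonoidHom.pow_apply, trHom_apply, trHom_apply]
  simp only [trCor, ← Finset.prod_pow, MonoidHom.pow_apply]

end

/-- The transfer of an eigencharacter is eigen. -/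
theorem heckeChar_trHom [NeZero D.N] [NeZero D.L] (hℓN : ¬ ℓ ∣ D.N) (φ : Gamma0 D.N →* ℂˣ) :
    heckeChar D.L hℓ.out (trHom D φ) = trHom D (heckeChar D.N hℓ.out φ) := by
  refine MonoidHom.toAdditive.injective ?_
  rw [← heckeHom_eq (fun h => hℓN (h.trans (dvd_mul_right D.L D.q))), trHom, trHom,
    Equiv.apply_symm_apply, Equiv.apply_symm_apply, cor_hecke D hℓN]

/-- **The transfers commute with `T_ℓ`.** -/
theorem trCor_heckeChar [NeZero D.N] (hℓN : ¬ ℓ ∣ D.N) {φ : Gamma0 D.N →* ℂˣ}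
    (h : ∀ γ, trCor D φ γ = 1) (γ : Gamma0 D.L) : trCor D (heckeChar D.N hℓ.out φ) γ = 1 := by
  have h1 := DFunLike.congr_fun (cor_hecke D hℓN φ) (Additive.ofMul γ)
  rw [cor_hom_eq_zero D h, map_zero, AddMonoidHom.zero_apply, Corr.homOp_apply] at h1
  refine Additive.ofMul.injective ?_
  rw [trCor, ofMul_prod, ofMul_one]
  exact h1

/-- **The transfers after the involution commute with `T_ℓ`.** -/
theorem trCorW_heckeChar [NeZero D.N] (hℓN : ¬ ℓ ∣ D.N) {φ : Gamma0 D.N →* ℂˣ}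
    (h : ∀ γ, trCorW D φ γ = 1) (γ : Gamma0 D.L) : trCorW D (heckeChar D.N hℓ.out φ) γ = 1 := by
  set ψ : Gamma0 D.N →* ℂˣ := MonoidHom.toAdditive.symm
    ((D.wCorr (L := 1) (one_dvd D.L) hq₁).homOp (MonoidHom.toAdditive φ)) with hψ
  have hne : ℓ ≠ D.q := fun e => hℓN (e ▸ D.q_dvd_N)
  have hw : (D.wCorr (L := 1) (one_dvd D.L) hq₁).homOp
      (MonoidHom.toAdditive (heckeChar D.N hℓ.out φ)) =
      MonoidHom.toAdditive (heckeChar D.N hℓ.out ψ) := by
    rw [← heckeHom_eq hℓN, ← heckeHom_eq hℓN, hψ, Equiv.apply_symm_apply]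
    exact (HM.homOp_w_comm hq₁ hne _ _).symm
  have h0 : ∀ δ, trCor D ψ δ = 1 := fun δ => by
    have h2 := DFunLike.congr_fun (corW_hom_eq_zero D h) (Additive.ofMul δ)
    rw [Corr.homOp_apply, AddMonoidHom.zero_apply] at h2
    refine Additive.ofMul.injective ?_
    rw [trCor, ofMul_prod, ofMul_one]
    exact h2
  have h3 := DFunLike.congr_fun (cor_hecke D hℓN ψ) (Additive.ofMul γ)
  rw [← hw, cor_hom_eq_zero D h0, map_zero, AddMonoidHom.zero_apply] at h3
  simp only [Corr.homOp_apply, Fintype.sum_unique] at h3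
  refine Additive.ofMul.injective ?_
  rw [trCorW, ofMul_prod, ofMul_one]
  exact h3

omit hℓ in
/-- The transfers of the image under `T_ℓ - ℓ - 1` are trivial. -/
theorem trCor_eisDefect [NeZero D.N] (hℓ : ℓ.Prime) (hℓN : ¬ ℓ ∣ D.N) {n : ℕ}
    {φ : parGroup (Gamma0 D.N) n} (h : ∀ γ, trCor D φ.1 γ = 1) (γ : Gamma0 D.L) :
    trCor D (eisDefect hℓ φ).1 γ = 1 := by
  have := Fact.mk hℓ
  have e : trCor D (eisDefect hℓ φ).1 γ =
      trCor D (heckeChar D.N hℓ φ.1) γ * (trCor D φ.1 γ ^ (ℓ + 1))⁻¹ := by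
    simp only [trCor, ← Finset.prod_pow, ← Finset.prod_inv_distrib, ← Finset.prod_mul_distrib]
    refine Finset.prod_congr rfl fun x _ => ?_
    simp [eisDefect]
  rw [e, h, trCor_heckeChar D hℓN h, one_pow, inv_one, mul_one]

omit hℓ in
/-- The transfers after the involution of the image under `T_ℓ - ℓ - 1` are trivial. -/
theorem trCorW_eisDefect [NeZero D.N] (hℓ : ℓ.Prime) (hℓN : ¬ ℓ ∣ D.N) {n : ℕ}
    {φ : parGroup (Gamma0 D.N) n} (h : ∀ γ, trCorW D φ.1 γ = 1) (γ : Gamma0 D.L) :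
    trCorW D (eisDefect hℓ φ).1 γ = 1 := by
  have := Fact.mk hℓ
  have e : trCorW D (eisDefect hℓ φ).1 γ =
      trCorW D (heckeChar D.N hℓ φ.1) γ * (trCorW D φ.1 γ ^ (ℓ + 1))⁻¹ := by
    simp only [trCorW, ← Finset.prod_pow, ← Finset.prod_inv_distrib, ← Finset.prod_mul_distrib]
    refine Finset.prod_congr rfl fun x _ => ?_
    simp [eisDefect]
  rw [e, h, trCorW_heckeChar D hℓN h, one_pow, inv_one, mul_one]

end FermatAgent.BAD.Toric

end
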