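import Fermat.Agent.BAD.AL.Kappa

/-!
# The involution of `Γ₀(L q)` commutes with Galois

The automorphism of the parabolic characters induced by the Atkin involution at `q` commutes with
the Galois action.
-/

set_option autoImplicit false

open CongruenceSubgroup
open scoped MatrixGroups

noncomputable section

namespace FermatAgent.BAD.Toric

open FermatAgent.ES (parGroup galChar goodLevel_Gamma0)

variable (D : HM.ALData) {M : ℕ} [NeZero M] (hM : M.Coprime D.q) (hLM : D.L ∣ M) {n : ℕ} [NeZero n]

/-- The involution commutes with Galois. -/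
theorem galChar_wAut (h12 : M ∣ 12 * D.L) (g : ES.GQ) (φ : parGroup (Gamma0 (D.L * D.q)) n) :
    galChar (goodLevel_Gamma0 (D.L * D.q)) n g (wAut hM hLM n φ) =
      wAut hM hLM n (galChar (goodLevel_Gamma0 (D.L * D.q)) n g φ) :=
  conjChar_wAut hM hLM h12 (ES.autC g) φ

end FermatAgent.BAD.Toric

end
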